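import Mathlib
import Fermat.Agent.S58.EpRep
import Fermat.Agent.ESJ.Rep.Cyclo
import Fermat.Agent.CFT.Red.Cyclo

/-!
# S12 — brick `CycloQuot` (row 637, helper62)

For an integral Weierstrass curve `W` with `Δ ≠ 0`, an odd prime `p` and a Galois-fixed nonzero
`Q ∈ W[p]`: every `σ ∈ G_ℚ` acts on `W[p] / ⟨Q⟩` through the cyclotomic exponent,
`σ • x - cycloExp p σ • x ∈ ℤ Q` for all `x ∈ W[p]`.

Proof.  `det ρ_{W,p}(σ)` is the mod `p` cyclotomic character (`S58.EpRep.det_eq`), which is the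
Prelude's `ExtCitation.cycloExp` (both are read off from a primitive `p`-th root of unity).  In a
two-dimensional space an endomorphism `g` fixing `q ≠ 0` satisfies `g x - det g • x ∈ ⟨q⟩`
(triangular matrix in the basis `(q, x)`).

The statement is the literal body of `Fermat.Agent.S12P.CycloQuot` (`S12P/Interfaces20.lean`),
stated here without importing the interface file.
-/

set_option autoImplicit false

namespace Fermat.Agent.S12P.CycloQuot62

open Fermat.Agent.S58 Fermat.Agent.S58.EpRep WeierstrassCurve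
open scoped WeierstrassCurve.Affine

/-! ### Linear algebra: a fixed vector in dimension two -/

/-- In a two-dimensional space, an endomorphism `g` fixing `q ≠ 0` acts on the quotient by `⟨q⟩`
through its determinant. -/
theorem exists_sub_det_smul_eq {k V : Type*} [Field k] [AddCommGroup V] [Module k V]
    (hV : Module.finrank k V = 2) (g : V →ₗ[k] V) {q : V} (hq0 : q ≠ 0) (hq : g q = q) (x : V) :
    ∃ c : k, g x - LinearMap.det g • x = c • q := by
  classical
  by_cases hx : ∃ c : k, x = c • q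
  · obtain ⟨c, rfl⟩ := hx
    refine ⟨(1 - LinearMap.det g) * c, ?_⟩
    rw [map_smul, hq, smul_smul, sub_mul, one_mul, sub_smul]
  · have hli : LinearIndependent k ![q, x] := by
      rw [LinearIndependent.pair_iff' hq0]
      intro a ha
      exact hx ⟨a, ha.symm⟩
    have hcard : Fintype.card (Fin 2) = Module.finrank k V := by simp [hV]
    have : Module.Finite k V := Module.finite_of_finrank_eq_succ hV
    let b : Module.Basis (Fin 2) k V := basisOfLinearIndependentOfCardEqFinrank hli hcard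
    have hb0 : b 0 = q := by simp [b]
    have hb1 : b 1 = x := by simp [b]
    have hdet := LinearMap.det_toMatrix b g
    rw [Matrix.det_fin_two] at hdet
    have h00 : LinearMap.toMatrix b b g 0 0 = 1 := by
      rw [LinearMap.toMatrix_apply, hb0, hq, ← hb0, b.repr_self]
      simp
    have h10 : LinearMap.toMatrix b b g 1 0 = 0 := by
      rw [LinearMap.toMatrix_apply, hb0, hq, ← hb0, b.repr_self]
      simp
    rw [h00, h10, one_mul, mul_zero, sub_zero] at hdet
    refine ⟨b.repr (g x) 0, ?_⟩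
    have hsum := b.sum_repr (g x)
    rw [Fin.sum_univ_two, hb0, hb1] at hsum
    rw [← hdet, LinearMap.toMatrix_apply, hb1]
    nth_rewrite 1 [← hsum]
    rw [add_sub_cancel_right]

/-! ### The determinant is the Prelude's cyclotomic exponent -/

/-- `det ρ_{W,p}(σ) = cycloExp p σ` in `ZMod p`. -/
theorem det_eq_cycloExp {W : WeierstrassCurve ℤ} (hΔ : W.Δ ≠ 0) (p : ℕ) [Fact p.Prime] (σ : GQ) :
    LinearMap.det (rhoE W p σ) = (ExtCitation.cycloExp p σ : ZMod p) := by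
  obtain ⟨ζ, hζ⟩ := Fermat.Agent.ESJ.Rep.Cyclo.exists_primitiveRoot p 1
  have hζp : ζ ^ p = 1 := by
    have := hζ.pow_eq_one
    rwa [pow_one] at this
  have hk : σ ζ = ζ ^ ExtCitation.cycloExp p σ := Fermat.Agent.CFT.Red.cycloExp_spec p σ ζ hζp
  rw [det_eq hΔ σ]
  have h2 := Fermat.Agent.ESJ.Rep.Cyclo.toZModPow_cyclo_eq p 1 σ (ExtCitation.cycloExp p σ) hζ hk
  have h3 : ((Fermat.Agent.ESJ.Rep.cyclo p σ : ℤ_[p]ˣ) : ℤ_[p]) -
      ((ExtCitation.cycloExp p σ : ℕ) : ℤ_[p]) ∈ Ideal.span {((p : ℕ) : ℤ_[p]) ^ 1} := by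
    rw [← PadicInt.ker_toZModPow, RingHom.mem_ker, map_sub, map_natCast, h2, sub_self]
  rw [Ideal.mem_span_singleton] at h3
  obtain ⟨c, hc⟩ := h3
  have h4 : ((Fermat.Agent.ESJ.Rep.cyclo p σ : ℤ_[p]ˣ) : ℤ_[p]) =
      ((ExtCitation.cycloExp p σ : ℕ) : ℤ_[p]) + ((p : ℕ) : ℤ_[p]) ^ 1 * c := by
    rw [← hc]; ring
  rw [h4, map_add, map_mul, map_pow, map_natCast, map_natCast, ZMod.natCast_self]
  simp

/-! ### The brick -/

/-- **(CYCLO)** the literal body of `Fermat.Agent.S12P.CycloQuot`. -/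
theorem cycloQuot :
    ∀ W : WeierstrassCurve ℤ, W.Δ ≠ 0 → ∀ (p : ℕ) [Fact p.Prime], p ≠ 2 →
      ∀ Q : ((W.map (Int.castRingHom ℚ))⁄(AlgebraicClosure ℚ)).Point, p • Q = 0 → Q ≠ 0 →
      (∀ σ : AlgebraicClosure ℚ ≃ₐ[ℚ] AlgebraicClosure ℚ, σ • Q = Q) →
      ∀ (σ : AlgebraicClosure ℚ ≃ₐ[ℚ] AlgebraicClosure ℚ)
        (x : ((W.map (Int.castRingHom ℚ))⁄(AlgebraicClosure ℚ)).Point), p • x = 0 →
        ∃ a : ℤ, σ • x - ExtCitation.cycloExp p σ • x = a • Q := by
  intro W hΔ p _ _ Q hpQ hQ0 hQ σ x hx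
  have hQm : Q ∈ Submodule.torsionBy ℤ (EPt W) p := by
    rw [Submodule.mem_torsionBy_iff, Nat.cast_smul_eq_nsmul]
    exact hpQ
  have hxm : x ∈ Submodule.torsionBy ℤ (EPt W) p := by
    rw [Submodule.mem_torsionBy_iff, Nat.cast_smul_eq_nsmul]
    exact hx
  have hq0 : (⟨Q, hQm⟩ : Ep W p) ≠ 0 := fun h => hQ0 (congrArg Subtype.val h)
  have hq : rhoE W p σ (⟨Q, hQm⟩ : Ep W p) = ⟨Q, hQm⟩ := by
    rw [rhoE_apply]
    exact Subtype.ext (hQ σ)
  obtain ⟨c, hc⟩ := exists_sub_det_smul_eq (finrank_torsion hΔ) (rhoE W p σ) hq0 hq ⟨x, hxm⟩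
  rw [det_eq_cycloExp hΔ p σ, rhoE_apply, Nat.cast_smul_eq_nsmul] at hc
  have hp : p.Prime := Fact.out
  have : NeZero p := ⟨hp.ne_zero⟩
  have hc' : c = ((c.val : ℕ) : ZMod p) := (ZMod.natCast_zmod_val c).symm
  rw [hc', Nat.cast_smul_eq_nsmul] at hc
  refine ⟨(c.val : ℤ), ?_⟩
  have h1 := congrArg (fun v : Ep W p => (v : EPt W)) hc
  rw [natCast_zsmul]
  exact h1

end Fermat.Agent.S12P.CycloQuot62
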