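/-
S12 project, row 638 (S12-FROB), helper59: the two Frobenius bricks of `S12P/Interfaces20.lean`,

* `frobFixed` — a prime-to-`ℓ` torsion point fixed by a Frobenius lift at a good prime `ℓ` has
  order `≤ 2ℓ + 1`;
* `frobEx`    — Frobenius lifts exist over every prime,

stated with the LITERAL bodies of the interface Props `FrobFixed` / `FrobEx` (no import of the
interface file: a term of the literal type is a term of the Prop by unfolding).

Proof of `frobFixed`: main's `S58.FrobFinal.frobQuad` (`σ² - a_ℓ σ + ℓ = 0` on prime-to-`ℓ`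
torsion) at a fixed point gives `(1 - a_ℓ + ℓ) • x = 0`, i.e. `#W(𝔽_ℓ) • x = 0`, and
`1 ≤ #W(𝔽_ℓ) ≤ 2ℓ + 1` (at most two `y` for every `x`, plus the point at infinity).
-/
import Mathlib
import Fermat.Agent.S58.FrobFinal
import Fermat.Agent.Lib.FrobeniusExists

set_option autoImplicit false

namespace Fermat.Agent.S12P.Frob59

open WeierstrassCurve WeierstrassCurve.Affine

/-- Over a finite field, the affine Weierstrass equation has at most `2 · #F` solutions. -/
theorem card_equation_le {F : Type*} [Field F] [Fintype F] (W : WeierstrassCurve F) :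
    Nat.card {xy : F × F // W.toAffine.Equation xy.1 xy.2} ≤ 2 * Fintype.card F := by
  classical
  set q : F → Polynomial F := fun x => W.toAffine.polynomial.map (Polynomial.evalRingHom x)
    with hq
  have hmonic : ∀ x, (q x).Monic := fun x => (monic_polynomial (W := W.toAffine)).map _
  have hdeg : ∀ x, (q x).natDegree = 2 := fun x => by
    simp only [hq]
    rw [Polynomial.Monic.natDegree_map monic_polynomial, natDegree_polynomial]
  have hsub : (Finset.univ.filter fun xy : F × F => W.toAffine.Equation xy.1 xy.2) ⊆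
      Finset.univ.biUnion fun x => ((q x).roots.toFinset).image fun y => (x, y) := by
    intro xy hxy
    simp only [Finset.mem_filter, Finset.mem_univ, true_and] at hxy
    simp only [Finset.mem_biUnion, Finset.mem_univ, true_and, Finset.mem_image,
      Multiset.mem_toFinset]
    refine ⟨xy.1, xy.2, ?_, rfl⟩
    rw [Polynomial.mem_roots (hmonic _).ne_zero, Polynomial.IsRoot.def]
    simp only [hq]
    rw [Polynomial.map_evalRingHom_eval]
    exact hxy
  rw [Nat.card_eq_fintype_card, Fintype.card_subtype]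
  calc (Finset.univ.filter fun xy : F × F => W.toAffine.Equation xy.1 xy.2).card
      ≤ (Finset.univ.biUnion fun x => ((q x).roots.toFinset).image fun y => (x, y)).card :=
        Finset.card_le_card hsub
    _ ≤ ∑ x : F, (((q x).roots.toFinset).image fun y => (x, y)).card := Finset.card_biUnion_le
    _ ≤ ∑ _x : F, 2 := Finset.sum_le_sum fun x _ => by
        calc (((q x).roots.toFinset).image fun y => (x, y)).card
            ≤ (q x).roots.toFinset.card := Finset.card_image_le
          _ ≤ Multiset.card (q x).roots := Multiset.toFinset_card_le _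
          _ ≤ (q x).natDegree := Polynomial.card_roots' _
          _ = 2 := hdeg x
    _ = 2 * Fintype.card F := by
        rw [Finset.sum_const, Finset.card_univ, smul_eq_mul, mul_comm]

/-- Over a finite field, a Weierstrass curve has at most `2 · #F + 1` points. -/
theorem natCard_point_le {F : Type*} [Field F] [Fintype F] (W : WeierstrassCurve F) :
    Nat.card W.toAffine.Point ≤ 2 * Fintype.card F + 1 := by
  classical
  have h1 : Nat.card W.toAffine.Point =
      Nat.card {xy : F × F // W.toAffine.Nonsingular xy.1 xy.2} + 1 := by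
    rw [Nat.card_congr (nonsingularPointEquiv W.toAffine)]
    exact Finite.card_option
  have h2 : Nat.card {xy : F × F // W.toAffine.Nonsingular xy.1 xy.2} ≤
      Nat.card {xy : F × F // W.toAffine.Equation xy.1 xy.2} :=
    Nat.card_le_card_of_injective
      (fun xy => (⟨xy.1, xy.2.1⟩ : {xy : F × F // W.toAffine.Equation xy.1 xy.2}))
      (fun a b h => Subtype.ext (congrArg (fun z : {xy : F × F // W.toAffine.Equation xy.1 xy.2} => z.1) h))
  have h3 := card_equation_le W
  omega

/-- The point count of the reduction modulo a prime: `1 ≤ ℓ + 1 - a_ℓ ≤ 2ℓ + 1`. -/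
theorem apOfModel_bounds (W : WeierstrassCurve ℤ) {ℓ : ℕ} (hℓ : ℓ.Prime) :
    ∃ n : ℕ, 1 ≤ n ∧ n ≤ 2 * ℓ + 1 ∧ W.apOfModel ℓ = (ℓ : ℤ) + 1 - n := by
  have : Fact ℓ.Prime := ⟨hℓ⟩
  refine ⟨(W.reductionMod ℓ).card, ?_, ?_, ?_⟩
  · exact Nat.one_le_iff_ne_zero.mpr (Nat.card_pos (α := (W.reductionMod ℓ).toAffine.Point)).ne'
  · have h := natCard_point_le (W.reductionMod ℓ)
    rwa [ZMod.card] at h
  · simp only [WeierstrassCurve.apOfModel, WeierstrassCurve.traceOfFrobenius, Nat.card_zmod]

/-- **(FROBFIXED)** — the literal body of `Fermat.Agent.S12P.FrobFixed`. -/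
theorem frobFixed :
    ∀ W : WeierstrassCurve ℤ, W.Δ ≠ 0 → ∀ ℓ : ℕ, ℓ.Prime → ¬ (ℓ : ℤ) ∣ W.Δ →
    ∀ A : ValuationSubring (AlgebraicClosure ℚ), A.LiesOverPrime ℓ →
    ∀ σ : AlgebraicClosure ℚ ≃ₐ[ℚ] AlgebraicClosure ℚ, A.IsFrobeniusAt σ ℓ →
    ∀ m : ℕ, m.Coprime ℓ →
    ∀ x : ((W.map (Int.castRingHom ℚ))⁄(AlgebraicClosure ℚ)).Point, m • x = 0 → σ • x = x →
      addOrderOf x ≤ 2 * ℓ + 1 := by
  intro W _ ℓ hℓ hΔ A hA σ hσ m hm x hmx hσx
  have hq := S58.FrobFinal.frobQuad W ℓ hℓ hΔ A hA σ hσ m hm x hmx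
  obtain ⟨n, hn1, hn2, hap⟩ := apOfModel_bounds W hℓ
  rw [hσx, hσx, hap] at hq
  have hnx : n • x = 0 := by
    have h : ((n : ℕ) : ℤ) • x = 0 := by
      have e : x - ((ℓ : ℤ) + 1 - n) • x + (ℓ : ℤ) • x = ((n : ℕ) : ℤ) • x := by
        rw [sub_smul, add_smul, one_smul]
        abel
      rw [← e]
      exact hq
    rwa [natCast_zsmul] at h
  have hdvd : addOrderOf x ∣ n := addOrderOf_dvd_of_nsmul_eq_zero hnx
  exact (Nat.le_of_dvd (by omega) hdvd).trans hn2

/-- **(FROBEX)** — the literal body of `Fermat.Agent.S12P.FrobEx`. -/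
theorem frobEx :
    ∀ ℓ : ℕ, ℓ.Prime → ∃ A : ValuationSubring (AlgebraicClosure ℚ), A.LiesOverPrime ℓ ∧
      ∃ σ : AlgebraicClosure ℚ ≃ₐ[ℚ] AlgebraicClosure ℚ, A.IsFrobeniusAt σ ℓ := by
  intro ℓ hℓ
  obtain ⟨A, σ, hA, hσ⟩ := Lib.FrobeniusExists.exists_isFrobeniusAt hℓ
  exact ⟨A, hA, σ, hσ⟩

end Fermat.Agent.S12P.Frob59
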