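/-
S12 project (instruction #20 §2), design cell lead helper20: INTERFACES.

S12 = "the Frey curve has no Galois-stable cofixed line for p ≥ 17", from the frozen S15 (as the
hypothesis `S15Stmt`), the landed S14 and main.  One Prop per brick; every brick is built against
these literals, the top (`S12P/Top20.lean`) consumes exactly these Props.

Route (Mazur's descent, all quotient curves are used ONLY as arguments of S15):
`N ⊂ E[p]` cofixed line, `e ∈ E[p] ∖ N`.  Stage `k`: an integral curve `W_k`, a Galois-equivariant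
homomorphism `Φ_k : E(ℚ̄) → W_k(ℚ̄)` with kernel `N_k` cyclic of order `p^k`, `N_k[p] = N`; the
point `Q_k = Φ_k e` is rational of order `p`.  `Step` (one Vélu `p`-isogeny) produces stage `k+1`
from a Galois-stable line `M_k ⊂ W_k[p]`; S15 on `(W_k, Q_k)` + `Node` give "unramified outside
p", `LocP` gives "locally split at p", `CycloQuot` the cyclotomic quotient, S14 gives `M_k`;
S15 on `(W_{k+1}, Q_{k+1})` + the non-toric clause of `Step` show that every step is toric.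
End: `E[p^k] / N_k` is unramified everywhere, hence has trivial action, hence a Frobenius lift at
one good prime `ℓ₀` fixes a point of order `≥ p^⌈k/2⌉` (`FrobFixed`), for every `k`: absurd.
-/
import Mathlib
import Fermat.Prelude.Def_FLTPrelim_FreyPackage
import Fermat.Prelude.Def_FLTPrelim_GaloisRep
import Fermat.Prelude.Def_FLTPrelim_Ramification
import Fermat.Prelude.Def_FLTPrelim_CofixedLine
import Fermat.Prelude.Def_EllipticCurve_ZeroComponentAt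
import Fermat.Prelude.Def_EllipticCurve_FrobeniusTrace
import Fermat.Prelude.Def_ExtCitation_AdmissibleExtension_v2

set_option autoImplicit false
open WeierstrassCurve WeierstrassCurve.Affine WeierstrassCurve.Affine.Point

namespace Fermat.Agent.S12P

/-- `ℚ̄`. -/
abbrev Qb : Type := AlgebraicClosure ℚ

/-- `Gal(ℚ̄/ℚ)`. -/
abbrev GQ : Type := Qb ≃ₐ[ℚ] Qb

/-- The `ℚ̄`-points of an integral Weierstrass curve: EXACTLY the point type of the frozen S15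
(and of `Fermat.Agent.S58.EPt`). -/
abbrev Pt (W : WeierstrassCurve ℤ) : Type := ((W.map (Int.castRingHom ℚ))⁄Qb).Point

/-- The frozen statement S15, verbatim, as a hypothesis. -/
def S15Stmt : Prop :=
  ∀ {p : ℕ} (_hp : p.Prime) (_hp' : p ∉ ({2, 3, 5, 7, 13} : Finset ℕ))
    (W : WeierstrassCurve ℤ) (_hΔ : W.Δ ≠ 0)
    (Q : ((W.map (Int.castRingHom ℚ))⁄(AlgebraicClosure ℚ)).Point)
    (_hQfix : ∀ σ : AlgebraicClosure ℚ ≃ₐ[ℚ] AlgebraicClosure ℚ, σ • Q = Q)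
    (_hQord : addOrderOf Q = p)
    (_h2Δ : (2 : ℤ) ∣ W.Δ) (_h2c₄ : ¬ (2 : ℤ) ∣ W.c₄)
    (_h2 : ∀ A : ValuationSubring (AlgebraicClosure ℚ), A.LiesOverPrime 2 →
      ¬ W.InZeroComponentAt A Q)
    (_h3Δ : (3 : ℤ) ∣ W.Δ) (_h3c₄ : ¬ (3 : ℤ) ∣ W.c₄)
    (_h3 : ∀ A : ValuationSubring (AlgebraicClosure ℚ), A.LiesOverPrime 3 →
      ¬ W.InZeroComponentAt A Q)
    {ℓ : ℕ} (_hℓ : ℓ.Prime) (_hℓp : ℓ ≠ p) (_hℓΔ : (ℓ : ℤ) ∣ W.Δ) (_hℓc₄ : ¬ (ℓ : ℤ) ∣ W.c₄)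
    (A : ValuationSubring (AlgebraicClosure ℚ)) (_hA : A.LiesOverPrime ℓ),
    ¬ W.InZeroComponentAt A Q

/-- **(STEP)** one Vélu `p`-isogeny over `ℤ`: the quotient of an integral curve by a
Galois-stable subgroup `M` of order `p` of its `ℚ̄`-points, with the reduction dictionary at every
prime `ℓ ≠ p`:
* good stays good;
* at a multiplicative `ℓ` and a place `A ∣ ℓ`: if `M` is toric at `A` (all of `M` in the zero
  component) the quotient is again multiplicative at `ℓ`;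
* if `M` is non-toric at `A` (only `0` in the zero component) the quotient is again
  multiplicative at `ℓ` AND `φ` maps the zero component at `A` into the zero component at `A`. -/
def Step : Prop :=
  ∀ p : ℕ, p.Prime → 5 ≤ p → ∀ W : WeierstrassCurve ℤ, W.Δ ≠ 0 →
    ∀ M : AddSubgroup (Pt W), Nat.card M = p → (∀ σ : GQ, ∀ m ∈ M, σ • m ∈ M) →
    ∃ (W' : WeierstrassCurve ℤ) (φ : Pt W →+ Pt W'), W'.Δ ≠ 0 ∧ φ.ker = M ∧
      (∀ (σ : GQ) (P : Pt W), φ (σ • P) = σ • φ P) ∧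
      ∀ ℓ : ℕ, ℓ.Prime → ℓ ≠ p →
        (¬ (ℓ : ℤ) ∣ W.Δ → ¬ (ℓ : ℤ) ∣ W'.Δ) ∧
        ((ℓ : ℤ) ∣ W.Δ → ¬ (ℓ : ℤ) ∣ W.c₄ →
          ∀ A : ValuationSubring Qb, A.LiesOverPrime ℓ →
            ((∀ m ∈ M, W.InZeroComponentAt A m) → (ℓ : ℤ) ∣ W'.Δ ∧ ¬ (ℓ : ℤ) ∣ W'.c₄) ∧
            ((∀ m ∈ M, m ≠ 0 → ¬ W.InZeroComponentAt A m) →
              (ℓ : ℤ) ∣ W'.Δ ∧ ¬ (ℓ : ℤ) ∣ W'.c₄ ∧
                ∀ P : Pt W, W.InZeroComponentAt A P → W'.InZeroComponentAt A (φ P)))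

/-- **(NODE)** the zero component at a multiplicative prime (main: `EC/NF` class function `cls`
after `S58.MultNF.exists_nf`): it is a subgroup, contains `σP - P` for inertia `σ`, its
prime-to-`ℓ` torsion is fixed by inertia, and the quotient by it has cyclic `q`-torsion. -/
def Node : Prop :=
  ∀ W : WeierstrassCurve ℤ, W.Δ ≠ 0 → ∀ ℓ : ℕ, ℓ.Prime → (ℓ : ℤ) ∣ W.Δ → ¬ (ℓ : ℤ) ∣ W.c₄ →
    ∀ A : ValuationSubring Qb, A.LiesOverPrime ℓ →
    ∃ E0 : AddSubgroup (Pt W), (∀ P : Pt W, P ∈ E0 ↔ W.InZeroComponentAt A P) ∧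
      (∀ σ ∈ A.inertiaSubgroupIn ℚ, ∀ P : Pt W, σ • P - P ∈ E0) ∧
      (∀ σ ∈ A.inertiaSubgroupIn ℚ, ∀ P ∈ E0, ∀ n : ℕ, n.Coprime ℓ → n • P = 0 → σ • P = P) ∧
      (∀ q : ℕ, q.Prime → q ≠ ℓ → ∀ x y : Pt W, q • x = 0 → q • y = 0 → x ∉ E0 →
        ∃ a : ℤ, y - a • x ∈ E0)

/-- **(REDCOUNT)** a rational point of prime order `p ≠ ℓ` in the zero component at a
multiplicative prime `ℓ` forces `p ≤ ℓ² + 1` (pigeonhole on the reductions of its multiples +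
injectivity of reduction on prime-to-`ℓ` torsion of the zero component,
`S58.Mult.Fixed.nf_eq_of_same_red`).  Used at `ℓ = 2, 3` with `p ≥ 17`. -/
def RedCount : Prop :=
  ∀ W : WeierstrassCurve ℤ, W.Δ ≠ 0 → ∀ ℓ : ℕ, ℓ.Prime → (ℓ : ℤ) ∣ W.Δ → ¬ (ℓ : ℤ) ∣ W.c₄ →
    ∀ A : ValuationSubring Qb, A.LiesOverPrime ℓ → ∀ p : ℕ, p.Prime → p ≠ ℓ →
    ∀ Q : Pt W, (∀ σ : GQ, σ • Q = Q) → p • Q = 0 → Q ≠ 0 → W.InZeroComponentAt A Q →
      p ≤ ℓ ^ 2 + 1

/-- **(FROBFIXED)** a prime-to-`ℓ` torsion point fixed by a Frobenius lift at a good prime `ℓ`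
has order `≤ 2ℓ + 1` (main `S58` `FrobQuad`: `σ² - a_ℓ σ + ℓ = 0`, so `(1 - a_ℓ + ℓ) x = 0`, and
`1 ≤ #W(𝔽_ℓ) ≤ 2ℓ + 1`). -/
def FrobFixed : Prop :=
  ∀ W : WeierstrassCurve ℤ, W.Δ ≠ 0 → ∀ ℓ : ℕ, ℓ.Prime → ¬ (ℓ : ℤ) ∣ W.Δ →
    ∀ A : ValuationSubring Qb, A.LiesOverPrime ℓ → ∀ σ : GQ, A.IsFrobeniusAt σ ℓ →
    ∀ m : ℕ, m.Coprime ℓ → ∀ x : Pt W, m • x = 0 → σ • x = x → addOrderOf x ≤ 2 * ℓ + 1

/-- **(FROBEX)** Frobenius lifts exist over every prime. -/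
def FrobEx : Prop :=
  ∀ ℓ : ℕ, ℓ.Prime → ∃ A : ValuationSubring Qb, A.LiesOverPrime ℓ ∧ ∃ σ : GQ, A.IsFrobeniusAt σ ℓ

/-- **(GOODUNR)** = main's `S58.GoodUnram` (inertia at a good prime fixes prime-to-`q`
torsion), restated on `Pt`. -/
def GoodUnr : Prop :=
  ∀ (W : WeierstrassCurve ℤ) (q : ℕ), q.Prime → ¬ (q : ℤ) ∣ W.Δ →
    ∀ A : ValuationSubring Qb, A.LiesOverPrime q → ∀ τ ∈ A.inertiaSubgroupIn ℚ,
      ∀ m : ℕ, m.Coprime q → ∀ P : Pt W, m • P = 0 → τ • P = P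

/-- **(CARD)** `#W[p^n](ℚ̄) = p^(2n)` (main `S58.Tate.card_tor`). -/
def CardTor : Prop :=
  ∀ W : WeierstrassCurve ℤ, W.Δ ≠ 0 → ∀ p : ℕ, p.Prime → ∀ n : ℕ,
    Nat.card {x : Pt W // p ^ n • x = 0} = p ^ (2 * n)

/-- **(CYCLO)** the determinant of the mod `p` representation is the cyclotomic character, in
the only form the descent uses: if a nonzero `p`-torsion point `Q` is Galois-fixed, then `σ` acts
on `W[p] / ⟨Q⟩` through `cycloExp p σ` (main: `S58.DetCyclo.det_tate` + `S58.EpRep`). -/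
def CycloQuot : Prop :=
  ∀ W : WeierstrassCurve ℤ, W.Δ ≠ 0 → ∀ (p : ℕ) [Fact p.Prime], p ≠ 2 →
    ∀ Q : Pt W, p • Q = 0 → Q ≠ 0 → (∀ σ : GQ, σ • Q = Q) →
    ∀ (σ : GQ) (x : Pt W), p • x = 0 → ∃ a : ℤ, σ • x - ExtCitation.cycloExp p σ • x = a • Q

/-- **(OPEN)** the stabiliser of a torsion point is open (main `S58.Tate.exists_field_fixing`). -/
def OpenStab : Prop :=
  ∀ (W : WeierstrassCurve ℤ) (x : Pt W), IsOpen {σ : GQ | σ • x = x}

/-- **(LOCP)** the Frey curve at `p`, for a cofixed line `N` (main `S13/LocP`, `S13/InertiaE1`,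
`S05/E1`): for every place `A ∣ p` there is a subgroup `E1` ("kernel of reduction"), stable under
the decomposition group, containing `σx - x` for every inertia element `σ` and every
`p`-power-torsion point `x`, meeting `E[p]` inside `N`; and some inertia element moves `N`. -/
def LocP : Prop :=
  ∀ (P : FreyPackage) (N : AddSubgroup (Pt P.freyCurveInt)), Nat.card N = P.p →
    (∀ x ∈ N, P.p • x = 0) → (∀ σ : GQ, ∀ x ∈ N, σ • x ∈ N) →
    (∀ (σ : GQ) (x : Pt P.freyCurveInt), P.p • x = 0 → σ • x - x ∈ N) →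
    ∀ A : ValuationSubring Qb, A.LiesOverPrime P.p →
    ∃ E1 : AddSubgroup (Pt P.freyCurveInt),
      (∀ σ ∈ A.decompositionSubgroup ℚ, ∀ x ∈ E1, σ • x ∈ E1) ∧
      (∀ σ ∈ A.inertiaSubgroupIn ℚ, ∀ (x : Pt P.freyCurveInt) (k : ℕ), P.p ^ k • x = 0 →
        σ • x - x ∈ E1) ∧
      (∀ x ∈ E1, P.p • x = 0 → x ∈ N) ∧
      ∃ σ ∈ A.inertiaSubgroupIn ℚ, ∃ x ∈ N, σ • x ≠ x

/-- **(BASE)** a cofixed line of the Frey curve, transported to the integral model: a subgroup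
`N` of `Pt P.freyCurveInt` of order `p`, killed by `p`, Galois-stable, with `σx - x ∈ N` on
`E[p]` (main `Lib/Frey/Semistable.freyCurveInt_map`). -/
def Base : Prop :=
  ∀ P : FreyPackage, HasGaloisStableCofixedLine (K := AlgebraicClosure ℚ) ℚ P.freyCurve P.p →
    ∃ N : AddSubgroup (Pt P.freyCurveInt), Nat.card N = P.p ∧ (∀ x ∈ N, P.p • x = 0) ∧
      (∀ σ : GQ, ∀ x ∈ N, σ • x ∈ N) ∧
      ∀ (σ : GQ) (x : Pt P.freyCurveInt), P.p • x = 0 → σ • x - x ∈ N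

/-- **(MINK)** an open subgroup of `Gal(ℚ̄/ℚ)` containing every inertia group is everything
(main `Lib.InertiaLift.eq_top_of_inertia_le`). -/
def Mink : Prop :=
  ∀ H : Subgroup GQ, IsOpen (H : Set GQ) →
    (∀ ℓ : ℕ, ℓ.Prime → ∀ A : ValuationSubring Qb, A.LiesOverPrime ℓ →
      ∀ σ ∈ A.inertiaSubgroupIn ℚ, σ ∈ H) → H = ⊤

/-- The top of S12: what `S12P/Top20.lean` proves from the bricks. -/
def TopStmt : Prop :=
  ∀ (P : FreyPackage), 17 ≤ P.p →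
    ¬ HasGaloisStableCofixedLine (K := AlgebraicClosure ℚ) ℚ P.freyCurve P.p

end Fermat.Agent.S12P
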