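/-
S12 project, brick `Node` (row 634, helper38): the zero component at a multiplicative prime.

For an integral Weierstrass model `W` with `Δ ≠ 0`, a prime `ℓ` of multiplicative reduction
(`ℓ ∣ Δ`, `ℓ ∤ c₄`) and a valuation subring `A` of `ℚ̄` over `ℓ`, the points of `W(ℚ̄)` in the zero
component at `A` (the Prelude's `InZeroComponentAt`) form a subgroup `E0` such that

* `σ • P - P ∈ E0` for every `σ` in the inertia group of `A` and EVERY point `P`;
* the prime-to-`ℓ` torsion of `E0` is fixed pointwise by inertia;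
* the `q`-torsion of the quotient by `E0` is cyclic (`q` prime).

The statement `node` is the literal body of `Fermat.Agent.S12P.Node` (`S12P/Interfaces20.lean`),
stated here without importing the interface file.

Method: main's nodal normal form (`S58/Mult/Model.exists_nf_model`: an `A`-integral change of
variables `C = (1, r, s, t)` to `y² + g x y = x³ + b x`, `|g| = 1`, `0 < |b| < 1`) and the class
function `cls` of `EC/NF` (`cls_add`, `cls_sub_eq_one`, `torsion_cls`), `E0 = {cls = 1}`.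
New here:
* the dictionary `cls = 1 ⟺ InZeroComponentAt` (`Transfer.nonsingular_iff` over the residue
  field; the reduced normal form `y² + ḡ x y = x³` is singular exactly at `x = 0`);
* `cls` is invariant under INERTIA although the chart `C` is not rational: `σ⁻¹(C)` is a second
  chart whose origin is a `2`-torsion point `(ρ, y)` with `|ρ| < 1`, hence `ρ = 0` or
  `4ρ² + g²ρ + 4b = 0`, so `|ρ|, |y| ≤ |b|`, and the four cases of `cls` are stable under such a
  shift (`cls_val_shift`).  (Under a Frobenius element `cls` is NOT invariant in the non-split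
  case.)
-/
import Mathlib
import Fermat.Prelude.Def_EllipticCurve_ZeroComponentAt
import Fermat.Prelude.Def_FLTPrelim_Ramification
import Fermat.Agent.S58.Mult.Main
import Fermat.Agent.EC.NF.Local2
import Fermat.Agent.Lib.GalQbar
import Fermat.Agent.S15P.M2.NodalRed69

set_option autoImplicit false

namespace Fermat.Agent.S12P.Node38

open WeierstrassCurve WeierstrassCurve.Affine Fermat.Agent.EC.NF Fermat.Agent.S05 IsLocalRing
open scoped WeierstrassCurve.Affine

/-! ### Valuation algebra -/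

section ValAlg

variable {K : Type*} [Field K] {Γ₀ : Type*} [LinearOrderedCommGroupWithZero Γ₀]
  (v : Valuation K Γ₀)

/-- The origin `(ρ, y)` of a second normal-form chart, seen in the first chart
`y² + g x y = x³ + b x`: a `2`-torsion point with `|ρ| < 1` has `|ρ| ≤ |b|` and `|y| ≤ |b|`. -/
theorem nf_origin_bound {g b ρ y : K} (hg : v g = 1) (hρ : v ρ < 1)
    (h2 : 2 * y + g * ρ = 0) (hE : y ^ 2 + g * ρ * y = ρ ^ 3 + b * ρ) :
    v ρ ≤ v b ∧ v y ≤ v b := by
  have hcub : ρ * (4 * ρ ^ 2 + g ^ 2 * ρ + 4 * b) = 0 := by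
    linear_combination (2 * y + g * ρ) * h2 - 4 * hE
  have hy2 : y ^ 2 = -(ρ * (ρ ^ 2 + b)) := by linear_combination y * h2 - hE
  by_cases hρ0 : ρ = 0
  · have hy0 : y = 0 := by
      rw [hρ0] at hy2
      have : y ^ 2 = 0 := by rw [hy2]; ring
      exact pow_eq_zero_iff (two_ne_zero) |>.mp this
    rw [hρ0, hy0, map_zero]
    exact ⟨zero_le, zero_le⟩
  · have hquad : 4 * ρ ^ 2 + g ^ 2 * ρ + 4 * b = 0 := (mul_eq_zero.mp hcub).resolve_left hρ0
    have hρpos : 0 < v ρ := (Valuation.pos_iff v).mpr hρ0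
    have h4 : v (4 : K) ≤ 1 := by
      have : (4 : K) = ((4 : ℕ) : K) := by norm_num
      rw [this]
      have h' : ((4 : ℕ) : K) ∈ v.integer := natCast_mem _ 4
      exact h'
    -- `|ρ²| < |ρ|`
    have hsq : v (ρ ^ 2) < v ρ := by
      rw [map_pow, sq]
      calc v ρ * v ρ < 1 * v ρ := mul_lt_mul_of_pos_right hρ hρpos
        _ = v ρ := one_mul _
    -- `|ρ| = |4| |ρ² + b| ≤ |ρ² + b|`
    have e1 : g ^ 2 * ρ = -(4 * (ρ ^ 2 + b)) := by linear_combination hquad
    have hv1 : v ρ = v (4 : K) * v (ρ ^ 2 + b) := by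
      have := congrArg v e1
      rwa [map_mul, map_pow, hg, one_pow, one_mul, Valuation.map_neg, map_mul] at this
    have hle : v ρ ≤ v (ρ ^ 2 + b) := by
      rw [hv1]
      calc v (4 : K) * v (ρ ^ 2 + b) ≤ 1 * v (ρ ^ 2 + b) := mul_le_mul_left h4 _
        _ = v (ρ ^ 2 + b) := one_mul _
    have hsum : v (ρ ^ 2 + b) ≤ v b := by
      by_contra hcon
      rw [not_le] at hcon
      have hmax := v.map_add_le_max' (ρ ^ 2) b
      rcases le_max_iff.mp hmax with h | h
      · exact absurd (lt_of_le_of_lt (hle.trans h) hsq) (lt_irrefl _)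
      · exact absurd hcon (not_lt.mpr h)
    refine ⟨hle.trans hsum, ?_⟩
    -- `|y|² = |ρ| |ρ² + b| ≤ |b|²`
    have hvy : v y ^ 2 = v ρ * v (ρ ^ 2 + b) := by
      have := congrArg v hy2
      rwa [map_pow, Valuation.map_neg, map_mul] at this
    have hle2 : v y ^ 2 ≤ v b ^ 2 := by
      rw [hvy]
      calc v ρ * v (ρ ^ 2 + b) ≤ v b * v b := mul_le_mul' (hle.trans hsum) hsum
        _ = v b ^ 2 := (sq _).symm
    exact (pow_le_pow_iff_left₀ zero_le zero_le two_ne_zero).mp hle2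

/-- The class formula is stable under a shift of the chart by a small `2`-torsion origin. -/
theorem cls_val_shift {b ξ η ρ y₂ δ : K} (hb : v b < 1) (hρ : v ρ ≤ v b) (hy₂ : v y₂ ≤ v b)
    (hδ : v δ < 1) :
    (if 1 ≤ v (ξ - ρ) then (1 : Γ₀) else if v (ξ - ρ) ≤ v b then v b
      else if v (η - y₂ + δ * (ρ - ξ)) < v (ξ - ρ) then v (ξ - ρ) else v b ^ 2 / v (ξ - ρ)) =
    (if 1 ≤ v ξ then (1 : Γ₀) else if v ξ ≤ v b then v b
      else if v η < v ξ then v ξ else v b ^ 2 / v ξ) := by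
  by_cases h1 : 1 ≤ v ξ
  · have hx : v (ξ - ρ) = v ξ :=
      Valuation.map_sub_eq_of_lt_left v (lt_of_le_of_lt hρ (lt_of_lt_of_le hb h1))
    rw [hx, if_pos h1, if_pos h1]
  · rw [if_neg h1]
    by_cases h2 : v ξ ≤ v b
    · rw [if_pos h2]
      have hx : v (ξ - ρ) ≤ v b := v.map_sub_le h2 hρ
      rw [if_neg (not_le.mpr (lt_of_le_of_lt hx hb)), if_pos hx]
    · rw [if_neg h2]
      have hbξ : v b < v ξ := not_le.mp h2
      have hξpos : 0 < v ξ := lt_of_le_of_lt zero_le hbξ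
      have hx : v (ξ - ρ) = v ξ :=
        Valuation.map_sub_eq_of_lt_left v (lt_of_le_of_lt hρ hbξ)
      have hρξ : v (ρ - ξ) = v ξ := by rw [← Valuation.map_neg, neg_sub]; exact hx
      have hd : v (-y₂ + δ * (ρ - ξ)) < v ξ := by
        apply Valuation.map_add_lt
        · rw [Valuation.map_neg]; exact lt_of_le_of_lt hy₂ hbξ
        · rw [map_mul, hρξ]
          calc v δ * v ξ < 1 * v ξ := mul_lt_mul_of_pos_right hδ hξpos
            _ = v ξ := one_mul _
      have e : η - y₂ + δ * (ρ - ξ) = η + (-y₂ + δ * (ρ - ξ)) := by ring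
      rw [hx, if_neg h1, if_neg h2, e]
      by_cases h3 : v η < v ξ
      · rw [if_pos h3, if_pos (Valuation.map_add_lt v h3 hd)]
      · have hη : v (η + (-y₂ + δ * (ρ - ξ))) = v η :=
          Valuation.map_add_eq_of_lt_left v (lt_of_lt_of_le hd (not_lt.mp h3))
        rw [if_neg h3, hη, if_neg h3]

end ValAlg

/-! ### The group of points of class `1` on the nodal normal form -/

section NFGroup

variable {K : Type*} [Field K] [DecidableEq K] {Γ₀ : Type*} [LinearOrderedCommGroupWithZero Γ₀]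
  (v : Valuation K Γ₀) {W : Affine K}

/-- The points of class `1` (nonsingular reduction) of the nodal normal form: a subgroup. -/
def clsKer (hW : IsNF W) (hg : v W.a₁ = 1) (hb : v W.a₄ < 1) (hb0 : W.a₄ ≠ 0) :
    AddSubgroup W.Point where
  carrier := {P | cls v P = 1}
  zero_mem' := rfl
  add_mem' := by
    intro P Q (hP : cls v P = 1) (hQ : cls v Q = 1)
    change cls v (P + Q) = 1
    obtain ⟨k, hk⟩ := cls_add v hW hg hb hb0 P Q
    rw [hP, hQ, one_mul, one_mul] at hk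
    exact cls_eq_one_of_zpow v hb hb0 _ k hk
  neg_mem' := by
    intro P (hP : cls v P = 1)
    change cls v (-P) = 1
    obtain ⟨k, hk⟩ := cls_neg v hW hg hb hb0 P
    rw [hP, mul_one] at hk
    exact cls_eq_one_of_zpow v hb hb0 _ k hk

theorem mem_clsKer (hW : IsNF W) (hg : v W.a₁ = 1) (hb : v W.a₄ < 1) (hb0 : W.a₄ ≠ 0)
    (P : W.Point) : P ∈ clsKer v hW hg hb hb0 ↔ cls v P = 1 := Iff.rfl

/-- **Cyclicity of the `q`-torsion of the component group.** -/
theorem exists_sub_nsmul_cls_eq_one (hW : IsNF W) (hg : v W.a₁ = 1) (hb : v W.a₄ < 1)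
    (hb0 : W.a₄ ≠ 0) {q : ℕ} (hq : q.Prime) {x y : W.Point} (hx : q • x = 0) (hy : q • y = 0)
    (hx1 : cls v x ≠ 1) : ∃ j : ℕ, cls v (y - j • x) = 1 := by
  have hc : v W.a₄ ≠ 0 := (Valuation.ne_zero_iff v).mpr hb0
  have hq0 : q ≠ 0 := hq.ne_zero
  obtain ⟨a, ha⟩ := torsion_cls v hW hg hb hb0 hx
  obtain ⟨c, hcy⟩ := torsion_cls v hW hg hb hb0 hy
  -- `q ∤ a`
  have hqa : ¬ (q : ℤ) ∣ a := by
    rintro ⟨a', rfl⟩
    apply hx1
    have h2 : cls v x ^ q = (v W.a₄ ^ (2 * a')) ^ q := by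
      rw [ha, ← zpow_natCast (v W.a₄ ^ (2 * a')), ← zpow_mul]
      congr 1
      ring
    have h3 : cls v x = v W.a₄ ^ (2 * a') := (pow_left_inj₀ zero_le zero_le hq0).mp h2
    exact cls_eq_one_of_zpow v hb hb0 _ a' h3
  -- `c = j a + q m` with `j ≥ 0`
  have hcop : IsCoprime a (q : ℤ) :=
    ((Nat.prime_iff_prime_int.mp hq).coprime_iff_not_dvd.mpr hqa).symm
  obtain ⟨u, w, huw⟩ := hcop
  obtain ⟨j, m, hjm⟩ : ∃ (j : ℕ) (m : ℤ), c = (j : ℤ) * a + (q : ℤ) * m := by
    have hqpos : (0 : ℤ) < q := by exact_mod_cast hq.pos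
    refine ⟨((c * u) % (q : ℤ)).toNat, c * w + ((c * u) / (q : ℤ)) * a, ?_⟩
    rw [Int.toNat_of_nonneg (Int.emod_nonneg _ hqpos.ne')]
    have h1 := Int.emod_add_mul_ediv (c * u) (q : ℤ)
    linear_combination (-c) * huw - a * h1
  refine ⟨j, ?_⟩
  obtain ⟨k₁, hk₁⟩ := cls_nsmul v hW hg hb hb0 j x
  obtain ⟨k₂, hk₂⟩ := cls_neg v hW hg hb hb0 (j • x)
  obtain ⟨k₃, hk₃⟩ := cls_add v hW hg hb hb0 y (-(j • x))
  rw [← sub_eq_add_neg] at hk₃
  set D := cls v (y - j • x) with hD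
  set β := v W.a₄ with hβ
  -- `D * cls x ^ j * β^(2k₁) = cls y * β^(2k₂ + 2k₃)`
  have key : D * (cls v x ^ j * β ^ (2 * k₁)) = cls v y * β ^ (2 * k₂ + 2 * k₃) := by
    rw [← hk₁, hk₃, zpow_add₀ hc, ← hk₂]
    ac_rfl
  -- take `q`-th powers
  have e1 : (cls v x ^ j) ^ q = β ^ (2 * a * j) := by
    rw [← pow_mul, mul_comm j q, pow_mul, ha, ← zpow_natCast, ← zpow_mul]
  have e2 : (β ^ (2 * k₁)) ^ q = β ^ (2 * k₁ * q) := by rw [← zpow_natCast, ← zpow_mul]
  have e3 : (β ^ (2 * k₂ + 2 * k₃)) ^ q = β ^ ((2 * k₂ + 2 * k₃) * q) := by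
    rw [← zpow_natCast, ← zpow_mul]
  have keyq : D ^ q * β ^ (2 * a * j + 2 * k₁ * q) = β ^ (2 * c + (2 * k₂ + 2 * k₃) * q) := by
    have := congrArg (· ^ q) key
    simp only [mul_pow] at this
    rw [e1, e2, e3, hcy, ← zpow_add₀ hc, ← zpow_add₀ hc] at this
    exact this
  have hDq : D ^ q = (β ^ (2 * (m + k₂ + k₃ - k₁))) ^ q := by
    have h1 : D ^ q = β ^ (2 * c + (2 * k₂ + 2 * k₃) * q) * (β ^ (2 * a * j + 2 * k₁ * q))⁻¹ := by
      rw [← keyq, mul_assoc, mul_inv_cancel₀ (zpow_ne_zero _ hc), mul_one]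
    rw [h1, ← zpow_neg, ← zpow_add₀ hc, ← zpow_natCast (β ^ (2 * (m + k₂ + k₃ - k₁))) q, ← zpow_mul]
    congr 1
    rw [hjm]
    ring
  have hDeq : D = β ^ (2 * (m + k₂ + k₃ - k₁)) := (pow_left_inj₀ zero_le zero_le hq0).mp hDq
  exact cls_eq_one_of_zpow v hb hb0 _ _ hDeq

end NFGroup

/-! ### Charts: the inverse transfer and the invariance of `cls` under inertia -/

/-- Pure algebra: the origin `(r₂, t₂)` of a second normal-form chart, in the coordinates of the
chart `(1, r, s, t)`, is a `2`-torsion point of the normal form. -/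
theorem origin_eqs {R : Type*} [CommRing R] {a₁ a₂ a₃ a₄ a₆ r s t r₂ t₂ : R}
    (e₂ : a₂ - s * a₁ + 3 * r - s ^ 2 = 0) (e₃ : a₃ + r * a₁ + 2 * t = 0)
    (e₆ : a₆ + r * a₄ + r ^ 2 * a₂ + r ^ 3 - t * a₃ - t ^ 2 - r * t * a₁ = 0)
    (e₃' : a₃ + r₂ * a₁ + 2 * t₂ = 0)
    (e₆' : a₆ + r₂ * a₄ + r₂ ^ 2 * a₂ + r₂ ^ 3 - t₂ * a₃ - t₂ ^ 2 - r₂ * t₂ * a₁ = 0) :
    2 * (t₂ - t - s * (r₂ - r)) + (a₁ + 2 * s) * (r₂ - r) = 0 ∧
    (t₂ - t - s * (r₂ - r)) ^ 2 + (a₁ + 2 * s) * (r₂ - r) * (t₂ - t - s * (r₂ - r)) =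
      (r₂ - r) ^ 3 +
        (a₄ - s * a₃ + 2 * r * a₂ - (t + r * s) * a₁ + 3 * r ^ 2 - 2 * s * t) * (r₂ - r) := by
  constructor
  · linear_combination e₃' - e₃
  · linear_combination (-1 : R) * e₆' - (t₂ - t - s * (r₂ - r)) * e₃ + (r₂ - r) ^ 2 * e₂ + e₆

section Chart

variable {F K : Type*} [Field F] [Field K] [Algebra F K] [DecidableEq K]
  (W₀ : Affine F) (C : VariableChange K)

/-- The inverse of the transfer along a chart with `u = 1`, in coordinates. -/
theorem symm_some (hu : C.u = 1) {X Y : K} (hP : (W₀⁄K).Nonsingular X Y) :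
    ∃ hQ : (C • (W₀⁄K)).toAffine.Nonsingular (X - C.r) (Y - C.s * (X - C.r) - C.t),
      (Transfer.vcEquiv C rfl).symm (Point.some X Y hP) =
        Point.some (X - C.r) (Y - C.s * (X - C.r) - C.t) hQ := by
  have hu' : (C.u : K) = 1 := by rw [hu]; rfl
  have eX' : Transfer.vcX C (X - C.r) = X := by simp [Transfer.vcX, hu']
  have eY' : Transfer.vcY C (X - C.r) (Y - C.s * (X - C.r) - C.t) = Y := by
    simp only [Transfer.vcY, hu', one_pow, one_mul]
    ring
  have hQ : (C • (W₀⁄K)).toAffine.Nonsingular (X - C.r) (Y - C.s * (X - C.r) - C.t) := by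
    rw [Transfer.nonsingular_iff (W₀⁄K) C, eX', eY']
    exact hP
  refine ⟨hQ, ?_⟩
  rw [AddEquiv.symm_apply_eq, Transfer.vcEquiv_some, Point.some.injEq]
  exact ⟨eX'.symm, eY'.symm⟩

/-- **`cls` is invariant under inertia** (the chart `C` need not be rational). -/
theorem cls_inertia [Algebra.IsAlgebraic F K] (A : ValuationSubring K) (hu : C.u = 1)
    (hr : A.valuation C.r ≤ 1) (hs : A.valuation C.s ≤ 1)
    (hNF : IsNF (C • (W₀⁄K))) (hg : A.valuation (C • (W₀⁄K)).a₁ = 1)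
    (hb : A.valuation (C • (W₀⁄K)).a₄ < 1)
    (σ : K ≃ₐ[F] K) (hσ : σ ∈ A.inertiaSubgroupIn F) (P : (W₀⁄K).Point) :
    cls A.valuation ((Transfer.vcEquiv C rfl).symm (Point.map (W' := W₀) σ.toAlgHom P)) =
      cls A.valuation ((Transfer.vcEquiv C rfl).symm P) := by
  rcases P with _ | ⟨X, Y, hP⟩
  · rfl
  · have hσi := Inertia.symm_mem A σ hσ
    have hval : ∀ z : K, A.valuation (σ.symm z) = A.valuation z := fun z =>
      Local2.val_map_eq A.valuation σ.symm (Inertia.map_lt_one A σ.symm hσi)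
        (fun a ha => Inertia.map_lt_one A σ hσ a ha) z
    have hu' : (C.u : K) = 1 := by rw [hu]; rfl
    -- the coefficient identities of the chart
    have ha₁ : (C • (W₀⁄K)).a₁ = (W₀⁄K).a₁ + 2 * C.s := by
      rw [variableChange_a₁, hu]; simp
    have e₂ : (W₀⁄K).a₂ - C.s * (W₀⁄K).a₁ + 3 * C.r - C.s ^ 2 = 0 := by
      have := hNF.a₂
      rw [variableChange_a₂, hu] at this
      simpa using this
    have e₃ : (W₀⁄K).a₃ + C.r * (W₀⁄K).a₁ + 2 * C.t = 0 := by
      have := hNF.a₃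
      rw [variableChange_a₃, hu] at this
      simpa using this
    have ha₄ : (C • (W₀⁄K)).a₄ = (W₀⁄K).a₄ - C.s * (W₀⁄K).a₃ + 2 * C.r * (W₀⁄K).a₂ -
        (C.t + C.r * C.s) * (W₀⁄K).a₁ + 3 * C.r ^ 2 - 2 * C.s * C.t := by
      rw [variableChange_a₄, hu]; simp
    have e₆ : (W₀⁄K).a₆ + C.r * (W₀⁄K).a₄ + C.r ^ 2 * (W₀⁄K).a₂ + C.r ^ 3 - C.t * (W₀⁄K).a₃ -
        C.t ^ 2 - C.r * C.t * (W₀⁄K).a₁ = 0 := by
      have := hNF.a₆
      rw [variableChange_a₆, hu] at this
      simpa using this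
    -- the conjugate chart
    have f₁ : σ.symm (W₀⁄K).a₁ = (W₀⁄K).a₁ := σ.symm.commutes W₀.a₁
    have f₂ : σ.symm (W₀⁄K).a₂ = (W₀⁄K).a₂ := σ.symm.commutes W₀.a₂
    have f₃ : σ.symm (W₀⁄K).a₃ = (W₀⁄K).a₃ := σ.symm.commutes W₀.a₃
    have f₄ : σ.symm (W₀⁄K).a₄ = (W₀⁄K).a₄ := σ.symm.commutes W₀.a₄
    have f₆ : σ.symm (W₀⁄K).a₆ = (W₀⁄K).a₆ := σ.symm.commutes W₀.a₆
    have e₃' : (W₀⁄K).a₃ + σ.symm C.r * (W₀⁄K).a₁ + 2 * σ.symm C.t = 0 := by
      have := congrArg σ.symm e₃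
      simpa [f₁, f₃, map_ofNat] using this
    have e₆' : (W₀⁄K).a₆ + σ.symm C.r * (W₀⁄K).a₄ + σ.symm C.r ^ 2 * (W₀⁄K).a₂ + σ.symm C.r ^ 3 -
        σ.symm C.t * (W₀⁄K).a₃ - σ.symm C.t ^ 2 - σ.symm C.r * σ.symm C.t * (W₀⁄K).a₁ = 0 := by
      have := congrArg σ.symm e₆
      simpa [f₁, f₂, f₃, f₄, f₆] using this
    obtain ⟨h2, hE⟩ := origin_eqs e₂ e₃ e₆ e₃' e₆'
    rw [← ha₁] at h2 hE
    rw [← ha₄] at hE
    have hρlt : A.valuation (σ.symm C.r - C.r) < 1 := inertia_spec A σ.symm hσi C.r hr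
    have hδ : A.valuation (σ.symm C.s - C.s) < 1 := inertia_spec A σ.symm hσi C.s hs
    obtain ⟨hρ, hy₂⟩ := nf_origin_bound A.valuation hg hρlt h2 hE
    -- the two points in the chart
    rw [Point.map_some]
    obtain ⟨hQ, eQ⟩ := symm_some W₀ C hu hP
    obtain ⟨hQσ, eQσ⟩ := symm_some W₀ C hu
      ((W₀.baseChange_nonsingular σ.toAlgHom.injective _ _).mpr hP)
    rw [eQ, eQσ]
    have hx : A.valuation (σ.toAlgHom X - C.r) =
        A.valuation ((X - C.r) - (σ.symm C.r - C.r)) := by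
      rw [← hval (σ.toAlgHom X - C.r)]
      congr 1
      change σ.symm (σ X - C.r) = _
      rw [map_sub, AlgEquiv.symm_apply_apply]
      ring
    have hy : A.valuation (σ.toAlgHom Y - C.s * (σ.toAlgHom X - C.r) - C.t) =
        A.valuation ((Y - C.s * (X - C.r) - C.t) - (σ.symm C.t - C.t - C.s * (σ.symm C.r - C.r)) +
          (σ.symm C.s - C.s) * ((σ.symm C.r - C.r) - (X - C.r))) := by
      rw [← hval (σ.toAlgHom Y - C.s * (σ.toAlgHom X - C.r) - C.t)]
      congr 1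
      change σ.symm (σ Y - C.s * (σ X - C.r) - C.t) = _
      rw [map_sub, map_sub, map_mul, map_sub, AlgEquiv.symm_apply_apply,
        AlgEquiv.symm_apply_apply]
      ring
    simp only [Fermat.Agent.EC.NF.cls]
    rw [hx, hy]
    exact cls_val_shift A.valuation hb hρ hy₂ hδ

end Chart

/-! ### The dictionary `cls = 1 ⟺ InZeroComponentAt` -/

/-- A reduced normal form `y² + g x y = x³` (`g ≠ 0`) is singular exactly at `x = 0`. -/
theorem nonsingular_reduced_nf {k : Type*} [Field k] {N : Affine k} (h₂ : N.a₂ = 0)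
    (h₃ : N.a₃ = 0) (h₄ : N.a₄ = 0) (h₆ : N.a₆ = 0) (hg : N.a₁ ≠ 0) (x y : k) :
    N.Nonsingular x y ↔ N.Equation x y ∧ x ≠ 0 := by
  rw [Affine.nonsingular_iff']
  constructor
  · rintro ⟨hE, hns⟩
    refine ⟨hE, ?_⟩
    rintro rfl
    rw [Affine.equation_iff, h₂, h₃, h₄, h₆] at hE
    have hy : y = 0 := by
      have : y ^ 2 = 0 := by linear_combination hE
      exact pow_eq_zero_iff two_ne_zero |>.mp this
    subst hy
    rcases hns with h | h
    · apply h; rw [h₂, h₄]; ring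
    · apply h; rw [h₃]; ring
  · rintro ⟨hE, hx⟩
    refine ⟨hE, ?_⟩
    by_contra hcon
    push Not at hcon
    obtain ⟨hX, hY⟩ := hcon
    rw [Affine.equation_iff, h₂, h₃, h₄, h₆] at hE
    rw [h₂, h₄] at hX
    rw [h₃] at hY
    have h1 : x * (6 * x + N.a₁ ^ 2) = 0 := by linear_combination N.a₁ * hY - 2 * hX
    have h2 : x ^ 2 * (4 * x + N.a₁ ^ 2) = 0 := by
      linear_combination (2 * y + N.a₁ * x) * hY - 4 * hE
    have h1' : 6 * x + N.a₁ ^ 2 = 0 := (mul_eq_zero.mp h1).resolve_left hx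
    have h2' : 4 * x + N.a₁ ^ 2 = 0 := (mul_eq_zero.mp h2).resolve_left (pow_ne_zero 2 hx)
    have h3 : N.a₁ ^ 2 = 0 := by linear_combination 3 * h2' - 2 * h1'
    exact hg (pow_eq_zero_iff two_ne_zero |>.mp h3)

section Dict

local notation "Qb" => AlgebraicClosure ℚ

variable (W : WeierstrassCurve ℤ) (A : ValuationSubring Qb) (C : VariableChange Qb)

/-- **The dictionary, in coordinates.** For an affine point `(x, y)` of the curve and an
`A`-integral chart `C = (1, r, s, t)` to the nodal normal form: `1 ≤ |x - r|` iff the point is in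
the zero component at `A` (second disjunct of the Prelude's `InZeroComponentAt`). -/
theorem dict (hu : C.u = 1) (hr : A.valuation C.r ≤ 1) (hs : A.valuation C.s ≤ 1)
    (ht : A.valuation C.t ≤ 1)
    (hNF : IsNF (C • ((W.map (Int.castRingHom ℚ))⁄Qb)))
    (hg : A.valuation (C • ((W.map (Int.castRingHom ℚ))⁄Qb)).a₁ = 1)
    (hb : A.valuation (C • ((W.map (Int.castRingHom ℚ))⁄Qb)).a₄ < 1)
    {x y : Qb} (h : ((W.map (Int.castRingHom ℚ))⁄Qb).Nonsingular x y) :
    1 ≤ A.valuation (x - C.r) ↔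
      (x ∉ A ∨ ∃ (hx : x ∈ A) (hy : y ∈ A),
        (W.map (Int.castRingHom (ResidueField A))).toAffine.Nonsingular
          (residue A ⟨x, hx⟩) (residue A ⟨y, hy⟩)) := by
  classical
  have hrA : C.r ∈ A := (A.valuation_le_one_iff _).mp hr
  have hsA : C.s ∈ A := (A.valuation_le_one_iff _).mp hs
  have htA : C.t ∈ A := (A.valuation_le_one_iff _).mp ht
  -- the chart and the curve over `A`
  let CA : VariableChange A := ⟨1, ⟨C.r, hrA⟩, ⟨C.s, hsA⟩, ⟨C.t, htA⟩⟩
  let WA : WeierstrassCurve A := W.map (Int.castRingHom A)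
  let NA : WeierstrassCurve A := CA • WA
  -- generic fibre
  have hWφ : WA.map (algebraMap A Qb) = ((W.map (Int.castRingHom ℚ))⁄Qb) := by
    rw [Fermat.Agent.EC.FrobFixed.baseChange_eq_map]
    change (W.map (Int.castRingHom A)).map (algebraMap A Qb) = _
    rw [WeierstrassCurve.map_map]
    congr 1
  have hCφ : CA.map (algebraMap A Qb) = C := by
    ext
    · change ((Units.map (algebraMap A Qb : A →* Qb) (1 : Aˣ) : Qbˣ) : Qb) = (C.u : Qb)
      rw [hu, map_one]
    · rfl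
    · rfl
    · rfl
  have hNφ : NA.map (algebraMap A Qb) = C • ((W.map (Int.castRingHom ℚ))⁄Qb) := by
    rw [← map_variableChange, hCφ, hWφ]
  -- special fibre
  let Cb : VariableChange (ResidueField A) := CA.map (residue A)
  let Wb : WeierstrassCurve (ResidueField A) := W.map (Int.castRingHom (ResidueField A))
  have hWπ : WA.map (residue A) = Wb := by
    change (W.map (Int.castRingHom A)).map (residue A) = _
    rw [WeierstrassCurve.map_map]
    congr 1
  have hNπ : NA.map (residue A) = Cb • Wb := by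
    rw [← map_variableChange, hWπ]
  have inj : Function.Injective (algebraMap A Qb) := Subtype.val_injective
  have n₂ : NA.a₂ = 0 := by
    apply inj
    rw [map_zero, ← map_a₂, hNφ]
    exact hNF.a₂
  have n₃ : NA.a₃ = 0 := by
    apply inj
    rw [map_zero, ← map_a₃, hNφ]
    exact hNF.a₃
  have n₆ : NA.a₆ = 0 := by
    apply inj
    rw [map_zero, ← map_a₆, hNφ]
    exact hNF.a₆
  have b₂ : (Cb • Wb).toAffine.a₂ = 0 := by
    change (Cb • Wb).a₂ = 0
    rw [← hNπ, map_a₂, n₂, map_zero]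
  have b₃ : (Cb • Wb).toAffine.a₃ = 0 := by
    change (Cb • Wb).a₃ = 0
    rw [← hNπ, map_a₃, n₃, map_zero]
  have b₆ : (Cb • Wb).toAffine.a₆ = 0 := by
    change (Cb • Wb).a₆ = 0
    rw [← hNπ, map_a₆, n₆, map_zero]
  have b₄ : (Cb • Wb).toAffine.a₄ = 0 := by
    change (Cb • Wb).a₄ = 0
    rw [← hNπ, map_a₄, residue_eq_zero_iff, A.valuation_lt_one_iff]
    have : ((NA.a₄ : A) : Qb) = (C • ((W.map (Int.castRingHom ℚ))⁄Qb)).a₄ := by
      rw [← hNφ, map_a₄]; rfl
    rw [this]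
    exact hb
  have b₁ : (Cb • Wb).toAffine.a₁ ≠ 0 := by
    change (Cb • Wb).a₁ ≠ 0
    rw [← hNπ, map_a₁]
    intro h0
    have hmem : NA.a₁ ∈ maximalIdeal A := (residue_eq_zero_iff _).mp h0
    have hlt := (A.valuation_lt_one_iff _).mp hmem
    have : ((NA.a₁ : A) : Qb) = (C • ((W.map (Int.castRingHom ℚ))⁄Qb)).a₁ := by
      rw [← hNφ, map_a₁]; rfl
    rw [this, hg] at hlt
    exact lt_irrefl _ hlt
  have hub : (Cb.u : ResidueField A) = 1 := by
    change ((Units.map (residue A : A →* ResidueField A) (1 : Aˣ) : (ResidueField A)ˣ) :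
      ResidueField A) = 1
    rw [map_one]; rfl
  have M := Fermat.Agent.S15P.M2.NodalRed69.model_res W A
  -- the transfer over the residue field
  have key : ∀ (hx : x ∈ A) (hy : y ∈ A),
      (Wb.toAffine.Nonsingular (residue A ⟨x, hx⟩) (residue A ⟨y, hy⟩) ↔
        A.valuation (x - C.r) = 1) := by
    intro hx hy
    let xA : A := ⟨x, hx⟩ - ⟨C.r, hrA⟩
    let yA : A := ⟨y, hy⟩ - ⟨C.s, hsA⟩ * xA - ⟨C.t, htA⟩
    have eX : Transfer.vcX Cb (residue A xA) = residue A ⟨x, hx⟩ := by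
      simp only [Transfer.vcX, hub, one_pow, one_mul]
      change residue A xA + residue A ⟨C.r, hrA⟩ = _
      rw [← map_add]
      congr 1
      simp [xA]
    have eY : Transfer.vcY Cb (residue A xA) (residue A yA) = residue A ⟨y, hy⟩ := by
      simp only [Transfer.vcY, hub, one_pow, one_mul]
      change residue A yA + residue A ⟨C.s, hsA⟩ * residue A xA + residue A ⟨C.t, htA⟩ = _
      rw [← map_mul, ← map_add, ← map_add]
      congr 1
      simp only [yA]
      ring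
    have hEq : (Cb • Wb).toAffine.Equation (residue A xA) (residue A yA) := by
      rw [Transfer.equation_iff Wb Cb, eX, eY]
      exact M.equation h.1 (Fermat.Agent.S58.Red.rd_of_mem hx) (Fermat.Agent.S58.Red.rd_of_mem hy)
    have hxA : ((xA : A) : Qb) = x - C.r := rfl
    rw [← eX, ← eY, ← Transfer.nonsingular_iff Wb Cb, nonsingular_reduced_nf b₂ b₃ b₄ b₆ b₁]
    constructor
    · rintro ⟨-, hne⟩
      have hunit : IsUnit xA := by
        by_contra hnu
        exact hne ((residue_eq_zero_iff _).mpr ((mem_maximalIdeal _).mpr hnu))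
      have := (A.valuation_eq_one_iff xA).mp hunit
      rwa [hxA] at this
    · intro hv
      refine ⟨hEq, ?_⟩
      intro h0
      have hmem : xA ∈ maximalIdeal A := (residue_eq_zero_iff _).mp h0
      have hlt := (A.valuation_lt_one_iff xA).mp hmem
      rw [hxA, hv] at hlt
      exact lt_irrefl _ hlt
  constructor
  · intro h1
    by_cases hx : x ∈ A
    · right
      have hy : y ∈ A := by
        have hE := h.1
        rw [Affine.equation_iff] at hE
        refine Fermat.Agent.S58.Red.mem_of_quadratic (A := A)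
          (a := ((W.map (Int.castRingHom ℚ))⁄Qb).a₁ * x + ((W.map (Int.castRingHom ℚ))⁄Qb).a₃)
          (c := x ^ 3 + ((W.map (Int.castRingHom ℚ))⁄Qb).a₂ * x ^ 2 +
            ((W.map (Int.castRingHom ℚ))⁄Qb).a₄ * x + ((W.map (Int.castRingHom ℚ))⁄Qb).a₆) ?_ ?_ ?_
        · exact add_mem (mul_mem M.a₁.mem hx) M.a₃.mem
        · exact add_mem (add_mem (add_mem (pow_mem hx 3) (mul_mem M.a₂.mem (pow_mem hx 2)))
            (mul_mem M.a₄.mem hx)) M.a₆.mem
        · linear_combination hE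
      exact ⟨hx, hy, (key hx hy).mpr
        (le_antisymm ((A.valuation_le_one_iff _).mpr (A.sub_mem hx hrA)) h1)⟩
    · exact Or.inl hx
  · rintro (hx | ⟨hx, hy, hns⟩)
    · have hx1 : 1 < A.valuation x := by
        rw [← not_le, A.valuation_le_one_iff]
        exact hx
      rw [Valuation.map_sub_eq_of_lt_left _ (lt_of_le_of_lt hr hx1)]
      exact hx1.le
    · exact ((key hx hy).mp hns).ge

end Dict

/-! ### The brick -/

open Fermat.Agent.S58 in
/-- **(NODE)** — the literal body of `Fermat.Agent.S12P.Node` (`S12P/Interfaces20.lean`). -/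
theorem node :
    ∀ W : WeierstrassCurve ℤ, W.Δ ≠ 0 → ∀ ℓ : ℕ, ℓ.Prime → (ℓ : ℤ) ∣ W.Δ → ¬ (ℓ : ℤ) ∣ W.c₄ →
    ∀ A : ValuationSubring (AlgebraicClosure ℚ), A.LiesOverPrime ℓ →
    ∃ E0 : AddSubgroup ((W.map (Int.castRingHom ℚ))⁄(AlgebraicClosure ℚ)).Point,
      (∀ P : ((W.map (Int.castRingHom ℚ))⁄(AlgebraicClosure ℚ)).Point,
        P ∈ E0 ↔ W.InZeroComponentAt A P) ∧
      (∀ σ ∈ A.inertiaSubgroupIn ℚ,
        ∀ P : ((W.map (Int.castRingHom ℚ))⁄(AlgebraicClosure ℚ)).Point, σ • P - P ∈ E0) ∧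
      (∀ σ ∈ A.inertiaSubgroupIn ℚ, ∀ P ∈ E0, ∀ n : ℕ, n.Coprime ℓ → n • P = 0 → σ • P = P) ∧
      (∀ q : ℕ, q.Prime → q ≠ ℓ →
        ∀ x y : ((W.map (Int.castRingHom ℚ))⁄(AlgebraicClosure ℚ)).Point,
          q • x = 0 → q • y = 0 → x ∉ E0 → ∃ a : ℤ, y - a • x ∈ E0) := by
  intro W hΔ0 ℓ hℓ hℓΔ hℓc₄ A hA
  have hvq : A.valuation ((ℓ : ℕ) : Qb) < 1 := by
    have : (ℓ : Qb) ∈ A.nonunits := hA
    rwa [ValuationSubring.mem_nonunits_iff] at this
  have hWK : ((EQ W).toAffine⁄Qb) = W.map (Int.castRingHom Qb) :=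
    Fermat.Agent.EC.FrobFixed.baseChange_eq_map W
  obtain ⟨i₁, i₂, i₃, i₄, i₆⟩ :=
    Fermat.Agent.EC.FrobFixed.val_coeffs_le_one A.valuation W _ hWK
  have hint : IsIntegralModel A.valuation ((EQ W).toAffine⁄Qb) := ⟨i₁, i₂, i₃, i₄, i₆⟩
  have hc₄ : A.valuation ((EQ W).toAffine⁄Qb).c₄ = 1 := by
    rw [hWK, map_c₄, eq_intCast]
    exact Fermat.Agent.EC.FrobFixed.val_intCast_eq_one A.valuation hℓ hvq hℓc₄
  have hΔ : A.valuation ((EQ W).toAffine⁄Qb).Δ < 1 := by
    rw [hWK, map_Δ, eq_intCast]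
    exact Fermat.Agent.EC.FrobFixed.val_intCast_lt_one A.valuation hvq hℓΔ
  have hΔ0' : ((EQ W).toAffine⁄Qb).Δ ≠ 0 := by
    rw [hWK, map_Δ, eq_intCast]
    exact_mod_cast hΔ0
  have h2 : (2 : Qb) ≠ 0 := two_ne_zero
  obtain ⟨C, hu, hr, hs, ht, hNF, hg, hb, hb0⟩ :=
    Fermat.Agent.S58.Mult.exists_nf_model A.valuation ((EQ W).toAffine⁄Qb) h2 hint hc₄ hΔ hΔ0'
  let e : (C • ((EQ W).toAffine⁄Qb)).toAffine.Point ≃+ ((EQ W).toAffine⁄Qb).Point :=
    Transfer.vcEquiv C rfl
  refine ⟨(clsKer A.valuation hNF hg hb hb0).comap e.symm.toAddMonoidHom, ?_, ?_, ?_, ?_⟩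
  · -- the dictionary
    intro P
    change cls A.valuation (e.symm P) = 1 ↔ _
    rcases P with _ | ⟨x, y, h⟩
    · constructor
      · intro _
        exact Or.inl rfl
      · intro _
        have h0 : e.symm (Point.zero) = 0 := map_zero e.symm
        rw [h0]
        rfl
    · obtain ⟨hQ, eQ⟩ := symm_some (EQ W).toAffine C hu h
      have e1 : cls A.valuation (e.symm (Point.some x y h)) = 1 ↔ 1 ≤ A.valuation (x - C.r) := by
        rw [show e.symm (Point.some x y h) = _ from eQ, cls_eq_one_iff A.valuation hb hb0]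
        constructor
        · rintro (h0 | ⟨x', y', h', hP, hx'⟩)
          · exact absurd h0 (Point.some_ne_zero _)
          · rw [Point.some.injEq] at hP
            rw [hP.1]
            exact hx'
        · intro hx'
          exact Or.inr ⟨_, _, hQ, rfl, hx'⟩
      rw [e1, dict W A C hu hr hs ht hNF hg hb h]
      constructor
      · intro H
        exact Or.inr ⟨x, y, h, rfl, H⟩
      · rintro (h0 | ⟨x', y', h', hP, H⟩)
        · exact absurd h0 (Point.some_ne_zero _)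
        · cases hP
          exact H
  · -- inertia moves every point inside its component
    intro σ hσ P
    change cls A.valuation (e.symm (σ • P - P)) = 1
    rw [map_sub]
    have := Fermat.Agent.Lib.GalQbar.isAlgebraic_rat
    exact cls_sub_eq_one A.valuation hNF hg hb hb0
      (cls_inertia (EQ W).toAffine C A hu hr hs hNF hg hb σ hσ P)
  · -- inertia fixes the prime-to-`ℓ` torsion of the zero component
    intro σ hσ P hP n hn hnP
    have hP' : cls A.valuation (e.symm P) = 1 := hP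
    have hm : A.valuation ((n : ℕ) : Qb) = 1 := by
      have hnd : ¬ (ℓ : ℤ) ∣ (n : ℤ) := by
        intro h
        have h' : ℓ ∣ n := Int.natCast_dvd_natCast.mp h
        exact hℓ.one_lt.ne' (Nat.Coprime.eq_one_of_dvd hn.symm h')
      have := Fermat.Agent.EC.FrobFixed.val_intCast_eq_one A.valuation hℓ hvq hnd
      simpa using this
    have hnP' : n • e.symm P = 0 := by rw [← map_nsmul, hnP, map_zero]
    have key := Fermat.Agent.S58.Mult.fixed_of_cls_eq_one A (EQ W).toAffine C hu hr hs ht hNF hg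
      hb hb0 hm σ hσ (e.symm P) hP' hnP'
    rw [show Transfer.vcEquiv C rfl (e.symm P) = P from e.apply_symm_apply P] at key
    exact key
  · -- cyclicity
    intro q hq _ x y hx hy hx0
    have hx' : q • e.symm x = 0 := by rw [← map_nsmul, hx, map_zero]
    have hy' : q • e.symm y = 0 := by rw [← map_nsmul, hy, map_zero]
    have hx1 : cls A.valuation (e.symm x) ≠ 1 := hx0
    obtain ⟨j, hj⟩ := exists_sub_nsmul_cls_eq_one A.valuation hNF hg hb hb0 hq hx' hy' hx1
    refine ⟨(j : ℤ), ?_⟩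
    change cls A.valuation (e.symm (y - (j : ℤ) • x)) = 1
    rw [map_sub, map_zsmul, natCast_zsmul]
    exact hj

end Fermat.Agent.S12P.Node38
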