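/-
S12 project, row 635 (REDCOUNT), helper54:  `redCount : Fermat.Agent.S12P.RedCount`.

`redCount_core`: a Galois-fixed point `Q` of prime order `p ≠ ℓ` of an integral Weierstrass
curve which lies in the zero component at a place `A` over `ℓ` forces `p ≤ ℓ² + 1`.

Proof: by `NodalRed69.exists_red_of_inZero` (main) there is a point `Q'` of exact order `p` in
the group of nonsingular points of the reduced curve such that every `j • Q` reduces to
`j • Q'`.  The multiples `j • Q` are Galois-fixed, so their coordinates are rational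
(`Lib.GalQbar.exists_rat_of_fixed`); a rational element of `A` reduces into the prime field,
i.e. into the image of `ℤ` in the residue field, a set with at most `ℓ` elements.  So the
`p - 1` distinct affine points `j • Q'` (`1 ≤ j ≤ p - 1`) lie in a set of at most `ℓ²`
elements.  (No hypothesis on the discriminant or on `c₄` is used.)
-/
import Mathlib
import Fermat.Prelude.Def_EllipticCurve_ZeroComponentAt
import Fermat.Prelude.Def_FLTPrelim_Ramification
import Fermat.Agent.Lib.GalQbar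
import Fermat.Agent.S15P.M2.Defs89
import Fermat.Agent.S15P.M2.NodalRed69
import Fermat.Agent.S12P.Interfaces20

set_option autoImplicit false

namespace Fermat.Agent.S12P.RedCount54

open WeierstrassCurve WeierstrassCurve.Affine IsLocalRing
open Fermat.Agent.S58.Red Fermat.Agent.S15P.M2 Fermat.Agent.S15P.M2.NodalRed69

local notation "Qb" => AlgebraicClosure ℚ

/-- The residue field of a place over `ℓ` has characteristic `ℓ`: `(ℓ : k) = 0`. -/
theorem natCast_residue_eq_zero (A : ValuationSubring Qb) {ℓ : ℕ} (hA : A.LiesOverPrime ℓ) :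
    ((ℓ : ℕ) : ResidueField A) = 0 := by
  have h1 : ((ℓ : A) : Qb) ∈ A.nonunits := by
    have h2 : ((ℓ : A) : Qb) = (ℓ : Qb) := by push_cast; rfl
    rw [h2]
    exact hA
  have h3 : (ℓ : A) ∈ IsLocalRing.maximalIdeal A := ValuationSubring.coe_mem_nonunits_iff.mp h1
  have h4 : IsLocalRing.residue A (ℓ : A) = 0 := (IsLocalRing.residue_eq_zero_iff _).mpr h3
  rwa [map_natCast] at h4

/-- The image of `ℤ` in the residue field, as a finset with at most `ℓ` elements. -/
noncomputable def primeImage (A : ValuationSubring Qb) (ℓ : ℕ) : Finset (ResidueField A) :=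
  letI : DecidableEq (ResidueField A) := Classical.decEq _
  (Finset.range ℓ).image (fun i : ℕ => (i : ResidueField A))

theorem card_primeImage_le (A : ValuationSubring Qb) (ℓ : ℕ) : (primeImage A ℓ).card ≤ ℓ := by
  classical
  unfold primeImage
  calc _ ≤ (Finset.range ℓ).card := Finset.card_image_le
    _ = ℓ := Finset.card_range ℓ

theorem intCast_mem_primeImage (A : ValuationSubring Qb) {ℓ : ℕ} (hℓ : ℓ.Prime)
    (hA : A.LiesOverPrime ℓ) (n : ℤ) : ((n : ℤ) : ResidueField A) ∈ primeImage A ℓ := by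
  classical
  unfold primeImage
  rw [Finset.mem_image]
  have hℓ0 : (0 : ℤ) < (ℓ : ℤ) := by exact_mod_cast hℓ.pos
  have h0 : 0 ≤ n % (ℓ : ℤ) := Int.emod_nonneg _ hℓ0.ne'
  have hlt : n % (ℓ : ℤ) < (ℓ : ℤ) := Int.emod_lt_of_pos _ hℓ0
  refine ⟨(n % (ℓ : ℤ)).toNat, ?_, ?_⟩
  · rw [Finset.mem_range]
    omega
  · have e1 : (((n % (ℓ : ℤ)).toNat : ℕ) : ℤ) = n % (ℓ : ℤ) := Int.toNat_of_nonneg h0
    have e2 : n = (ℓ : ℤ) * (n / (ℓ : ℤ)) + n % (ℓ : ℤ) := (Int.mul_ediv_add_emod n ℓ).symm
    have e3 : ((n : ℤ) : ResidueField A)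
        = ((ℓ : ℕ) : ResidueField A) * ((n / (ℓ : ℤ) : ℤ) : ResidueField A)
          + ((n % (ℓ : ℤ) : ℤ) : ResidueField A) := by
      conv_lhs => rw [e2]
      push_cast
      ring
    have e4 : ((n % (ℓ : ℤ) : ℤ) : ResidueField A)
        = ((((n % (ℓ : ℤ)).toNat : ℕ) : ℤ) : ResidueField A) := by rw [e1]
    rw [e3, natCast_residue_eq_zero A hA, zero_mul, zero_add, e4, Int.cast_natCast]

/-- **A rational element of `A` reduces into the image of `ℤ`.** -/
theorem rd_rat_mem_primeImage (A : ValuationSubring Qb) {ℓ : ℕ} (hℓ : ℓ.Prime)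
    (hA : A.LiesOverPrime ℓ) (q : ℚ) {c : ResidueField A}
    (h : Rd A (residue A) (algebraMap ℚ Qb q) c) : c ∈ primeImage A ℓ := by
  obtain ⟨a, ha, rfl⟩ := h
  -- `a * den = num` in `A`
  have hden : (q.den : ℚ) ≠ 0 := Nat.cast_ne_zero.mpr q.den_nz
  have e0 : q * (q.den : ℚ) = (q.num : ℚ) := Rat.mul_den_eq_num q
  have e1 : (a : Qb) * ((q.den : ℕ) : Qb) = ((q.num : ℤ) : Qb) := by
    rw [ha]
    have h1 : algebraMap ℚ Qb (q * (q.den : ℚ)) = algebraMap ℚ Qb (q.num : ℚ) := by rw [e0]
    rw [map_mul, map_natCast, map_intCast] at h1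
    exact h1
  have e2 : a * ((q.den : ℕ) : A) = ((q.num : ℤ) : A) := by
    apply Subtype.ext
    push_cast
    exact e1
  have e3 : residue A a * ((q.den : ℕ) : ResidueField A) = ((q.num : ℤ) : ResidueField A) := by
    have := congrArg (residue A) e2
    simpa using this
  -- `ℓ ∤ den`
  have hℓk : ((ℓ : ℕ) : ResidueField A) = 0 := natCast_residue_eq_zero A hA
  have hnd : ¬ ℓ ∣ q.den := by
    intro hd
    obtain ⟨m, hm⟩ := hd
    have hd0 : ((q.den : ℕ) : ResidueField A) = 0 := by
      rw [hm]; push_cast; rw [hℓk, zero_mul]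
    rw [hd0, mul_zero] at e3
    -- then `ℓ ∣ num`, against coprimality
    have hcop : Nat.Coprime q.num.natAbs q.den := q.reduced
    have hone : ((1 : ℤ) : ResidueField A) = 0 := by
      have hc : IsCoprime (q.num) ((q.den : ℕ) : ℤ) := by
        rw [Int.isCoprime_iff_gcd_eq_one]
        simpa [Int.gcd] using hcop
      obtain ⟨u, v, huv⟩ := hc
      rw [← huv]
      push_cast
      rw [← e3, hd0]
      ring
    rw [Int.cast_one] at hone
    exact one_ne_zero hone
  -- invert `den` modulo `ℓ`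
  have hc : IsCoprime ((q.den : ℕ) : ℤ) ((ℓ : ℕ) : ℤ) := by
    rw [Int.isCoprime_iff_gcd_eq_one]
    have : Nat.Coprime q.den ℓ := (Nat.Coprime.symm ((Nat.Prime.coprime_iff_not_dvd hℓ).mpr hnd))
    simpa [Int.gcd] using this
  obtain ⟨u, v, huv⟩ := hc
  have hinv : ((u : ℤ) : ResidueField A) * ((q.den : ℕ) : ResidueField A) = 1 := by
    have := congrArg (fun z : ℤ => (z : ResidueField A)) huv
    push_cast at this
    rw [hℓk, mul_zero, add_zero] at this
    exact this
  have hfin : residue A a = ((q.num * u : ℤ) : ResidueField A) := by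
    push_cast
    rw [← e3]
    calc residue A a = residue A a * (((u : ℤ) : ResidueField A) * ((q.den : ℕ) : ResidueField A)) := by
          rw [hinv, mul_one]
      _ = _ := by ring
  rw [hfin]
  exact intCast_mem_primeImage A hℓ hA _

/-- The coordinates of an affine Galois-fixed point are rational. -/
theorem rat_of_fixed {W : WeierstrassCurve ℤ} {x y : Qb}
    {h : ((W.map (Int.castRingHom ℚ))⁄Qb).toAffine.Nonsingular x y}
    (hfix : ∀ σ : Qb ≃ₐ[ℚ] Qb,
      σ • (Point.some x y h : ((W.map (Int.castRingHom ℚ))⁄Qb).Point) = Point.some x y h) :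
    (∃ q : ℚ, algebraMap ℚ Qb q = x) ∧ ∃ q : ℚ, algebraMap ℚ Qb q = y := by
  have key : ∀ σ : Qb ≃ₐ[ℚ] Qb, σ x = x ∧ σ y = y := by
    intro σ
    have h1 := hfix σ
    rw [Point.algEquiv_smul_def, Point.map_some, Point.some.injEq] at h1
    exact h1
  exact ⟨Fermat.Agent.Lib.GalQbar.exists_rat_of_fixed x (fun σ => (key σ).1),
    Fermat.Agent.Lib.GalQbar.exists_rat_of_fixed y (fun σ => (key σ).2)⟩

/-- **(REDCOUNT), core.**  A Galois-fixed point of prime order `p ≠ ℓ` in the zero component at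
a place over `ℓ` forces `p ≤ ℓ² + 1`. -/
theorem redCount_core (W : WeierstrassCurve ℤ) (ℓ : ℕ) (hℓ : ℓ.Prime)
    (A : ValuationSubring Qb) (hA : A.LiesOverPrime ℓ) (p : ℕ) (hp : p.Prime) (hpℓ : p ≠ ℓ)
    (Q : ((W.map (Int.castRingHom ℚ))⁄Qb).Point)
    (hfix : ∀ σ : Qb ≃ₐ[ℚ] Qb, σ • Q = Q) (hpQ : p • Q = 0) (hQ0 : Q ≠ 0)
    (hin : W.InZeroComponentAt A Q) : p ≤ ℓ ^ 2 + 1 := by
  classical
  have : Fact p.Prime := ⟨hp⟩
  have hord : addOrderOf Q = p := addOrderOf_eq_prime hpQ hQ0
  obtain ⟨Q', hQ'ord, hred⟩ := exists_red_of_inZero hp hℓ (Ne.symm hpℓ) hA hord hin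
  -- the multiples of `Q` are Galois-fixed
  have hfixj : ∀ (j : ℕ) (σ : Qb ≃ₐ[ℚ] Qb), σ • (j • Q) = j • Q := by
    intro j σ
    rw [Point.algEquiv_smul_def, map_nsmul, ← Point.algEquiv_smul_def, hfix σ]
  -- the coordinates of `j • Q'` lie in the image of `ℤ`
  have hmem : ∀ j : ℕ, j • Q' ≠ 0 →
      ptX (j • Q') ∈ primeImage A ℓ ∧ ptY (j • Q') ∈ primeImage A ℓ := by
    intro j hj
    have hr := hred j
    have hf := hfixj j
    rcases hjQ : j • Q with _ | ⟨x, y, hxy⟩
    · rw [hjQ] at hr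
      exact absurd ((RedTo.eq_zero_iff hr).mpr rfl) hj
    · rcases hjQ' : j • Q' with _ | ⟨c, d, g⟩
      · exact absurd hjQ' hj
      · rw [hjQ, hjQ'] at hr
        obtain ⟨rx, ry⟩ : Rd A (residue A) x c ∧ Rd A (residue A) y d := hr
        rw [hjQ] at hf
        obtain ⟨⟨qx, hqx⟩, ⟨qy, hqy⟩⟩ := rat_of_fixed hf
        refine ⟨?_, ?_⟩
        · rw [ptX_some]
          exact rd_rat_mem_primeImage A hℓ hA qx (hqx ▸ rx)
        · rw [ptY_some]
          exact rd_rat_mem_primeImage A hℓ hA qy (hqy ▸ ry)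
  -- `j • Q' ≠ 0` for `1 ≤ j ≤ p - 1`
  have hne : ∀ j : ℕ, j ∈ Finset.Icc 1 (p - 1) → j • Q' ≠ 0 := by
    intro j hj h0
    rw [Finset.mem_Icc] at hj
    have hdvd : p ∣ j := hQ'ord ▸ addOrderOf_dvd_of_nsmul_eq_zero h0
    have := Nat.le_of_dvd (by omega) hdvd
    have := hp.one_lt
    omega
  -- the injection
  have hinj : Set.InjOn (fun j : ℕ => (ptX (j • Q'), ptY (j • Q')))
      (Finset.Icc 1 (p - 1) : Set ℕ) := by
    intro i hi j hj hij
    have hi' := hne i hi
    have hj' := hne j hj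
    have hi2 := Finset.mem_Icc.mp hi
    have hj2 := Finset.mem_Icc.mp hj
    simp only [Prod.mk.injEq] at hij
    have heq : i • Q' = j • Q' := by
      rcases hiQ : i • Q' with _ | ⟨c, d, g⟩
      · exact absurd hiQ hi'
      · rcases hjQ : j • Q' with _ | ⟨c', d', g'⟩
        · exact absurd hjQ hj'
        · rw [hiQ, hjQ] at hij
          simp only [ptX_some, ptY_some] at hij
          rw [Point.some.injEq]
          exact hij
    have hp1 := hp.one_lt
    -- `i ≡ j mod p`
    rcases Nat.lt_trichotomy i j with hlt | heq' | hgt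
    · exfalso
      have h0 : (j - i) • Q' = 0 := by
        have e : j • Q' = (j - i) • Q' + i • Q' := by
          rw [← add_smul]; congr 1; omega
        rw [e] at heq
        exact (add_eq_right.mp heq.symm)
      have hdvd : p ∣ j - i := hQ'ord ▸ addOrderOf_dvd_of_nsmul_eq_zero h0
      have := Nat.le_of_dvd (by omega) hdvd
      omega
    · exact heq'
    · exfalso
      have h0 : (i - j) • Q' = 0 := by
        have e : i • Q' = (i - j) • Q' + j • Q' := by
          rw [← add_smul]; congr 1; omega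
        rw [e] at heq
        exact (add_eq_right.mp heq)
      have hdvd : p ∣ i - j := hQ'ord ▸ addOrderOf_dvd_of_nsmul_eq_zero h0
      have := Nat.le_of_dvd (by omega) hdvd
      omega
  have hmaps : ∀ j ∈ Finset.Icc 1 (p - 1),
      (fun j : ℕ => (ptX (j • Q'), ptY (j • Q'))) j ∈ primeImage A ℓ ×ˢ primeImage A ℓ := by
    intro j hj
    rw [Finset.mem_product]
    exact hmem j (hne j hj)
  have hcard := Finset.card_le_card_of_injOn _ hmaps hinj
  rw [Nat.card_Icc, Finset.card_product] at hcard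
  have hle := card_primeImage_le A ℓ
  have : (primeImage A ℓ).card * (primeImage A ℓ).card ≤ ℓ * ℓ := Nat.mul_le_mul hle hle
  have hp1 := hp.one_lt
  have e : ℓ ^ 2 = ℓ * ℓ := by ring
  omega

/-- **(REDCOUNT)**: the interface Prop of `S12P/Interfaces20.lean`. -/
theorem redCount : Fermat.Agent.S12P.RedCount :=
  fun W _ ℓ hℓ _ _ A hA p hp hpℓ Q hfix hpQ hQ0 hin =>
    redCount_core W ℓ hℓ A hA p hp hpℓ Q hfix hpQ hQ0 hin

end Fermat.Agent.S12P.RedCount54
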