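/-
S12 cell, brick (S14-APP) of helper48's interface `S12P/Ifc48.lean` (`SplitOfLocal`), seat helper99.

For an integral Weierstrass model `W` (`Δ ≠ 0`) with a rational point `Q` of prime order `p ≥ 3`:
if `E[p]` is unramified outside `p` and, at every place over `p`, the line `⟨Q⟩` has a
decomposition-stable complement, then `⟨Q⟩` has a Galois-stable complement.

Proof: `V := E[p]` (the Prelude carrier `Submodule.torsionBy ℤ (EPt W) p`), `C := span {Q}` is an
admissible extension in the sense of the Prelude (`ExtCitation.IsAdmissibleExtensionCts`):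
`cyclo_quot` is `det = χ` on `E[p]` (main `S58.EpRep.det_eq`) for an endomorphism of a plane with
a fixed vector; then S14 (`ExtVanishingCts`) gives the complement.

The statement of `splitOfLocal` is the body of `Ifc48.SplitOfLocal`, verbatim; this file does not
import the interface file.
-/
import Mathlib
import Fermat.Agent.S14
import Fermat.Agent.S58.EpRep
import Fermat.Agent.S13.OpenStab
import Fermat.Agent.CFT.Red.Cyclo
import Fermat.Agent.ESJ.Rep.Cyclo

set_option autoImplicit false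
set_option linter.style.haveILetI false

namespace Fermat.Agent.S12P.SplitOfLocal99

open WeierstrassCurve Fermat.Agent.S58 Fermat.Agent.S58.EpRep ExtCitation
open scoped WeierstrassCurve.Affine

/-! ### The bridge between the two cyclotomic characters -/

/-- The reduction mod `p` of the `p`-adic cyclotomic character (main's `ESJ.Rep.cyclo`) is the
Prelude's cyclotomic exponent `ExtCitation.cycloExp`. -/
theorem toZMod_cyclo (p : ℕ) [Fact p.Prime] (σ : GQ) :
    PadicInt.toZMod ((Fermat.Agent.ESJ.Rep.cyclo p σ : ℤ_[p]ˣ) : ℤ_[p]) =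
      ((cycloExp p σ : ℕ) : ZMod p) := by
  have hp : p.Prime := Fact.out
  haveI : NeZero (p ^ 1) := ⟨pow_ne_zero _ hp.ne_zero⟩
  obtain ⟨ζ, hζ⟩ := Fermat.Agent.ESJ.Rep.Cyclo.exists_primitiveRoot p 1
  have hζp : IsPrimitiveRoot ζ p := by simpa using hζ
  have h1 := Fermat.Agent.ESJ.Rep.Cyclo.cyclo_spec p 1 σ ζ hζ.pow_eq_one
  have h2 := Fermat.Agent.CFT.Red.cycloExp_spec p σ ζ hζp.pow_eq_one
  have hab : (PadicInt.toZModPow 1
      ((Fermat.Agent.ESJ.Rep.cyclo p σ : ℤ_[p]ˣ) : ℤ_[p])).val ≡ cycloExp p σ [MOD p] := by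
    have hpos : 0 < p := hp.pos
    have e : ∀ k : ℕ, ζ ^ (k % p) = ζ ^ k := fun k => by
      conv_lhs => rw [hζp.eq_orderOf]
      exact pow_mod_orderOf ζ k
    refine hζp.pow_inj (Nat.mod_lt _ hpos) (Nat.mod_lt _ hpos) ?_
    rw [e, e, ← h1, ← h2]
  have hmem : ((Fermat.Agent.ESJ.Rep.cyclo p σ : ℤ_[p]ˣ) : ℤ_[p]) -
      (((PadicInt.toZModPow 1
        ((Fermat.Agent.ESJ.Rep.cyclo p σ : ℤ_[p]ˣ) : ℤ_[p])).val : ℕ) : ℤ_[p]) ∈
      RingHom.ker (PadicInt.toZModPow (p := p) 1) := by
    rw [RingHom.mem_ker, map_sub, map_natCast, ZMod.natCast_zmod_val, sub_self]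
  rw [PadicInt.ker_toZModPow, pow_one, ← PadicInt.maximalIdeal_eq_span_p, ← PadicInt.ker_toZMod,
    RingHom.mem_ker, map_sub, map_natCast, sub_eq_zero] at hmem
  rw [hmem]
  exact (ZMod.natCast_eq_natCast_iff _ _ _).mpr hab

/-! ### Linear algebra of a plane with a fixed vector -/

/-- An endomorphism `f` of a plane fixing a nonzero vector `q` acts on the quotient by `q` as
`det f`. -/
theorem apply_sub_det_smul_mem_span {k V : Type*} [Field k] [AddCommGroup V] [Module k V]
    (hV : Module.finrank k V = 2) (f : V →ₗ[k] V) (q : V) (hq : q ≠ 0) (hfq : f q = q) (x : V) :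
    f x - LinearMap.det f • x ∈ Submodule.span k {q} := by
  classical
  by_cases hx0 : ∃ x₀ : V, x₀ ∉ Submodule.span k {q}
  swap
  · rw [not_exists] at hx0
    exact not_not.mp (hx0 _)
  obtain ⟨x₀, hx₀⟩ := hx0
  have hli : LinearIndependent k ![q, x₀] := by
    rw [LinearIndependent.pair_iff' hq]
    intro a ha
    exact hx₀ (ha ▸ Submodule.smul_mem _ a (Submodule.mem_span_singleton_self q))
  let b : Module.Basis (Fin 2) k V :=
    basisOfLinearIndependentOfCardEqFinrank hli (by simp [hV])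
  have hb0 : b 0 = q := by simp [b]
  have hb1 : b 1 = x₀ := by simp [b]
  have hrq : b.repr q = Finsupp.single 0 1 := by rw [← hb0]; exact b.repr_self 0
  have hdet : LinearMap.det f = b.repr (f x₀) 1 := by
    rw [← LinearMap.det_toMatrix b f, Matrix.det_fin_two, LinearMap.toMatrix_apply,
      LinearMap.toMatrix_apply, LinearMap.toMatrix_apply, LinearMap.toMatrix_apply, hb0, hb1, hfq,
      hrq]
    simp
  have hfx₀ : f x₀ = b.repr (f x₀) 0 • q + b.repr (f x₀) 1 • x₀ := by
    have h := b.sum_repr (f x₀)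
    rw [Fin.sum_univ_two, hb0, hb1] at h
    exact h.symm
  have hx : x = b.repr x 0 • q + b.repr x 1 • x₀ := by
    have h := b.sum_repr x
    rw [Fin.sum_univ_two, hb0, hb1] at h
    exact h.symm
  have key : f x - LinearMap.det f • x =
      (b.repr x 0 * (1 - LinearMap.det f) + b.repr x 1 * b.repr (f x₀) 0) • q := by
    conv_lhs => rw [hx]
    rw [map_add, map_smul, map_smul, hfq]
    conv_lhs => rw [hfx₀]
    rw [← hdet]
    module
  rw [key]
  exact Submodule.smul_mem _ _ (Submodule.mem_span_singleton_self q)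

/-! ### The brick -/

/-- **(S14-APP)**, with the Ext-vanishing statement of S14 as a hypothesis. -/
theorem splitOfLocal_of (p : ℕ) [Fact p.Prime] (hS14 : ExtCitation.ExtVanishingCts p)
    (W : WeierstrassCurve ℤ) (hΔ : W.Δ ≠ 0)
    (Q : EPt W) (hQfix : ∀ σ : GQ, σ • Q = Q) (hQord : addOrderOf Q = p)
    (hunr : ∀ ℓ : ℕ, ℓ.Prime → ℓ ≠ p → ∀ A : ValuationSubring Qb, A.LiesOverPrime ℓ →
      ∀ τ ∈ A.inertiaSubgroupIn ℚ, ∀ x : EPt W, p • x = 0 → τ • x = x)
    (hloc : ∀ A : ValuationSubring Qb, A.LiesOverPrime p →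
      ∃ L : AddSubgroup (EPt W), Nat.card L = p ∧ Q ∉ L ∧
        ∀ σ ∈ A.decompositionSubgroup ℚ, ∀ x ∈ L, σ • x ∈ L) :
    ∃ K : AddSubgroup (EPt W), Nat.card K = p ∧ Q ∉ K ∧ ∀ σ : GQ, ∀ x ∈ K, σ • x ∈ K := by
  have hp : p.Prime := Fact.out
  have hfinrank : Module.finrank (ZMod p) (Ep W p) = 2 := finrank_torsion hΔ
  haveI : Module.Finite (ZMod p) (Ep W p) := finite_torsion hΔ
  haveI : Finite (Ep W p) := Module.finite_of_finite (ZMod p)
  have hcardV : Nat.card (Ep W p) = p ^ 2 := by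
    rw [Module.natCard_eq_pow_finrank (K := ZMod p), hfinrank, Nat.card_zmod]
  have hpQ : p • Q = 0 := by rw [← hQord]; exact addOrderOf_nsmul_eq_zero Q
  let q : Ep W p := ⟨Q, by
    rw [Submodule.mem_torsionBy_iff, Nat.cast_smul_eq_nsmul]; exact hpQ⟩
  have hq0 : q ≠ 0 := by
    intro h
    have hQ0 : Q = 0 := congrArg Subtype.val h
    rw [hQ0, addOrderOf_zero] at hQord
    exact hp.one_lt.ne hQord
  have hqfix : ∀ σ : GQ, σ • q = q := fun σ => Subtype.ext (hQfix σ)
  let C : Submodule (ZMod p) (Ep W p) := Submodule.span (ZMod p) {q}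
  have hqC : q ∈ C := Submodule.mem_span_singleton_self q
  have hCfix : ∀ σ : GQ, ∀ x ∈ C, σ • x = x := by
    intro σ x hx
    obtain ⟨c, rfl⟩ := Submodule.mem_span_singleton.mp hx
    rw [smul_comm, hqfix]
  have hfinrankC : Module.finrank (ZMod p) C = 1 := finrank_span_singleton hq0
  have hcardC : Nat.card C = p := by
    rw [Module.natCard_eq_pow_finrank (K := ZMod p), hfinrankC, Nat.card_zmod, pow_one]
  -- the admissible extension
  have hadm : IsAdmissibleExtensionCts p (Ep W p) C := by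
    refine ⟨⟨?_, hCfix, ?_, hcardC, hcardV, ?_, ?_⟩, ?_⟩
    · intro σ x hx
      rw [hCfix σ x hx]
      exact hx
    · intro σ x
      have h := apply_sub_det_smul_mem_span hfinrank (rhoE W p σ) q hq0 (hqfix σ) x
      rw [det_eq hΔ σ, toZMod_cyclo p σ] at h
      exact h
    · intro ℓ hℓ hℓp A hA σ hσ x
      apply Subtype.ext
      refine hunr ℓ hℓ hℓp A hA σ hσ (x : EPt W) ?_
      have hx := x.2
      rwa [Submodule.mem_torsionBy_iff, Nat.cast_smul_eq_nsmul] at hx
    · intro A hA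
      obtain ⟨L, hLcard, hQL, hLstab⟩ := hloc A hA
      haveI : Finite L := Nat.finite_of_card_ne_zero (by rw [hLcard]; exact hp.ne_zero)
      have hLtors : ∀ y ∈ L, p • y = 0 := by
        intro y hy
        have h := card_nsmul_eq_zero' (G := L) (x := ⟨y, hy⟩)
        rw [hLcard] at h
        exact congrArg Subtype.val h
      let C' : Submodule (ZMod p) (Ep W p) := AddSubgroup.toZModSubmodule p
        (L.comap (Submodule.torsionBy ℤ (EPt W) p).subtype.toAddMonoidHom)
      have hmemC' : ∀ x : Ep W p, x ∈ C' ↔ (x : EPt W) ∈ L := fun x => Iff.rfl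
      have hdisj : C ⊓ C' = ⊥ := by
        rw [Submodule.eq_bot_iff]
        intro x hx
        obtain ⟨hxC, hxC'⟩ := Submodule.mem_inf.mp hx
        obtain ⟨c, rfl⟩ := Submodule.mem_span_singleton.mp hxC
        by_cases hc : c = 0
        · rw [hc, zero_smul]
        · exfalso
          apply hQL
          have h1 : c⁻¹ • (c • q) ∈ C' := Submodule.smul_mem _ _ hxC'
          rw [smul_smul, inv_mul_cancel₀ hc, one_smul] at h1
          exact (hmemC' q).mp h1
      -- a nonzero element of `C'`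
      have hcardC' : Nat.card C' = p := by
        refine (Nat.card_congr ⟨fun x => (⟨(x.1 : EPt W), (hmemC' x.1).mp x.2⟩ : L),
          fun y => ⟨⟨y.1, by
            rw [Submodule.mem_torsionBy_iff, Nat.cast_smul_eq_nsmul]
            exact hLtors y.1 y.2⟩, y.2⟩, fun x => rfl, fun y => rfl⟩).trans hLcard
      have hfinrankC' : Module.finrank (ZMod p) C' = 1 := by
        have h := Module.natCard_eq_pow_finrank (K := ZMod p) (V := C')
        rw [hcardC', Nat.card_zmod] at h
        have h' : p ^ 1 = p ^ Module.finrank (ZMod p) C' := by rw [pow_one]; exact h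
        exact (Nat.pow_right_injective hp.two_le h').symm
      refine ⟨C', ?_, ?_⟩
      · intro σ hσ x hx
        exact (hmemC' _).mpr (hLstab σ hσ _ ((hmemC' x).mp hx))
      · refine IsCompl.of_eq hdisj ?_
        apply Submodule.eq_top_of_finrank_eq
        have h := Submodule.finrank_sup_add_finrank_inf_eq C C'
        rw [hdisj, finrank_bot, add_zero, hfinrankC, hfinrankC'] at h
        rw [h, hfinrank]
    · exact Fermat.Agent.S13.OpenStab.isOpen_fixing_torsion (W' := (EQ W).toAffine) p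
  -- S14
  obtain ⟨C', hC'stab, hcompl⟩ := hS14 (Ep W p) C hadm
  have hfinrankC' : Module.finrank (ZMod p) C' = 1 := by
    have h := Submodule.finrank_add_eq_of_isCompl hcompl
    rw [hfinrankC, hfinrank] at h
    omega
  have hcardC' : Nat.card C' = p := by
    rw [Module.natCard_eq_pow_finrank (K := ZMod p), hfinrankC', Nat.card_zmod, pow_one]
  refine ⟨C'.toAddSubgroup.map (Submodule.torsionBy ℤ (EPt W) p).subtype.toAddMonoidHom,
    ?_, ?_, ?_⟩
  · refine (Nat.card_congr (Equiv.ofBijective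
      (fun x : C' => (⟨(x.1 : EPt W), ⟨x.1, x.2, rfl⟩⟩ :
        C'.toAddSubgroup.map (Submodule.torsionBy ℤ (EPt W) p).subtype.toAddMonoidHom))
      ⟨?_, ?_⟩)).symm.trans hcardC'
    · intro x y hxy
      have h := congrArg Subtype.val hxy
      exact Subtype.ext (Subtype.ext h)
    · rintro ⟨_, x, hx, rfl⟩
      exact ⟨⟨x, hx⟩, rfl⟩
  · rintro ⟨x, hx, hxQ⟩
    have hxq : x = q := Subtype.ext hxQ
    have hq' : q ∈ C ⊓ C' := Submodule.mem_inf.mpr ⟨hqC, hxq ▸ hx⟩
    rw [hcompl.inf_eq_bot] at hq'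
    exact hq0 ((Submodule.mem_bot _).mp hq')
  · rintro σ _ ⟨x, hx, rfl⟩
    exact ⟨σ • x, hC'stab σ x hx, rfl⟩

/-- **(S14-APP)** = the body of `Ifc48.SplitOfLocal`, verbatim. -/
theorem splitOfLocal :
    ∀ (p : ℕ), p.Prime → 3 ≤ p → ∀ (W : WeierstrassCurve ℤ), W.Δ ≠ 0 →
      ∀ Q : EPt W, (∀ σ : GQ, σ • Q = Q) → addOrderOf Q = p →
      (∀ ℓ : ℕ, ℓ.Prime → ℓ ≠ p → ∀ A : ValuationSubring Qb, A.LiesOverPrime ℓ →
        ∀ τ ∈ A.inertiaSubgroupIn ℚ, ∀ x : EPt W, p • x = 0 → τ • x = x) →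
      (∀ A : ValuationSubring Qb, A.LiesOverPrime p →
        ∃ L : AddSubgroup (EPt W), Nat.card L = p ∧ Q ∉ L ∧
          ∀ σ ∈ A.decompositionSubgroup ℚ, ∀ x ∈ L, σ • x ∈ L) →
      ∃ K : AddSubgroup (EPt W), Nat.card K = p ∧ Q ∉ K ∧ ∀ σ : GQ, ∀ x ∈ K, σ • x ∈ K := by
  intro p hp h3 W hΔ Q hQfix hQord hunr hloc
  haveI : Fact p.Prime := ⟨hp⟩
  exact splitOfLocal_of p (Fermat.Agent.S14.result h3) W hΔ Q hQfix hQord hunr hloc

end Fermat.Agent.S12P.SplitOfLocal99
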