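/-
S12 project, interfaces, second file (helper20): the three Props the top REALLY consumes in place
of `Step` / `Mink`, plus the Frey input.

* `StepLite`: `Step` WITHOUT any statement about zero components of points — the descent never
  needs to know whether a step is toric (frozen S15 is applied afresh at every stage), only that
  good primes stay good and multiplicative primes stay multiplicative.
* `MinkN`: `Mink` for NORMAL open subgroups (= main `Lib.InertiaLift.eq_top_of_inertia_le`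
  verbatim); the subgroup used by the top is a kernel.
* `FreySS`: the integral Frey model has `Δ ≠ 0` and is semistable
  (main `Lib/Frey/Semistable`: `freyCurveInt_Δ_ne_zero`, `freyCurveInt_isSemistableModel`).
-/
import Fermat.Agent.S12P.Interfaces20

set_option autoImplicit false
open WeierstrassCurve WeierstrassCurve.Affine WeierstrassCurve.Affine.Point

namespace Fermat.Agent.S12P

/-- **(STEP-LITE)** one Vélu `p`-isogeny over `ℤ`: quotient of an integral curve by a
Galois-stable subgroup `M` of order `p` of its `ℚ̄`-points: a Galois-equivariant homomorphism of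
`ℚ̄`-points with kernel `M` onto (into) the points of an integral curve with `Δ ≠ 0`, such that at
every prime `ℓ ≠ p` good reduction stays good and multiplicative reduction stays
multiplicative. -/
def StepLite : Prop :=
  ∀ p : ℕ, p.Prime → 5 ≤ p → ∀ W : WeierstrassCurve ℤ, W.Δ ≠ 0 →
    ∀ M : AddSubgroup (Pt W), Nat.card M = p → (∀ σ : GQ, ∀ m ∈ M, σ • m ∈ M) →
    ∃ (W' : WeierstrassCurve ℤ) (φ : Pt W →+ Pt W'), W'.Δ ≠ 0 ∧ φ.ker = M ∧
      (∀ (σ : GQ) (P : Pt W), φ (σ • P) = σ • φ P) ∧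
      ∀ ℓ : ℕ, ℓ.Prime → ℓ ≠ p →
        (¬ (ℓ : ℤ) ∣ W.Δ → ¬ (ℓ : ℤ) ∣ W'.Δ) ∧
        ((ℓ : ℤ) ∣ W.Δ → ¬ (ℓ : ℤ) ∣ W.c₄ → (ℓ : ℤ) ∣ W'.Δ ∧ ¬ (ℓ : ℤ) ∣ W'.c₄)

/-- **(MINK-N)** a NORMAL open subgroup of `Gal(ℚ̄/ℚ)` containing every inertia group is
everything. -/
def MinkN : Prop :=
  ∀ H : Subgroup GQ, H.Normal → IsOpen (H : Set GQ) →
    (∀ ℓ : ℕ, ℓ.Prime → ∀ A : ValuationSubring Qb, A.LiesOverPrime ℓ →
      ∀ σ ∈ A.inertiaSubgroupIn ℚ, σ ∈ H) → H = ⊤

/-- **(FREY-SS)** the integral Frey model is a semistable model with nonzero discriminant. -/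
def FreySS : Prop :=
  ∀ P : FreyPackage, P.freyCurveInt.Δ ≠ 0 ∧
    ∀ ℓ : ℕ, ℓ.Prime → (ℓ : ℤ) ∣ P.freyCurveInt.Δ → ¬ (ℓ : ℤ) ∣ P.freyCurveInt.c₄

/-- `Mink` implies `MinkN`. -/
theorem minkN_of_mink (h : Mink) : MinkN := fun H _ hopen hin => h H hopen hin

end Fermat.Agent.S12P
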