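/-
S12 cell (helper17): `StepLite` — one Vélu `p`-isogeny over `ℤ` with the reduction dictionary in
VALUATION form only — from the rational Vélu isogeny `VeluQ` (the (Q)/ALG brick).

`StepLite` is the interface Prop `Step` of `S12P/Interfaces20.lean` WITHOUT the map clause of the
non-toric case (which the descent never uses: every later stage only needs that good primes stay
good and multiplicative primes stay multiplicative).  No point of the quotient curve is ever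
reduced here: everything is a statement about the valuations of `Δ` and `c₄` of the Vélu model
`V = ⟨a₁, a₂, a₃, a₄ - 5t, a₆ - b₂t - 7w⟩`.

* good `ℓ ≠ p` : `Δ(V) · veluPsi⁴ = Δ^p` with both factors integral at `ℓ`;
* multiplicative `ℓ ≠ p`, kernel in the zero component : main's `Velu89.velu_of_inZero`;
* multiplicative `ℓ ≠ p`, kernel outside : every nonzero kernel point reduces to the singular
  point, so `t, w ∈ 𝔪` and `V ≡ W` modulo `𝔪`.

The integral model is the scaling of `V` by `d = den t · den w` (prime to every `ℓ ≠ p`).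
-/
import Mathlib
import Fermat.Prelude.Def_EllipticCurve_ZeroComponentAt
import Fermat.Prelude.Def_FLTPrelim_GaloisRep
import Fermat.Prelude.Def_FLTPrelim_Ramification
import Fermat.Agent.S15P.M2.Defs89
import Fermat.Agent.S15P.M2.NodalRed69
import Fermat.Agent.S15P.M2.Velu89
import Fermat.Agent.S05.FreyTransfer
import Fermat.Agent.Lib.FrobeniusExists

set_option autoImplicit false
set_option linter.unusedSectionVars false
set_option linter.style.haveILetI false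

namespace Fermat.Agent.S12P.StepLite17

open WeierstrassCurve WeierstrassCurve.Affine IsLocalRing
open Fermat.Agent.S58.Red Fermat.Agent.S15P.M2 Fermat.Agent.S15P.M2.NodalRed69
  Fermat.Agent.S15P.M2.Velu89

/-- `ℚ̄`. -/
abbrev Qb : Type := AlgebraicClosure ℚ

/-- `Gal(ℚ̄/ℚ)`. -/
abbrev GQ : Type := Qb ≃ₐ[ℚ] Qb

/-- The `ℚ̄`-points of an integral Weierstrass curve (the point type of the frozen S15). -/
abbrev Pt (W : WeierstrassCurve ℤ) : Type := ((W.map (Int.castRingHom ℚ))⁄Qb).Point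

/-- The Vélu model of the quotient, in general Weierstrass form. -/
def veluCurve {R : Type*} [CommRing R] (W : WeierstrassCurve R) (t w : R) : WeierstrassCurve R :=
  ⟨W.a₁, W.a₂, W.a₃, W.a₄ - 5 * t, W.a₆ - W.b₂ * t - 7 * w⟩

theorem veluCurve_zero {R : Type*} [CommRing R] (W : WeierstrassCurve R) :
    veluCurve W 0 0 = W := by
  ext <;> simp [veluCurve]

theorem veluCurve_c₄ {R : Type*} [CommRing R] (W : WeierstrassCurve R) (t w : R) :
    (veluCurve W t w).c₄ = W.c₄ + 240 * t := by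
  simp only [veluCurve, WeierstrassCurve.c₄, WeierstrassCurve.b₂, WeierstrassCurve.b₄]
  ring

/-- **(Q)/ALG**: the Vélu isogeny of a rational curve by a Galois-stable cyclic subgroup of odd
prime order, on `ℚ̄`-points (literal of helper53's report #5187). -/
def VeluQ : Prop :=
  ∀ (W : WeierstrassCurve ℚ), W.Δ ≠ 0 → ∀ p : ℕ, p.Prime → p ≠ 2 →
    ∀ T : (W⁄Qb).Point, addOrderOf T = p →
    (∀ σ : GQ, σ • T ∈ AddSubgroup.zmultiples T) →
    ∃ (t w : ℚ) (φ : (W⁄Qb).Point →+ ((veluCurve W t w)⁄Qb).Point),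
      (t : Qb) = (∑ k ∈ Finset.Ico 1 p, tq (k • T)) / 2 ∧
      (w : Qb) = (∑ k ∈ Finset.Ico 1 p, (psi2 (k • T) ^ 2 + ptX (k • T) * tq (k • T))) / 2 ∧
      (veluCurve W t w).Δ ≠ 0 ∧
      (((veluCurve W t w).Δ : ℚ) : Qb) * veluPsi p T ^ 4 = ((W.Δ : ℚ) : Qb) ^ p ∧
      (∀ (σ : GQ) P, φ (σ • P) = σ • φ P) ∧ (∀ P, φ P = 0 ↔ P ∈ AddSubgroup.zmultiples T) ∧
      ∀ P, P ∉ AddSubgroup.zmultiples T →
        ptX (φ P) = ptX P + ∑ k ∈ Finset.Ico 1 p, (ptX (P + k • T) - ptX (k • T)) ∧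
        ptY (φ P) = ptY P + ∑ k ∈ Finset.Ico 1 p, (ptY (P + k • T) - ptY (k • T))

/-- **(STEP), valuation form**: one Vélu `p`-isogeny over `ℤ`; good primes `ℓ ≠ p` stay good,
multiplicative primes `ℓ ≠ p` stay multiplicative. -/
def StepLite : Prop :=
  ∀ p : ℕ, p.Prime → 5 ≤ p → ∀ W : WeierstrassCurve ℤ, W.Δ ≠ 0 →
    ∀ M : AddSubgroup (Pt W), Nat.card M = p → (∀ σ : GQ, ∀ m ∈ M, σ • m ∈ M) →
    ∃ (W' : WeierstrassCurve ℤ) (φ : Pt W →+ Pt W'), W'.Δ ≠ 0 ∧ φ.ker = M ∧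
      (∀ (σ : GQ) (P : Pt W), φ (σ • P) = σ • φ P) ∧
      ∀ ℓ : ℕ, ℓ.Prime → ℓ ≠ p →
        (¬ (ℓ : ℤ) ∣ W.Δ → ¬ (ℓ : ℤ) ∣ W'.Δ) ∧
        ((ℓ : ℤ) ∣ W.Δ → ¬ (ℓ : ℤ) ∣ W.c₄ → (ℓ : ℤ) ∣ W'.Δ ∧ ¬ (ℓ : ℤ) ∣ W'.c₄)

/-! ### Generalities -/

/-- A subgroup of prime order is generated by a point of that order. -/
theorem exists_generator {G : Type*} [AddCommGroup G] (M : AddSubgroup G) {p : ℕ} (hp : p.Prime)
    (hM : Nat.card M = p) : ∃ T : G, addOrderOf T = p ∧ M = AddSubgroup.zmultiples T := by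
  have hfin : Finite M := Nat.finite_of_card_ne_zero (by rw [hM]; exact hp.ne_zero)
  have hnt : Nontrivial M := by
    rw [← Finite.one_lt_card_iff_nontrivial, hM]
    exact hp.one_lt
  obtain ⟨T, hT⟩ := exists_ne (0 : M)
  have hTG : (T : G) ≠ 0 := fun h => hT (Subtype.ext h)
  have hord : addOrderOf (T : G) = p := by
    have h1 : addOrderOf T ∣ p := hM ▸ addOrderOf_dvd_natCard T
    rw [AddSubgroup.addOrderOf_coe]
    rcases (Nat.dvd_prime hp).mp h1 with h | h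
    · exact absurd (AddMonoid.addOrderOf_eq_one_iff.mp h) hT
    · exact h
  refine ⟨T, hord, ?_⟩
  symm
  apply AddSubgroup.eq_of_le_of_card_ge
  · rw [AddSubgroup.zmultiples_le]
    exact T.2
  · rw [hM, Nat.card_zmultiples, hord]

section Val

variable {A : ValuationSubring Qb} {ℓ : ℕ}

/-- An integer divisible by `ℓ` has valuation `< 1` at a valuation ring over `ℓ`. -/
theorem val_lt_one_of_dvd (hℓ : ℓ.Prime) (hA : A.LiesOverPrime ℓ) {n : ℤ} (h : (ℓ : ℤ) ∣ n) :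
    A.valuation ((n : ℚ) : Qb) < 1 := by
  have : CharP (ResidueField A) ℓ :=
    Fermat.Agent.ESJ.Cong.ConjAnalytic.charP_residueField_of_liesOver A hℓ hA
  have r : Rd A (residue A) ((n : ℤ) : Qb) ((n : ℤ) : ResidueField A) := rd_intCast A (residue A) n
  rw [(CharP.intCast_eq_zero_iff (ResidueField A) ℓ n).mpr h] at r
  have := val_lt_one_of_rd r
  simpa using this

/-- An integer prime to `ℓ` has valuation `1` at a valuation ring over `ℓ`. -/
theorem val_eq_one_of_not_dvd (hℓ : ℓ.Prime) (hA : A.LiesOverPrime ℓ) {n : ℤ}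
    (h : ¬ (ℓ : ℤ) ∣ n) : A.valuation ((n : ℚ) : Qb) = 1 := by
  have : CharP (ResidueField A) ℓ :=
    Fermat.Agent.ESJ.Cong.ConjAnalytic.charP_residueField_of_liesOver A hℓ hA
  have r : Rd A (residue A) ((n : ℤ) : Qb) ((n : ℤ) : ResidueField A) := rd_intCast A (residue A) n
  have := val_eq_one_of_rd r (fun h0 => h ((CharP.intCast_eq_zero_iff (ResidueField A) ℓ n).mp h0))
  simpa using this

theorem dvd_of_val_lt_one (hℓ : ℓ.Prime) (hA : A.LiesOverPrime ℓ) {n : ℤ}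
    (h : A.valuation ((n : ℚ) : Qb) < 1) : (ℓ : ℤ) ∣ n := by
  by_contra hn
  exact absurd (val_eq_one_of_not_dvd hℓ hA hn) h.ne

theorem not_dvd_of_val_eq_one (hℓ : ℓ.Prime) (hA : A.LiesOverPrime ℓ) {n : ℤ}
    (h : A.valuation ((n : ℚ) : Qb) = 1) : ¬ (ℓ : ℤ) ∣ n := fun hn =>
  absurd h (val_lt_one_of_dvd hℓ hA hn).ne

/-- A rational number which is integral at a valuation ring over `ℓ` has denominator prime to
`ℓ`. -/
theorem not_dvd_den_of_mem (hℓ : ℓ.Prime) (hA : A.LiesOverPrime ℓ) {r : ℚ}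
    (h : ((r : ℚ) : Qb) ∈ A) : ¬ ℓ ∣ r.den := by
  intro hd
  have hd' : (ℓ : ℤ) ∣ (r.den : ℤ) := Int.natCast_dvd_natCast.mpr hd
  have h1 : A.valuation (((r.den : ℤ) : ℚ) : Qb) < 1 := val_lt_one_of_dvd hℓ hA hd'
  have h2 : A.valuation ((r : ℚ) : Qb) ≤ 1 := (A.valuation_le_one_iff _).mpr h
  have h3 : (((r.num : ℤ) : ℚ) : Qb) = ((r : ℚ) : Qb) * (((r.den : ℤ) : ℚ) : Qb) := by
    rw [← Rat.cast_mul]
    congr 1
    have := Rat.mul_den_eq_num r
    push_cast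
    exact this.symm
  have h4 : A.valuation (((r.num : ℤ) : ℚ) : Qb) < 1 := by
    rw [h3, map_mul]
    calc A.valuation ((r : ℚ) : Qb) * A.valuation (((r.den : ℤ) : ℚ) : Qb)
        ≤ 1 * A.valuation (((r.den : ℤ) : ℚ) : Qb) := mul_le_mul_left h2 _
      _ < 1 := by rw [one_mul]; exact h1
  have h5 : (ℓ : ℤ) ∣ r.num := dvd_of_val_lt_one hℓ hA h4
  have h6 : ℓ ∣ r.num.natAbs := Int.natCast_dvd.mp h5
  have h7 : ℓ ∣ Nat.gcd r.num.natAbs r.den := Nat.dvd_gcd h6 hd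
  rw [r.reduced] at h7
  exact hℓ.one_lt.ne' (Nat.dvd_one.mp h7)

end Val

/-! ### Pairing `k ↔ p - k` -/

theorem sum_Ico_pair {R : Type*} [CommRing R] {p : ℕ} (hp : Odd p) (g : ℕ → R)
    (hg : ∀ k, 1 ≤ k → k < p → g (p - k) = g k) :
    ∑ k ∈ Finset.Ico 1 p, g k = 2 * ∑ k ∈ Finset.Ico 1 ((p + 1) / 2), g k := by
  obtain ⟨m, rfl⟩ := hp
  have h : (2 * m + 1 + 1) / 2 = m + 1 := by omega
  rw [h]
  have e1 : ∑ k ∈ Finset.Ico 1 (2 * m + 1), g k =
      ∑ k ∈ Finset.Ico 1 (m + 1), g k + ∑ k ∈ Finset.Ico (m + 1) (2 * m + 1), g k :=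
    (Finset.sum_Ico_consecutive g (by omega) (by omega)).symm
  have e2 : ∑ k ∈ Finset.Ico (m + 1) (2 * m + 1), g k =
      ∑ k ∈ Finset.Ico 1 (m + 1), g (2 * m + 1 - k) := by
    have h3 := Finset.sum_Ico_reflect g 1 (m := m + 1) (n := 2 * m + 1) (by omega)
    rw [h3]
    have h1 : 2 * m + 1 + 1 - (m + 1) = m + 1 := by omega
    have h2 : 2 * m + 1 + 1 - 1 = 2 * m + 1 := by omega
    rw [h1, h2]
  have e3 : ∑ k ∈ Finset.Ico 1 (m + 1), g (2 * m + 1 - k) = ∑ k ∈ Finset.Ico 1 (m + 1), g k := by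
    apply Finset.sum_congr rfl
    intro k hk
    rw [Finset.mem_Ico] at hk
    exact hg k hk.1 (by omega)
  rw [e1, e2, e3]
  ring

section Sym

variable {F : Type*} [Field F] [DecidableEq F] {W : Affine F}

theorem ptX_neg (P : W.Point) : ptX (-P) = ptX P := by
  rcases P with _ | ⟨x, y, h⟩
  · rfl
  · rfl

theorem tq_neg (P : W.Point) : tq (-P) = tq P := by
  unfold tq
  rw [ptX_neg]

theorem psi2_neg_sq (P : W.Point) : psi2 (-P) ^ 2 = psi2 P ^ 2 := by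
  rcases P with _ | ⟨x, y, h⟩
  · rfl
  · rw [Point.neg_some]
    simp only [psi2, ptX_some, ptY_some, Affine.negY]
    ring

theorem sub_nsmul_eq_neg {p : ℕ} {T : W.Point} (hT : p • T = 0) {k : ℕ} (hk : k < p) :
    (p - k) • T = -(k • T) := by
  apply eq_neg_of_add_eq_zero_left
  rw [← add_nsmul, Nat.sub_add_cancel hk.le, hT]

theorem half_tq (h2 : (2 : F) ≠ 0) {p : ℕ} (hp : Odd p) {T : W.Point} (hT : p • T = 0) :
    (∑ k ∈ Finset.Ico 1 p, tq (k • T)) / 2 = ∑ k ∈ Finset.Ico 1 ((p + 1) / 2), tq (k • T) := by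
  rw [sum_Ico_pair hp (fun k => tq (k • T))
    (fun k _ hk => by simp only [sub_nsmul_eq_neg hT hk, tq_neg])]
  field_simp

theorem half_w (h2 : (2 : F) ≠ 0) {p : ℕ} (hp : Odd p) {T : W.Point} (hT : p • T = 0) :
    (∑ k ∈ Finset.Ico 1 p, (psi2 (k • T) ^ 2 + ptX (k • T) * tq (k • T))) / 2 =
      ∑ k ∈ Finset.Ico 1 ((p + 1) / 2), (psi2 (k • T) ^ 2 + ptX (k • T) * tq (k • T)) := by
  rw [sum_Ico_pair hp (fun k => psi2 (k • T) ^ 2 + ptX (k • T) * tq (k • T))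
    (fun k _ hk => by simp only [sub_nsmul_eq_neg hT hk, tq_neg, psi2_neg_sq, ptX_neg])]
  field_simp

end Sym

/-! ### Scaling -/

theorem scale_invariants {R : Type*} [CommRing R] (d : R) (W W' : WeierstrassCurve R)
    (h₁ : W'.a₁ = d * W.a₁) (h₂ : W'.a₂ = d ^ 2 * W.a₂) (h₃ : W'.a₃ = d ^ 3 * W.a₃)
    (h₄ : W'.a₄ = d ^ 4 * W.a₄) (h₆ : W'.a₆ = d ^ 6 * W.a₆) :
    W'.Δ = d ^ 12 * W.Δ ∧ W'.c₄ = d ^ 4 * W.c₄ := by
  constructor
  · simp only [WeierstrassCurve.Δ, WeierstrassCurve.b₂, WeierstrassCurve.b₄, WeierstrassCurve.b₆,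
      WeierstrassCurve.b₈, h₁, h₂, h₃, h₄, h₆]
    ring
  · simp only [WeierstrassCurve.c₄, WeierstrassCurve.b₂, WeierstrassCurve.b₄, h₁, h₂, h₃, h₄]
    ring

/-- The change of variables `(X, Y) ↦ (d² X, d³ Y)`. -/
def scaleVC (d : ℚ) (hd : d ≠ 0) : VariableChange ℚ := ⟨Units.mk0 d hd, 0, 0, 0⟩

theorem scaleVC_smul (d : ℚ) (hd : d ≠ 0) (W W' : WeierstrassCurve ℚ)
    (h₁ : W'.a₁ = d * W.a₁) (h₂ : W'.a₂ = d ^ 2 * W.a₂) (h₃ : W'.a₃ = d ^ 3 * W.a₃)
    (h₄ : W'.a₄ = d ^ 4 * W.a₄) (h₆ : W'.a₆ = d ^ 6 * W.a₆) : scaleVC d hd • W' = W := by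
  ext
  · simp only [variableChange_a₁, scaleVC, Units.val_inv_eq_inv_val, Units.val_mk0, h₁]
    field_simp
    ring
  · simp only [variableChange_a₂, scaleVC, Units.val_inv_eq_inv_val, Units.val_mk0, h₁, h₂]
    field_simp
    ring
  · simp only [variableChange_a₃, scaleVC, Units.val_inv_eq_inv_val, Units.val_mk0, h₁, h₃]
    field_simp
    ring
  · simp only [variableChange_a₄, scaleVC, Units.val_inv_eq_inv_val, Units.val_mk0, h₁, h₂, h₃,
      h₄]
    field_simp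
    ring
  · simp only [variableChange_a₆, scaleVC, Units.val_inv_eq_inv_val, Units.val_mk0, h₁, h₂, h₃,
      h₄, h₆]
    field_simp
    ring

/-! ### Reduction of the invariants -/

section Gen

variable {K : Type*} [Field K] [DecidableEq K] {A : ValuationSubring K}
  {k : Type*} [Field k] [DecidableEq k] {π : A →+* k}
  {WK : Affine K} {Wk : Affine k}

theorem model_Δ (M : Model A π WK Wk) : Rd A π WK.Δ Wk.Δ := by
  have b2 := Model.b₂ M
  have b4 := Model.b₄ M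
  have b6 : Rd A π WK.b₆ Wk.b₆ := (M.a₃.pow 2).add ((rd_ofNat 4).mul M.a₆)
  have b8 : Rd A π WK.b₈ Wk.b₈ :=
    (((((M.a₁.pow 2).mul M.a₆).add (((rd_ofNat 4).mul M.a₂).mul M.a₆)).sub
      ((M.a₁.mul M.a₃).mul M.a₄)).add (M.a₂.mul (M.a₃.pow 2))).sub (M.a₄.pow 2)
  exact (((((b2.pow 2).neg.mul b8).sub ((rd_ofNat 8).mul (b4.pow 3))).sub
    ((rd_ofNat 27).mul (b6.pow 2))).add ((((rd_ofNat 9).mul b2).mul b4).mul b6))

end Gen

/-! ### The Vélu quantities at a valuation ring over `ℓ ≠ p` -/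

section Arith

variable {W : WeierstrassCurve ℤ} {A : ValuationSubring Qb} {p ℓ : ℕ}

/-- Torsion points of order `p ≠ ℓ` have `A`-integral coordinates (any reduction type). -/
theorem coords_mem (hp : p.Prime) (hℓ : ℓ.Prime) (hℓp : ℓ ≠ p) (hA : A.LiesOverPrime ℓ)
    {T : Pt W} (hT : p • T = 0) (j : ℕ) : ptX (j • T) ∈ A ∧ ptY (j • T) ∈ A := by
  classical
  obtain ⟨-, hmem⟩ := mem_torsSub_of_order (W := W) hp hℓ hℓp hA hT
  have hj := (torsSub (ResidueField A) _).nsmul_mem hmem j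
  have hint := isInt_of_mem_torsSub (model_res W A) hj
  rcases hjT : j • T with _ | ⟨x, y, h⟩
  · exact ⟨A.zero_mem, A.zero_mem⟩
  · rw [hjT] at hint
    exact hint

theorem tq_mem {P : Pt W} (hx : ptX P ∈ A) : tq P ∈ A := by
  classical
  have M := model_res W A
  have r6 : Rd A (residue A) (6 : Qb) 6 := rd_ofNat 6
  have rx : Rd A (residue A) (ptX P) _ := rd_of_mem hx
  exact (((r6.mul (rx.pow 2)).add ((Model.b₂ M).mul rx)).add (Model.b₄ M)).mem

theorem psi2_mem {P : Pt W} (hx : ptX P ∈ A) (hy : ptY P ∈ A) : psi2 P ∈ A := by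
  classical
  have M := model_res W A
  have r2 : Rd A (residue A) (2 : Qb) 2 := rd_ofNat 2
  have rx : Rd A (residue A) (ptX P) _ := rd_of_mem hx
  have ry : Rd A (residue A) (ptY P) _ := rd_of_mem hy
  exact (((r2.mul ry).add (M.a₁.mul rx)).add M.a₃).mem

/-- `t` and `w` are integral at every valuation ring over a prime `ℓ ≠ p`. -/
theorem tw_mem (hp : p.Prime) (hp2 : p ≠ 2) (hℓ : ℓ.Prime) (hℓp : ℓ ≠ p) (hA : A.LiesOverPrime ℓ)
    {T : Pt W} (hT : p • T = 0) {t w : ℚ}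
    (ht : (t : Qb) = (∑ k ∈ Finset.Ico 1 p, tq (k • T)) / 2)
    (hw : (w : Qb) = (∑ k ∈ Finset.Ico 1 p, (psi2 (k • T) ^ 2 + ptX (k • T) * tq (k • T))) / 2) :
    (t : Qb) ∈ A ∧ (w : Qb) ∈ A := by
  have hodd : Odd p := hp.odd_of_ne_two hp2
  rw [ht, hw, half_tq two_ne_zero hodd hT, half_w two_ne_zero hodd hT]
  constructor
  · apply sum_mem
    intro k _
    exact tq_mem (coords_mem hp hℓ hℓp hA hT k).1
  · apply sum_mem
    intro k _
    obtain ⟨hx, hy⟩ := coords_mem hp hℓ hℓp hA hT k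
    exact A.add_mem _ _ (pow_mem (psi2_mem hx hy) 2) (A.mul_mem _ _ hx (tq_mem hx))

/-- Outside the zero component, the multiples of `T` reduce to the singular point. -/
theorem sing_rd (hp : p.Prime) (hℓ : ℓ.Prime) (hℓp : ℓ ≠ p) (hA : A.LiesOverPrime ℓ) {T : Pt W}
    (hTord : addOrderOf T = p) (hout : ¬ W.InZeroComponentAt A T) (j : ℕ) (hj : ¬ p ∣ j) :
    Rd A (residue A) (tq (j • T)) 0 ∧ Rd A (residue A) (psi2 (j • T)) 0 ∧ ptX (j • T) ∈ A := by
  classical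
  have M := model_res W A
  obtain ⟨x, y, h, c, d, hjQ, rx, ry, he, hs⟩ := sing_of_not_inZero hp hℓ hℓp hA hTord hout j hj
  obtain ⟨e1, e2⟩ := sing_eqs he hs
  rw [hjQ]
  exact ⟨Rd.of_eq ((((rd_ofNat 6).mul (rx.pow 2)).add ((Model.b₂ M).mul rx)).add (Model.b₄ M)) e2,
    Rd.of_eq ((((rd_ofNat 2).mul ry).add (M.a₁.mul rx)).add M.a₃) e1, rx.mem⟩

/-- Outside the zero component, `t` and `w` lie in the maximal ideal. -/
theorem tw_rd_zero (hp : p.Prime) (hp2 : p ≠ 2) (hℓ : ℓ.Prime) (hℓp : ℓ ≠ p)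
    (hA : A.LiesOverPrime ℓ) {T : Pt W} (hTord : addOrderOf T = p)
    (hout : ¬ W.InZeroComponentAt A T) {t w : ℚ}
    (ht : (t : Qb) = (∑ k ∈ Finset.Ico 1 p, tq (k • T)) / 2)
    (hw : (w : Qb) = (∑ k ∈ Finset.Ico 1 p, (psi2 (k • T) ^ 2 + ptX (k • T) * tq (k • T))) / 2) :
    Rd A (residue A) (t : Qb) 0 ∧ Rd A (residue A) (w : Qb) 0 := by
  classical
  have hodd : Odd p := hp.odd_of_ne_two hp2
  have hT : p • T = 0 := by rw [← hTord]; exact addOrderOf_nsmul_eq_zero T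
  rw [ht, hw, half_tq two_ne_zero hodd hT, half_w two_ne_zero hodd hT]
  have hk : ∀ k ∈ Finset.Ico 1 ((p + 1) / 2), ¬ p ∣ k := by
    intro k hk hd
    rw [Finset.mem_Ico] at hk
    have h1 := Nat.le_of_dvd (by omega) hd
    have h2 : (p + 1) / 2 ≤ p := by omega
    omega
  constructor
  · have r := rd_sum (A := A) (π := residue A) (Finset.Ico 1 ((p + 1) / 2))
      (fun k => tq (k • T)) (fun _ => 0)
      (fun k hk' => (sing_rd hp hℓ hℓp hA hTord hout k (hk k hk')).1)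
    exact Rd.of_eq r Finset.sum_const_zero
  · have r := rd_sum (A := A) (π := residue A) (Finset.Ico 1 ((p + 1) / 2))
      (fun k => psi2 (k • T) ^ 2 + ptX (k • T) * tq (k • T)) (fun _ => 0)
      (fun k hk' => by
        obtain ⟨r1, r2, hx⟩ := sing_rd hp hℓ hℓp hA hTord hout k (hk k hk')
        have rx : Rd A (residue A) (ptX (k • T)) _ := rd_of_mem hx
        exact Rd.of_eq ((r2.pow 2).add (rx.mul r1)) (by ring))
    exact Rd.of_eq r Finset.sum_const_zero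

/-- The Vélu model over `ℚ̄` and its reduction. -/
theorem model_velu {t w : ℚ} {tb wb : ResidueField A}
    (rt : Rd A (residue A) ((t : ℚ) : Qb) tb) (rw' : Rd A (residue A) ((w : ℚ) : Qb) wb) :
    Model A (residue A) ((veluCurve (W.map (Int.castRingHom ℚ)) t w)⁄Qb)
      (veluCurve (W.map (Int.castRingHom (ResidueField A))) tb wb).toAffine := by
  classical
  have key : ∀ n : ℤ, Rd A (residue A) (algebraMap ℚ Qb (Int.castRingHom ℚ n))
      (Int.castRingHom (ResidueField A) n) := by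
    intro n
    have := rd_intCast A (residue A) n
    simpa using this
  have rt' : Rd A (residue A) (algebraMap ℚ Qb t) tb := by rwa [eq_ratCast]
  have rw'' : Rd A (residue A) (algebraMap ℚ Qb w) wb := by rwa [eq_ratCast]
  have r5 : Rd A (residue A) (5 : Qb) 5 := rd_ofNat 5
  have r7 : Rd A (residue A) (7 : Qb) 7 := rd_ofNat 7
  refine ⟨key _, key _, key _, ?_, ?_⟩
  · have h := (key W.a₄).sub (r5.mul rt')
    refine h.congr ?_
    show _ = algebraMap ℚ Qb (Int.castRingHom ℚ W.a₄ - 5 * t)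
    simp only [map_sub, map_mul, map_ofNat]
  · have hb₂ : Rd A (residue A) (algebraMap ℚ Qb ((W.map (Int.castRingHom ℚ)).b₂))
        ((W.map (Int.castRingHom (ResidueField A))).b₂) := by
      have h := Model.b₂ (model_res W A)
      refine h.congr ?_
      exact map_b₂ _ _
    have h := ((key W.a₆).sub (hb₂.mul rt')).sub (r7.mul rw'')
    refine h.congr ?_
    show _ = algebraMap ℚ Qb
      (Int.castRingHom ℚ W.a₆ - (W.map (Int.castRingHom ℚ)).b₂ * t - 7 * w)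
    simp only [map_sub, map_mul, map_ofNat]

theorem velu_Δ_cast (t w : ℚ) :
    ((veluCurve (W.map (Int.castRingHom ℚ)) t w)⁄Qb).Δ =
      (((veluCurve (W.map (Int.castRingHom ℚ)) t w).Δ : ℚ) : Qb) :=
  (map_Δ _ (algebraMap ℚ Qb)).trans (eq_ratCast _ _)

theorem velu_c₄_cast (t w : ℚ) :
    ((veluCurve (W.map (Int.castRingHom ℚ)) t w)⁄Qb).c₄ =
      (((veluCurve (W.map (Int.castRingHom ℚ)) t w).c₄ : ℚ) : Qb) :=
  (map_c₄ _ (algebraMap ℚ Qb)).trans (eq_ratCast _ _)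

theorem disc_cast : (W.map (Int.castRingHom ℚ)).Δ = ((W.Δ : ℤ) : ℚ) := by
  rw [map_Δ, eq_intCast]

theorem c₄_cast : (W.map (Int.castRingHom ℚ)).c₄ = ((W.c₄ : ℤ) : ℚ) := by
  rw [map_c₄, eq_intCast]

/-- **Good primes**: the discriminant of the Vélu model is a unit at `A`. -/
theorem val_good (hp : p.Prime) (hp2 : p ≠ 2) (hℓ : ℓ.Prime) (hℓp : ℓ ≠ p)
    (hA : A.LiesOverPrime ℓ) {T : Pt W} (hT : p • T = 0) {t w : ℚ}
    (ht : (t : Qb) = (∑ k ∈ Finset.Ico 1 p, tq (k • T)) / 2)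
    (hw : (w : Qb) = (∑ k ∈ Finset.Ico 1 p, (psi2 (k • T) ^ 2 + ptX (k • T) * tq (k • T))) / 2)
    (hψ : (((veluCurve (W.map (Int.castRingHom ℚ)) t w).Δ : ℚ) : Qb) * veluPsi p T ^ 4 =
      (((W.map (Int.castRingHom ℚ)).Δ : ℚ) : Qb) ^ p)
    (hgood : ¬ (ℓ : ℤ) ∣ W.Δ) :
    A.valuation (((veluCurve (W.map (Int.castRingHom ℚ)) t w).Δ : ℚ) : Qb) = 1 := by
  classical
  obtain ⟨htA, hwA⟩ := tw_mem hp hp2 hℓ hℓp hA hT ht hw
  have rt : Rd A (residue A) ((t : ℚ) : Qb) _ := rd_of_mem htA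
  have rw' : Rd A (residue A) ((w : ℚ) : Qb) _ := rd_of_mem hwA
  have hM := model_velu (W := W) rt rw'
  have h1 : A.valuation (((veluCurve (W.map (Int.castRingHom ℚ)) t w).Δ : ℚ) : Qb) ≤ 1 := by
    rw [← velu_Δ_cast]
    exact (A.valuation_le_one_iff _).mpr (model_Δ hM).mem
  have h2 : A.valuation (veluPsi p T) ≤ 1 := by
    apply (A.valuation_le_one_iff _).mpr
    unfold veluPsi
    apply prod_mem
    intro k _
    obtain ⟨hx, hy⟩ := coords_mem hp hℓ hℓp hA hT k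
    exact psi2_mem hx hy
  have h3 : A.valuation ((((W.map (Int.castRingHom ℚ)).Δ : ℚ) : Qb)) = 1 := by
    rw [disc_cast]
    exact val_eq_one_of_not_dvd hℓ hA hgood
  have h4 := congrArg A.valuation hψ
  rw [map_mul, map_pow, map_pow, h3, one_pow] at h4
  rcases h1.lt_or_eq with h | h
  · exfalso
    have h5 : A.valuation (((veluCurve (W.map (Int.castRingHom ℚ)) t w).Δ : ℚ) : Qb) *
        A.valuation (veluPsi p T) ^ 4 < 1 := by
      calc A.valuation (((veluCurve (W.map (Int.castRingHom ℚ)) t w).Δ : ℚ) : Qb) *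
            A.valuation (veluPsi p T) ^ 4
          ≤ A.valuation (((veluCurve (W.map (Int.castRingHom ℚ)) t w).Δ : ℚ) : Qb) * 1 :=
            mul_le_mul_right (pow_le_one' h2 4) _
        _ < 1 := by rw [mul_one]; exact h
    exact h5.ne h4
  · exact h

/-- **Multiplicative primes**: the Vélu model is again multiplicative at `A` (both types of
kernel). -/
theorem val_mult (hp : p.Prime) (hp2 : p ≠ 2) (hℓ : ℓ.Prime) (hℓp : ℓ ≠ p)
    (hA : A.LiesOverPrime ℓ) {T : Pt W} (hTord : addOrderOf T = p) {t w : ℚ}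
    (ht : (t : Qb) = (∑ k ∈ Finset.Ico 1 p, tq (k • T)) / 2)
    (hw : (w : Qb) = (∑ k ∈ Finset.Ico 1 p, (psi2 (k • T) ^ 2 + ptX (k • T) * tq (k • T))) / 2)
    (hψ : (((veluCurve (W.map (Int.castRingHom ℚ)) t w).Δ : ℚ) : Qb) * veluPsi p T ^ 4 =
      (((W.map (Int.castRingHom ℚ)).Δ : ℚ) : Qb) ^ p)
    (hℓΔ : (ℓ : ℤ) ∣ W.Δ) (hℓc₄ : ¬ (ℓ : ℤ) ∣ W.c₄) :
    A.valuation (((veluCurve (W.map (Int.castRingHom ℚ)) t w).Δ : ℚ) : Qb) < 1 ∧
      A.valuation (((veluCurve (W.map (Int.castRingHom ℚ)) t w).c₄ : ℚ) : Qb) = 1 := by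
  classical
  by_cases hin : W.InZeroComponentAt A T
  · obtain ⟨hc, hpsi⟩ := velu_of_inZero W T A hp hp2 hTord hℓ hℓp hℓΔ hℓc₄ hA hin
    have h3 : A.valuation ((((W.map (Int.castRingHom ℚ)).Δ : ℚ) : Qb)) < 1 := by
      rw [disc_cast]
      exact val_lt_one_of_dvd hℓ hA hℓΔ
    have h4 := congrArg A.valuation hψ
    rw [map_mul, map_pow, map_pow, hpsi, one_pow, mul_one] at h4
    refine ⟨?_, ?_⟩
    · rw [h4]
      exact pow_lt_one' h3 hp.ne_zero
    · have h6 : (((veluCurve (W.map (Int.castRingHom ℚ)) t w).c₄ : ℚ) : Qb) = veluC4 p T := by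
        rw [veluCurve_c₄]
        unfold veluC4
        have e : ((W.map (Int.castRingHom ℚ))⁄Qb).c₄ = (((W.map (Int.castRingHom ℚ)).c₄ : ℚ) : Qb) :=
          (map_c₄ _ (algebraMap ℚ Qb)).trans (eq_ratCast _ _)
        rw [e]
        push_cast
        rw [ht]
        ring
      rw [h6]
      exact hc
  · obtain ⟨rt, rw'⟩ := tw_rd_zero hp hp2 hℓ hℓp hA hTord hin ht hw
    have hM := model_velu (W := W) rt rw'
    rw [veluCurve_zero] at hM
    obtain ⟨hΔb, hcb⟩ := reduced_disc W A hℓ hℓΔ hℓc₄ hA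
    refine ⟨?_, ?_⟩
    · rw [← velu_Δ_cast]
      exact val_lt_one_of_rd (Rd.of_eq (model_Δ hM) hΔb)
    · rw [← velu_c₄_cast]
      exact val_eq_one_of_rd (Model.c₄ hM) hcb

end Arith

/-! ### The step -/

/-- **`StepLite` from the rational Vélu isogeny.** -/
theorem stepLite_of_velu (hV : VeluQ) : StepLite := by
  intro p hp hp5 W hΔ M hM hstab
  classical
  have hp2 : p ≠ 2 := by omega
  obtain ⟨T, hTord, rfl⟩ := exists_generator M hp hM
  have hT : p • T = 0 := by rw [← hTord]; exact addOrderOf_nsmul_eq_zero T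
  have hΔq : (W.map (Int.castRingHom ℚ)).Δ ≠ 0 := by
    rw [disc_cast]
    exact_mod_cast hΔ
  obtain ⟨t, w, φ₀, ht, hw, hVΔ, hψ, heq, hker, -⟩ :=
    hV (W.map (Int.castRingHom ℚ)) hΔq p hp hp2 T hTord
      (fun σ => hstab σ T (AddSubgroup.mem_zmultiples T))
  -- the denominators of `t`, `w` are prime to every `ℓ ≠ p`
  have hden : ∀ ℓ : ℕ, ℓ.Prime → ℓ ≠ p → ¬ ℓ ∣ t.den * w.den := by
    intro ℓ hℓ hℓp hd
    obtain ⟨A, hA⟩ := Fermat.Agent.Lib.FrobeniusExists.exists_liesOverPrime hℓ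
    obtain ⟨h1, h2⟩ := tw_mem hp hp2 hℓ hℓp hA hT ht hw
    rcases (Nat.Prime.dvd_mul hℓ).mp hd with h | h
    · exact not_dvd_den_of_mem hℓ hA h1 h
    · exact not_dvd_den_of_mem hℓ hA h2 h
  obtain ⟨d, hd⟩ : ∃ d : ℕ, d = t.den * w.den := ⟨_, rfl⟩
  have hdpos : 0 < d := by
    rw [hd]
    exact Nat.mul_pos t.den_pos w.den_pos
  have hd0 : (d : ℚ) ≠ 0 := by exact_mod_cast hdpos.ne'
  have hdt : (d : ℚ) * t = w.den * t.num := by
    rw [hd]
    push_cast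
    have := Rat.mul_den_eq_num t
    linear_combination (w.den : ℚ) * this
  have hdw : (d : ℚ) * w = t.den * w.num := by
    rw [hd]
    push_cast
    have := Rat.mul_den_eq_num w
    linear_combination (t.den : ℚ) * this
  -- the integral model: the scaling of the Vélu model by `d`
  obtain ⟨W', hW'⟩ : ∃ W' : WeierstrassCurve ℤ, W' = ⟨d * W.a₁, d ^ 2 * W.a₂, d ^ 3 * W.a₃,
      d ^ 4 * W.a₄ - 5 * (d ^ 3 * w.den * t.num),
      d ^ 6 * W.a₆ - W.b₂ * (d ^ 5 * w.den * t.num) - 7 * (d ^ 5 * t.den * w.num)⟩ := ⟨_, rfl⟩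
  have h₁ : (W'.map (Int.castRingHom ℚ)).a₁ =
      (d : ℚ) * (veluCurve (W.map (Int.castRingHom ℚ)) t w).a₁ := by
    simp [hW', veluCurve]
  have h₂ : (W'.map (Int.castRingHom ℚ)).a₂ =
      (d : ℚ) ^ 2 * (veluCurve (W.map (Int.castRingHom ℚ)) t w).a₂ := by
    simp [hW', veluCurve]
  have h₃ : (W'.map (Int.castRingHom ℚ)).a₃ =
      (d : ℚ) ^ 3 * (veluCurve (W.map (Int.castRingHom ℚ)) t w).a₃ := by
    simp [hW', veluCurve]
  have h₄ : (W'.map (Int.castRingHom ℚ)).a₄ =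
      (d : ℚ) ^ 4 * (veluCurve (W.map (Int.castRingHom ℚ)) t w).a₄ := by
    simp only [hW', veluCurve, map_a₄, eq_intCast]
    push_cast
    linear_combination (5 * (d : ℚ) ^ 3) * hdt
  have h₆ : (W'.map (Int.castRingHom ℚ)).a₆ =
      (d : ℚ) ^ 6 * (veluCurve (W.map (Int.castRingHom ℚ)) t w).a₆ := by
    simp only [hW', veluCurve, map_a₆, map_a₁, map_a₂, WeierstrassCurve.b₂, eq_intCast]
    push_cast
    linear_combination (((W.a₁ : ℚ) ^ 2 + 4 * W.a₂) * (d : ℚ) ^ 5) * hdt + 7 * (d : ℚ) ^ 5 * hdw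
  obtain ⟨hΔ', hc₄'⟩ := scale_invariants (d : ℚ) (veluCurve (W.map (Int.castRingHom ℚ)) t w)
    (W'.map (Int.castRingHom ℚ)) h₁ h₂ h₃ h₄ h₆
  rw [disc_cast] at hΔ'
  rw [c₄_cast] at hc₄'
  have hsm := scaleVC_smul (d : ℚ) hd0 (veluCurve (W.map (Int.castRingHom ℚ)) t w)
    (W'.map (Int.castRingHom ℚ)) h₁ h₂ h₃ h₄ h₆
  let ρ : ((veluCurve (W.map (Int.castRingHom ℚ)) t w)⁄Qb).Point ≃+
      ((W'.map (Int.castRingHom ℚ))⁄Qb).Point :=
    Fermat.Agent.S05.Transfer.ratEquiv (scaleVC (d : ℚ) hd0) hsm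
  refine ⟨W', ρ.toAddMonoidHom.comp φ₀, ?_, ?_, ?_, ?_⟩
  · intro h0
    rw [h0] at hΔ'
    have : (d : ℚ) ^ 12 * (veluCurve (W.map (Int.castRingHom ℚ)) t w).Δ ≠ 0 :=
      mul_ne_zero (pow_ne_zero 12 hd0) hVΔ
    exact this (by rw [← hΔ']; simp)
  · ext P
    rw [AddMonoidHom.mem_ker, AddMonoidHom.comp_apply, ← hker P]
    exact ρ.map_eq_zero_iff
  · intro σ P
    rw [AddMonoidHom.comp_apply, AddMonoidHom.comp_apply, heq]
    exact Fermat.Agent.S05.Transfer.ratEquiv_smul _ _ σ (φ₀ P)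
  · intro ℓ hℓ hℓp
    obtain ⟨A, hA⟩ := Fermat.Agent.Lib.FrobeniusExists.exists_liesOverPrime hℓ
    have hdA : A.valuation ((d : ℚ) : Qb) = 1 := by
      have h := val_eq_one_of_not_dvd hℓ hA (n := (d : ℤ))
        (by rw [hd]; exact_mod_cast hden ℓ hℓ hℓp)
      simpa using h
    have hvΔ : A.valuation (((W'.Δ : ℤ) : ℚ) : Qb) =
        A.valuation (((veluCurve (W.map (Int.castRingHom ℚ)) t w).Δ : ℚ) : Qb) := by
      rw [hΔ', Rat.cast_mul, Rat.cast_pow, map_mul, map_pow, hdA, one_pow, one_mul]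
    have hvc : A.valuation (((W'.c₄ : ℤ) : ℚ) : Qb) =
        A.valuation (((veluCurve (W.map (Int.castRingHom ℚ)) t w).c₄ : ℚ) : Qb) := by
      rw [hc₄', Rat.cast_mul, Rat.cast_pow, map_mul, map_pow, hdA, one_pow, one_mul]
    constructor
    · intro hgood
      exact not_dvd_of_val_eq_one hℓ hA
        (hvΔ.trans (val_good hp hp2 hℓ hℓp hA hT ht hw hψ hgood))
    · intro hℓΔ hℓc₄
      obtain ⟨h1, h2⟩ := val_mult hp hp2 hℓ hℓp hA hTord ht hw hψ hℓΔ hℓc₄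
      exact ⟨dvd_of_val_lt_one hℓ hA (hvΔ ▸ h1), not_dvd_of_val_eq_one hℓ hA (hvc.trans h2)⟩

end Fermat.Agent.S12P.StepLite17
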