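import Fermat.Agent.S15P.M1.Isog4

/-!
# The Vélu point map over `ℂ`: `℘`, `℘'`, `g₃` of the lattice `Λ' = Λ + ℤ z₀`

For `z₀` of exact order `n` in `ℂ/Λ` (any `n > 0`):

* `wp_super`  : `℘_{Λ'}(z) = ℘_Λ(z) + ∑_{0<k<n} (℘_Λ(z + k z₀) − ℘_Λ(k z₀))`  (Vélu's `X`);
* `dwp_super` : `℘'_{Λ'}(z) = ∑_{k<n} ℘'_Λ(z + k z₀)`                          (Vélu's `Y`);
* `g₃_super`  : `g₃(Λ') = g₃(Λ) + ∑_{0<k<n} (140 ℘³ − 21 g₂ ℘ − 14 g₃)(k z₀)`.

Mathlib only (through `S15P/M1/Isog4`): regrouping of lattice sums over the cosets of `Λ`.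
-/

set_option autoImplicit false

namespace Fermat.Agent.S12P.IsogPt4

open Filter Topology PeriodPair
open Fermat.Agent.S15P.M1.Ell4 Fermat.Agent.S15P.M1.Isog4

variable {L L' : PeriodPair} {n : ℕ} {z₀ : ℂ}

/-- regrouping of a summable series over `Λ'` along the cosets `Λ − k z₀`, `k < n`. -/
theorem tsum_super (S : IsSuper L L' n z₀) (hn : 0 < n) (f : ℂ → ℂ)
    (hf : Summable (fun w : L'.lattice => f w)) :
    ∑' w : L'.lattice, f w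
      = ∑ k ∈ Finset.range n, ∑' l : L.lattice, f ((l : ℂ) - (k : ℂ) * z₀) := by
  let e : Fin n × L.lattice ≃ L'.lattice := Equiv.ofBijective _ (cosetMap_bijective S hn)
  have h1 : ∑' w : L'.lattice, f w = ∑' c : Fin n × L.lattice, f ((e c : L'.lattice) : ℂ) :=
    (e.tsum_eq (fun w : L'.lattice => f w)).symm
  have hsum : Summable (fun c : Fin n × L.lattice => f ((e c : L'.lattice) : ℂ)) :=
    (e.summable_iff (f := fun w : L'.lattice => f w)).mpr hf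
  have hslice : ∀ k : Fin n, Summable (fun l : L.lattice => f ((e (k, l) : L'.lattice) : ℂ)) :=
    fun k => hsum.prod_factor k
  rw [h1, hsum.tsum_prod' hslice, tsum_fintype,
    ← Fin.sum_univ_eq_sum_range (fun k : ℕ => ∑' l : L.lattice, f ((l : ℂ) - (k : ℂ) * z₀)) n]
  rfl

/-- **Vélu's `X`.** `℘_{Λ'}(z) = ℘_Λ(z) + ∑_{0<k<n} (℘_Λ(z + k z₀) − ℘_Λ(k z₀))`. -/
theorem wp_super (L L' : PeriodPair) (n : ℕ) (z₀ : ℂ) (hn : 0 < n) (h : IsSuper L L' n z₀)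
    (z : ℂ) :
    ℘[L'] z = ℘[L] z + ∑ k ∈ Finset.Ico 1 n, (℘[L] (z + k * z₀) - ℘[L] (k * z₀)) := by
  have h1 : ℘[L'] z = ∑' w : L'.lattice, (1 / (z - (w : ℂ)) ^ 2 - 1 / (w : ℂ) ^ 2) := rfl
  rw [h1, tsum_super h hn (fun w => 1 / (z - w) ^ 2 - 1 / w ^ 2) (L'.hasSum_weierstrassP z).summable,
    Finset.range_eq_Ico, Finset.sum_eq_sum_Ico_succ_bot hn]
  congr 1
  · simp only [Nat.cast_zero, zero_mul, sub_zero]
    rfl
  · refine Finset.sum_congr rfl fun k _ => ?_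
    have ha := L.hasSum_weierstrassP (z + k * z₀)
    have hb := L.hasSum_weierstrassP (k * z₀)
    have hab := ha.sub hb
    rw [← hab.tsum_eq]
    refine tsum_congr fun l => ?_
    rw [show z - ((l : ℂ) - (k : ℂ) * z₀) = z + k * z₀ - l by ring,
      show ((l : ℂ) - (k : ℂ) * z₀) ^ 2 = ((k : ℂ) * z₀ - l) ^ 2 by ring]
    ring

/-- **Vélu's `Y`.** `℘'_{Λ'}(z) = ∑_{k<n} ℘'_Λ(z + k z₀)`. -/
theorem dwp_super (L L' : PeriodPair) (n : ℕ) (z₀ : ℂ) (hn : 0 < n) (h : IsSuper L L' n z₀)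
    (z : ℂ) :
    ℘'[L'] z = ∑ k ∈ Finset.range n, ℘'[L] (z + k * z₀) := by
  rw [← (L'.hasSum_derivWeierstrassP z).tsum_eq,
    tsum_super h hn (fun w => -2 / (z - w) ^ 3) (L'.hasSum_derivWeierstrassP z).summable]
  refine Finset.sum_congr rfl fun k _ => ?_
  rw [← (L.hasSum_derivWeierstrassP (z + k * z₀)).tsum_eq]
  refine tsum_congr fun l => ?_
  rw [show z - ((l : ℂ) - (k : ℂ) * z₀) = z + k * z₀ - l by ring]

/-- `G_r(Λ') = ∑_{k<n} ∑_{l ∈ Λ} (l − k z₀)⁻ʳ` for `r > 2`. -/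
theorem G_super (S : IsSuper L L' n z₀) (hn : 0 < n) (r : ℕ) (hr : 2 < r) :
    L'.G r = ∑ k ∈ Finset.range n, L.sumInvPow (k * z₀) r := by
  have hs' : Summable (fun w : L'.lattice => ((w : ℂ) ^ r)⁻¹) := by
    have := (L'.hasSum_sumInvPow 0 (r := r) hr).summable
    simpa using this
  have h1 : L'.G r = ∑' w : L'.lattice, ((w : ℂ) ^ r)⁻¹ := rfl
  rw [h1, tsum_super S hn (fun w => (w ^ r)⁻¹) hs']
  rfl

/-- `℘''' = 12 ℘ ℘'` and `℘'''' = 120 ℘³ − 18 g₂ ℘ − 12 g₃`, in the form of the lattice sum: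
`120 ∑_l (l − x)⁻⁶ = 120 ℘(x)³ − 18 g₂ ℘(x) − 12 g₃` off the lattice. -/
theorem sumInvPow_six (L : PeriodPair) {x : ℂ} (hx : x ∉ L.lattice) :
    120 * L.sumInvPow x 6 = 120 * ℘[L] x ^ 3 - 18 * L.g₂ * ℘[L] x - 12 * L.g₃ := by
  have hopen : ∀ᶠ w in 𝓝 x, w ∉ L.lattice := L.isClosed_lattice.isOpen_compl.mem_nhds hx
  -- third derivative of `℘'`
  have h3 := L.iteratedDeriv_derivWeierstrassPExcept_self x (n := 3)
  rw [L.derivWeierstrassPExcept_of_notMem x hx] at h3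
  have hfact : ((3 + 2 : ℕ).factorial : ℂ) = 120 := by norm_num [Nat.factorial]
  rw [hfact] at h3
  rw [← h3]
  -- compute `iteratedDeriv 3 ℘'`
  have e1 : deriv ℘'[L] =ᶠ[𝓝 x] fun w => 6 * ℘[L] w ^ 2 - L.g₂ / 2 := by
    filter_upwards [hopen] with w hw using deriv_dwp L hw
  have e1' : ∀ᶠ w in 𝓝 x, deriv ℘'[L] =ᶠ[𝓝 w] fun u => 6 * ℘[L] u ^ 2 - L.g₂ / 2 := by
    have hopen' : ∀ᶠ w in 𝓝 x, ∀ᶠ u in 𝓝 w, u ∉ L.lattice := hopen.eventually_nhds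
    filter_upwards [hopen'] with w hw
    filter_upwards [hw] with u hu using deriv_dwp L hu
  have e2 : deriv (deriv ℘'[L]) =ᶠ[𝓝 x] fun w => 12 * ℘[L] w * ℘'[L] w := by
    filter_upwards [e1', hopen] with w hw hwL
    rw [hw.deriv_eq]
    have hd : HasDerivAt (fun u => 6 * ℘[L] u ^ 2 - L.g₂ / 2)
        (6 * (2 * ℘[L] w ^ 1 * ℘'[L] w)) w := by
      have h := (hasDerivAt_wp L hwL).fun_pow 2
      simp only [Nat.cast_ofNat, Nat.add_one_sub_one] at h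
      exact (h.const_mul 6).sub_const _
    rw [hd.deriv]
    ring
  have e3 : iteratedDeriv 3 ℘'[L] x = deriv (fun w => 12 * ℘[L] w * ℘'[L] w) x := by
    rw [iteratedDeriv_succ, iteratedDeriv_succ, iteratedDeriv_one]
    exact e2.deriv_eq
  have hd2 : HasDerivAt (fun w => 12 * ℘[L] w * ℘'[L] w)
      (12 * ℘'[L] x * ℘'[L] x + 12 * ℘[L] x * deriv ℘'[L] x) x :=
    ((hasDerivAt_wp L hx).const_mul 12).mul
      ((analyticAt_dwp L hx).differentiableAt.hasDerivAt)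
  rw [e3, hd2.deriv, deriv_dwp L hx]
  have hrel := L.derivWeierstrassP_sq x hx
  linear_combination 12 * hrel

/-- **`g₃` of the superlattice.** -/
theorem g₃_super (L L' : PeriodPair) (n : ℕ) (z₀ : ℂ) (hn : 0 < n) (h : IsSuper L L' n z₀) :
    L'.g₃ = L.g₃ + ∑ k ∈ Finset.Ico 1 n,
      (140 * ℘[L] (k * z₀) ^ 3 - 21 * L.g₂ * ℘[L] (k * z₀) - 14 * L.g₃) := by
  have hG := G_super h hn 6 (by norm_num)
  rw [Finset.range_eq_Ico, Finset.sum_eq_sum_Ico_succ_bot hn] at hG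
  simp only [Nat.cast_zero, zero_mul, zero_add] at hG
  have h0 : L.sumInvPow 0 6 = L.G 6 := by rw [L.sumInvPow_zero]
  have hk : ∑ k ∈ Finset.Ico 1 n,
      (140 * ℘[L] (k * z₀) ^ 3 - 21 * L.g₂ * ℘[L] (k * z₀) - 14 * L.g₃)
      = 140 * ∑ k ∈ Finset.Ico 1 n, L.sumInvPow (k * z₀) 6 := by
    rw [Finset.mul_sum]
    refine Finset.sum_congr rfl fun k hk => ?_
    have := sumInvPow_six L (h.nat_mul_notMem hk)
    linear_combination (-7 / 6 : ℂ) * this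
  rw [hk]
  unfold PeriodPair.g₃
  rw [hG, h0]
  ring

end Fermat.Agent.S12P.IsogPt4
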