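/-
S12 cell (helper17): the closed term `stepLite : StepLite` (literal of `S12P/Interfaces20b.lean`)
= `StepLite17.stepLite_of_velu` (INT + LOC, valuation form) fed with the landed ALG brick
`Velu82.exists_velu_explicit` (helper82).
-/
import Fermat.Agent.S12P.Interfaces20b
import Fermat.Agent.S12P.Velu82.Seam
import Fermat.Agent.S12P.StepLite17

set_option autoImplicit false

namespace Fermat.Agent.S12P.StepLiteSeam17

/-- The rational Vélu isogeny (helper82's `Velu82.exists_velu_explicit`). -/
theorem veluQ : StepLite17.VeluQ := fun W hΔ p hp hp2 T hT hG =>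
  let ⟨t, w, φ, ht, hw, hΔ', _, hD, he, hk, hc⟩ :=
    Fermat.Agent.S12P.Velu82.exists_velu_explicit W hΔ p hp hp2 T hT hG
  ⟨t, w, φ, ht, hw, hΔ', hD, he, hk, hc⟩

/-- **Row 633 (STEP)**: one Vélu `p`-isogeny over `ℤ`. -/
theorem stepLite : Fermat.Agent.S12P.StepLite :=
  StepLite17.stepLite_of_velu veluQ

end Fermat.Agent.S12P.StepLiteSeam17
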