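/-
S12 (helper48): counting in a group whose `p`-power torsion has the size of that of an elliptic
curve (`#M[p ^ n] = p ^ (2 n)`).  Mathlib only.

* `exists_mul_of_torsion`: multiplication by `p` maps `M[p ^ (m + 1)]` onto `M[p ^ m]`;
* `exists_preimage_of_torsion`: a homomorphism with kernel of order `p` maps `M[p ^ (m + 1)]` onto
  `M'[p ^ m]` (after helper46's `TowerTransport46`);
* `card_map_of_ker_le`: the size of the image of a subgroup containing the kernel;
* `card_inf_tor`: a subgroup whose `p`-torsion has order `p` and which contains elements of every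
  order `p ^ m` meets `M[p ^ m]` in a subgroup of order `p ^ m`.
-/
import Mathlib

set_option autoImplicit false

namespace Fermat.Agent.S12P.Cnt48

variable {M M' : Type*} [AddCommGroup M] [AddCommGroup M']

/-- The `n`-torsion subgroup. -/
def tor (M : Type*) [AddCommGroup M] (n : ℕ) : AddSubgroup M :=
  (nsmulAddMonoidHom (α := M) n).ker

theorem mem_tor {n : ℕ} {x : M} : x ∈ tor M n ↔ n • x = 0 := by
  rw [tor, AddMonoidHom.mem_ker, nsmulAddMonoidHom_apply]

/-- The counting hypothesis: `#M[p ^ n] = p ^ (2 n)`. -/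
def Count (M : Type*) [AddCommGroup M] (p : ℕ) : Prop :=
  ∀ n : ℕ, Nat.card {x : M // p ^ n • x = 0} = p ^ (2 * n)

theorem card_tor {p : ℕ} (hM : Count M p) (n : ℕ) : Nat.card (tor M (p ^ n)) = p ^ (2 * n) := by
  rw [← hM n]
  exact Nat.card_congr (Equiv.subtypeEquivRight fun x => mem_tor)

theorem card_tor_one {p : ℕ} (hM : Count M p) : Nat.card {x : M // p • x = 0} = p ^ 2 := by
  have h := hM 1
  rwa [pow_one, mul_one] at h

theorem finite_tor {p : ℕ} (hp : p.Prime) (hM : Count M p) (n : ℕ) :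
    Finite (tor M (p ^ n)) := by
  apply Nat.finite_of_card_ne_zero
  rw [card_tor hM n]
  exact pow_ne_zero _ hp.ne_zero

/-- Cardinality of the range of a homomorphism. -/
theorem card_range_mul_card_ker {G H : Type*} [AddGroup G] [AddGroup H] (f : G →+ H) :
    Nat.card f.range * Nat.card f.ker = Nat.card G := by
  rw [← AddSubgroup.index_ker f, mul_comm]
  exact AddSubgroup.card_mul_index f.ker

/-- Multiplication by `p` maps the `p ^ (m + 1)`-torsion ONTO the `p ^ m`-torsion. -/
theorem exists_mul_of_torsion {p : ℕ} (hp : p.Prime) (hM : Count M p) (m : ℕ) (y : M)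
    (hy : p ^ m • y = 0) : ∃ z : M, p ^ (m + 1) • z = 0 ∧ p • z = y := by
  let f : tor M (p ^ (m + 1)) →+ M :=
    (nsmulAddMonoidHom (α := M) p).comp (tor M (p ^ (m + 1))).subtype
  have hf : ∀ z : tor M (p ^ (m + 1)), f z = p • (z : M) := fun z => rfl
  -- the kernel of `f` is the `p`-torsion
  have hker : Nat.card f.ker = p ^ 2 := by
    rw [← card_tor_one hM]
    refine Nat.card_congr
      { toFun := fun z => ⟨(z.1 : M), by
          have := z.2
          rwa [AddMonoidHom.mem_ker, hf] at this⟩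
        invFun := fun x => ⟨⟨x.1, by
          rw [mem_tor, pow_succ, mul_nsmul', x.2, nsmul_zero]⟩, by
          rw [AddMonoidHom.mem_ker, hf]; exact x.2⟩
        left_inv := fun z => rfl
        right_inv := fun x => rfl }
  have hcard : Nat.card f.range * p ^ 2 = p ^ (2 * m) * p ^ 2 := by
    have h1 := card_range_mul_card_ker f
    rw [hker, card_tor hM (m + 1)] at h1
    rw [h1]; ring
  have hrange : Nat.card f.range = p ^ (2 * m) :=
    Nat.eq_of_mul_eq_mul_right (pow_pos hp.pos 2) hcard
  have hle : f.range ≤ tor M (p ^ m) := by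
    rintro _ ⟨z, rfl⟩
    rw [mem_tor, hf, ← mul_nsmul, mul_comm, ← pow_succ]
    exact mem_tor.mp z.2
  have : Finite (tor M (p ^ m)) := finite_tor hp hM m
  have heq : f.range = tor M (p ^ m) := by
    apply AddSubgroup.eq_of_le_of_card_ge hle
    rw [hrange, card_tor hM m]
  have hy' : y ∈ f.range := by rw [heq]; exact mem_tor.mpr hy
  obtain ⟨z, rfl⟩ := hy'
  exact ⟨(z : M), mem_tor.mp z.2, rfl⟩

/-- Divisibility by `p ^ m` inside the `p`-power torsion. -/
theorem exists_pow_mul_of_torsion {p : ℕ} (hp : p.Prime) (hM : Count M p) (j : ℕ) (x : M)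
    (hx : p ^ j • x = 0) (m : ℕ) : ∃ y : M, p ^ (j + m) • y = 0 ∧ p ^ m • y = x := by
  induction m with
  | zero => exact ⟨x, by rwa [add_zero], by rw [pow_zero, one_nsmul]⟩
  | succ m ih =>
    obtain ⟨y, hy0, hy⟩ := ih
    obtain ⟨z, hz0, hz⟩ := exists_mul_of_torsion hp hM (j + m) y hy0
    exact ⟨z, by rw [← add_assoc]; exact hz0, by rw [pow_succ, mul_nsmul', hz, hy]⟩

/-- **Surjectivity on torsion.**  A homomorphism with kernel of order `p` maps the
`p ^ (m + 1)`-torsion onto the `p ^ m`-torsion. -/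
theorem exists_preimage_of_torsion {p : ℕ} (hp : p.Prime) (hM : Count M p) (hM' : Count M' p)
    (φ : M →+ M') (hker : Nat.card φ.ker = p) (m : ℕ) (y : M')
    (hy : p ^ m • y = 0) : ∃ y₀ : M, p ^ (m + 1) • y₀ = 0 ∧ φ y₀ = y := by
  have hkp : ∀ x ∈ φ.ker, p • x = 0 := by
    intro x hx
    have h := card_nsmul_eq_zero' (G := φ.ker) (x := ⟨x, hx⟩)
    rw [hker] at h
    exact congrArg Subtype.val h
  obtain ⟨z, hz, rfl⟩ := exists_mul_of_torsion hp hM' m y hy
  let g : tor M (p ^ (m + 1)) →+ M' := φ.comp (tor M (p ^ (m + 1))).subtype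
  have hg : ∀ x : tor M (p ^ (m + 1)), g x = φ (x : M) := fun x => rfl
  -- the kernel of `g` is the kernel of `φ`
  have hgker : Nat.card g.ker = p := by
    refine Eq.trans (Nat.card_congr
      { toFun := fun x => ⟨(x.1 : M), by
          have := x.2
          rwa [AddMonoidHom.mem_ker, hg] at this⟩
        invFun := fun x => ⟨⟨x.1, by
          rw [mem_tor, pow_succ, mul_nsmul', hkp x.1 x.2, nsmul_zero]⟩, by
          rw [AddMonoidHom.mem_ker, hg]; exact x.2⟩
        left_inv := fun x => rfl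
        right_inv := fun x => rfl }) hker
  have hgrange : Nat.card g.range * p = p ^ (2 * m + 1) * p := by
    have h1 := card_range_mul_card_ker g
    rw [hgker, card_tor hM (m + 1)] at h1
    rw [h1]; ring
  have hgrange' : Nat.card g.range = p ^ (2 * m + 1) :=
    Nat.eq_of_mul_eq_mul_right hp.pos hgrange
  have hle : g.range ≤ tor M' (p ^ (m + 1)) := by
    rintro _ ⟨x, rfl⟩
    rw [mem_tor, hg, ← map_nsmul, mem_tor.mp x.2, map_zero]
  -- `g.range` has index `p` in the `p ^ (m + 1)`-torsion of `M'`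
  have hRcard : Nat.card (g.range.addSubgroupOf (tor M' (p ^ (m + 1)))) = p ^ (2 * m + 1) := by
    rw [← hgrange']
    exact Nat.card_congr (AddSubgroup.addSubgroupOfEquivOfLe hle).toEquiv
  have hidx : (g.range.addSubgroupOf (tor M' (p ^ (m + 1)))).index = p := by
    have h1 := AddSubgroup.card_mul_index (g.range.addSubgroupOf (tor M' (p ^ (m + 1))))
    rw [hRcard, card_tor hM' (m + 1)] at h1
    have h2 : p ^ (2 * m + 1) * (g.range.addSubgroupOf (tor M' (p ^ (m + 1)))).index
        = p ^ (2 * m + 1) * p := by rw [h1]; ring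
    exact Nat.eq_of_mul_eq_mul_left (pow_pos hp.pos _) h2
  have hmem : p • (⟨z, mem_tor.mpr hz⟩ : tor M' (p ^ (m + 1)))
      ∈ g.range.addSubgroupOf (tor M' (p ^ (m + 1))) := by
    have := AddSubgroup.nsmul_index_mem (g.range.addSubgroupOf (tor M' (p ^ (m + 1))))
      (⟨z, mem_tor.mpr hz⟩ : tor M' (p ^ (m + 1)))
    rwa [hidx] at this
  have hmem' : p • z ∈ g.range := by
    have := AddSubgroup.mem_addSubgroupOf.mp hmem
    simpa using this
  obtain ⟨x, hx⟩ := hmem'
  exact ⟨(x : M), mem_tor.mp x.2, hx⟩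

/-- The size of the image of a subgroup containing the kernel. -/
theorem card_map_of_ker_le (φ : M →+ M') (H : AddSubgroup M) (hle : φ.ker ≤ H) :
    Nat.card (H.map φ) * Nat.card φ.ker = Nat.card H := by
  rw [← AddSubgroup.relIndex_ker φ (K := H), AddSubgroup.relIndex,
    ← Nat.card_congr (AddSubgroup.addSubgroupOfEquivOfLe hle).toEquiv, mul_comm]
  exact AddSubgroup.card_mul_index _

/-- A subgroup `E1` whose `p`-torsion lies in a subgroup `N` of order `p`, and which contains an
element of exact order `p ^ (m + 1)` for every `m`, meets the `p ^ m`-torsion in a subgroup of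
order `p ^ m`. -/
theorem card_inf_tor {p : ℕ} (hp : p.Prime) (hM : Count M p) (E1 N : AddSubgroup M)
    (hN : Nat.card N = p) (hE1N : ∀ x ∈ E1, p • x = 0 → x ∈ N)
    (hex : ∀ m : ℕ, ∃ z ∈ E1, p ^ (m + 1) • z = 0 ∧ p ^ m • z ≠ 0) (m : ℕ) :
    Nat.card (E1 ⊓ tor M (p ^ m) : AddSubgroup M) = p ^ m := by
  have : Fact p.Prime := ⟨hp⟩
  induction m with
  | zero =>
    have hbot : (E1 ⊓ tor M (p ^ 0) : AddSubgroup M) = ⊥ := by
      rw [eq_bot_iff]
      intro x hx
      have h := mem_tor.mp hx.2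
      rw [pow_zero, one_nsmul] at h
      exact (AddSubgroup.mem_bot).mpr h
    rw [hbot, pow_zero]
    exact AddSubgroup.card_bot
  | succ m ih =>
    have hNfin : Finite N := Nat.finite_of_card_ne_zero (by rw [hN]; exact hp.ne_zero)
    have hTfin : Finite (tor M (p ^ (m + 1))) := finite_tor hp hM (m + 1)
    have hHfin : Finite (E1 ⊓ tor M (p ^ (m + 1)) : AddSubgroup M) :=
      Finite.of_injective (fun x => (⟨x.1, x.2.2⟩ : tor M (p ^ (m + 1))))
        (fun a b h => Subtype.ext (congrArg (fun t : tor M (p ^ (m + 1)) => (t : M)) h))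
    let g : (E1 ⊓ tor M (p ^ (m + 1)) : AddSubgroup M) →+ M :=
      (nsmulAddMonoidHom (α := M) p).comp (E1 ⊓ tor M (p ^ (m + 1)) : AddSubgroup M).subtype
    have hg : ∀ x : (E1 ⊓ tor M (p ^ (m + 1)) : AddSubgroup M), g x = p • (x : M) :=
      fun x => rfl
    have hrange : g.range ≤ (E1 ⊓ tor M (p ^ m) : AddSubgroup M) := by
      rintro _ ⟨x, rfl⟩
      refine ⟨?_, ?_⟩
      · rw [hg]
        exact E1.nsmul_mem x.2.1 p
      · show g x ∈ tor M (p ^ m)
        rw [mem_tor, hg, ← mul_nsmul', ← pow_succ]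
        exact mem_tor.mp x.2.2
    have h1 : Nat.card g.range ≤ p ^ m := by
      have hd := AddSubgroup.card_dvd_of_le hrange
      rw [ih] at hd
      exact Nat.le_of_dvd (pow_pos hp.pos m) hd
    have h2 : Nat.card g.ker ≤ p := by
      have h2' : Nat.card g.ker ≤ Nat.card N := by
        refine Nat.card_le_card_of_injective
          (fun x => (⟨(x.1 : M), hE1N _ x.1.2.1 (by
            have := x.2
            rwa [AddMonoidHom.mem_ker, hg] at this)⟩ : N)) ?_
        intro a b h
        exact Subtype.ext (Subtype.ext (congrArg (fun t : N => (t : M)) h))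
      exact h2'.trans (le_of_eq hN)
    have h3 := card_range_mul_card_ker g
    have hupper : Nat.card (E1 ⊓ tor M (p ^ (m + 1)) : AddSubgroup M) ≤ p ^ (m + 1) := by
      have h5 : Nat.card g.range * Nat.card g.ker ≤ p ^ m * p := Nat.mul_le_mul h1 h2
      calc Nat.card (E1 ⊓ tor M (p ^ (m + 1)) : AddSubgroup M)
          = Nat.card g.range * Nat.card g.ker := h3.symm
        _ ≤ p ^ m * p := h5
        _ = p ^ (m + 1) := (pow_succ p m).symm
    obtain ⟨z, hzE, hz0, hzne⟩ := hex m
    have hzord : addOrderOf z = p ^ (m + 1) := addOrderOf_eq_prime_pow hzne hz0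
    have hzH : AddSubgroup.zmultiples z ≤ (E1 ⊓ tor M (p ^ (m + 1)) : AddSubgroup M) :=
      (AddSubgroup.zmultiples_le).mpr ⟨hzE, mem_tor.mpr hz0⟩
    have hlower : p ^ (m + 1) ≤ Nat.card (E1 ⊓ tor M (p ^ (m + 1)) : AddSubgroup M) := by
      have h4 := AddSubgroup.card_le_of_le hzH
      rwa [Nat.card_zmultiples, hzord] at h4
    exact le_antisymm hupper hlower

end Fermat.Agent.S12P.Cnt48
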