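/-
S12 (helper48): elementary group theory used by the top seam of the Mazur descent.
Mathlib only.
-/
import Mathlib

set_option autoImplicit false

namespace Fermat.Agent.S12P.Grp48

variable {G : Type*} [AddCommGroup G]

/-- The `p`-torsion subgroup. -/
def torP (G : Type*) [AddCommGroup G] (p : ℕ) : AddSubgroup G :=
  (nsmulAddMonoidHom p : G →+ G).ker

theorem mem_torP {p : ℕ} {x : G} : x ∈ torP G p ↔ p • x = 0 := by
  rw [torP, AddMonoidHom.mem_ker, nsmulAddMonoidHom_apply]

theorem card_torP {p : ℕ} (h : Nat.card {x : G // p • x = 0} = p ^ 2) :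
    Nat.card (torP G p) = p ^ 2 := by
  rw [← h]
  exact Nat.card_congr (Equiv.subtypeEquivRight fun x => mem_torP)

/-- In a group killed by `p`, an integer multiple is a natural multiple. -/
theorem zsmul_eq_nsmul_of_tors {p : ℕ} (hp0 : p ≠ 0) {d : G} (hd : p • d = 0) (n : ℤ) :
    ∃ m : ℕ, n • d = m • d := by
  refine ⟨(n % p).toNat, ?_⟩
  have h1 : (0 : ℤ) ≤ n % p := Int.emod_nonneg _ (by exact_mod_cast hp0)
  have h2 : n = (n / p) * p + n % p := (Int.ediv_mul_add_emod n p).symm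
  have h3 : ((n / p) * (p : ℤ)) • d = 0 := by
    rw [mul_zsmul, natCast_zsmul, hd, zsmul_zero]
  conv_lhs => rw [h2]
  rw [add_zsmul, h3, zero_add, ← natCast_zsmul, Int.toNat_of_nonneg h1]

/-- A subgroup of prime order is generated by any of its nonzero elements, which has order `p`. -/
theorem prime_card {p : ℕ} (hp : p.Prime) {K : AddSubgroup G} (hK : Nat.card K = p) {d : G}
    (hd : d ∈ K) (hd0 : d ≠ 0) : addOrderOf d = p ∧ K = AddSubgroup.zmultiples d := by
  have hfin : Finite K := Nat.finite_of_card_ne_zero (by rw [hK]; exact hp.ne_zero)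
  have h1 : AddSubgroup.zmultiples d ≤ K := (AddSubgroup.zmultiples_le).mpr hd
  have hdvd : Nat.card (AddSubgroup.zmultiples d) ∣ p := hK ▸ AddSubgroup.card_dvd_of_le h1
  rw [Nat.card_zmultiples] at hdvd
  have hord : addOrderOf d = p := by
    rcases (Nat.dvd_prime hp).mp hdvd with h | h
    · exact absurd (AddMonoid.addOrderOf_eq_one_iff.mp h) hd0
    · exact h
  refine ⟨hord, (AddSubgroup.eq_of_le_of_card_ge h1 ?_).symm⟩
  rw [Nat.card_zmultiples, hord, hK]

/-- Every element of a subgroup of order `p` is killed by `p`. -/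
theorem nsmul_eq_zero_of_card {p : ℕ} {K : AddSubgroup G} (hK : Nat.card K = p) {x : G}
    (hx : x ∈ K) : p • x = 0 := by
  have h := card_nsmul_eq_zero' (G := K) (x := ⟨x, hx⟩)
  rw [hK] at h
  exact congrArg Subtype.val h

/-- A subgroup of the `p`-torsion (of order `p ^ 2`) containing an element `d` of order `p` and
an element `Q` outside `⟨d⟩` is the whole `p`-torsion. -/
theorem eq_torP_of_two {p : ℕ} (hp : p.Prime) (hc : Nat.card (torP G p) = p ^ 2)
    (S : AddSubgroup G) (hS : S ≤ torP G p) {Q d : G} (hQ : Q ∈ S) (hd : d ∈ S)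
    (hdord : addOrderOf d = p) (hQd : Q ∉ AddSubgroup.zmultiples d) : S = torP G p := by
  have hfin : Finite (torP G p) :=
    Nat.finite_of_card_ne_zero (by rw [hc]; exact pow_ne_zero _ hp.ne_zero)
  have hSfin : (S : Set G).Finite := Set.Finite.subset (Set.toFinite (torP G p : Set G)) hS
  have h1 : AddSubgroup.zmultiples d ≤ S := (AddSubgroup.zmultiples_le).mpr hd
  have hc1 : Nat.card (AddSubgroup.zmultiples d) = p := by rw [Nat.card_zmultiples, hdord]
  have hdvd : Nat.card S ∣ p ^ 2 := hc ▸ AddSubgroup.card_dvd_of_le hS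
  obtain ⟨j, hj, hcS⟩ := (Nat.dvd_prime_pow hp).mp hdvd
  have hlt : Nat.card (AddSubgroup.zmultiples d) < Nat.card S := by
    have hss : (AddSubgroup.zmultiples d : Set G) ⊂ (S : Set G) :=
      ⟨h1, fun h => hQd (h hQ)⟩
    have h3 := Set.ncard_lt_ncard hss hSfin
    have e1 : Nat.card (AddSubgroup.zmultiples d) =
        ((AddSubgroup.zmultiples d : AddSubgroup G) : Set G).ncard := Nat.card_coe_set_eq _
    have e2 : Nat.card S = (S : Set G).ncard := Nat.card_coe_set_eq _
    rw [e1, e2]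
    exact h3
  have hlt' : p < p ^ j := by
    rw [← hcS]
    calc p = Nat.card (AddSubgroup.zmultiples d) := hc1.symm
      _ < Nat.card S := hlt
  have hj2 : j = 2 := by
    rcases Nat.lt_or_ge j 2 with h | h
    · exfalso
      have h5 : p ^ j ≤ p ^ 1 := Nat.pow_le_pow_right hp.pos (by omega)
      rw [pow_one] at h5
      omega
    · omega
  subst hj2
  exact AddSubgroup.eq_of_le_of_card_ge hS (by rw [hc, hcS])

/-- Decomposition of the `p`-torsion as `⟨Q⟩ + K` for a line `K` not containing `Q`. -/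
theorem exists_decomp {p : ℕ} (hp : p.Prime) (hc : Nat.card (torP G p) = p ^ 2)
    {Q : G} (hQ : p • Q = 0) {K : AddSubgroup G} (hK : Nat.card K = p) (hQK : Q ∉ K)
    {x : G} (hx : p • x = 0) : ∃ (n : ℤ) (κ : G), κ ∈ K ∧ x = n • Q + κ := by
  have hfinK : Finite K := Nat.finite_of_card_ne_zero (by rw [hK]; exact hp.ne_zero)
  -- a generator of `K`
  obtain ⟨d, hdK, hd0⟩ : ∃ d : G, d ∈ K ∧ d ≠ 0 := by
    by_contra hcon
    have hcon' : ∀ d ∈ K, d = 0 := fun d hd => by
      by_contra h0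
      exact hcon ⟨d, hd, h0⟩
    have hbot : K = ⊥ := (AddSubgroup.eq_bot_iff_forall K).mpr hcon'
    rw [hbot] at hK
    have : Nat.card (⊥ : AddSubgroup G) = 1 := AddSubgroup.card_bot
    rw [this] at hK
    exact hp.one_lt.ne hK
  obtain ⟨hdord, hKd⟩ := prime_card hp hK hdK hd0
  have hSle : AddSubgroup.zmultiples Q ⊔ K ≤ torP G p := by
    refine sup_le ((AddSubgroup.zmultiples_le).mpr (mem_torP.mpr hQ)) ?_
    intro y hy
    exact mem_torP.mpr (nsmul_eq_zero_of_card hK hy)
  have hS := eq_torP_of_two hp hc (AddSubgroup.zmultiples Q ⊔ K) hSle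
    (AddSubgroup.mem_sup_left (AddSubgroup.mem_zmultiples Q))
    (AddSubgroup.mem_sup_right hdK) hdord (by rw [← hKd]; exact hQK)
  have hxS : x ∈ AddSubgroup.zmultiples Q ⊔ K := by rw [hS]; exact mem_torP.mpr hx
  obtain ⟨q, hq, κ, hκ, hsum⟩ := AddSubgroup.mem_sup.mp hxS
  obtain ⟨n, hn⟩ := AddSubgroup.mem_zmultiples_iff.mp hq
  exact ⟨n, κ, hκ, by rw [hn, hsum]⟩

/-- If `Q` has prime order `p` and `e ∈ ⟨Q⟩` is nonzero then `Q` is a natural multiple of `e`. -/
theorem exists_nsmul_of_mem_zmultiples {p : ℕ} (hp : p.Prime) {Q e : G}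
    (hQ : addOrderOf Q = p) (he : e ∈ AddSubgroup.zmultiples Q) (he0 : e ≠ 0) :
    ∃ m : ℕ, Q = m • e := by
  have hK : Nat.card (AddSubgroup.zmultiples Q) = p := by rw [Nat.card_zmultiples, hQ]
  obtain ⟨-, hKe⟩ := prime_card hp hK he he0
  have hQe : Q ∈ AddSubgroup.zmultiples e := by
    rw [← hKe]; exact AddSubgroup.mem_zmultiples Q
  obtain ⟨n, hn⟩ := AddSubgroup.mem_zmultiples_iff.mp hQe
  have hpe : p • e = 0 := nsmul_eq_zero_of_card hK he
  obtain ⟨m, hm⟩ := zsmul_eq_nsmul_of_tors hp.ne_zero hpe n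
  exact ⟨m, by rw [← hm, hn]⟩

end Fermat.Agent.S12P.Grp48
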