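/-
S12 design cell (helper48): the interface file of the Mazur descent for the Frey curve.

Every brick of the S12 build is stated here as a `Prop`-valued definition, so that producers and
the seam can work in parallel.  Nothing is proved here.

Notation (S58): `Qb = ℚ̄`, `GQ = Gal(ℚ̄/ℚ)`, `EPt W` = the points over `ℚ̄` of the rational curve of
an integral Weierstrass model `W` (the type on which the Prelude's Galois action and
`InZeroComponentAt` live).

Route (Mazur, "Modular curves and the Eisenstein ideal" III.5, in Galois-module language):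
a chain of integral models `W₁, W₂, …` (`W₁ = E / N`, `W_{k+1} = W_k / K_k`), each with a rational
point `Q_k` of order `p` and a rational point `R_k` of order `p ^ k`; `K_k` is the Galois-stable
complement of `⟨Q_k⟩` in `W_k[p]` given by S14, whose hypotheses come from S15 (unramified
outside `p`) and from a tower of "canonical subgroups" at `p` transported along the chain.
At a prime `ℓ₀` of good reduction, `p ^ k ≤ 2 ℓ₀ + 1` for all `k`: contradiction.
-/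
import Mathlib
import Fermat.Prelude.Def_EllipticCurve_ZeroComponentAt
import Fermat.Prelude.Def_FLTPrelim_Ramification
import Fermat.Prelude.Def_FLTPrelim_CofixedLine
import Fermat.Prelude.Def_ExtCitation_AdmissibleExtension_v2
import Fermat.Agent.S58.Interfaces

set_option autoImplicit false

namespace Fermat.Agent.S12P.Ifc48

open WeierstrassCurve Fermat.Agent.S58
open scoped WeierstrassCurve.Affine

/-- The frozen statement S15, verbatim, as a hypothesis. -/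
def S15Stmt : Prop :=
  ∀ {p : ℕ} (_ : p.Prime) (_ : p ∉ ({2, 3, 5, 7, 13} : Finset ℕ))
    (W : WeierstrassCurve ℤ) (_ : W.Δ ≠ 0)
    (Q : ((W.map (Int.castRingHom ℚ))⁄(AlgebraicClosure ℚ)).Point)
    (_ : ∀ σ : AlgebraicClosure ℚ ≃ₐ[ℚ] AlgebraicClosure ℚ, σ • Q = Q)
    (_ : addOrderOf Q = p)
    (_ : (2 : ℤ) ∣ W.Δ) (_ : ¬ (2 : ℤ) ∣ W.c₄)
    (_ : ∀ A : ValuationSubring (AlgebraicClosure ℚ), A.LiesOverPrime 2 →
      ¬ W.InZeroComponentAt A Q)
    (_ : (3 : ℤ) ∣ W.Δ) (_ : ¬ (3 : ℤ) ∣ W.c₄)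
    (_ : ∀ A : ValuationSubring (AlgebraicClosure ℚ), A.LiesOverPrime 3 →
      ¬ W.InZeroComponentAt A Q)
    {ℓ : ℕ} (_ : ℓ.Prime) (_ : ℓ ≠ p) (_ : (ℓ : ℤ) ∣ W.Δ) (_ : ¬ (ℓ : ℤ) ∣ W.c₄)
    (A : ValuationSubring (AlgebraicClosure ℚ)) (_ : A.LiesOverPrime ℓ),
    ¬ W.InZeroComponentAt A Q

/-! ### The invariant of the descent -/

/-- The model is semistable at every prime `ℓ ≠ p`. -/
def SemistableAway (W : WeierstrassCurve ℤ) (p : ℕ) : Prop :=
  ∀ ℓ : ℕ, ℓ.Prime → ℓ ≠ p → (ℓ : ℤ) ∣ W.Δ → ¬ (ℓ : ℤ) ∣ W.c₄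

/-- A tower of "canonical subgroups" at a valuation subring `A` over `p`: `G m` has order `p ^ m`,
the tower is increasing, `G m ∩ E[p ^ j] ⊆ G j`, every `G m` is stable under the decomposition
group of `A`, and `G m` contains `τ y - y` for every inertia element `τ` of `A` and every
`y ∈ E[p ^ m]`.  (For the Frey curve: `G m = E[p ^ m] ∩ E₁(A)`.) -/
structure IsTower (W : WeierstrassCurve ℤ) (p : ℕ) (A : ValuationSubring Qb)
    (G : ℕ → AddSubgroup (EPt W)) : Prop where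
  mono : ∀ m, G m ≤ G (m + 1)
  card : ∀ m, Nat.card (G m) = p ^ m
  tors : ∀ m j, ∀ x ∈ G m, p ^ j • x = 0 → x ∈ G j
  stable : ∀ m, ∀ σ ∈ A.decompositionSubgroup ℚ, ∀ x ∈ G m, σ • x ∈ G m
  inert : ∀ m, ∀ τ ∈ A.inertiaSubgroupIn ℚ, ∀ y : EPt W, p ^ m • y = 0 → τ • y - y ∈ G m

/-- The invariant at level `k`: `W` is an integral model, semistable away from `p`, with good
reduction wherever `W₀` has, a rational point `Q` of order `p` outside the canonical line at every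
place over `p`, and a rational point of order `p ^ k`. -/
structure MZ (p : ℕ) (W₀ : WeierstrassCurve ℤ) (k : ℕ) (W : WeierstrassCurve ℤ) (Q : EPt W) :
    Prop where
  disc : W.Δ ≠ 0
  sst : SemistableAway W p
  good : ∀ ℓ : ℕ, ℓ.Prime → ℓ ≠ p → ¬ (ℓ : ℤ) ∣ W₀.Δ → ¬ (ℓ : ℤ) ∣ W.Δ
  fix : ∀ σ : GQ, σ • Q = Q
  ord : addOrderOf Q = p
  tower : ∀ A : ValuationSubring Qb, A.LiesOverPrime p → ∃ G, IsTower W p A G ∧ Q ∉ G 1
  rat : ∃ R : EPt W, (∀ σ : GQ, σ • R = R) ∧ addOrderOf R = p ^ k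

/-- A cofixed line, on the points of an integral model. -/
structure CofixedSub (W : WeierstrassCurve ℤ) (p : ℕ) (N : AddSubgroup (EPt W)) : Prop where
  card : Nat.card N = p
  stable : ∀ σ : GQ, ∀ x ∈ N, σ • x ∈ N
  cofixed : ∀ σ : GQ, ∀ x : EPt W, p • x = 0 → σ • x - x ∈ N

/-! ### (ISO) the quotient by a Galois-stable subgroup of order `p` -/

/-- **(ISO)** Vélu: for an integral model `W`, semistable away from `p`, and a Galois-stable
subgroup `K` of order `p` of `E(ℚ̄)`, there are an integral model `W'` and a Galois-equivariant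
group homomorphism `E(ℚ̄) → E'(ℚ̄)` with kernel `K`; good primes `ℓ ≠ p` stay good and `c₄'` is a
unit at the multiplicative primes `ℓ ≠ p` of `W`. -/
def IsoExists : Prop :=
  ∀ (p : ℕ), p.Prime → p ≠ 2 → ∀ (W : WeierstrassCurve ℤ), W.Δ ≠ 0 → SemistableAway W p →
    ∀ K : AddSubgroup (EPt W), Nat.card K = p → (∀ σ : GQ, ∀ x ∈ K, σ • x ∈ K) →
    ∃ (W' : WeierstrassCurve ℤ) (φ : EPt W →+ EPt W'),
      W'.Δ ≠ 0 ∧ φ.ker = K ∧ (∀ (σ : GQ) (x : EPt W), φ (σ • x) = σ • φ x) ∧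
      (∀ ℓ : ℕ, ℓ.Prime → ℓ ≠ p → ¬ (ℓ : ℤ) ∣ W.Δ → ¬ (ℓ : ℤ) ∣ W'.Δ) ∧
      (∀ ℓ : ℕ, ℓ.Prime → ℓ ≠ p → (ℓ : ℤ) ∣ W.Δ → ¬ (ℓ : ℤ) ∣ W'.c₄)

/-- **(TOWER-ISO)** a tower is transported by an equivariant homomorphism whose kernel is its
first step (pure group theory + the cardinality of the torsion). -/
def TowerTransport : Prop :=
  ∀ (p : ℕ), p.Prime → ∀ (W W' : WeierstrassCurve ℤ), W.Δ ≠ 0 → W'.Δ ≠ 0 →
    ∀ (φ : EPt W →+ EPt W'), (∀ (σ : GQ) (x : EPt W), φ (σ • x) = σ • φ x) →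
    ∀ (A : ValuationSubring Qb) (G : ℕ → AddSubgroup (EPt W)), IsTower W p A G → φ.ker = G 1 →
      IsTower W' p A (fun m => (G (m + 1)).map φ)

/-! ### The Frey curve -/

/-- **(ADAPT)** a cofixed line of the frozen statement, on the points of the integral model. -/
def FreyAdapt : Prop :=
  ∀ P : FreyPackage,
    WeierstrassCurve.Affine.Point.HasGaloisStableCofixedLine (K := AlgebraicClosure ℚ) ℚ
      P.freyCurve P.p →
    ∃ N : AddSubgroup (EPt P.freyCurveInt), CofixedSub P.freyCurveInt P.p N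

/-- **(FREY-SS)** the Frey model is semistable and nonsingular. -/
def FreySemistable : Prop :=
  ∀ P : FreyPackage, P.freyCurveInt.Δ ≠ 0 ∧ SemistableAway P.freyCurveInt P.p

/-- **(FREY-P)** the tower of canonical subgroups of the Frey curve at a place over `p`, starting
at the cofixed line: `G m = E[p ^ m] ∩ E₁(A)`. -/
def FreyTower : Prop :=
  ∀ (P : FreyPackage) (N : AddSubgroup (EPt P.freyCurveInt)), CofixedSub P.freyCurveInt P.p N →
    ∀ A : ValuationSubring Qb, A.LiesOverPrime P.p →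
      ∃ G, IsTower P.freyCurveInt P.p A G ∧ G 1 = N

/-! ### Local theory of an integral model at a prime `ℓ` of semistable reduction -/

/-- **(L1)** the points with nonsingular reduction are stable under multiples. -/
def ZeroCompMul : Prop :=
  ∀ (W : WeierstrassCurve ℤ) (ℓ : ℕ), ℓ.Prime → W.Δ ≠ 0 → (ℓ : ℤ) ∣ W.Δ → ¬ (ℓ : ℤ) ∣ W.c₄ →
    ∀ A : ValuationSubring Qb, A.LiesOverPrime ℓ → ∀ (P : EPt W) (n : ℕ),
      W.InZeroComponentAt A P → W.InZeroComponentAt A (n • P)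

/-- **(L2)** inertia fixes the prime-to-`ℓ` torsion points with nonsingular reduction. -/
def ZeroCompFixed : Prop :=
  ∀ (W : WeierstrassCurve ℤ) (ℓ : ℕ), ℓ.Prime → W.Δ ≠ 0 → (ℓ : ℤ) ∣ W.Δ → ¬ (ℓ : ℤ) ∣ W.c₄ →
    ∀ A : ValuationSubring Qb, A.LiesOverPrime ℓ → ∀ τ ∈ A.inertiaSubgroupIn ℚ,
      ∀ m : ℕ, m.Coprime ℓ → ∀ P : EPt W, m • P = 0 → W.InZeroComponentAt A P → τ • P = P

/-- **(L3)** inertia moves a prime-to-`ℓ` torsion point by a point with nonsingular reduction. -/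
def InertiaSubZero : Prop :=
  ∀ (W : WeierstrassCurve ℤ) (ℓ : ℕ), ℓ.Prime → W.Δ ≠ 0 → (ℓ : ℤ) ∣ W.Δ → ¬ (ℓ : ℤ) ∣ W.c₄ →
    ∀ A : ValuationSubring Qb, A.LiesOverPrime ℓ → ∀ τ ∈ A.inertiaSubgroupIn ℚ,
      ∀ m : ℕ, m.Coprime ℓ → ∀ P : EPt W, m • P = 0 → W.InZeroComponentAt A (τ • P - P)

/-- **(L4)** a rational torsion point of order prime to `ℓ` with nonsingular reduction at a prime
of semistable reduction has order at most `2 ℓ + 1` (its multiples have pairwise distinct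
reductions in the nonsingular locus over `𝔽_ℓ`). -/
def RedInj : Prop :=
  ∀ (W : WeierstrassCurve ℤ) (ℓ : ℕ), ℓ.Prime → W.Δ ≠ 0 →
    ¬ ((ℓ : ℤ) ∣ W.Δ ∧ (ℓ : ℤ) ∣ W.c₄) →
    ∀ A : ValuationSubring Qb, A.LiesOverPrime ℓ → ∀ P : EPt W, (∀ σ : GQ, σ • P = P) →
      0 < addOrderOf P → (addOrderOf P).Coprime ℓ → W.InZeroComponentAt A P →
      addOrderOf P ≤ 2 * ℓ + 1

/-- **(L7)** at a prime of good reduction every point has nonsingular reduction. -/
def GoodZero : Prop :=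
  ∀ (W : WeierstrassCurve ℤ) (ℓ : ℕ), ℓ.Prime → ¬ (ℓ : ℤ) ∣ W.Δ →
    ∀ A : ValuationSubring Qb, A.LiesOverPrime ℓ → ∀ P : EPt W, W.InZeroComponentAt A P

/-! ### Global Galois bricks -/

/-- **(S14-APP)** S14 on `E[p]` of a curve with a rational point `Q` of order `p`: if `E[p]` is
unramified outside `p` and `⟨Q⟩` has a decomposition-stable complement at every place over `p`,
then `⟨Q⟩` has a Galois-stable complement. -/
def SplitOfLocal : Prop :=
  ∀ (p : ℕ), p.Prime → 3 ≤ p → ∀ (W : WeierstrassCurve ℤ), W.Δ ≠ 0 →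
    ∀ Q : EPt W, (∀ σ : GQ, σ • Q = Q) → addOrderOf Q = p →
    (∀ ℓ : ℕ, ℓ.Prime → ℓ ≠ p → ∀ A : ValuationSubring Qb, A.LiesOverPrime ℓ →
      ∀ τ ∈ A.inertiaSubgroupIn ℚ, ∀ x : EPt W, p • x = 0 → τ • x = x) →
    (∀ A : ValuationSubring Qb, A.LiesOverPrime p →
      ∃ L : AddSubgroup (EPt W), Nat.card L = p ∧ Q ∉ L ∧
        ∀ σ ∈ A.decompositionSubgroup ℚ, ∀ x ∈ L, σ • x ∈ L) →
    ∃ K : AddSubgroup (EPt W), Nat.card K = p ∧ Q ∉ K ∧ ∀ σ : GQ, ∀ x ∈ K, σ • x ∈ K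

/-- **(UNIQ-P)** at a place over `p`, a decomposition-stable line of `E[p]` not containing the
rational point `Q` is unique (the cyclotomic character is nontrivial on the decomposition group,
and the determinant is cyclotomic). -/
def ComplUnique : Prop :=
  ∀ (p : ℕ), p.Prime → p ≠ 2 → ∀ (W : WeierstrassCurve ℤ), W.Δ ≠ 0 →
    ∀ Q : EPt W, (∀ σ : GQ, σ • Q = Q) → addOrderOf Q = p →
    ∀ A : ValuationSubring Qb, A.LiesOverPrime p → ∀ L L' : AddSubgroup (EPt W),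
      Nat.card L = p → Nat.card L' = p → Q ∉ L → Q ∉ L' →
      (∀ σ ∈ A.decompositionSubgroup ℚ, ∀ x ∈ L, σ • x ∈ L) →
      (∀ σ ∈ A.decompositionSubgroup ℚ, ∀ x ∈ L', σ • x ∈ L') → L = L'

/-- **(NO-FIX)** a Galois-stable line of `E[p]` not containing the rational point `Q` has no
nonzero Galois-fixed point. -/
def ComplNoFixed : Prop :=
  ∀ (p : ℕ), p.Prime → p ≠ 2 → ∀ (W : WeierstrassCurve ℤ), W.Δ ≠ 0 →
    ∀ Q : EPt W, (∀ σ : GQ, σ • Q = Q) → addOrderOf Q = p →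
    ∀ K : AddSubgroup (EPt W), Nat.card K = p → Q ∉ K → (∀ σ : GQ, ∀ x ∈ K, σ • x ∈ K) →
      ∀ x ∈ K, (∀ σ : GQ, σ • x = x) → x = 0

/-- **(MINK)** a finite Galois-stable subgroup fixed pointwise by every inertia group is fixed
pointwise by the Galois group. -/
def RatOfUnram : Prop :=
  ∀ (W : WeierstrassCurve ℤ) (B : AddSubgroup (EPt W)), (B : Set (EPt W)).Finite →
    (∀ σ : GQ, ∀ x ∈ B, σ • x ∈ B) →
    (∀ ℓ : ℕ, ℓ.Prime → ∀ A : ValuationSubring Qb, A.LiesOverPrime ℓ →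
      ∀ τ ∈ A.inertiaSubgroupIn ℚ, ∀ x ∈ B, τ • x = x) →
    ∀ σ : GQ, ∀ x ∈ B, σ • x = x

/-- **(TORS)** the size of the torsion. -/
def TorsCard : Prop :=
  ∀ (W : WeierstrassCurve ℤ), W.Δ ≠ 0 → ∀ n : ℕ, n ≠ 0 →
    Nat.card {x : EPt W // n • x = 0} = n ^ 2

/-- **(DIV)** divisibility inside the torsion. -/
def TorsDiv : Prop :=
  ∀ (W : WeierstrassCurve ℤ), W.Δ ≠ 0 → ∀ p : ℕ, p.Prime → ∀ (n : ℕ) (x : EPt W),
    p ^ n • x = 0 → ∃ y : EPt W, p • y = x

/-- **(S12-TOP)** the statement to be proved from the bricks. -/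
def S12Stmt : Prop :=
  ∀ P : FreyPackage, 17 ≤ P.p →
    ¬ WeierstrassCurve.Affine.Point.HasGaloisStableCofixedLine (K := AlgebraicClosure ℚ) ℚ
      P.freyCurve P.p

end Fermat.Agent.S12P.Ifc48
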