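/-
S12 (helper48): the bricks of the descent `Seam48` / `Top48`, from the interface Props of
`Interfaces20` / `Interfaces20b` (helper20).

* `torsDiv`, `towerTransport` from `CardTor` (counting, `Cnt48`);
* `ratOfUnram` from `MinkN` + `OpenStab`;
* `freyTower` from `LocP` + `CardTor` (`G m = E1 ∩ E[p ^ m]`);
* `zeroCompMul`, `zeroCompFixed`, `inertiaSubZero` from `Node` (clauses 1 to 3);
* `isoExists5` from `StepLite`;
* `CycNT p`: the cyclotomic character mod `p` is nontrivial on inertia at the places over `p`;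
  `cycNT_of_frey` (from `LocP` + `CycloQuot` on the quotient of the Frey curve by the cofixed
  line), `complUnique`, `complNoFixed`.
-/
import Fermat.Agent.S12P.Ifc48
import Fermat.Agent.S12P.Grp48
import Fermat.Agent.S12P.Cnt48
import Fermat.Agent.S12P.Interfaces20
import Fermat.Agent.S12P.Interfaces20b

set_option autoImplicit false

namespace Fermat.Agent.S12P.Bricks48

open WeierstrassCurve

variable {W : WeierstrassCurve ℤ}

/-- Galois commutes with natural multiples. -/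
theorem smul_nsmul' (σ : GQ) (n : ℕ) (x : Pt W) : σ • (n • x) = n • (σ • x) :=
  map_nsmul (DistribSMul.toAddMonoidHom (Pt W) σ) n x

/-- Galois commutes with integer multiples. -/
theorem smul_zsmul' (σ : GQ) (n : ℤ) (x : Pt W) : σ • (n • x) = n • (σ • x) :=
  map_zsmul (DistribSMul.toAddMonoidHom (Pt W) σ) n x

theorem gsmul_zero (σ : GQ) : σ • (0 : Pt W) = 0 :=
  map_zero (DistribSMul.toAddMonoidHom (Pt W) σ)

theorem gsmul_add (σ : GQ) (a b : Pt W) : σ • (a + b) = σ • a + σ • b :=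
  map_add (DistribSMul.toAddMonoidHom (Pt W) σ) a b

theorem gsmul_sub (σ : GQ) (a b : Pt W) : σ • (a - b) = σ • a - σ • b :=
  map_sub (DistribSMul.toAddMonoidHom (Pt W) σ) a b

/-- The inertia group (as a subgroup of the Galois group) lies in the decomposition group. -/
theorem inertia_le_decomp (A : ValuationSubring Qb) {σ : GQ}
    (hσ : σ ∈ A.inertiaSubgroupIn ℚ) : σ ∈ A.decompositionSubgroup ℚ := by
  obtain ⟨d, -, rfl⟩ := Subgroup.mem_map.mp hσ
  exact d.2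

/-- The counting hypothesis of `Cnt48` for the points of an integral model. -/
theorem count (hC : CardTor) (hΔ : W.Δ ≠ 0) {p : ℕ} (hp : p.Prime) : Cnt48.Count (Pt W) p :=
  fun n => hC W hΔ p hp n

/-! ### Counting bricks -/

/-- **(DIV)** from the torsion count. -/
theorem torsDiv (hC : CardTor) : Ifc48.TorsDiv := by
  intro W hΔ p hp n x hx
  obtain ⟨z, -, hz⟩ := Cnt48.exists_mul_of_torsion hp (count hC hΔ hp) n x hx
  exact ⟨z, hz⟩

/-- **(TOWER-ISO)** from the torsion count. -/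
theorem towerTransport (hC : CardTor) : Ifc48.TowerTransport := by
  intro p hp W W' hΔ hΔ' φ hφ A G hG hker
  have hcardker : Nat.card φ.ker = p := by rw [hker, hG.card 1, pow_one]
  have hle : ∀ m, G 1 ≤ G (m + 1) := by
    intro m
    induction m with
    | zero => exact le_rfl
    | succ m ih => exact ih.trans (hG.mono (m + 1))
  refine ⟨fun m => AddSubgroup.map_mono (hG.mono (m + 1)), fun m => ?_,
    fun m j x hx hpx => ?_, fun m σ hσ x hx => ?_, fun m τ hτ y hy => ?_⟩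
  · have h1 := Cnt48.card_map_of_ker_le φ (G (m + 1)) (by rw [hker]; exact hle m)
    rw [hcardker, hG.card (m + 1), pow_succ] at h1
    exact Nat.eq_of_mul_eq_mul_right hp.pos h1
  · obtain ⟨g, hg, rfl⟩ := hx
    have h1 : p ^ j • g ∈ φ.ker := by
      rw [AddMonoidHom.mem_ker, map_nsmul]
      exact hpx
    rw [hker] at h1
    have h2 : p • (p ^ j • g) = 0 :=
      Grp48.nsmul_eq_zero_of_card (by rw [hG.card 1, pow_one]) h1
    have h3 : p ^ (j + 1) • g = 0 := by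
      rw [pow_succ, mul_nsmul]
      exact h2
    exact ⟨g, hG.tors (m + 1) (j + 1) g hg h3, rfl⟩
  · obtain ⟨x₀, hx₀, rfl⟩ := hx
    exact ⟨σ • x₀, hG.stable (m + 1) σ hσ x₀ hx₀, hφ σ x₀⟩
  · obtain ⟨y₀, hy₀, rfl⟩ := Cnt48.exists_preimage_of_torsion hp (count hC hΔ hp)
      (count hC hΔ' hp) φ hcardker m y hy
    refine ⟨τ • y₀ - y₀, hG.inert (m + 1) τ hτ y₀ hy₀, ?_⟩
    rw [map_sub, hφ]

/-! ### Minkowski -/

/-- **(MINK)** from `MinkN` and `OpenStab`: the kernel of the action on a finite stable subgroup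
is a normal open subgroup. -/
theorem ratOfUnram (hM : MinkN) (hO : OpenStab) : Ifc48.RatOfUnram := by
  intro W B hB hst hin
  let H : Subgroup GQ :=
    { carrier := {σ | ∀ x ∈ B, σ • x = x}
      one_mem' := fun x _ => one_smul _ x
      mul_mem' := fun {a b} ha hb x hx => by rw [mul_smul, hb x hx, ha x hx]
      inv_mem' := fun {a} ha x hx => by
        conv_lhs => rw [← ha x hx]
        exact inv_smul_smul a x }
  have hmem : ∀ σ : GQ, σ ∈ H ↔ ∀ x ∈ B, σ • x = x := fun σ => Iff.rfl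
  have hnormal : H.Normal := ⟨fun n hn g => by
    rw [hmem]
    intro x hx
    rw [mul_smul, mul_smul, hn _ (hst g⁻¹ x hx), smul_inv_smul]⟩
  have hopen : IsOpen (H : Set GQ) := by
    have hH : (H : Set GQ) = ⋂ x ∈ (B : Set (Pt W)), {σ : GQ | σ • x = x} := by
      ext σ
      simp only [Set.mem_iInter, Set.mem_ofPred_eq]
      exact hmem σ
    rw [hH]
    exact hB.isOpen_biInter (fun x _ => hO W x)
  have htop := hM H hnormal hopen (fun ℓ hℓ A hA σ hσ => (hmem σ).mpr (hin ℓ hℓ A hA σ hσ))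
  intro σ x hx
  have hσ : σ ∈ H := by
    rw [htop]
    exact Subgroup.mem_top σ
  exact (hmem σ).mp hσ x hx

/-! ### The Frey curve at `p` -/

/-- **(FREY-P)** from `LocP` and the torsion count: `G m = E1 ∩ E[p ^ m]`. -/
theorem freyTower (hL : LocP) (hC : CardTor) (hFSS : FreySS) : Ifc48.FreyTower := by
  intro P N hN A hA
  have hp := P.pp
  have hΔ := (hFSS P).1
  have hcnt := count hC hΔ hp
  have hNp : ∀ x ∈ N, P.p • x = 0 := fun x hx => Grp48.nsmul_eq_zero_of_card hN.card hx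
  obtain ⟨E1, hst, hin, hE1N, σ, hσ, x, hxN, hσx⟩ :=
    hL P N hN.card hNp hN.stable hN.cofixed A hA
  have hpx : P.p • x = 0 := hNp x hxN
  have hex : ∀ m : ℕ, ∃ z ∈ E1, P.p ^ (m + 1) • z = 0 ∧ P.p ^ m • z ≠ 0 := by
    intro m
    obtain ⟨y, hy0, hy⟩ :=
      Cnt48.exists_pow_mul_of_torsion hp hcnt 1 x (by rwa [pow_one]) m
    have hy0' : P.p ^ (m + 1) • y = 0 := by rwa [add_comm] at hy0
    refine ⟨σ • y - y, hin σ hσ y (m + 1) hy0', ?_, ?_⟩
    · rw [nsmul_sub, ← smul_nsmul', hy0', gsmul_zero, sub_self]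
    · rw [nsmul_sub, ← smul_nsmul', hy]
      exact fun h => hσx (sub_eq_zero.mp h)
  have hcard := Cnt48.card_inf_tor hp hcnt E1 N hN.card hE1N hex
  refine ⟨fun m => E1 ⊓ Cnt48.tor (Pt P.freyCurveInt) (P.p ^ m), ⟨?_, hcard, ?_, ?_, ?_⟩, ?_⟩
  · intro m y hy
    exact ⟨hy.1, Cnt48.mem_tor.mpr (by
      rw [pow_succ, mul_nsmul, Cnt48.mem_tor.mp hy.2, nsmul_zero])⟩
  · intro m j y hy hpy
    exact ⟨hy.1, Cnt48.mem_tor.mpr hpy⟩
  · intro m τ hτ y hy
    exact ⟨hst τ hτ y hy.1, Cnt48.mem_tor.mpr (by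
      rw [← smul_nsmul', Cnt48.mem_tor.mp hy.2, gsmul_zero])⟩
  · intro m τ hτ y hy
    exact ⟨hin τ hτ y m hy, Cnt48.mem_tor.mpr (by
      rw [nsmul_sub, ← smul_nsmul', hy, gsmul_zero, sub_self])⟩
  · have hfin : Finite N := Nat.finite_of_card_ne_zero (by rw [hN.card]; exact hp.ne_zero)
    apply AddSubgroup.eq_of_le_of_card_ge
    · intro y hy
      exact hE1N y hy.1 (by
        have h := Cnt48.mem_tor.mp hy.2
        rwa [pow_one] at h)
    · rw [hcard 1, pow_one, hN.card]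

/-! ### The zero component at a multiplicative prime -/

/-- **(L1)** from `Node`. -/
theorem zeroCompMul (hN : Node) : Ifc48.ZeroCompMul := by
  intro W ℓ hℓ hΔ hℓΔ hc A hA P n hP
  obtain ⟨E0, hE0, -, -, -⟩ := hN W hΔ ℓ hℓ hℓΔ hc A hA
  exact (hE0 _).mp (E0.nsmul_mem ((hE0 P).mpr hP) n)

/-- **(L2)** from `Node`. -/
theorem zeroCompFixed (hN : Node) : Ifc48.ZeroCompFixed := by
  intro W ℓ hℓ hΔ hℓΔ hc A hA τ hτ m hm P hmP hP
  obtain ⟨E0, hE0, -, h3, -⟩ := hN W hΔ ℓ hℓ hℓΔ hc A hA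
  exact h3 τ hτ P ((hE0 P).mpr hP) m hm hmP

/-- **(L3)** from `Node`. -/
theorem inertiaSubZero (hN : Node) : Ifc48.InertiaSubZero := by
  intro W ℓ hℓ hΔ hℓΔ hc A hA τ hτ m _ P _
  obtain ⟨E0, hE0, h2, -, -⟩ := hN W hΔ ℓ hℓ hℓΔ hc A hA
  exact (hE0 _).mp (h2 τ hτ P)

/-! ### The isogeny -/

/-- `Ifc48.IsoExists` for `p ≥ 5`. -/
def IsoExists5 : Prop :=
  ∀ (p : ℕ), p.Prime → 5 ≤ p → ∀ (W : WeierstrassCurve ℤ), W.Δ ≠ 0 → Ifc48.SemistableAway W p →
    ∀ K : AddSubgroup (Pt W), Nat.card K = p → (∀ σ : GQ, ∀ x ∈ K, σ • x ∈ K) →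
    ∃ (W' : WeierstrassCurve ℤ) (φ : Pt W →+ Pt W'),
      W'.Δ ≠ 0 ∧ φ.ker = K ∧ (∀ (σ : GQ) (x : Pt W), φ (σ • x) = σ • φ x) ∧
      (∀ ℓ : ℕ, ℓ.Prime → ℓ ≠ p → ¬ (ℓ : ℤ) ∣ W.Δ → ¬ (ℓ : ℤ) ∣ W'.Δ) ∧
      (∀ ℓ : ℕ, ℓ.Prime → ℓ ≠ p → (ℓ : ℤ) ∣ W.Δ → ¬ (ℓ : ℤ) ∣ W'.c₄)

/-- **(ISO)** from `StepLite`. -/
theorem isoExists5 (hStep : StepLite) : IsoExists5 := by
  intro p hp hp5 W hΔ hsst K hK hKst
  obtain ⟨W', φ, hΔ', hker, hequiv, hloc⟩ := hStep p hp hp5 W hΔ K hK hKst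
  exact ⟨W', φ, hΔ', hker, hequiv, fun ℓ hℓ hℓp => (hloc ℓ hℓ hℓp).1,
    fun ℓ hℓ hℓp hℓΔ => ((hloc ℓ hℓ hℓp).2 hℓΔ (hsst ℓ hℓ hℓp hℓΔ)).2⟩

/-! ### The cyclotomic character at `p` -/

/-- The cyclotomic character mod `p` is nontrivial on the inertia group of every place over
`p`. -/
def CycNT (p : ℕ) [Fact p.Prime] : Prop :=
  ∀ A : ValuationSubring Qb, A.LiesOverPrime p →
    ∃ σ ∈ A.inertiaSubgroupIn ℚ, ¬ (p : ℤ) ∣ ((ExtCitation.cycloExp p σ : ℕ) : ℤ) - 1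

/-- On a line `L` of `E[p]` not containing the rational point `Q`, an element `σ` stabilising
`L` acts through the cyclotomic character. -/
theorem smul_eq_cyclo (hCyc : CycloQuot) {p : ℕ} [Fact p.Prime] (hp2 : p ≠ 2) (hΔ : W.Δ ≠ 0)
    {Q : Pt W} (hfix : ∀ σ : GQ, σ • Q = Q) (hord : addOrderOf Q = p)
    {L : AddSubgroup (Pt W)} (hL : Nat.card L = p) (hQL : Q ∉ L) (σ : GQ)
    {x : Pt W} (hx : x ∈ L) (hσx : σ • x ∈ L) : σ • x = ExtCitation.cycloExp p σ • x := by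
  have hp : p.Prime := Fact.out
  have hpQ : p • Q = 0 := by
    rw [← hord]
    exact addOrderOf_nsmul_eq_zero Q
  have hQ0 : Q ≠ 0 := by
    intro h
    rw [h, addOrderOf_zero] at hord
    exact hp.one_lt.ne hord
  obtain ⟨a, ha⟩ := hCyc W hΔ p hp2 Q hpQ hQ0 hfix σ x (Grp48.nsmul_eq_zero_of_card hL hx)
  have haL : a • Q ∈ L := by
    rw [← ha]
    exact L.sub_mem hσx (L.nsmul_mem hx _)
  have ha0 : a • Q = 0 := by
    by_contra hne
    obtain ⟨m, hm⟩ := Grp48.exists_nsmul_of_mem_zmultiples hp hord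
      (AddSubgroup.zsmul_mem_zmultiples Q a) hne
    apply hQL
    rw [hm]
    exact L.nsmul_mem haL m
  rw [ha0] at ha
  exact sub_eq_zero.mp ha

/-- **(UNIQ-P)** from `CycloQuot` and `CycNT`. -/
theorem complUnique (hCyc : CycloQuot) (hC : CardTor) {p : ℕ} [Fact p.Prime] (hp2 : p ≠ 2)
    (hNT : CycNT p) (hΔ : W.Δ ≠ 0) {Q : Pt W} (hfix : ∀ σ : GQ, σ • Q = Q)
    (hord : addOrderOf Q = p) (A : ValuationSubring Qb) (hA : A.LiesOverPrime p)
    (L L' : AddSubgroup (Pt W)) (hL : Nat.card L = p) (hL' : Nat.card L' = p) (hQL : Q ∉ L)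
    (hQL' : Q ∉ L') (hLst : ∀ σ ∈ A.decompositionSubgroup ℚ, ∀ x ∈ L, σ • x ∈ L)
    (hLst' : ∀ σ ∈ A.decompositionSubgroup ℚ, ∀ x ∈ L', σ • x ∈ L') : L = L' := by
  have hp : p.Prime := Fact.out
  obtain ⟨σ, hσI, hσ⟩ := hNT A hA
  have hσD := inertia_le_decomp A hσI
  have hpQ : p • Q = 0 := by
    rw [← hord]
    exact addOrderOf_nsmul_eq_zero Q
  have hcT := Grp48.card_torP (Cnt48.card_tor_one (count hC hΔ hp))
  have hfin' : Finite L' := Nat.finite_of_card_ne_zero (by rw [hL']; exact hp.ne_zero)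
  apply AddSubgroup.eq_of_le_of_card_ge
  · intro x hx
    obtain ⟨n, κ, hκ, hxe⟩ :=
      Grp48.exists_decomp hp hcT hpQ hL' hQL' (Grp48.nsmul_eq_zero_of_card hL hx)
    have h1 := smul_eq_cyclo hCyc hp2 hΔ hfix hord hL hQL σ hx (hLst σ hσD x hx)
    have h2 := smul_eq_cyclo hCyc hp2 hΔ hfix hord hL' hQL' σ hκ (hLst' σ hσD κ hκ)
    rw [hxe, gsmul_add, smul_zsmul', hfix, h2, nsmul_add] at h1
    have h3 : n • Q = ExtCitation.cycloExp p σ • (n • Q) := add_right_cancel h1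
    have h4 : ((((ExtCitation.cycloExp p σ : ℕ) : ℤ) - 1) * n) • Q = 0 := by
      rw [mul_smul, sub_smul, one_smul, natCast_zsmul, ← h3, sub_self]
    have h5 : (p : ℤ) ∣ (((ExtCitation.cycloExp p σ : ℕ) : ℤ) - 1) * n := by
      have h := addOrderOf_dvd_iff_zsmul_eq_zero.mpr h4
      rwa [hord] at h
    have h6 : (p : ℤ) ∣ n :=
      ((Nat.prime_iff_prime_int.mp hp).dvd_or_dvd h5).resolve_left hσ
    have h7 : n • Q = 0 := by
      apply addOrderOf_dvd_iff_zsmul_eq_zero.mp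
      rw [hord]
      exact h6
    rw [hxe, h7, zero_add]
    exact hκ
  · rw [hL, hL']

/-- **(NO-FIX)** from `CycloQuot` and `CycNT`. -/
theorem complNoFixed (hCyc : CycloQuot) (hFE : FrobEx) {p : ℕ} [Fact p.Prime] (hp2 : p ≠ 2)
    (hNT : CycNT p) (hΔ : W.Δ ≠ 0) {Q : Pt W} (hfix : ∀ σ : GQ, σ • Q = Q)
    (hord : addOrderOf Q = p) (K : AddSubgroup (Pt W)) (hK : Nat.card K = p) (hQK : Q ∉ K)
    (hKst : ∀ σ : GQ, ∀ x ∈ K, σ • x ∈ K) (x : Pt W) (hx : x ∈ K)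
    (hxfix : ∀ σ : GQ, σ • x = x) : x = 0 := by
  have hp : p.Prime := Fact.out
  obtain ⟨A, hA, -⟩ := hFE p hp
  obtain ⟨σ, -, hσ⟩ := hNT A hA
  have h1 := smul_eq_cyclo hCyc hp2 hΔ hfix hord hK hQK σ hx (hKst σ x hx)
  rw [hxfix] at h1
  by_contra hx0
  obtain ⟨hxord, -⟩ := Grp48.prime_card hp hK hx hx0
  apply hσ
  have h2 : ((((ExtCitation.cycloExp p σ : ℕ) : ℤ) - 1)) • x = 0 := by
    rw [sub_smul, one_smul, natCast_zsmul, ← h1, sub_self]
  have h := addOrderOf_dvd_iff_zsmul_eq_zero.mpr h2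
  rwa [hxord] at h

/-- `CycNT p` for the prime of a Frey package with a cofixed line `N`: an inertia element at a
place over `p` moving `N` (`LocP`) acts on `N` through the cyclotomic character (`CycloQuot` on
the quotient curve `E / N`). -/
theorem cycNT_of_frey (hStep : StepLite) (hCyc : CycloQuot) (hLocP : LocP) (hC : CardTor)
    (hFSS : FreySS) (P : FreyPackage) (N : AddSubgroup (Pt P.freyCurveInt))
    (hN : Ifc48.CofixedSub P.freyCurveInt P.p N) : @CycNT P.p ⟨P.pp⟩ := by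
  have : Fact P.p.Prime := ⟨P.pp⟩
  have hp := P.pp
  have hp5 := P.hp5
  have hp2 : P.p ≠ 2 := by omega
  obtain ⟨hΔ, -⟩ := hFSS P
  have hcnt := count hC hΔ hp
  have hNp : ∀ x ∈ N, P.p • x = 0 := fun x hx => Grp48.nsmul_eq_zero_of_card hN.card hx
  obtain ⟨W', φ, hΔ', hker, hequiv, -⟩ :=
    hStep P.p hp hp5 P.freyCurveInt hΔ N hN.card hN.stable
  have hcardT := Grp48.card_torP (Cnt48.card_tor_one hcnt)
  obtain ⟨P₀, hP₀, hP₀N⟩ : ∃ P₀ : Pt P.freyCurveInt, P.p • P₀ = 0 ∧ P₀ ∉ N := by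
    by_contra hcon
    have hle : Grp48.torP (Pt P.freyCurveInt) P.p ≤ N := fun x hx => by
      by_contra hxN
      exact hcon ⟨x, Grp48.mem_torP.mp hx, hxN⟩
    have h1 := AddSubgroup.card_dvd_of_le hle
    rw [hcardT, hN.card] at h1
    have h2 := Nat.le_of_dvd hp.pos h1
    have h3 : P.p ^ 1 < P.p ^ 2 := Nat.pow_lt_pow_right hp.one_lt (by norm_num)
    rw [pow_one] at h3
    omega
  have hKφ : ∀ x : Pt P.freyCurveInt, φ x = 0 → x ∈ N := fun x hx => by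
    rw [← hker]
    exact AddMonoidHom.mem_ker.mpr hx
  have hφK : ∀ κ ∈ N, φ κ = 0 := fun κ hκ => by
    have hmem : κ ∈ φ.ker := by
      rw [hker]
      exact hκ
    exact AddMonoidHom.mem_ker.mp hmem
  have hφQ0 : φ P₀ ≠ 0 := fun h0 => hP₀N (hKφ P₀ h0)
  have hpφQ : P.p • φ P₀ = 0 := by rw [← map_nsmul, hP₀, map_zero]
  have hfix' : ∀ σ : GQ, σ • φ P₀ = φ P₀ := fun σ => by
    have h1 : σ • P₀ = (σ • P₀ - P₀) + P₀ := by abel
    rw [← hequiv, h1, map_add, hφK _ (hN.cofixed σ P₀ hP₀), zero_add]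
  have hφtor : ∀ y : Pt P.freyCurveInt, P.p • y = 0 →
      φ y ∈ AddSubgroup.zmultiples (φ P₀) := by
    intro y hy
    obtain ⟨n, κ, hκ, rfl⟩ := Grp48.exists_decomp hp hcardT hP₀ hN.card hP₀N hy
    rw [map_add, map_zsmul, hφK κ hκ, add_zero]
    exact AddSubgroup.zsmul_mem _ (AddSubgroup.mem_zmultiples _) n
  intro A hA
  obtain ⟨E1, -, -, -, σ, hσ, x, hxN, hσx⟩ :=
    hLocP P N hN.card hNp hN.stable hN.cofixed A hA
  refine ⟨σ, hσ, ?_⟩
  intro hdvd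
  have hx0 : x ≠ 0 := by
    rintro rfl
    exact hσx (gsmul_zero σ)
  have hpx := hNp x hxN
  obtain ⟨-, hNx⟩ := Grp48.prime_card hp hN.card hxN hx0
  have hσxN : σ • x ∈ AddSubgroup.zmultiples x := by
    rw [← hNx]
    exact hN.stable σ x hxN
  obtain ⟨m, hm⟩ := AddSubgroup.mem_zmultiples_iff.mp hσxN
  obtain ⟨v, -, hv⟩ := Cnt48.exists_mul_of_torsion hp hcnt 1 x (by rwa [pow_one])
  have hpz : P.p • φ v = 0 := by
    rw [← map_nsmul, hv]
    exact hφK x hxN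
  have hz : φ v ∉ AddSubgroup.zmultiples (φ P₀) := by
    intro hmem
    obtain ⟨n, hn⟩ := AddSubgroup.mem_zmultiples_iff.mp hmem
    have h1 : v - n • P₀ ∈ N := hKφ _ (by rw [map_sub, map_zsmul, hn, sub_self])
    have h2 : P.p • (v - n • P₀) = 0 := hNp _ h1
    rw [nsmul_sub, hv, smul_comm, hP₀, zsmul_zero, sub_zero] at h2
    exact hx0 h2
  have hw : P.p • (σ • v - m • v) = 0 := by
    rw [nsmul_sub, ← smul_nsmul', hv, smul_comm P.p m v, hv, hm, sub_self]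
  have h3 : σ • φ v - m • φ v ∈ AddSubgroup.zmultiples (φ P₀) := by
    have h := hφtor _ hw
    rwa [map_sub, hequiv, map_zsmul] at h
  obtain ⟨a, ha⟩ := hCyc W' hΔ' P.p hp2 (φ P₀) hpφQ hφQ0 hfix' σ (φ v) hpz
  have h4 : (((ExtCitation.cycloExp P.p σ : ℕ) : ℤ) - m) • φ v ∈
      AddSubgroup.zmultiples (φ P₀) := by
    have e : (((ExtCitation.cycloExp P.p σ : ℕ) : ℤ) - m) • φ v =
        (σ • φ v - m • φ v) - (σ • φ v - ExtCitation.cycloExp P.p σ • φ v) := by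
      rw [sub_smul, natCast_zsmul]
      abel
    rw [e, ha]
    exact AddSubgroup.sub_mem _ h3 (AddSubgroup.zsmul_mem_zmultiples _ a)
  have h5 : (P.p : ℤ) ∣ ((ExtCitation.cycloExp P.p σ : ℕ) : ℤ) - m := by
    by_contra hnd
    have hcop : IsCoprime (((ExtCitation.cycloExp P.p σ : ℕ) : ℤ) - m) (P.p : ℤ) :=
      ((Nat.prime_iff_prime_int.mp hp).coprime_iff_not_dvd.mpr hnd).symm
    obtain ⟨u, w, huw⟩ := hcop
    apply hz
    have e : φ v = u • ((((ExtCitation.cycloExp P.p σ : ℕ) : ℤ) - m) • φ v) +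
        w • ((P.p : ℤ) • φ v) := by
      rw [← mul_smul, ← mul_smul, ← add_zsmul, huw, one_zsmul]
    rw [e, natCast_zsmul, hpz, zsmul_zero, add_zero]
    exact AddSubgroup.zsmul_mem _ h4 u
  have h6 : (P.p : ℤ) ∣ m - 1 := by
    have h := dvd_sub hdvd h5
    have e : (((ExtCitation.cycloExp P.p σ : ℕ) : ℤ) - 1) -
        (((ExtCitation.cycloExp P.p σ : ℕ) : ℤ) - m) = m - 1 := by ring
    rwa [e] at h
  apply hσx
  rw [← hm]
  obtain ⟨d, hd⟩ := h6
  have h7 : (m - 1) • x = 0 := by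
    rw [hd, mul_comm, mul_smul, natCast_zsmul, hpx, zsmul_zero]
  have h8 : m • x = (m - 1) • x + x := by rw [sub_smul, one_smul, sub_add_cancel]
  rw [h8, h7, zero_add]

end Fermat.Agent.S12P.Bricks48
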