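/-
S12 (helper48): the top of the Mazur descent for the Frey curve, against the interface Props of
`Interfaces20` / `Interfaces20b` (helper20).

`top`: the frozen statement S15 (as a hypothesis), the S14 application `Ifc48.SplitOfLocal`
(a theorem: `SplitOfLocal99.splitOfLocal`) and the Props `StepLite`, `Node`, `RedCount`,
`FrobFixed`, `FrobEx`, `GoodUnr`, `CardTor`, `CycloQuot`, `OpenStab`, `LocP`, `Base`, `MinkN`,
`FreySS` imply `TopStmt` (= the frozen statement S12).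

Route (the one of `Seam48`, re-targeted): a chain of integral curves `W₁, W₂, …`
(`W₁ = E / N`, `W_{k+1} = W_k / K_k`), each with a rational point `Q_k` of order `p`, a rational
point `R_k` of order `p ^ k`, and at every place over `p` a tower of canonical subgroups
(transported from `E1 ∩ E[p ^ m]` on the Frey curve).  `K_k` is the Galois-stable complement of
`⟨Q_k⟩` in `W_k[p]` given by S14; S15 on `(W_k, Q_k)` + `Node` give "unramified outside `p`",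
the tower gives "locally split at `p`".  `R_{k+1} = φ(y)` with `p • y = R_k`; it is rational by
Minkowski: inertia at `ℓ ≠ p` moves it inside `⟨Q_{k+1}⟩ ∩ E0 = 0` (S15 on `(W_{k+1}, Q_{k+1})`),
inertia at `p` inside `⟨Q_{k+1}⟩ ∩ G'(1) = 0`.  End: at a good prime `ℓ₀` a Frobenius lift fixes
`R_k`, so `p ^ k ≤ 2 ℓ₀ + 1` for every `k` (`FrobFixed`).
-/
import Fermat.Agent.S12P.Bricks48

set_option autoImplicit false

namespace Fermat.Agent.S12P.Top48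

open WeierstrassCurve
open Fermat.Agent.S12P.Ifc48 (SemistableAway IsTower MZ CofixedSub)
open Fermat.Agent.S12P.Grp48
open Fermat.Agent.S12P.Bricks48

variable {W : WeierstrassCurve ℤ}

theorem gsmul_neg (σ : GQ) (a : Pt W) : σ • (-a) = -(σ • a) :=
  map_neg (DistribSMul.toAddMonoidHom (Pt W) σ) a

/-- **Mazur's steps 1 and 2**: at `ℓ ∈ {2, 3}` the model is multiplicative and the rational point
of order `p ≥ 17` misses the zero component. -/
theorem mazur12 (hRC : RedCount) (hFF : FrobFixed) (hFE : FrobEx) {p : ℕ} (hp : p.Prime)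
    (hp17 : 17 ≤ p) {Q : Pt W} (hΔ : W.Δ ≠ 0) (hsst : SemistableAway W p)
    (hfix : ∀ σ : GQ, σ • Q = Q) (hord : addOrderOf Q = p) {ℓ : ℕ} (hℓ : ℓ.Prime)
    (hℓ3 : ℓ ≤ 3) :
    (ℓ : ℤ) ∣ W.Δ ∧ ¬ (ℓ : ℤ) ∣ W.c₄ ∧
      ∀ A : ValuationSubring Qb, A.LiesOverPrime ℓ → ¬ W.InZeroComponentAt A Q := by
  have hne : ℓ ≠ p := by omega
  have hpQ : p • Q = 0 := by
    rw [← hord]
    exact addOrderOf_nsmul_eq_zero Q
  have hQ0 : Q ≠ 0 := by
    intro h
    rw [h, addOrderOf_zero] at hord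
    omega
  have hcop : p.Coprime ℓ := (Nat.coprime_primes hp hℓ).mpr (Ne.symm hne)
  have hdvd : (ℓ : ℤ) ∣ W.Δ := by
    by_contra hnd
    obtain ⟨A, hA, σ, hσ⟩ := hFE ℓ hℓ
    have h := hFF W hΔ ℓ hℓ hnd A hA σ hσ p hcop Q hpQ (hfix σ)
    rw [hord] at h
    omega
  have hc := hsst ℓ hℓ hne hdvd
  refine ⟨hdvd, hc, fun A hA hin => ?_⟩
  have h := hRC W hΔ ℓ hℓ hdvd hc A hA p hp (Ne.symm hne) Q hfix hpQ hQ0 hin
  have h9 : ℓ ^ 2 ≤ 3 ^ 2 := Nat.pow_le_pow_left hℓ3 2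
  omega

/-- **Mazur's step 3** (= the frozen S15): the rational point misses the zero component at every
multiplicative prime `ℓ ≠ p`. -/
theorem not_inZero (h15 : S15Stmt) (hRC : RedCount) (hFF : FrobFixed) (hFE : FrobEx) {p : ℕ}
    (hp : p.Prime) (hp17 : 17 ≤ p) {Q : Pt W} (hΔ : W.Δ ≠ 0) (hsst : SemistableAway W p)
    (hfix : ∀ σ : GQ, σ • Q = Q) (hord : addOrderOf Q = p) {ℓ : ℕ} (hℓ : ℓ.Prime) (hℓp : ℓ ≠ p)
    (hℓΔ : (ℓ : ℤ) ∣ W.Δ) (A : ValuationSubring Qb) (hA : A.LiesOverPrime ℓ) :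
    ¬ W.InZeroComponentAt A Q := by
  obtain ⟨h2Δ, h2c, h2⟩ :=
    mazur12 hRC hFF hFE hp hp17 hΔ hsst hfix hord Nat.prime_two (by norm_num)
  obtain ⟨h3Δ, h3c, h3⟩ :=
    mazur12 hRC hFF hFE hp hp17 hΔ hsst hfix hord Nat.prime_three (by norm_num)
  have hp' : p ∉ ({2, 3, 5, 7, 13} : Finset ℕ) := by
    simp only [Finset.mem_insert, Finset.mem_singleton]
    omega
  exact h15 hp hp' W hΔ Q hfix hord (by exact_mod_cast h2Δ) (by exact_mod_cast h2c) h2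
    (by exact_mod_cast h3Δ) (by exact_mod_cast h3c) h3 hℓ hℓp hℓΔ (hsst ℓ hℓ hℓp hℓΔ) A hA

/-- `E[p]` is unramified at every `ℓ ≠ p`. -/
theorem unram (h15 : S15Stmt) (hGU : GoodUnr) (hNode : Node) (hRC : RedCount) (hFF : FrobFixed)
    (hFE : FrobEx) (hCard : CardTor)
    {p : ℕ} (hp : p.Prime) (hp17 : 17 ≤ p) {Q : Pt W} (hΔ : W.Δ ≠ 0)
    (hsst : SemistableAway W p) (hfix : ∀ σ : GQ, σ • Q = Q) (hord : addOrderOf Q = p)
    {ℓ : ℕ} (hℓ : ℓ.Prime) (hℓp : ℓ ≠ p) (A : ValuationSubring Qb) (hA : A.LiesOverPrime ℓ)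
    (τ : GQ) (hτ : τ ∈ A.inertiaSubgroupIn ℚ) (x : Pt W) (hx : p • x = 0) : τ • x = x := by
  have : Fact p.Prime := ⟨hp⟩
  have hcop : p.Coprime ℓ := (Nat.coprime_primes hp hℓ).mpr (Ne.symm hℓp)
  by_cases hℓΔ : (ℓ : ℤ) ∣ W.Δ
  · have hc4 := hsst ℓ hℓ hℓp hℓΔ
    by_contra hne
    have hd0 : τ • x - x ≠ 0 := fun h => hne (sub_eq_zero.mp h)
    have hpd : p • (τ • x - x) = 0 := by
      rw [nsmul_sub, ← smul_nsmul', hx, gsmul_zero, sub_self]
    have hin : W.InZeroComponentAt A (τ • x - x) :=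
      inertiaSubZero hNode W ℓ hℓ hΔ hℓΔ hc4 A hA τ hτ p hcop x hx
    have hτd : τ • (τ • x - x) = τ • x - x :=
      zeroCompFixed hNode W ℓ hℓ hΔ hℓΔ hc4 A hA τ hτ p hcop _ hpd hin
    have hdord : addOrderOf (τ • x - x) = p := addOrderOf_eq_prime hpd hd0
    have hQd : Q ∉ AddSubgroup.zmultiples (τ • x - x) := by
      intro hmem
      obtain ⟨n, hn⟩ := AddSubgroup.mem_zmultiples_iff.mp hmem
      obtain ⟨m, hm⟩ := zsmul_eq_nsmul_of_tors hp.ne_zero hpd n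
      have hQin : W.InZeroComponentAt A Q := by
        rw [← hn, hm]
        exact zeroCompMul hNode W ℓ hℓ hΔ hℓΔ hc4 A hA _ m hin
      exact not_inZero h15 hRC hFF hFE hp hp17 hΔ hsst hfix hord hℓ hℓp hℓΔ A hA hQin
    -- the subgroup of the `p`-torsion fixed by `τ`
    let S : AddSubgroup (Pt W) :=
      { carrier := {y | p • y = 0 ∧ τ • y = y}
        zero_mem' := ⟨smul_zero _, gsmul_zero _⟩
        add_mem' := fun {a b} ha hb =>
          ⟨by rw [nsmul_add, ha.1, hb.1, add_zero], by rw [gsmul_add, ha.2, hb.2]⟩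
        neg_mem' := fun {a} ha => ⟨by rw [neg_nsmul, ha.1, neg_zero], by rw [gsmul_neg, ha.2]⟩ }
    have hc := card_torP (Cnt48.card_tor_one (count hCard hΔ hp))
    have hSle : S ≤ torP (Pt W) p := fun y hy => mem_torP.mpr hy.1
    have hQS : Q ∈ S := ⟨by rw [← hord]; exact addOrderOf_nsmul_eq_zero Q, hfix τ⟩
    have hdS : τ • x - x ∈ S := ⟨hpd, hτd⟩
    have hS := eq_torP_of_two hp hc S hSle hQS hdS hdord hQd
    have hxS : x ∈ S := by
      rw [hS]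
      exact mem_torP.mpr hx
    exact hne hxS.2
  · exact hGU W ℓ hℓ hℓΔ A hA τ hτ p hcop x hx

/-- **The descent step.** -/
theorem step (h15 : S15Stmt) (hSplit : Ifc48.SplitOfLocal) (hStep : StepLite) (hNode : Node)
    (hRC : RedCount) (hFF : FrobFixed) (hFE : FrobEx) (hGU : GoodUnr) (hCard : CardTor)
    (hCyc : CycloQuot) (hOpen : OpenStab) (hMink : MinkN)
    {p : ℕ} (hp : p.Prime) (hp17 : 17 ≤ p) (hNT : @CycNT p ⟨hp⟩) {W₀ : WeierstrassCurve ℤ}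
    {k : ℕ} {Q : Pt W} (h : MZ p W₀ (k + 1) W Q) :
    ∃ (W' : WeierstrassCurve ℤ) (Q' : Pt W'), MZ p W₀ (k + 2) W' Q' := by
  have hp2 : p ≠ 2 := by omega
  have hp3 : 3 ≤ p := by omega
  have hp5 : 5 ≤ p := by omega
  have : Fact p.Prime := ⟨hp⟩
  obtain ⟨hΔ, hsst, hgood, hfix, hord, htower, R, hRfix, hRord⟩ := h
  have hpQ : p • Q = 0 := by
    rw [← hord]
    exact addOrderOf_nsmul_eq_zero Q
  -- the global complement
  obtain ⟨K, hKcard, hQK, hKst⟩ := hSplit p hp hp3 W hΔ Q hfix hord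
    (fun ℓ hℓ hℓp A hA τ hτ x hx =>
      unram h15 hGU hNode hRC hFF hFE hCard hp hp17 hΔ hsst hfix hord hℓ hℓp A hA τ hτ x hx)
    (fun A hA => by
      obtain ⟨G, hG, hQG⟩ := htower A hA
      exact ⟨G 1, by rw [hG.card 1, pow_one], hQG, hG.stable 1⟩)
  -- the isogeny
  obtain ⟨W', φ, hΔ', hker, hequiv, hgood', hc4'⟩ :=
    isoExists5 hStep p hp hp5 W hΔ hsst K hKcard hKst
  have hsst' : SemistableAway W' p := by
    intro ℓ hℓ hℓp hℓΔ'
    apply hc4' ℓ hℓ hℓp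
    by_contra hnd
    exact hgood' ℓ hℓ hℓp hnd hℓΔ'
  have hφK : ∀ κ ∈ K, φ κ = 0 := fun κ hκ => by
    have hmem : κ ∈ φ.ker := by
      rw [hker]
      exact hκ
    exact AddMonoidHom.mem_ker.mp hmem
  have hKφ : ∀ x : Pt W, φ x = 0 → x ∈ K := fun x hx => by
    rw [← hker]
    exact AddMonoidHom.mem_ker.mpr hx
  have hφQ0 : φ Q ≠ 0 := fun h0 => hQK (hKφ Q h0)
  have hpφQ : p • φ Q = 0 := by rw [← map_nsmul, hpQ, map_zero]
  have hord' : addOrderOf (φ Q) = p := addOrderOf_eq_prime hpφQ hφQ0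
  have hfix' : ∀ σ : GQ, σ • φ Q = φ Q := fun σ => by rw [← hequiv, hfix]
  -- the tower
  have htower' : ∀ A : ValuationSubring Qb, A.LiesOverPrime p →
      ∃ G', IsTower W' p A G' ∧ φ Q ∉ G' 1 := by
    intro A hA
    obtain ⟨G, hG, hQG⟩ := htower A hA
    have hKG : K = G 1 := complUnique hCyc hCard hp2 hNT hΔ hfix hord A hA K (G 1) hKcard
      (by rw [hG.card 1, pow_one]) hQK hQG (fun σ _ x hx => hKst σ x hx) (hG.stable 1)
    refine ⟨fun m => (G (m + 1)).map φ,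
      towerTransport hCard p hp W W' hΔ hΔ' φ hequiv A G hG (by rw [hker, hKG]), ?_⟩
    rintro ⟨g, hg, hgQ⟩
    have hmem : Q - g ∈ K := hKφ _ (by rw [map_sub, hgQ, sub_self])
    rw [hKG] at hmem
    have hQ2 : Q ∈ G 2 := by
      have h3 := (G 2).add_mem (hG.mono 1 hmem) hg
      rwa [sub_add_cancel] at h3
    exact hQG (hG.tors 2 1 Q hQ2 (by rw [pow_one]; exact hpQ))
  -- the rational point of order `p ^ (k + 2)`
  have hcardT := card_torP (Cnt48.card_tor_one (count hCard hΔ hp))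
  have hRpk : p ^ (k + 1) • R = 0 := by
    rw [← hRord]
    exact addOrderOf_nsmul_eq_zero R
  have hc0 : p ^ k • R ≠ 0 := by
    intro h0
    have h1 := addOrderOf_dvd_of_nsmul_eq_zero h0
    rw [hRord] at h1
    have h2 := Nat.le_of_dvd (pow_pos hp.pos k) h1
    have h3 : p ^ k < p ^ (k + 1) := Nat.pow_lt_pow_right hp.one_lt (Nat.lt_succ_self k)
    omega
  obtain ⟨y, hy⟩ := torsDiv hCard W hΔ p hp (k + 1) R hRpk
  have hφtor : ∀ x : Pt W, p • x = 0 → φ x ∈ AddSubgroup.zmultiples (φ Q) := by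
    intro x hx
    obtain ⟨n, κ, hκ, rfl⟩ := exists_decomp hp hcardT hpQ hKcard hQK hx
    rw [map_add, map_zsmul, hφK κ hκ, add_zero]
    exact AddSubgroup.zsmul_mem _ (AddSubgroup.mem_zmultiples _) n
  have hR'1 : p ^ (k + 1) • φ y = φ (p ^ k • R) := by
    rw [← map_nsmul, pow_succ, mul_nsmul', hy]
  have hR'ne : p ^ (k + 1) • φ y ≠ 0 := by
    rw [hR'1]
    intro h0
    have hfixc : ∀ σ : GQ, σ • (p ^ k • R) = p ^ k • R := fun σ => by rw [smul_nsmul', hRfix]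
    exact hc0 (complNoFixed hCyc hFE hp2 hNT hΔ hfix hord K hKcard hQK hKst _ (hKφ _ h0) hfixc)
  have hR'0 : p ^ (k + 1 + 1) • φ y = 0 := by
    rw [← map_nsmul, pow_succ, mul_nsmul', hy, hRpk, map_zero]
  have hR'ord : addOrderOf (φ y) = p ^ (k + 1 + 1) := addOrderOf_eq_prime_pow hR'ne hR'0
  have hmove : ∀ σ : GQ, σ • φ y - φ y ∈ AddSubgroup.zmultiples (φ Q) := by
    intro σ
    have h1 : σ • φ y - φ y = φ (σ • y - y) := by rw [map_sub, hequiv]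
    rw [h1]
    apply hφtor
    rw [nsmul_sub, ← smul_nsmul', hy, hRfix, sub_self]
  have hQR' : φ Q ∈ AddSubgroup.zmultiples (φ y) := by
    have hmem : p ^ (k + 1) • φ y ∈ AddSubgroup.zmultiples (φ Q) := by
      rw [hR'1]
      apply hφtor
      rw [← mul_nsmul', ← pow_succ']
      exact hRpk
    obtain ⟨m, hm⟩ := exists_nsmul_of_mem_zmultiples hp hord' hmem hR'ne
    rw [hm]
    exact AddSubgroup.nsmul_mem _
      (AddSubgroup.nsmul_mem _ (AddSubgroup.mem_zmultiples _) _) _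
  have hBst : ∀ σ : GQ, ∀ x ∈ AddSubgroup.zmultiples (φ y),
      σ • x ∈ AddSubgroup.zmultiples (φ y) := by
    intro σ x hx
    obtain ⟨n, rfl⟩ := AddSubgroup.mem_zmultiples_iff.mp hx
    rw [smul_zsmul']
    apply AddSubgroup.zsmul_mem
    have h1 : σ • φ y = (σ • φ y - φ y) + φ y := by abel
    rw [h1]
    exact AddSubgroup.add_mem _ ((AddSubgroup.zmultiples_le.mpr hQR') (hmove σ))
      (AddSubgroup.mem_zmultiples _)
  have hinert : ∀ ℓ : ℕ, ℓ.Prime → ∀ A : ValuationSubring Qb, A.LiesOverPrime ℓ →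
      ∀ τ ∈ A.inertiaSubgroupIn ℚ, τ • φ y = φ y := by
    intro ℓ hℓ A hA τ hτ
    by_contra hne
    have he0 : τ • φ y - φ y ≠ 0 := fun h => hne (sub_eq_zero.mp h)
    have hemem := hmove τ
    obtain ⟨m, hm⟩ := exists_nsmul_of_mem_zmultiples hp hord' hemem he0
    by_cases hℓp : ℓ = p
    · subst hℓp
      obtain ⟨G', hG', hQG'⟩ := htower' A hA
      have h1 : τ • φ y - φ y ∈ G' (k + 1 + 1) := hG'.inert (k + 1 + 1) τ hτ (φ y) hR'0
      have hpe : ℓ • (τ • φ y - φ y) = 0 :=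
        nsmul_eq_zero_of_card (by rw [Nat.card_zmultiples, hord']) hemem
      have h2 : τ • φ y - φ y ∈ G' 1 :=
        hG'.tors (k + 1 + 1) 1 _ h1 (by rw [pow_one]; exact hpe)
      apply hQG'
      rw [hm]
      exact (G' 1).nsmul_mem h2 m
    · have hcop : (p ^ (k + 1 + 1)).Coprime ℓ :=
        Nat.Coprime.pow_left _ ((Nat.coprime_primes hp hℓ).mpr (Ne.symm hℓp))
      by_cases hℓΔ' : (ℓ : ℤ) ∣ W'.Δ
      · have hc := hsst' ℓ hℓ hℓp hℓΔ'
        have hin : W'.InZeroComponentAt A (τ • φ y - φ y) :=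
          inertiaSubZero hNode W' ℓ hℓ hΔ' hℓΔ' hc A hA τ hτ _ hcop (φ y) hR'0
        have hinQ : W'.InZeroComponentAt A (φ Q) := by
          rw [hm]
          exact zeroCompMul hNode W' ℓ hℓ hΔ' hℓΔ' hc A hA _ m hin
        exact not_inZero h15 hRC hFF hFE hp hp17 hΔ' hsst' hfix' hord' hℓ hℓp hℓΔ' A hA hinQ
      · exact hne (hGU W' ℓ hℓ hℓΔ' A hA τ hτ _ hcop (φ y) hR'0)
  have hBfin : ((AddSubgroup.zmultiples (φ y) : AddSubgroup (Pt W')) : Set (Pt W')).Finite := by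
    have hfin : Finite (AddSubgroup.zmultiples (φ y)) := Nat.finite_of_card_ne_zero (by
      rw [Nat.card_zmultiples, hR'ord]
      exact pow_ne_zero _ hp.ne_zero)
    exact Set.toFinite _
  have hR'fix : ∀ σ : GQ, σ • φ y = φ y := fun σ =>
    ratOfUnram hMink hOpen W' (AddSubgroup.zmultiples (φ y)) hBfin hBst
      (fun ℓ hℓ A hA τ hτ x hx => by
        obtain ⟨n, rfl⟩ := AddSubgroup.mem_zmultiples_iff.mp hx
        rw [smul_zsmul', hinert ℓ hℓ A hA τ hτ])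
      σ (φ y) (AddSubgroup.mem_zmultiples _)
  exact ⟨W', φ Q, ⟨hΔ', hsst', fun ℓ hℓ hℓp h0 => hgood' ℓ hℓ hℓp (hgood ℓ hℓ hℓp h0), hfix',
    hord', htower', φ y, hR'fix, hR'ord⟩⟩

/-- **The base of the descent**: the quotient of the Frey curve by the cofixed line. -/
theorem base (hStep : StepLite) (hCard : CardTor) (hLocP : LocP) (hFSS : FreySS)
    (P : FreyPackage) {N : AddSubgroup (Pt P.freyCurveInt)}
    (hN : CofixedSub P.freyCurveInt P.p N) :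
    ∃ (W : WeierstrassCurve ℤ) (Q : Pt W), MZ P.p P.freyCurveInt 1 W Q := by
  have hp := P.pp
  have hp5 := P.hp5
  have : Fact P.p.Prime := ⟨hp⟩
  obtain ⟨hΔ, hss⟩ := hFSS P
  have hsst : SemistableAway P.freyCurveInt P.p := fun ℓ hℓ _ hd => hss ℓ hℓ hd
  obtain ⟨W', φ, hΔ', hker, hequiv, hgood', hc4'⟩ :=
    isoExists5 hStep P.p hp hp5 _ hΔ hsst N hN.card hN.stable
  have hcardT := card_torP (Cnt48.card_tor_one (count hCard hΔ hp))
  obtain ⟨P₀, hP₀, hP₀N⟩ : ∃ P₀ : Pt P.freyCurveInt, P.p • P₀ = 0 ∧ P₀ ∉ N := by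
    by_contra hcon
    have hle : torP (Pt P.freyCurveInt) P.p ≤ N := fun x hx => by
      by_contra hxN
      exact hcon ⟨x, mem_torP.mp hx, hxN⟩
    have h1 := AddSubgroup.card_dvd_of_le hle
    rw [hcardT, hN.card] at h1
    have h2 := Nat.le_of_dvd hp.pos h1
    have h3 : P.p ^ 1 < P.p ^ 2 := Nat.pow_lt_pow_right hp.one_lt (by norm_num)
    rw [pow_one] at h3
    omega
  have hsst' : SemistableAway W' P.p := by
    intro ℓ hℓ hℓp hℓΔ'
    apply hc4' ℓ hℓ hℓp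
    by_contra hnd
    exact hgood' ℓ hℓ hℓp hnd hℓΔ'
  have hKφ : ∀ x : Pt P.freyCurveInt, φ x = 0 → x ∈ N := fun x hx => by
    rw [← hker]
    exact AddMonoidHom.mem_ker.mpr hx
  have hφK : ∀ κ ∈ N, φ κ = 0 := fun κ hκ => by
    have hmem : κ ∈ φ.ker := by
      rw [hker]
      exact hκ
    exact AddMonoidHom.mem_ker.mp hmem
  have hφQ0 : φ P₀ ≠ 0 := fun h0 => hP₀N (hKφ P₀ h0)
  have hpφQ : P.p • φ P₀ = 0 := by rw [← map_nsmul, hP₀, map_zero]
  have hord' : addOrderOf (φ P₀) = P.p := addOrderOf_eq_prime hpφQ hφQ0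
  have hfix' : ∀ σ : GQ, σ • φ P₀ = φ P₀ := fun σ => by
    have h1 : σ • P₀ = (σ • P₀ - P₀) + P₀ := by abel
    rw [← hequiv, h1, map_add, hφK _ (hN.cofixed σ P₀ hP₀), zero_add]
  have htower' : ∀ A : ValuationSubring Qb, A.LiesOverPrime P.p →
      ∃ G', IsTower W' P.p A G' ∧ φ P₀ ∉ G' 1 := by
    intro A hA
    obtain ⟨G, hG, hG1⟩ := freyTower hLocP hCard hFSS P N hN A hA
    refine ⟨fun m => (G (m + 1)).map φ,
      towerTransport hCard P.p hp _ W' hΔ hΔ' φ hequiv A G hG (by rw [hker, hG1]), ?_⟩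
    rintro ⟨g, hg, hgQ⟩
    have hmem : P₀ - g ∈ N := hKφ _ (by rw [map_sub, hgQ, sub_self])
    rw [← hG1] at hmem hP₀N
    have hQ2 : P₀ ∈ G 2 := by
      have h3 := (G 2).add_mem (hG.mono 1 hmem) hg
      rwa [sub_add_cancel] at h3
    exact hP₀N (hG.tors 2 1 P₀ hQ2 (by rw [pow_one]; exact hP₀))
  exact ⟨W', φ P₀, ⟨hΔ', hsst', fun ℓ hℓ hℓp h0 => hgood' ℓ hℓ hℓp h0, hfix', hord', htower',
    φ P₀, hfix', by rw [pow_one]; exact hord'⟩⟩

/-- The chain of curves. -/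
theorem chain (h15 : S15Stmt) (hSplit : Ifc48.SplitOfLocal) (hStep : StepLite) (hNode : Node)
    (hRC : RedCount) (hFF : FrobFixed) (hFE : FrobEx) (hGU : GoodUnr) (hCard : CardTor)
    (hCyc : CycloQuot) (hOpen : OpenStab) (hLocP : LocP) (hMink : MinkN) (hFSS : FreySS)
    (P : FreyPackage) (hp17 : 17 ≤ P.p) {N : AddSubgroup (Pt P.freyCurveInt)}
    (hN : CofixedSub P.freyCurveInt P.p N) (k : ℕ) :
    ∃ (W : WeierstrassCurve ℤ) (Q : Pt W), MZ P.p P.freyCurveInt (k + 1) W Q := by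
  induction k with
  | zero => exact base hStep hCard hLocP hFSS P hN
  | succ k ih =>
    obtain ⟨W, Q, h⟩ := ih
    exact step h15 hSplit hStep hNode hRC hFF hFE hGU hCard hCyc hOpen hMink P.pp hp17
      (cycNT_of_frey hStep hCyc hLocP hCard hFSS P N hN) h

/-- **S12 from S15 and the bricks of `Interfaces20` / `Interfaces20b`.** -/
theorem top (h15 : S15Stmt) (hSplit : Ifc48.SplitOfLocal) (hStep : StepLite) (hNode : Node)
    (hRC : RedCount) (hFF : FrobFixed) (hFE : FrobEx) (hGU : GoodUnr) (hCard : CardTor)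
    (hCyc : CycloQuot) (hOpen : OpenStab) (hLocP : LocP) (hBase : Base) (hMink : MinkN)
    (hFSS : FreySS) : TopStmt := by
  intro P hp17 hcof
  obtain ⟨N, hNcard, -, hNst, hNcof⟩ := hBase P hcof
  have hN : CofixedSub P.freyCurveInt P.p N := ⟨hNcard, hNst, hNcof⟩
  obtain ⟨hΔ₀, -⟩ := hFSS P
  obtain ⟨ℓ₀, hℓ₀ge, hℓ₀⟩ :=
    Nat.exists_infinite_primes (P.p + P.freyCurveInt.Δ.natAbs + 1)
  have hℓ₀p : ℓ₀ ≠ P.p := by omega
  have hℓ₀Δ : ¬ (ℓ₀ : ℤ) ∣ P.freyCurveInt.Δ := by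
    intro hd
    have h1 : ℓ₀ ∣ P.freyCurveInt.Δ.natAbs := Int.natCast_dvd.mp hd
    have h2 := Nat.le_of_dvd (Int.natAbs_pos.mpr hΔ₀) h1
    omega
  obtain ⟨W, Q, h⟩ := chain h15 hSplit hStep hNode hRC hFF hFE hGU hCard hCyc hOpen hLocP hMink
    hFSS P hp17 hN (2 * ℓ₀ + 1)
  obtain ⟨R, hRfix, hRord⟩ := h.rat
  have hgoodW : ¬ (ℓ₀ : ℤ) ∣ W.Δ := h.good ℓ₀ hℓ₀ hℓ₀p hℓ₀Δ
  obtain ⟨A, hA, σ, hσ⟩ := hFE ℓ₀ hℓ₀
  have hle := hFF W h.disc ℓ₀ hℓ₀ hgoodW A hA σ hσ (P.p ^ (2 * ℓ₀ + 1 + 1))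
    (Nat.Coprime.pow_left _ ((Nat.coprime_primes P.pp hℓ₀).mpr (Ne.symm hℓ₀p))) R
    (by rw [← hRord]; exact addOrderOf_nsmul_eq_zero R) (hRfix σ)
  rw [hRord] at hle
  have h2 : 2 ^ (2 * ℓ₀ + 1 + 1) ≤ P.p ^ (2 * ℓ₀ + 1 + 1) :=
    Nat.pow_le_pow_left (by omega) _
  have h3 : 2 * ℓ₀ + 1 + 1 < 2 ^ (2 * ℓ₀ + 1 + 1) := Nat.lt_two_pow_self
  omega

end Fermat.Agent.S12P.Top48
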