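/-
S12 project (helper20, cell lead and integrator): THE TOP, with every brick instantiated.

`top : S15Stmt → TopStmt` — the frozen statement S15 (as a hypothesis, verbatim) implies the
frozen statement S12 ("the Frey curve has no Galois-stable cofixed line for `p ≥ 17`").

It is `Top48.top` (helper48: the Mazur descent along a chain of Vélu quotients, S14 applied at
every stage) applied to the landed terms of the bricks:

* `SplitOfLocal99.splitOfLocal` (helper99)  — the S14 application;
* `StepLiteSeam17.stepLite` (helper17, on `Velu82` of helper82 and the analytic input of
  helper4 / helper21)                        — one Vélu `p`-isogeny over `ℤ`;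
* `Node38.node` (helper38)                   — the zero component at a multiplicative prime;
* `RedCount54.redCount` (helper54), `Frob59.frobFixed`, `Frob59.frobEx` (helper59);
* `Adapt44b.goodUnr`, `cardTor`, `openStab`, `base`, `minkN`, `freySS` (helper44);
* `CycloQuot62.cycloQuot` (helper62);
* `LocP86.locPInst` (helper86)               — the Frey curve at `p`.
-/
import Fermat.Agent.S12P.Top48
import Fermat.Agent.S12P.SplitOfLocal99
import Fermat.Agent.S12P.StepLiteSeam17
import Fermat.Agent.S12P.Node38
import Fermat.Agent.S12P.RedCount54
import Fermat.Agent.S12P.Frob59
import Fermat.Agent.S12P.Adapt44b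
import Fermat.Agent.S12P.CycloQuot62
import Fermat.Agent.S12P.LocP86.Inst

set_option autoImplicit false

namespace Fermat.Agent.S12P.Top20

open Fermat.Agent.S12P

/-- **S12 from S15**: the frozen S15 implies that the Frey curve has no Galois-stable cofixed
line for `p ≥ 17`. -/
theorem top (h15 : S15Stmt) : TopStmt :=
  Top48.top h15 SplitOfLocal99.splitOfLocal StepLiteSeam17.stepLite Node38.node
    RedCount54.redCount Frob59.frobFixed Frob59.frobEx Adapt44b.goodUnr Adapt44b.cardTor
    CycloQuot62.cycloQuot Adapt44b.openStab LocP86.locPInst Adapt44b.base Adapt44b.minkN
    Adapt44b.freySS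

end Fermat.Agent.S12P.Top20
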