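/-
S12 project, row 639 (S12-ADAPT), helper44: the five adapter bricks of `S12P/Interfaces20.lean`,
stated with the LITERAL bodies of the interface Props `GoodUnr`, `CardTor`, `OpenStab`, `Mink`,
`Base` (no import of the interface file: a term of the literal type is a term of the Prop by
unfolding).

* `goodUnr`  — main's `S58.FrobFinal.goodUnram`, restated on the point type of the frozen S15;
* `cardTor`  — main's `S58.Red.NotScalar.card_torsion_subtype` at `N = p ^ n`;
* `openStab` — main's `S58.Tate.exists_field_fixing`: the stabiliser of a point contains the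
               fixing subgroup of a finite extension;
* `mink`     — main's `Lib.InertiaLift.eq_top_of_inertia_le` applied to the normal core
               (conjugates of inertia groups are inertia groups);
* `base`     — transport of a cofixed line of the Frey curve to the integral model along
               `Frey.freyCurveInt_map`, size from `EC.frey_card_line`.
-/
import Mathlib
import Fermat.Prelude.Def_FLTPrelim_FreyPackage
import Fermat.Prelude.Def_FLTPrelim_GaloisRep
import Fermat.Prelude.Def_FLTPrelim_Ramification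
import Fermat.Prelude.Def_FLTPrelim_CofixedLine
import Fermat.Agent.S58.FrobFinal
import Fermat.Agent.S58.Tate
import Fermat.Agent.S58.Red.NotScalar
import Fermat.Agent.Lib.InertiaLift
import Fermat.Agent.PT.Levels
import Fermat.Agent.Lib.Frey.Semistable
import Fermat.Agent.EC.FreyTors

set_option autoImplicit false
open WeierstrassCurve WeierstrassCurve.Affine WeierstrassCurve.Affine.Point

namespace Fermat.Agent.S12P.Adapt44

open scoped Pointwise

local notation "Qb" => AlgebraicClosure ℚ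
local notation "GQ" => (AlgebraicClosure ℚ ≃ₐ[ℚ] AlgebraicClosure ℚ)

/-- **(GOODUNR)** inertia at a good prime fixes the prime-to-`q` torsion. -/
theorem goodUnr :
    ∀ (W : WeierstrassCurve ℤ) (q : ℕ), q.Prime → ¬ (q : ℤ) ∣ W.Δ →
      ∀ A : ValuationSubring Qb, A.LiesOverPrime q → ∀ τ ∈ A.inertiaSubgroupIn ℚ,
        ∀ m : ℕ, m.Coprime q → ∀ P : ((W.map (Int.castRingHom ℚ))⁄Qb).Point, m • P = 0 →
          τ • P = P :=
  fun W q hq hΔ A hA τ hτ m hm P hP =>
    Fermat.Agent.S58.FrobFinal.goodUnram W q hq hΔ A hA τ hτ m hm P hP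

/-- **(CARD)** `#W[p^n](ℚ̄) = p^(2n)`. -/
theorem cardTor :
    ∀ W : WeierstrassCurve ℤ, W.Δ ≠ 0 → ∀ p : ℕ, p.Prime → ∀ n : ℕ,
      Nat.card {x : ((W.map (Int.castRingHom ℚ))⁄Qb).Point // p ^ n • x = 0} = p ^ (2 * n) := by
  intro W hΔ p hp n
  have h := Fermat.Agent.S58.Red.NotScalar.card_torsion_subtype W hΔ (N := p ^ n)
    (pow_ne_zero n hp.ne_zero)
  rw [pow_mul']
  exact h

/-- **(OPEN)** the stabiliser of a point of `W(ℚ̄)` is open. -/
theorem openStab :
    ∀ (W : WeierstrassCurve ℤ) (x : ((W.map (Int.castRingHom ℚ))⁄Qb).Point),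
      IsOpen {σ : GQ | σ • x = x} := by
  intro W x
  obtain ⟨L, hL, hfix⟩ := Fermat.Agent.S58.Tate.exists_field_fixing W x
  have hopen : IsOpen (L.fixingSubgroup : Set GQ) := IntermediateField.fixingSubgroup_isOpen L
  have hle : L.fixingSubgroup ≤ MulAction.stabilizer GQ x := by
    intro σ hσ
    rw [MulAction.mem_stabilizer_iff]
    exact hfix σ fun y hy => (IntermediateField.mem_fixingSubgroup_iff L σ).mp hσ y hy
  exact Subgroup.isOpen_mono hle hopen

/-- **(MINK)** an open subgroup of `Gal(ℚ̄/ℚ)` containing every inertia group is everything. -/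
theorem mink :
    ∀ H : Subgroup GQ, IsOpen (H : Set GQ) →
      (∀ ℓ : ℕ, ℓ.Prime → ∀ A : ValuationSubring Qb, A.LiesOverPrime ℓ →
        ∀ σ ∈ A.inertiaSubgroupIn ℚ, σ ∈ H) → H = ⊤ := by
  intro H hH hI
  have := Fermat.Agent.Lib.FrobeniusExists.isGalois_rat
  -- the normal core of `H` is open
  have hcore : IsOpen (H.normalCore : Set GQ) := by
    have h1 : (H : Set GQ) ∈ nhds (1 : GQ) := hH.mem_nhds H.one_mem
    obtain ⟨E, hEfin, hEnor, hEH⟩ := (krullTopology_mem_nhds_one_iff_of_normal ℚ Qb _).mp h1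
    have hEgal : IsGalois ℚ E := isGalois_iff.mpr ⟨inferInstance, hEnor⟩
    have : E.fixingSubgroup.Normal := (InfiniteGalois.normal_iff_isGalois E).mpr hEgal
    have hle : E.fixingSubgroup ≤ H.normalCore := Subgroup.normal_le_normalCore.mpr hEH
    exact Subgroup.isOpen_mono hle (IntermediateField.fixingSubgroup_isOpen E)
  have : H.normalCore.Normal := Subgroup.normalCore_normal H
  have htop : H.normalCore = ⊤ := by
    refine Fermat.Agent.Lib.InertiaLift.eq_top_of_inertia_le H.normalCore hcore ?_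
    intro ℓ hℓ A hA σ hσ
    show ∀ g : GQ, g * σ * g⁻¹ ∈ H
    intro g
    exact hI ℓ hℓ (g • A) (Fermat.Agent.PT.Levels.liesOverPrime_smul hA g) _
      (Fermat.Agent.PT.Levels.conj_mem_inertiaSubgroupIn A g σ hσ)
  exact top_unique (htop ▸ H.normalCore_le)

/-- Transport of a Galois-stable line with trivial quotient action from the `p`-torsion module
of a rational curve to a subgroup of its point group. -/
theorem base_of_line (W : WeierstrassCurve ℚ) (p : ℕ)
    (N : Submodule (ZMod p) (Submodule.torsionBy ℤ (W⁄Qb).Point p))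
    (hstab : IsGaloisStable ℚ N) (hcard : Nat.card N = p)
    (hcof : ∀ σ : GQ, ∀ x : Submodule.torsionBy ℤ (W⁄Qb).Point p, σ • x - x ∈ N) :
    ∃ N' : AddSubgroup (W⁄Qb).Point, Nat.card N' = p ∧ (∀ x ∈ N', p • x = 0) ∧
      (∀ σ : GQ, ∀ x ∈ N', σ • x ∈ N') ∧
      ∀ (σ : GQ) (x : (W⁄Qb).Point), p • x = 0 → σ • x - x ∈ N' := by
  set f : Submodule.torsionBy ℤ (W⁄Qb).Point p →+ (W⁄Qb).Point :=
    (Submodule.torsionBy ℤ (W⁄Qb).Point p).subtype.toAddMonoidHom with hf
  have hfinj : Function.Injective f := Subtype.val_injective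
  refine ⟨N.toAddSubgroup.map f, ?_, ?_, ?_, ?_⟩
  · exact (Nat.card_congr
      (AddSubgroup.equivMapOfInjective N.toAddSubgroup f hfinj).toEquiv.symm).trans hcard
  · rintro x ⟨y, -, rfl⟩
    have h := (Submodule.mem_torsionBy_iff _ _).mp y.2
    rw [natCast_zsmul] at h
    exact h
  · rintro σ x ⟨y, hy, rfl⟩
    exact ⟨σ • y, hstab σ y hy, rfl⟩
  · intro σ x hx
    have hxT : x ∈ Submodule.torsionBy ℤ (W⁄Qb).Point p := by
      rw [Submodule.mem_torsionBy_iff, natCast_zsmul]
      exact hx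
    exact ⟨σ • (⟨x, hxT⟩ : Submodule.torsionBy ℤ (W⁄Qb).Point p) - ⟨x, hxT⟩,
      hcof σ ⟨x, hxT⟩, rfl⟩

/-- **(BASE)** a cofixed line of the Frey curve, on the integral model. -/
theorem base :
    ∀ P : FreyPackage, HasGaloisStableCofixedLine (K := AlgebraicClosure ℚ) ℚ P.freyCurve P.p →
      ∃ N : AddSubgroup (((P.freyCurveInt.map (Int.castRingHom ℚ))⁄Qb).Point),
        Nat.card N = P.p ∧ (∀ x ∈ N, P.p • x = 0) ∧ (∀ σ : GQ, ∀ x ∈ N, σ • x ∈ N) ∧
        ∀ (σ : GQ) (x : ((P.freyCurveInt.map (Int.castRingHom ℚ))⁄Qb).Point), P.p • x = 0 →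
          σ • x - x ∈ N := by
  intro P hcof
  obtain ⟨N, hstab, hbot, htop, hc⟩ := hcof
  have hcard : Nat.card N = P.p := Fermat.Agent.EC.frey_card_line P N hbot htop
  have key : ∀ W : WeierstrassCurve ℚ, W = P.freyCurve →
      ∃ N' : AddSubgroup (W⁄Qb).Point, Nat.card N' = P.p ∧ (∀ x ∈ N', P.p • x = 0) ∧
        (∀ σ : GQ, ∀ x ∈ N', σ • x ∈ N') ∧
        ∀ (σ : GQ) (x : (W⁄Qb).Point), P.p • x = 0 → σ • x - x ∈ N' := by
    intro W hW
    subst hW
    exact base_of_line P.freyCurve P.p N hstab hcard hc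
  exact key _ (Fermat.Agent.Frey.freyCurveInt_map P)

end Fermat.Agent.S12P.Adapt44
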