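/-
S12 project, row 639 (S12-ADAPT), second file (helper44): the adapter bricks as TERMS OF THE
INTERFACE PROPS of `S12P/Interfaces20.lean` / `S12P/Interfaces20b.lean` (both on main).

* `minkN : MinkN`   — main's `Lib.InertiaLift.eq_top_of_inertia_le` verbatim;
* `freySS : FreySS` — main's `Frey.freyCurveInt_Δ_ne_zero` + `Frey.freyCurveInt_isSemistableModel`;
* `goodUnr : GoodUnr`, `cardTor : CardTor`, `openStab : OpenStab`, `mink : Mink`, `base : Base`
  — the five literal-bodied theorems of `S12P/Adapt44.lean`, retyped at the Props.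
-/
import Mathlib
import Fermat.Agent.S12P.Interfaces20b
import Fermat.Agent.S12P.Adapt44

set_option autoImplicit false

namespace Fermat.Agent.S12P.Adapt44b

open Fermat.Agent.S12P

/-- **(MINK-N)** a normal open subgroup of `Gal(ℚ̄/ℚ)` containing every inertia group is
everything. -/
theorem minkN : MinkN := by
  intro H hN hopen hin
  have := hN
  exact Fermat.Agent.Lib.InertiaLift.eq_top_of_inertia_le H hopen
    fun ℓ hℓ A hA σ hσ => hin ℓ hℓ A hA σ hσ

/-- **(FREY-SS)** the integral Frey model is a semistable model with nonzero discriminant. -/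
theorem freySS : FreySS := fun P =>
  ⟨Fermat.Agent.Frey.freyCurveInt_Δ_ne_zero P,
    fun ℓ hℓ hΔ => Fermat.Agent.Frey.freyCurveInt_isSemistableModel P ℓ hℓ hΔ⟩

/-- **(GOODUNR)** at the interface Prop. -/
theorem goodUnr : GoodUnr := Adapt44.goodUnr

/-- **(CARD)** at the interface Prop. -/
theorem cardTor : CardTor := Adapt44.cardTor

/-- **(OPEN)** at the interface Prop. -/
theorem openStab : OpenStab := Adapt44.openStab

/-- **(MINK)** at the interface Prop. -/
theorem mink : Mink := Adapt44.mink

/-- **(BASE)** at the interface Prop. -/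
theorem base : Base := Adapt44.base

end Fermat.Agent.S12P.Adapt44b
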