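/-
S12 project (instruction #20 §2; design cell lead helper20), tasks row 632 **S12-ADM**
(seat helper37): the admissibility wrapper.

From a Galois-fixed point `Q` of order `p` in an abelian group `E` with an action of
`Gal(ℚ̄/ℚ)` whose `p`-torsion has `p²` elements, together with the facts
"cyclotomic quotient", "unramified outside `p`", "locally split at `p`", "open stabilisers",
the `p`-torsion `E[p]` with the line `⟨Q⟩` is an `ExtCitation.IsAdmissibleExtensionCts`; hence
(S14, as the hypothesis `ExtCitation.ExtVanishingCts p`) there is a Galois-stable subgroup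
`M ≤ E` of order `p`, killed by `p`, with `Q ∉ M`.

* `exists_line_of_adm_abs` : the abstract statement (any `E : Type` with a `DistribMulAction`);
* `exists_line_of_adm`     : the literal of row 632, for the `ℚ̄`-points of an integral
  Weierstrass curve (the point type of the frozen S15 / of `Fermat.Agent.S12P.Pt`).

Mathlib + Prelude only.
-/
import Mathlib
import Fermat.Prelude.Def_FLTPrelim_GaloisRep
import Fermat.Prelude.Def_FLTPrelim_Ramification
import Fermat.Prelude.Def_ExtCitation_AdmissibleExtension_v2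

set_option autoImplicit false
set_option linter.unusedSectionVars false

open WeierstrassCurve WeierstrassCurve.Affine WeierstrassCurve.Affine.Point

noncomputable section

namespace Fermat.Agent.S12P.Adm37

local notation "Qb" => AlgebraicClosure ℚ
local notation "GQ" => (AlgebraicClosure ℚ ≃ₐ[ℚ] AlgebraicClosure ℚ)

section Abstract

variable (E : Type) [AddCommGroup E] [DistribMulAction GQ E] (p : ℕ)

/-- The `p`-torsion subgroup of `E`. -/
def tors : AddSubgroup E where
  carrier := {x | p • x = 0}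
  zero_mem' := nsmul_zero p
  add_mem' := fun {a b} ha hb => by
    change p • a = 0 at ha
    change p • b = 0 at hb
    change p • (a + b) = 0
    rw [nsmul_add, ha, hb, add_zero]
  neg_mem' := fun {a} ha => by
    change p • a = 0 at ha
    change p • (-a) = 0
    rw [smul_neg, ha, _root_.neg_zero]

variable {E p}

theorem mem_tors {x : E} : x ∈ tors E p ↔ p • x = 0 := Iff.rfl

theorem galois_smul_nsmul (σ : GQ) (n : ℕ) (x : E) : σ • (n • x) = n • (σ • x) :=
  map_nsmul (DistribSMul.toAddMonoidHom E σ) n x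

theorem galois_smul_zsmul (σ : GQ) (n : ℤ) (x : E) : σ • (n • x) = n • (σ • x) :=
  map_zsmul (DistribSMul.toAddMonoidHom E σ) n x

theorem smul_mem_tors (σ : GQ) {x : E} (hx : x ∈ tors E p) : σ • x ∈ tors E p := by
  rw [mem_tors] at hx ⊢
  rw [← galois_smul_nsmul, hx, smul_zero]

instance instSMulTors : SMul GQ (tors E p) :=
  ⟨fun σ x => ⟨σ • (x : E), smul_mem_tors σ x.2⟩⟩

theorem coe_smul_tors (σ : GQ) (x : tors E p) : ((σ • x : tors E p) : E) = σ • (x : E) := rfl

instance instDistribMulActionTors : DistribMulAction GQ (tors E p) where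
  one_smul x := Subtype.ext (one_smul _ (x : E))
  mul_smul σ τ x := Subtype.ext (mul_smul σ τ (x : E))
  smul_zero σ := Subtype.ext (smul_zero σ)
  smul_add σ x y := Subtype.ext (smul_add σ (x : E) (y : E))

omit [DistribMulAction GQ E] in
theorem nsmul_tors_eq_zero (x : tors E p) : p • x = 0 :=
  Subtype.ext (by rw [AddSubgroup.coe_nsmul, AddSubgroup.coe_zero]; exact x.2)

instance instModuleTors : Module (ZMod p) (tors E p) :=
  AddCommGroup.zmodModule nsmul_tors_eq_zero

theorem zmod_smul_eq [NeZero p] (a : ZMod p) (x : tors E p) : a • x = a.val • x := by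
  conv_lhs => rw [← ZMod.natCast_zmod_val a]
  exact Nat.cast_smul_eq_nsmul (ZMod p) a.val x

theorem coe_zmod_smul [NeZero p] (a : ZMod p) (x : tors E p) :
    ((a • x : tors E p) : E) = a.val • (x : E) := by
  rw [zmod_smul_eq, AddSubgroup.coe_nsmul]

theorem natCast_smul_tors (n : ℕ) (x : tors E p) :
    (((n : ZMod p) • x : tors E p) : E) = n • (x : E) := by
  rw [Nat.cast_smul_eq_nsmul (ZMod p) n x, AddSubgroup.coe_nsmul]

theorem intCast_smul_tors (n : ℤ) (x : tors E p) :
    (((n : ZMod p) • x : tors E p) : E) = n • (x : E) := by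
  rw [Int.cast_smul_eq_zsmul (ZMod p) n x, AddSubgroup.coe_zsmul]

instance instSMulCommClassTors [Fact p.Prime] : SMulCommClass GQ (ZMod p) (tors E p) :=
  ⟨fun σ a x => by
    have : NeZero p := ⟨(Fact.out : p.Prime).ne_zero⟩
    apply Subtype.ext
    rw [coe_smul_tors, coe_zmod_smul, coe_zmod_smul, coe_smul_tors, galois_smul_nsmul]⟩

/-- every element of `ZMod p` is the cast of an integer, in the form used below -/
theorem zmod_smul_eq_zsmul [NeZero p] (a : ZMod p) (x : tors E p) :
    ((a • x : tors E p) : E) = ((a.val : ℕ) : ℤ) • (x : E) := by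
  rw [coe_zmod_smul, natCast_zsmul]

/-- Two lines `⟨u⟩`, `⟨v⟩` of the plane `E[p]` with `v ∉ ⟨u⟩` are complementary. -/
theorem isCompl_span [Fact p.Prime] (hcard : Nat.card (tors E p) = p ^ 2) (u v : tors E p)
    (hu : u ≠ 0) (hv : ∀ a : ZMod p, v ≠ a • u) :
    IsCompl (Submodule.span (ZMod p) {u}) (Submodule.span (ZMod p) {v}) := by
  have hp : p.Prime := Fact.out
  have : Finite (tors E p) :=
    Nat.finite_of_card_ne_zero (by rw [hcard]; exact pow_ne_zero 2 hp.ne_zero)
  have : Module.Finite (ZMod p) (tors E p) := Module.Finite.of_finite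
  have hv0 : v ≠ 0 := by
    intro h
    exact hv 0 (by rw [h, zero_smul])
  have hfr : Module.finrank (ZMod p) (tors E p) = 2 := by
    have h1 := Module.natCard_eq_pow_finrank (K := ZMod p) (V := tors E p)
    rw [hcard, Nat.card_zmod] at h1
    exact (Nat.pow_right_injective hp.two_le h1).symm
  have hdisj : Disjoint (Submodule.span (ZMod p) {u}) (Submodule.span (ZMod p) {v}) := by
    rw [Submodule.disjoint_def]
    intro x hxu hxv
    obtain ⟨a, rfl⟩ := Submodule.mem_span_singleton.mp hxu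
    obtain ⟨b, hb⟩ := Submodule.mem_span_singleton.mp hxv
    by_cases hb0 : b = 0
    · rw [hb0, zero_smul] at hb
      exact hb.symm
    · exfalso
      apply hv (b⁻¹ * a)
      rw [mul_smul, ← hb, smul_smul, inv_mul_cancel₀ hb0, one_smul]
  refine (Submodule.isCompl_iff_disjoint _ _ ?_).mpr hdisj
  rw [hfr, finrank_span_singleton hu, finrank_span_singleton hv0]

/-- **S12-ADM, abstract form.** -/
theorem exists_line_of_adm_abs (p : ℕ) [Fact p.Prime] (h14 : ExtCitation.ExtVanishingCts p)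
    (E : Type) [AddCommGroup E] [DistribMulAction GQ E]
    (hcard : Nat.card {x : E // p • x = 0} = p ^ 2)
    (Q : E) (hQ : p • Q = 0) (hQ0 : Q ≠ 0) (hfix : ∀ σ : GQ, σ • Q = Q)
    (hcyc : ∀ (σ : GQ) (x : E), p • x = 0 →
      ∃ a : ℤ, σ • x - ExtCitation.cycloExp p σ • x = a • Q)
    (hunr : ∀ ℓ : ℕ, ℓ.Prime → ℓ ≠ p → ∀ A : ValuationSubring Qb, A.LiesOverPrime ℓ →
      ∀ σ ∈ A.inertiaSubgroupIn ℚ, ∀ x : E, p • x = 0 → σ • x = x)
    (hloc : ∀ A : ValuationSubring Qb, A.LiesOverPrime p →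
      ∃ y : E, p • y = 0 ∧ (∀ a : ℤ, y ≠ a • Q) ∧
        ∀ σ ∈ A.decompositionSubgroup ℚ, ∃ b : ℤ, σ • y = b • y)
    (hopen : ∀ x : E, p • x = 0 → IsOpen {σ : GQ | σ • x = x}) :
    ∃ M : AddSubgroup E, Nat.card M = p ∧ (∀ m ∈ M, p • m = 0) ∧
      (∀ σ : GQ, ∀ m ∈ M, σ • m ∈ M) ∧ Q ∉ M := by
  classical
  have hp : p.Prime := Fact.out
  have : NeZero p := ⟨hp.ne_zero⟩
  have hcardV : Nat.card (tors E p) = p ^ 2 := by
    rw [← hcard]
    exact Nat.card_congr (Equiv.subtypeEquivRight fun x => mem_tors)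
  have : Finite (tors E p) :=
    Nat.finite_of_card_ne_zero (by rw [hcardV]; exact pow_ne_zero 2 hp.ne_zero)
  -- the fixed line
  let Qt : tors E p := ⟨Q, hQ⟩
  have hQt0 : Qt ≠ 0 := fun h => hQ0 (congrArg Subtype.val h)
  have hQtfix : ∀ σ : GQ, σ • Qt = Qt := fun σ => Subtype.ext (hfix σ)
  let C : Submodule (ZMod p) (tors E p) := Submodule.span (ZMod p) {Qt}
  have hCfix : ∀ σ : GQ, ∀ x ∈ C, σ • x = x := by
    intro σ x hx
    obtain ⟨a, rfl⟩ := Submodule.mem_span_singleton.mp hx
    rw [smul_comm, hQtfix]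
  have hcardC : Nat.card C = p := by
    have e := (LinearEquiv.toSpanNonzeroSingleton (ZMod p) (tors E p) Qt hQt0).toEquiv
    rw [← Nat.card_congr e, Nat.card_zmod]
  -- admissibility
  have hadm : ExtCitation.IsAdmissibleExtensionCts p (tors E p) C := by
    refine ⟨⟨?_, hCfix, ?_, hcardC, hcardV, ?_, ?_⟩, ?_⟩
    · -- stable
      intro σ x hx
      rw [hCfix σ x hx]
      exact hx
    · -- cyclotomic quotient
      intro σ x
      obtain ⟨a, ha⟩ := hcyc σ (x : E) x.2
      refine Submodule.mem_span_singleton.mpr ⟨(a : ZMod p), ?_⟩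
      apply Subtype.ext
      rw [intCast_smul_tors, AddSubgroup.coe_sub, coe_smul_tors, natCast_smul_tors]
      exact ha.symm
    · -- unramified outside p
      intro ℓ hℓ hℓp A hA σ hσ x
      exact Subtype.ext (hunr ℓ hℓ hℓp A hA σ hσ (x : E) x.2)
    · -- locally split at p
      intro A hA
      obtain ⟨y, hy, hyQ, hyD⟩ := hloc A hA
      let yt : tors E p := ⟨y, hy⟩
      refine ⟨Submodule.span (ZMod p) {yt}, ?_, ?_⟩
      · intro σ hσ x hx
        obtain ⟨a, rfl⟩ := Submodule.mem_span_singleton.mp hx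
        obtain ⟨b, hb⟩ := hyD σ hσ
        have hσy : σ • yt = (b : ZMod p) • yt := by
          apply Subtype.ext
          rw [coe_smul_tors, intCast_smul_tors]
          exact hb
        rw [smul_comm, hσy]
        exact Submodule.smul_mem _ _ (Submodule.smul_mem _ _ (Submodule.mem_span_singleton_self yt))
      · refine isCompl_span hcardV Qt yt hQt0 ?_
        intro a h
        apply hyQ (((a.val : ℕ) : ℤ))
        have h2 := congrArg Subtype.val h
        rw [zmod_smul_eq_zsmul] at h2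
        exact h2
    · -- open kernel
      have hset : {σ : GQ | ∀ v : tors E p, σ • v = v}
          = ⋂ v : tors E p, {σ : GQ | σ • (v : E) = (v : E)} := by
        ext σ
        rw [Set.mem_iInter]
        exact forall_congr' fun v => Subtype.ext_iff
      rw [hset]
      exact isOpen_iInter_of_finite fun v => hopen (v : E) v.2
  -- S14
  obtain ⟨C', hC'stab, hC'compl⟩ := h14 (tors E p) C hadm
  have hcardC' : Nat.card C' = p := by
    have e := (Submodule.prodEquivOfIsCompl C C' hC'compl).toEquiv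
    have h1 : Nat.card C * Nat.card C' = p ^ 2 := by
      rw [← Nat.card_prod, Nat.card_congr e, hcardV]
    rw [hcardC, pow_two] at h1
    exact Nat.eq_of_mul_eq_mul_left hp.pos h1
  refine ⟨C'.toAddSubgroup.map (tors E p).subtype, ?_, ?_, ?_, ?_⟩
  · rw [AddSubgroup.card_map_of_injective (tors E p).subtype_injective]
    exact hcardC'
  · rintro m ⟨x, -, rfl⟩
    exact x.2
  · rintro σ m ⟨x, hx, rfl⟩
    exact ⟨σ • x, hC'stab σ x hx, rfl⟩
  · rintro ⟨x, hx, hxQ⟩
    have hxQt : x = Qt := Subtype.ext hxQ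
    have hmem : Qt ∈ C ⊓ C' :=
      ⟨Submodule.mem_span_singleton_self Qt, hxQt ▸ hx⟩
    rw [hC'compl.inf_eq_bot] at hmem
    exact hQt0 ((Submodule.mem_bot _).mp hmem)

end Abstract

/-- **S12-ADM** (tasks row 632), the literal: for the `ℚ̄`-points of an integral Weierstrass curve
(`Fermat.Agent.S12P.Pt W` of `S12P/Interfaces20`). -/
theorem exists_line_of_adm
    (h14 : ∀ (p : ℕ) [Fact p.Prime], 3 ≤ p → ExtCitation.ExtVanishingCts p)
    (W : WeierstrassCurve ℤ) (p : ℕ) [Fact p.Prime] (h3 : 3 ≤ p)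
    (hcard : Nat.card {x : ((W.map (Int.castRingHom ℚ))⁄Qb).Point // p • x = 0} = p ^ 2)
    (Q : ((W.map (Int.castRingHom ℚ))⁄Qb).Point) (hQ : p • Q = 0) (hQ0 : Q ≠ 0)
    (hfix : ∀ σ : GQ, σ • Q = Q)
    (hcyc : ∀ (σ : GQ) (x : ((W.map (Int.castRingHom ℚ))⁄Qb).Point), p • x = 0 →
      ∃ a : ℤ, σ • x - ExtCitation.cycloExp p σ • x = a • Q)
    (hunr : ∀ ℓ : ℕ, ℓ.Prime → ℓ ≠ p → ∀ A : ValuationSubring Qb, A.LiesOverPrime ℓ →
      ∀ σ ∈ A.inertiaSubgroupIn ℚ, ∀ x : ((W.map (Int.castRingHom ℚ))⁄Qb).Point,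
        p • x = 0 → σ • x = x)
    (hloc : ∀ A : ValuationSubring Qb, A.LiesOverPrime p →
      ∃ y : ((W.map (Int.castRingHom ℚ))⁄Qb).Point, p • y = 0 ∧ (∀ a : ℤ, y ≠ a • Q) ∧
        ∀ σ ∈ A.decompositionSubgroup ℚ, ∃ b : ℤ, σ • y = b • y)
    (hopen : ∀ x : ((W.map (Int.castRingHom ℚ))⁄Qb).Point, IsOpen {σ : GQ | σ • x = x}) :
    ∃ M : AddSubgroup ((W.map (Int.castRingHom ℚ))⁄Qb).Point, Nat.card M = p ∧
      (∀ m ∈ M, p • m = 0) ∧ (∀ σ : GQ, ∀ m ∈ M, σ • m ∈ M) ∧ Q ∉ M :=
  exists_line_of_adm_abs p (h14 p h3) ((W.map (Int.castRingHom ℚ))⁄Qb).Point hcard Q hQ hQ0 hfix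
    hcyc hunr hloc (fun x _ => hopen x)

end Fermat.Agent.S12P.Adm37

end
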