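/-
S12 project, tasks row 632 **S12-ADM** (seat helper37): the admissibility wrapper in the shapes
of `S12P/Interfaces20` — `exists_line_of_adm` on `Pt W` (the literal of the row), and the same
with the three citation inputs `CardTor`, `CycloQuot`, `OpenStab` taken as the interface Props.
-/
import Mathlib
import Fermat.Agent.S12P.Adm37
import Fermat.Agent.S12P.Interfaces20

set_option autoImplicit false

open WeierstrassCurve WeierstrassCurve.Affine WeierstrassCurve.Affine.Point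

namespace Fermat.Agent.S12P.AdmSeam37

open Fermat.Agent.S12P

/-- **S12-ADM**, literal of tasks row 632 on `Pt W`. -/
theorem exists_line_of_adm
    (h14 : ∀ (p : ℕ) [Fact p.Prime], 3 ≤ p → ExtCitation.ExtVanishingCts p)
    (W : WeierstrassCurve ℤ) (p : ℕ) [Fact p.Prime] (h3 : 3 ≤ p)
    (hcard : Nat.card {x : Pt W // p • x = 0} = p ^ 2)
    (Q : Pt W) (hQ : p • Q = 0) (hQ0 : Q ≠ 0) (hfix : ∀ σ : GQ, σ • Q = Q)
    (hcyc : ∀ (σ : GQ) (x : Pt W), p • x = 0 →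
      ∃ a : ℤ, σ • x - ExtCitation.cycloExp p σ • x = a • Q)
    (hunr : ∀ ℓ : ℕ, ℓ.Prime → ℓ ≠ p → ∀ A : ValuationSubring Qb, A.LiesOverPrime ℓ →
      ∀ σ ∈ A.inertiaSubgroupIn ℚ, ∀ x : Pt W, p • x = 0 → σ • x = x)
    (hloc : ∀ A : ValuationSubring Qb, A.LiesOverPrime p →
      ∃ y : Pt W, p • y = 0 ∧ (∀ a : ℤ, y ≠ a • Q) ∧
        ∀ σ ∈ A.decompositionSubgroup ℚ, ∃ b : ℤ, σ • y = b • y)
    (hopen : ∀ x : Pt W, IsOpen {σ : GQ | σ • x = x}) :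
    ∃ M : AddSubgroup (Pt W), Nat.card M = p ∧ (∀ m ∈ M, p • m = 0) ∧
      (∀ σ : GQ, ∀ m ∈ M, σ • m ∈ M) ∧ Q ∉ M :=
  Adm37.exists_line_of_adm h14 W p h3 hcard Q hQ hQ0 hfix hcyc hunr hloc hopen

/-- **S12-ADM** with the citation inputs as the interface Props `CardTor`, `CycloQuot`,
`OpenStab`: only "unramified outside `p`" and "locally split at `p`" remain. -/
theorem exists_line_of_props
    (h14 : ∀ (p : ℕ) [Fact p.Prime], 3 ≤ p → ExtCitation.ExtVanishingCts p)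
    (hCard : CardTor) (hCyc : CycloQuot) (hOpen : OpenStab)
    (W : WeierstrassCurve ℤ) (hΔ : W.Δ ≠ 0) (p : ℕ) [Fact p.Prime] (h3 : 3 ≤ p)
    (Q : Pt W) (hQ : p • Q = 0) (hQ0 : Q ≠ 0) (hfix : ∀ σ : GQ, σ • Q = Q)
    (hunr : ∀ ℓ : ℕ, ℓ.Prime → ℓ ≠ p → ∀ A : ValuationSubring Qb, A.LiesOverPrime ℓ →
      ∀ σ ∈ A.inertiaSubgroupIn ℚ, ∀ x : Pt W, p • x = 0 → σ • x = x)
    (hloc : ∀ A : ValuationSubring Qb, A.LiesOverPrime p →
      ∃ y : Pt W, p • y = 0 ∧ (∀ a : ℤ, y ≠ a • Q) ∧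
        ∀ σ ∈ A.decompositionSubgroup ℚ, ∃ b : ℤ, σ • y = b • y) :
    ∃ M : AddSubgroup (Pt W), Nat.card M = p ∧ (∀ m ∈ M, p • m = 0) ∧
      (∀ σ : GQ, ∀ m ∈ M, σ • m ∈ M) ∧ Q ∉ M := by
  have hp : p.Prime := Fact.out
  have hcard : Nat.card {x : Pt W // p • x = 0} = p ^ 2 := by
    have h1 := hCard W hΔ p hp 1
    rw [mul_one] at h1
    rw [← h1]
    exact Nat.card_congr (Equiv.subtypeEquivRight fun x => by rw [pow_one])
  have hp2 : p ≠ 2 := by omega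
  exact exists_line_of_adm h14 W p h3 hcard Q hQ hQ0 hfix
    (fun σ x hx => hCyc W hΔ p hp2 Q hQ hQ0 hfix σ x hx) hunr hloc (fun x => hOpen W x)

end Fermat.Agent.S12P.AdmSeam37
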