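import Mathlib
import Fermat.Agent.S15P.M1.Inst36
import Fermat.Agent.S24.HNFMod

/-!
# S12, brick (P2): the chain of cyclic quotients gives points of `X₀(p)`

`W` a Weierstrass curve over `ℚ` with `Δ ≠ 0`, `p` an odd prime, `Q` a point of order `p ^ (k + 1)`
over `ℚ̄`.  With Vélu's quantities (`S15P/M2/Defs89`, defined for any order)

  `J n R := veluC4 n R ^ 3 * veluPsi n R ^ 4 / Δ ^ n`   (`= j (W / ⟨R⟩)` for `R` of odd order `n`)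

the pair `(b, a) = (J (p ^ (k + 1)) Q, J (p ^ k) (p • Q)) = (j (W / ⟨Q⟩), j (W / ⟨p • Q⟩))`
satisfies every polynomial relation over `ℚ` between `j(q)` and `j(q ^ p)` — in BOTH orders
(`velu_chain_modular` : `(b, a)`;  `velu_chain_modular'` : `(a, b)`).
For `k = 0` the second entry is `c₄ ^ 3 / Δ = j(W)`.

No quotient curve is constructed: everything is read off the lattice chain
`Λ ⊂ Λ + ℤ p^k z ⊂ … ⊂ Λ + ℤ z` through the analytic bricks of S15's (M1) on main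
(`UnifSeam21.hC1`, `UnifSeam75.hW4`, `Seam4.hG`, `Seam4.hD`, `TauSeam36.hT1`, `TauSeam36.hT2`).
-/

set_option autoImplicit false

namespace Fermat.Agent.S12P.Chain64

open WeierstrassCurve WeierstrassCurve.Affine UpperHalfPlane
open Fermat.Agent.S15P.M2 Fermat.Agent.S24 Fermat.Agent.S05.Transfer
open Fermat.Agent.S15P.M1 Fermat.Agent.S15P.M1.Top89

/-! ### Superlattices -/

theorem lattice_le_of_super {L L' : PeriodPair} {n : ℕ} {z : ℂ} (h : Super L L' n z) {w : ℂ}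
    (hw : w ∈ L.lattice) : w ∈ L'.lattice := by
  rw [h.2 w]
  exact ⟨0, by simpa using hw⟩

theorem natCast_mul_mem {L : PeriodPair} {w : ℂ} (hw : w ∈ L.lattice) (m : ℕ) :
    (m : ℂ) * w ∈ L.lattice := by
  have h := L.lattice.nsmul_mem hw m
  rwa [nsmul_eq_mul] at h

/-- Composition of superlattices: `Λ ⊂ Λ + ℤ p z ⊂ Λ + ℤ z`. -/
theorem super_comp {L L₁ L₂ : PeriodPair} {n p : ℕ} {z : ℂ}
    (h1 : Super L L₁ n ((p : ℂ) * z)) (h2 : Super L₁ L₂ p z) : Super L L₂ (n * p) z := by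
  refine ⟨fun m => ⟨fun hm => ?_, fun hm => ?_⟩, fun w => ⟨fun hw => ?_, fun hw => ?_⟩⟩
  · obtain ⟨m', rfl⟩ := (h2.1 m).mp (lattice_le_of_super h1 hm)
    have h3 : ((m' : ℕ) : ℂ) * ((p : ℂ) * z) ∈ L.lattice := by
      have e : ((m' : ℕ) : ℂ) * ((p : ℂ) * z) = ((p * m' : ℕ) : ℂ) * z := by push_cast; ring
      rw [e]
      exact hm
    obtain ⟨m'', rfl⟩ := (h1.1 m').mp h3
    exact ⟨m'', by ring⟩
  · obtain ⟨m', rfl⟩ := hm
    have h3 := (h1.1 (n * m')).mpr (Dvd.intro m' rfl)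
    have e : ((n * m' : ℕ) : ℂ) * ((p : ℂ) * z) = ((n * p * m' : ℕ) : ℂ) * z := by push_cast; ring
    rwa [e] at h3
  · obtain ⟨m, hm⟩ := (h2.2 w).mp hw
    obtain ⟨m', hm'⟩ := (h1.2 _).mp hm
    refine ⟨m + m' * p, ?_⟩
    have e : w - ((m + m' * p : ℕ) : ℂ) * z = w - (m : ℂ) * z - (m' : ℂ) * ((p : ℂ) * z) := by
      push_cast; ring
    rw [e]
    exact hm'
  · obtain ⟨m, hm⟩ := hw
    exact (h2.2 w).mpr ⟨m, lattice_le_of_super h1 hm⟩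

/-- A point of exact order `p ^ k` in `ℂ / Λ` generates a superlattice `Λ + ℤ z`. -/
theorem exists_super (L : PeriodPair) {p : ℕ} (hp : p.Prime) (k : ℕ) :
    ∀ z : ℂ, (∀ m : ℕ, (m : ℂ) * z ∈ L.lattice ↔ p ^ k ∣ m) →
      ∃ L' : PeriodPair, Super L L' (p ^ k) z := by
  induction k with
  | zero =>
    intro z hz
    have hzL : z ∈ L.lattice := by
      have h := (hz 1).mpr (by simp)
      simpa using h
    refine ⟨L, hz, fun w => ⟨fun hw => ⟨0, by simpa using hw⟩, ?_⟩⟩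
    rintro ⟨m, hm⟩
    have h := L.lattice.add_mem hm (natCast_mul_mem hzL m)
    simpa using h
  | succ k ih =>
    intro z hz
    have hz' : ∀ m : ℕ, (m : ℂ) * ((p : ℂ) * z) ∈ L.lattice ↔ p ^ k ∣ m := by
      intro m
      have e : (m : ℂ) * ((p : ℂ) * z) = ((m * p : ℕ) : ℂ) * z := by push_cast; ring
      rw [e, hz (m * p), pow_succ]
      exact Nat.mul_dvd_mul_iff_right hp.pos
    obtain ⟨L₁, hL₁⟩ := ih ((p : ℂ) * z) hz'
    have hpz : (p : ℂ) * z ∈ L₁.lattice := by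
      rw [hL₁.2]
      exact ⟨1, by simp⟩
    have hzn : z ∉ L₁.lattice := by
      intro hzL
      obtain ⟨m, hm⟩ := (hL₁.2 z).mp hzL
      -- `p ^ k • (z - m p z) ∈ Λ` and `m p ^ (k + 1) z ∈ Λ`, so `p ^ k z ∈ Λ`
      have h1 := natCast_mul_mem hm (p ^ k)
      have h2 : ((m * p ^ (k + 1) : ℕ) : ℂ) * z ∈ L.lattice :=
        (hz _).mpr (Dvd.intro_left m rfl)
      have h3 := L.lattice.add_mem h1 h2
      have e : ((p ^ k : ℕ) : ℂ) * (z - (m : ℂ) * ((p : ℂ) * z)) + ((m * p ^ (k + 1) : ℕ) : ℂ) * z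
          = ((p ^ k : ℕ) : ℂ) * z := by
        push_cast; ring
      rw [e, hz (p ^ k)] at h3
      have h4 := Nat.le_of_dvd (pow_pos hp.pos k) h3
      have h5 : p ^ k < p ^ (k + 1) := Nat.pow_lt_pow_right hp.one_lt (Nat.lt_succ_self k)
      omega
    obtain ⟨L₂, -, hS, -, -⟩ := TauSeam36.hT1 L₁ p hp z hzn hpz
    exact ⟨L₂, super_comp hL₁ hS⟩

/-! ### Vélu's quantities on the short form in terms of `℘`, `℘'` -/

theorem velu_of_super (L L' : PeriodPair)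
    (f : ℂ →+ (⟨0, 0, 0, -L.g₂ / 4, -L.g₃ / 4⟩ : WeierstrassCurve ℂ).toAffine.Point)
    (hfxy : ∀ z, z ∉ L.lattice →
      ptX (f z) = L.weierstrassP z ∧ ptY (f z) = L.derivWeierstrassP z / 2)
    (n : ℕ) (hn : 0 < n) (z : ℂ) (hS : Super L L' n z) :
    veluC4 n (f z) = 12 * L'.g₂ ∧
      veluPsi n (f z) = ∏ m ∈ Finset.Ico 1 n, L.derivWeierstrassP (m * z) := by
  have hk : ∀ m ∈ Finset.Ico 1 n, ptX (m • f z) = L.weierstrassP (m * z) ∧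
      ptY (m • f z) = L.derivWeierstrassP (m * z) / 2 := by
    intro m hm
    have hmn : (m : ℂ) * z ∉ L.lattice := by
      rw [hS.1 m]
      rw [Finset.mem_Ico] at hm
      intro hd
      have := Nat.le_of_dvd (by omega) hd
      omega
    have hmQ : m • f z = f ((m : ℂ) * z) := by
      rw [← nsmul_eq_mul, map_nsmul]
    rw [hmQ]
    exact hfxy _ hmn
  constructor
  · have hsum : ∑ m ∈ Finset.Ico 1 n, tq (m • f z) =
        ∑ m ∈ Finset.Ico 1 n, (6 * L.weierstrassP (m * z) ^ 2 - L.g₂ / 2) := by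
      apply Finset.sum_congr rfl
      intro m hm
      unfold tq
      rw [(hk m hm).1]
      simp only [WeierstrassCurve.b₂, WeierstrassCurve.b₄]
      ring
    rw [Seam4.hG L L' n z hn hS]
    unfold veluC4
    rw [hsum]
    simp only [WeierstrassCurve.c₄, WeierstrassCurve.b₂, WeierstrassCurve.b₄]
    ring
  · unfold veluPsi
    apply Finset.prod_congr rfl
    intro m hm
    unfold psi2
    rw [(hk m hm).1, (hk m hm).2]
    ring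

/-- `j` of the superlattice, by Vélu. -/
theorem j_of_super (L L' : PeriodPair) (hΔL : L.g₂ ^ 3 - 27 * L.g₃ ^ 2 ≠ 0)
    (f : ℂ →+ (⟨0, 0, 0, -L.g₂ / 4, -L.g₃ / 4⟩ : WeierstrassCurve ℂ).toAffine.Point)
    (hfxy : ∀ z, z ∉ L.lattice →
      ptX (f z) = L.weierstrassP z ∧ ptY (f z) = L.derivWeierstrassP z / 2)
    (n : ℕ) (hn : Odd n) (z : ℂ) (hS : Super L L' n z) :
    L'.g₂ ^ 3 - 27 * L'.g₃ ^ 2 ≠ 0 ∧
      veluC4 n (f z) ^ 3 * veluPsi n (f z) ^ 4 / (L.g₂ ^ 3 - 27 * L.g₃ ^ 2) ^ n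
        = 1728 * L'.g₂ ^ 3 / (L'.g₂ ^ 3 - 27 * L'.g₃ ^ 2) := by
  obtain ⟨h4, hPsi⟩ := velu_of_super L L' f hfxy n hn.pos z hS
  have hDD := Seam4.hD L L' n z hn hΔL hS
  rw [← hPsi] at hDD
  have hprod : (L'.g₂ ^ 3 - 27 * L'.g₃ ^ 2) * veluPsi n (f z) ^ 4 ≠ 0 := by
    rw [hDD]
    exact pow_ne_zero n hΔL
  have hΔ' : L'.g₂ ^ 3 - 27 * L'.g₃ ^ 2 ≠ 0 := left_ne_zero_of_mul hprod
  refine ⟨hΔ', ?_⟩
  rw [h4, ← hDD, div_eq_div_iff hprod hΔ']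
  ring

/-! ### The flip `τ ↦ -1 / (p τ)` -/

/-- There is `τ'` with `(J(τ'), J(p τ')) = (J(p τ), J(τ))`. -/
theorem exists_flip (p : ℕ) (hp : 0 < p) (τ : ℍ) :
    ∃ τ' : ℍ, Jfun τ' = Jabd p 0 1 τ ∧ Jabd p 0 1 τ' = Jfun τ := by
  have hpτ : 0 < ((p : ℂ) * (τ : ℂ)).im := by
    rw [Complex.mul_im, Complex.natCast_re, Complex.natCast_im, zero_mul, add_zero]
    exact mul_pos (Nat.cast_pos.mpr hp) τ.im_pos
  set σ : ℍ := ⟨(p : ℂ) * (τ : ℂ), hpτ⟩ with hσ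
  have hJσ : Jabd p 0 1 τ = Jfun σ := by
    unfold Jabd
    congr 1
    have e : ((p : ℂ) * (τ : ℂ) + ((0 : ℕ) : ℂ)) / ((1 : ℕ) : ℂ) = (p : ℂ) * (τ : ℂ) := by
      push_cast; ring
    rw [e, ofComplex_apply_of_im_pos hpτ]
  refine ⟨ModularGroup.S • σ, ?_, ?_⟩
  · rw [HNFMod.Jfun_smul, hJσ]
  · unfold Jabd
    have hS : ((ModularGroup.S • σ : ℍ) : ℂ) = (-(σ : ℂ))⁻¹ := by
      rw [UpperHalfPlane.modular_S_smul]
    have hSτ : ((ModularGroup.S • τ : ℍ) : ℂ) = (-(τ : ℂ))⁻¹ := by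
      rw [UpperHalfPlane.modular_S_smul]
    have hτ0 : (τ : ℂ) ≠ 0 := ne_zero τ
    have hp0 : (p : ℂ) ≠ 0 := Nat.cast_ne_zero.mpr hp.ne'
    have e : ((p : ℂ) * ((ModularGroup.S • σ : ℍ) : ℂ) + ((0 : ℕ) : ℂ)) / ((1 : ℕ) : ℂ)
        = ((ModularGroup.S • τ : ℍ) : ℂ) := by
      rw [hS, hSτ]
      show ((p : ℂ) * (-((p : ℂ) * (τ : ℂ)))⁻¹ + ((0 : ℕ) : ℂ)) / ((1 : ℕ) : ℂ) = (-(τ : ℂ))⁻¹
      push_cast
      field_simp
      ring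
    rw [e, ofComplex_apply, HNFMod.Jfun_smul]

/-! ### One step of the chain -/

theorem step_facts {L L₁ : PeriodPair} {p : ℕ} (hp : p.Prime) {k : ℕ} {z : ℂ}
    (hz : ∀ m : ℕ, (m : ℂ) * z ∈ L.lattice ↔ p ^ (k + 1) ∣ m)
    (hL₁ : Super L L₁ (p ^ k) ((p : ℂ) * z)) :
    z ∉ L₁.lattice ∧ (p : ℂ) * z ∈ L₁.lattice := by
  constructor
  · intro hzL
    obtain ⟨m, hm⟩ := (hL₁.2 z).mp hzL
    have h1 := natCast_mul_mem hm (p ^ k)
    have h2 : ((m * p ^ (k + 1) : ℕ) : ℂ) * z ∈ L.lattice :=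
      (hz _).mpr (Dvd.intro_left m rfl)
    have h3 := L.lattice.add_mem h1 h2
    have e : ((p ^ k : ℕ) : ℂ) * (z - (m : ℂ) * ((p : ℂ) * z)) + ((m * p ^ (k + 1) : ℕ) : ℂ) * z
        = ((p ^ k : ℕ) : ℂ) * z := by
      push_cast; ring
    rw [e, hz (p ^ k)] at h3
    have h4 := Nat.le_of_dvd (pow_pos hp.pos k) h3
    have h5 : p ^ k < p ^ (k + 1) := Nat.pow_lt_pow_right hp.one_lt (Nat.lt_succ_self k)
    omega
  · rw [hL₁.2]
    exact ⟨1, by simp⟩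

theorem order_mul {L : PeriodPair} {p : ℕ} (hp : p.Prime) {k : ℕ} {z : ℂ}
    (hz : ∀ m : ℕ, (m : ℂ) * z ∈ L.lattice ↔ p ^ (k + 1) ∣ m) :
    ∀ m : ℕ, (m : ℂ) * ((p : ℂ) * z) ∈ L.lattice ↔ p ^ k ∣ m := by
  intro m
  have e : (m : ℂ) * ((p : ℂ) * z) = ((m * p : ℕ) : ℂ) * z := by push_cast; ring
  rw [e, hz (m * p), pow_succ]
  exact Nat.mul_dvd_mul_iff_right hp.pos

/-- The two lattices of a step and the point `τ` with `(j(Λ₁), j(Λ₂)) = (J(τ), J(pτ))`. -/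
theorem exists_super_pair (L : PeriodPair) {p : ℕ} (hp : p.Prime) (k : ℕ) (z : ℂ)
    (hz : ∀ m : ℕ, (m : ℂ) * z ∈ L.lattice ↔ p ^ (k + 1) ∣ m) :
    ∃ (L₁ L₂ : PeriodPair) (τ : ℍ), Super L L₁ (p ^ k) ((p : ℂ) * z) ∧
      Super L L₂ (p ^ (k + 1)) z ∧
      1728 * L₁.g₂ ^ 3 = Jfun τ * (L₁.g₂ ^ 3 - 27 * L₁.g₃ ^ 2) ∧
      1728 * L₂.g₂ ^ 3 = Jabd p 0 1 τ * (L₂.g₂ ^ 3 - 27 * L₂.g₃ ^ 2) := by
  obtain ⟨L₁, hL₁⟩ := exists_super L hp k ((p : ℂ) * z) (order_mul hp hz)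
  obtain ⟨hzn, hpz⟩ := step_facts hp hz hL₁
  obtain ⟨L₂, τ, hS, hJ, hJ'⟩ := TauSeam36.hT1 L₁ p hp z hzn hpz
  exact ⟨L₁, L₂, τ, hL₁, super_comp hL₁ hS, hJ, hJ'⟩

/-! ### From `ℚ̄` to the short form over `ℂ` -/

/-- The lattice of a Weierstrass curve over `ℚ` and the transport of points to the short form
`Y² = X³ - g₂/4 X - g₃/4` over `ℂ`; Vélu's quantities are preserved. -/
theorem exists_short (W : WeierstrassCurve ℚ) (hΔ : W.Δ ≠ 0) :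
    ∃ L : PeriodPair, L.g₂ ^ 3 - 27 * L.g₃ ^ 2 = ((W.Δ : ℚ) : ℂ) ∧
      ∃ Θ : (W⁄(AlgebraicClosure ℚ)).Point →+
          (⟨0, 0, 0, -L.g₂ / 4, -L.g₃ / 4⟩ : WeierstrassCurve ℂ).toAffine.Point,
        Function.Injective Θ ∧
        ∀ (n : ℕ) (R : (W⁄(AlgebraicClosure ℚ)).Point), addOrderOf R = n →
          (complexEmbedding : AlgebraicClosure ℚ →ₐ[ℚ] ℂ) (veluC4 n R) = veluC4 n (Θ R) ∧
          (complexEmbedding : AlgebraicClosure ℚ →ₐ[ℚ] ℂ) (veluPsi n R) = veluPsi n (Θ R) := by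
  let φ : AlgebraicClosure ℚ →ₐ[ℚ] ℂ := complexEmbedding
  have hΔ' : (W.map (algebraMap ℚ ℂ)).Δ = ((W.Δ : ℚ) : ℂ) := by
    rw [map_Δ]
    exact eq_ratCast _ _
  have hΔc : (W.map (algebraMap ℚ ℂ)).Δ ≠ 0 := by
    rw [hΔ']
    exact_mod_cast hΔ
  have hrel : (W.map (algebraMap ℚ ℂ)).Δ =
      ((W.map (algebraMap ℚ ℂ)).c₄ / 12) ^ 3 - 27 * ((W.map (algebraMap ℚ ℂ)).c₆ / 216) ^ 2 := by
    have h := (W.map (algebraMap ℚ ℂ)).c_relation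
    linear_combination (1 / 1728 : ℂ) * h
  obtain ⟨L, hL2, hL3⟩ := UnifSeam21.hC1 ((W.map (algebraMap ℚ ℂ)).c₄ / 12)
    ((W.map (algebraMap ℚ ℂ)).c₆ / 216) (by rw [← hrel]; exact hΔc)
  have hΔLeq : L.g₂ ^ 3 - 27 * L.g₃ ^ 2 = ((W.Δ : ℚ) : ℂ) := by
    rw [hL2, hL3, ← hrel, hΔ']
  have hsm : shortVC (W.map (algebraMap ℚ ℂ)) • (W.map (algebraMap ℚ ℂ))
      = ⟨0, 0, 0, -L.g₂ / 4, -L.g₃ / 4⟩ := by
    rw [shortVC_smul, hL2, hL3]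
  have hu : (shortVC (W.map (algebraMap ℚ ℂ))).u = 1 := rfl
  refine ⟨L, hΔLeq, ((vcEquiv (shortVC (W.map (algebraMap ℚ ℂ))) hsm).symm.toAddMonoidHom).comp
    (Point.map φ), ?_, ?_⟩
  · intro R₁ R₂ h
    exact Point.map_injective φ ((vcEquiv (shortVC (W.map (algebraMap ℚ ℂ))) hsm).symm.injective h)
  · intro n R hR
    set R' := (vcEquiv (shortVC (W.map (algebraMap ℚ ℂ))) hsm).symm (Point.map φ R) with hR'
    have hRR' : vcEquiv (shortVC (W.map (algebraMap ℚ ℂ))) hsm R' = Point.map φ R :=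
      (vcEquiv (shortVC (W.map (algebraMap ℚ ℂ))) hsm).apply_symm_apply _
    have hRc : addOrderOf (Point.map φ R) = n := by
      rw [addOrderOf_injective _ (Point.map_injective φ), hR]
    have hR'ord : addOrderOf R' = n := by
      rw [← hRc, ← hRR']
      exact (addOrderOf_injective (vcEquiv (shortVC (W.map (algebraMap ℚ ℂ))) hsm).toAddMonoidHom
        (vcEquiv (shortVC (W.map (algebraMap ℚ ℂ))) hsm).injective R').symm
    constructor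
    · show φ (veluC4 n R) = veluC4 n R'
      rw [veluC4_map W φ n R, ← hRR']
      exact veluC4_vc _ hsm hu hR'ord
    · show φ (veluPsi n R) = veluPsi n R'
      rw [veluPsi_map W φ n R, ← hRR']
      exact veluPsi_vc _ hsm hu hR'ord

/-! ### The chain pair -/

section Main

variable {p : ℕ}

/-- **The values.** `(j(W/⟨p • Q⟩), j(W/⟨Q⟩)) = (J(τ), J(pτ))` for some `τ`. -/
theorem exists_tau_chain (hp : p.Prime) (hp2 : p ≠ 2) (W : WeierstrassCurve ℚ) (hΔ : W.Δ ≠ 0)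
    (k : ℕ) (Q : (W⁄(AlgebraicClosure ℚ)).Point) (hQ : addOrderOf Q = p ^ (k + 1)) :
    ∃ τ : ℍ,
      (complexEmbedding : AlgebraicClosure ℚ →ₐ[ℚ] ℂ)
          (veluC4 (p ^ k) (p • Q) ^ 3 * veluPsi (p ^ k) (p • Q) ^ 4
            / ((W.Δ : ℚ) : AlgebraicClosure ℚ) ^ (p ^ k)) = Jfun τ ∧
      (complexEmbedding : AlgebraicClosure ℚ →ₐ[ℚ] ℂ)
          (veluC4 (p ^ (k + 1)) Q ^ 3 * veluPsi (p ^ (k + 1)) Q ^ 4
            / ((W.Δ : ℚ) : AlgebraicClosure ℚ) ^ (p ^ (k + 1))) = Jabd p 0 1 τ := by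
  obtain ⟨L, hΔLeq, Θ, hΘinj, hΘ⟩ := exists_short W hΔ
  have hΔL : L.g₂ ^ 3 - 27 * L.g₃ ^ 2 ≠ 0 := by
    rw [hΔLeq]
    exact_mod_cast hΔ
  obtain ⟨f, hfs, hfk, hfxy⟩ := UnifSeam75.hW4 L hΔL
  have hQ' : addOrderOf (Θ Q) = p ^ (k + 1) := by
    rw [addOrderOf_injective Θ hΘinj, hQ]
  obtain ⟨z, hz⟩ := hfs (Θ Q)
  have hzord : ∀ m : ℕ, (m : ℂ) * z ∈ L.lattice ↔ p ^ (k + 1) ∣ m := by
    intro m
    rw [← hfk, ← nsmul_eq_mul, map_nsmul, hz, ← hQ']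
    exact (addOrderOf_dvd_iff_nsmul_eq_zero).symm
  obtain ⟨L₁, L₂, τ, hS₁, hS₂, hJ, hJ'⟩ := exists_super_pair L hp k z hzord
  have hodd : Odd p := hp.odd_of_ne_two hp2
  obtain ⟨hΔ₁, hj₁⟩ := j_of_super L L₁ hΔL f hfxy (p ^ k) hodd.pow ((p : ℂ) * z) hS₁
  obtain ⟨hΔ₂, hj₂⟩ := j_of_super L L₂ hΔL f hfxy (p ^ (k + 1)) hodd.pow z hS₂
  have hfp : f ((p : ℂ) * z) = Θ (p • Q) := by
    rw [← nsmul_eq_mul, map_nsmul, hz, map_nsmul]
  have hpQ : addOrderOf (p • Q) = p ^ k := by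
    rw [addOrderOf_nsmul' Q hp.ne_zero, hQ, pow_succ, Nat.gcd_mul_left_left,
      Nat.mul_div_cancel _ hp.pos]
  obtain ⟨e1, e2⟩ := hΘ (p ^ k) (p • Q) hpQ
  obtain ⟨e3, e4⟩ := hΘ (p ^ (k + 1)) Q hQ
  refine ⟨τ, ?_, ?_⟩
  · rw [map_div₀, map_mul, map_pow, map_pow, map_pow, map_ratCast, e1, e2, ← hfp, ← hΔLeq, hj₁,
      div_eq_iff hΔ₁]
    exact hJ
  · rw [map_div₀, map_mul, map_pow, map_pow, map_pow, map_ratCast, e3, e4, ← hz, ← hΔLeq, hj₂,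
      div_eq_iff hΔ₂]
    exact hJ'

/-- **(P2), the pair `(j(W/⟨p • Q⟩), j(W/⟨Q⟩))`** satisfies every relation of `(j(q), j(q^p))`. -/
theorem velu_chain_modular' [NeZero p] (hp : p.Prime) (hp2 : p ≠ 2) (W : WeierstrassCurve ℚ)
    (hΔ : W.Δ ≠ 0) (k : ℕ) (Q : (W⁄(AlgebraicClosure ℚ)).Point)
    (hQ : addOrderOf Q = p ^ (k + 1)) (P : MvPolynomial (Fin 2) ℚ)
    (hP : MvPolynomial.aeval ![ModularCurve.jq, ModularCurve.jqN p] P = (0 : LaurentSeries ℚ)) :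
    MvPolynomial.aeval
      ![veluC4 (p ^ k) (p • Q) ^ 3 * veluPsi (p ^ k) (p • Q) ^ 4
          / ((W.Δ : ℚ) : AlgebraicClosure ℚ) ^ (p ^ k),
        veluC4 (p ^ (k + 1)) Q ^ 3 * veluPsi (p ^ (k + 1)) Q ^ 4
          / ((W.Δ : ℚ) : AlgebraicClosure ℚ) ^ (p ^ (k + 1))] P = 0 := by
  let φ : AlgebraicClosure ℚ →ₐ[ℚ] ℂ := complexEmbedding
  have hinj : Function.Injective (φ : AlgebraicClosure ℚ → ℂ) := φ.toRingHom.injective
  apply hinj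
  rw [map_zero, MvPolynomial.comp_aeval_apply]
  obtain ⟨τ, ha, hb⟩ := exists_tau_chain hp hp2 W hΔ k Q hQ
  have key : (fun i => φ (![veluC4 (p ^ k) (p • Q) ^ 3 * veluPsi (p ^ k) (p • Q) ^ 4
          / ((W.Δ : ℚ) : AlgebraicClosure ℚ) ^ (p ^ k),
        veluC4 (p ^ (k + 1)) Q ^ 3 * veluPsi (p ^ (k + 1)) Q ^ 4
          / ((W.Δ : ℚ) : AlgebraicClosure ℚ) ^ (p ^ (k + 1))] i)) =
      ![Jfun τ, Jabd p 0 1 τ] := by
    funext i
    fin_cases i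
    · exact ha
    · exact hb
  rw [key]
  exact TauSeam36.hT2 p P hP τ

/-- **(P2), the pair `(b, a) = (j(W/⟨Q⟩), j(W/⟨p • Q⟩))`** — the order in which S15 consumes
`(j(E'), j(E'/⟨Q'⟩))` — satisfies every relation of `(j(q), j(q^p))`. -/
theorem velu_chain_modular [NeZero p] (hp : p.Prime) (hp2 : p ≠ 2) (W : WeierstrassCurve ℚ)
    (hΔ : W.Δ ≠ 0) (k : ℕ) (Q : (W⁄(AlgebraicClosure ℚ)).Point)
    (hQ : addOrderOf Q = p ^ (k + 1)) (P : MvPolynomial (Fin 2) ℚ)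
    (hP : MvPolynomial.aeval ![ModularCurve.jq, ModularCurve.jqN p] P = (0 : LaurentSeries ℚ)) :
    MvPolynomial.aeval
      ![veluC4 (p ^ (k + 1)) Q ^ 3 * veluPsi (p ^ (k + 1)) Q ^ 4
          / ((W.Δ : ℚ) : AlgebraicClosure ℚ) ^ (p ^ (k + 1)),
        veluC4 (p ^ k) (p • Q) ^ 3 * veluPsi (p ^ k) (p • Q) ^ 4
          / ((W.Δ : ℚ) : AlgebraicClosure ℚ) ^ (p ^ k)] P = 0 := by
  let φ : AlgebraicClosure ℚ →ₐ[ℚ] ℂ := complexEmbedding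
  have hinj : Function.Injective (φ : AlgebraicClosure ℚ → ℂ) := φ.toRingHom.injective
  apply hinj
  rw [map_zero, MvPolynomial.comp_aeval_apply]
  obtain ⟨τ, ha, hb⟩ := exists_tau_chain hp hp2 W hΔ k Q hQ
  obtain ⟨τ', h1, h2⟩ := exists_flip p hp.pos τ
  have key : (fun i => φ (![veluC4 (p ^ (k + 1)) Q ^ 3 * veluPsi (p ^ (k + 1)) Q ^ 4
          / ((W.Δ : ℚ) : AlgebraicClosure ℚ) ^ (p ^ (k + 1)),
        veluC4 (p ^ k) (p • Q) ^ 3 * veluPsi (p ^ k) (p • Q) ^ 4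
          / ((W.Δ : ℚ) : AlgebraicClosure ℚ) ^ (p ^ k)] i)) =
      ![Jfun τ', Jabd p 0 1 τ'] := by
    funext i
    fin_cases i
    · exact hb.trans h1.symm
    · exact ha.trans h2.symm
  rw [key]
  exact TauSeam36.hT2 p P hP τ'

end Main

end Fermat.Agent.S12P.Chain64
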