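import Mathlib
import Fermat.Agent.S12P.CycloQuot62
import Fermat.Agent.PT.G.CycloLocNorm

/-!
# S12 — row 636 (`LocP`), piece (B): some inertia element at `p` moves a cofixed line (helper62)

`W` an integral Weierstrass curve with `Δ ≠ 0`, `p` an odd prime, `N ⊆ W[p]` a subgroup of order
`p` with `σ x - x ∈ N` for all `σ ∈ G_ℚ`, `x ∈ W[p]`.  Then for every `A ∣ p` there is an inertia
element `σ ∈ I_A` moving every nonzero point of `N`.

Proof.  There is `σ ∈ I_A` with `χ_p(σ) ≠ 1` (`PT.G.exists_inertia_zpowers_cycloChar_eq_top`), and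
`det ρ_{W,p}(σ) = χ_p(σ)` (`CycloQuot62.det_eq_cycloExp`).  If `σ` fixed `x₀ ∈ N ∖ 0`, then
`σ y - det(σ) y ∈ ⟨x₀⟩` and `σ y - y ∈ N = ⟨x₀⟩` for all `y ∈ W[p]`, so `(1 - det σ) y ∈ ⟨x₀⟩`:
`W[p]` would be a line.
-/

set_option autoImplicit false

namespace Fermat.Agent.S12P.LocPMove62

open Fermat.Agent.S58 Fermat.Agent.S58.EpRep WeierstrassCurve
open scoped WeierstrassCurve.Affine

/-- The mod `p` cyclotomic exponent is `≠ 1` for some inertia element at `p` (`p` odd). -/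
theorem exists_inertia_cycloExp_ne_one (p : ℕ) [Fact p.Prime] (hp2 : p ≠ 2)
    (A : ValuationSubring Qb) (hA : A.LiesOverPrime p) :
    ∃ σ ∈ A.inertiaSubgroupIn ℚ, (ExtCitation.cycloExp p σ : ZMod p) ≠ 1 := by
  have hp : p.Prime := Fact.out
  have : Fact (2 < p) := ⟨lt_of_le_of_ne hp.two_le (Ne.symm hp2)⟩
  obtain ⟨σ, hσ, hgen⟩ := PT.G.exists_inertia_zpowers_cycloChar_eq_top p A hA
  refine ⟨σ, hσ, fun h1 => ?_⟩
  have hc : ExtCitation.cycloChar p σ = 1 := by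
    apply Units.ext
    rw [ExtCitation.coe_cycloChar, h1, Units.val_one]
  rw [hc, Subgroup.zpowers_one_eq_bot] at hgen
  have hm : (-1 : (ZMod p)ˣ) ∈ (⊥ : Subgroup (ZMod p)ˣ) := by
    rw [hgen]
    trivial
  rw [Subgroup.mem_bot] at hm
  have h2 := congrArg (fun u : (ZMod p)ˣ => (u : ZMod p)) hm
  simp only [Units.val_neg, Units.val_one] at h2
  exact ZMod.neg_one_ne_one h2

/-- **Clause 4 of `LocP`** for any integral curve: some inertia element at `p` moves a nonzero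
point of a cofixed subgroup of order `p`. -/
theorem exists_inertia_moving (W : WeierstrassCurve ℤ) (hΔ : W.Δ ≠ 0) (p : ℕ) [Fact p.Prime]
    (hp2 : p ≠ 2)
    (N : AddSubgroup ((W.map (Int.castRingHom ℚ))⁄(AlgebraicClosure ℚ)).Point)
    (hcard : Nat.card N = p)
    (hcof : ∀ (σ : AlgebraicClosure ℚ ≃ₐ[ℚ] AlgebraicClosure ℚ)
      (x : ((W.map (Int.castRingHom ℚ))⁄(AlgebraicClosure ℚ)).Point), p • x = 0 → σ • x - x ∈ N)
    (A : ValuationSubring (AlgebraicClosure ℚ)) (hA : A.LiesOverPrime p) :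
    ∃ σ ∈ A.inertiaSubgroupIn ℚ, ∃ x ∈ N, σ • x ≠ x := by
  have hp : p.Prime := Fact.out
  obtain ⟨σ, hσ, hχ⟩ := exists_inertia_cycloExp_ne_one p hp2 A hA
  -- a nonzero element of `N`
  have hfin : Finite N := Nat.finite_of_card_ne_zero (by rw [hcard]; exact hp.ne_zero)
  have hnt : Nontrivial N := by
    rw [← Finite.one_lt_card_iff_nontrivial, hcard]
    exact hp.one_lt
  obtain ⟨x₀, hx₀⟩ := exists_ne (0 : N)
  refine ⟨σ, hσ, (x₀ : EPt W), x₀.2, fun hfix => ?_⟩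
  have hx₀0 : (x₀ : EPt W) ≠ 0 := fun h => hx₀ (Subtype.ext h)
  -- every element of `N` is a multiple of `x₀`
  have hcyc : ∀ z ∈ N, ∃ k : ℤ, z = k • (x₀ : EPt W) := by
    intro z hz
    have hmem := mem_zmultiples_of_prime_card (p := p) hcard hx₀ (g' := (⟨z, hz⟩ : N))
    obtain ⟨k, hk⟩ := AddSubgroup.mem_zmultiples_iff.mp hmem
    refine ⟨k, ?_⟩
    have := congrArg (fun t : N => (t : EPt W)) hk
    simpa using this.symm
  -- `x₀` is `p`-torsion
  have hpx₀ : p • (x₀ : EPt W) = 0 := by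
    have h1 : p • x₀ = 0 := by
      have := hcard ▸ (card_nsmul_eq_zero' (G := N) (x := x₀))
      exact this
    have := congrArg (fun t : N => (t : EPt W)) h1
    simpa using this
  have hx₀m : (x₀ : EPt W) ∈ Submodule.torsionBy ℤ (EPt W) p := by
    rw [Submodule.mem_torsionBy_iff, Nat.cast_smul_eq_nsmul]
    exact hpx₀
  have hq0 : (⟨x₀, hx₀m⟩ : Ep W p) ≠ 0 := fun h => hx₀0 (congrArg Subtype.val h)
  have hq : rhoE W p σ (⟨x₀, hx₀m⟩ : Ep W p) = ⟨x₀, hx₀m⟩ := by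
    rw [rhoE_apply]
    exact Subtype.ext hfix
  have hV := finrank_torsion (W := W) (p := p) hΔ
  have hd : LinearMap.det (rhoE W p σ) ≠ 1 := by
    rw [CycloQuot62.det_eq_cycloExp hΔ p σ]
    exact hχ
  have hd' : (1 - LinearMap.det (rhoE W p σ)) ≠ 0 := sub_ne_zero.mpr (Ne.symm hd)
  -- every `y ∈ W[p]` is a multiple of `x₀`
  have hall : ∀ y : Ep W p, ∃ c : ZMod p, c • (⟨x₀, hx₀m⟩ : Ep W p) = y := by
    intro y
    obtain ⟨c, hc⟩ := CycloQuot62.exists_sub_det_smul_eq hV (rhoE W p σ) hq0 hq y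
    have hpy : p • (y : EPt W) = 0 := by
      have := y.2
      rwa [Submodule.mem_torsionBy_iff, Nat.cast_smul_eq_nsmul] at this
    obtain ⟨k, hk⟩ := hcyc _ (hcof σ (y : EPt W) hpy)
    have hk' : rhoE W p σ y - y = (k : ZMod p) • (⟨x₀, hx₀m⟩ : Ep W p) := by
      rw [rhoE_apply, Int.cast_smul_eq_zsmul]
      exact Subtype.ext hk
    refine ⟨(1 - LinearMap.det (rhoE W p σ))⁻¹ * (c - (k : ZMod p)), ?_⟩
    have e : (1 - LinearMap.det (rhoE W p σ)) • y =
        (c - (k : ZMod p)) • (⟨x₀, hx₀m⟩ : Ep W p) := by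
      rw [sub_smul, sub_smul, one_smul, ← hc, ← hk']
      abel
    rw [mul_smul, ← e, smul_smul, inv_mul_cancel₀ hd', one_smul]
  have hle := finrank_le_one (⟨x₀, hx₀m⟩ : Ep W p) hall
  rw [hV] at hle
  exact absurd hle (by norm_num)

end Fermat.Agent.S12P.LocPMove62
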