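import Mathlib
import Fermat.Agent.S12P.CycloQuot62
import Fermat.Agent.S12P.LocPMove62
import Fermat.Agent.S12P.Ifc48
import Fermat.Agent.S12P.Interfaces20
import Fermat.Agent.Lib.FrobeniusExists

/-!
# S12 — adapters (A3) of ruling #5321 (twin, helper62): `Ifc48.ComplUnique`, `Ifc48.ComplNoFixed`

`W` integral with `Δ ≠ 0`, `p` an odd prime, `Q ∈ W[p]` rational of order `p`.

* `complUnique`: at a place `A ∣ p`, a `D_A`-stable subgroup of order `p` not containing `Q` is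
  unique.
* `complNoFixed`: a Galois-stable subgroup of order `p` not containing `Q` has no nonzero
  Galois-fixed point.

Proof.  Pick `σ₀ ∈ I_A ⊆ D_A` with `d := det ρ(σ₀) = χ_p(σ₀) ≠ 1` (`LocPMove62`).  On a stable
line `⟨l⟩ ∌ Q`, `σ₀ l = a l` and `σ₀ l - d l ∈ ⟨Q⟩` force `a = d`.  Two `d`-eigenvectors `l, l'`
which were independent would span `W[p] ∋ Q`, so `Q = σ₀ Q = d Q`, absurd.  For `complNoFixed`,
a fixed `x ≠ 0` on the line is an eigenvector with `a = 1 ≠ d`.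

Both are proved without hypotheses; the versions with the (unused) hypothesis `CycloQuot` are the
literals asked for in the ruling.
-/

set_option autoImplicit false

namespace Fermat.Agent.S12P.Compl62

open Fermat.Agent.S58 Fermat.Agent.S58.EpRep WeierstrassCurve
open scoped WeierstrassCurve.Affine

/-! ### Linear algebra in dimension two -/

section LinAlg

variable {k V : Type*} [Field k] [AddCommGroup V] [Module k V]

/-- An eigenvector `l` of `g`, independent of a fixed vector `q ≠ 0`, has eigenvalue `det g`. -/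
theorem eigenvalue_eq_det (hV : Module.finrank k V = 2) (g : V →ₗ[k] V) {q : V} (hq0 : q ≠ 0)
    (hq : g q = q) {l : V} (hl0 : l ≠ 0) {a : k} (hl : g l = a • l)
    (hql : ∀ c : k, q ≠ c • l) : a = LinearMap.det g := by
  obtain ⟨c, hc⟩ := CycloQuot62.exists_sub_det_smul_eq hV g hq0 hq l
  rw [hl, ← sub_smul] at hc
  by_contra hne
  have hne' : a - LinearMap.det g ≠ 0 := sub_ne_zero.mpr hne
  by_cases hc0 : c = 0
  · rw [hc0, zero_smul] at hc
    rcases smul_eq_zero.mp hc with h | h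
    · exact hne' h
    · exact hl0 h
  · apply hql (c⁻¹ * (a - LinearMap.det g))
    rw [mul_smul, hc, smul_smul, inv_mul_cancel₀ hc0, one_smul]

/-- Two eigenvectors of `g` for an eigenvalue `d ≠ 1` are proportional, if `g` fixes a nonzero
vector (dimension two). -/
theorem exists_smul_eq_of_eigen (hV : Module.finrank k V = 2) (g : V →ₗ[k] V) {q : V}
    (hq0 : q ≠ 0) (hq : g q = q) {d : k} (hd : d ≠ 1) {l l' : V} (hl0 : l ≠ 0)
    (hl : g l = d • l) (hl' : g l' = d • l') : ∃ c : k, c • l = l' := by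
  classical
  by_contra hcon
  have hli : LinearIndependent k ![l, l'] := by
    rw [LinearIndependent.pair_iff' hl0]
    intro a ha
    exact hcon ⟨a, ha⟩
  have hcard : Fintype.card (Fin 2) = Module.finrank k V := by simp [hV]
  have : Module.Finite k V := Module.finite_of_finrank_eq_succ hV
  let b : Module.Basis (Fin 2) k V := basisOfLinearIndependentOfCardEqFinrank hli hcard
  have hb0 : b 0 = l := by simp [b]
  have hb1 : b 1 = l' := by simp [b]
  have hsum := b.sum_repr q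
  rw [Fin.sum_univ_two, hb0, hb1] at hsum
  have hgq : g q = d • q := by
    nth_rewrite 1 [← hsum]
    rw [map_add, map_smul, map_smul, hl, hl', smul_comm _ d l, smul_comm _ d l', ← smul_add, hsum]
  rw [hq] at hgq
  have h1 : (1 - d) • q = 0 := by
    rw [sub_smul, one_smul, ← hgq, sub_self]
  rcases smul_eq_zero.mp h1 with h | h
  · exact hd (sub_eq_zero.mp h).symm
  · exact hq0 h

end LinAlg

/-! ### Subgroups of order `p` of `W[p]` -/

section Sub

variable {W : WeierstrassCurve ℤ} {p : ℕ} [Fact p.Prime]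

omit [Fact p.Prime] in
theorem nsmul_eq_zero_of_card {L : AddSubgroup (EPt W)} (hL : Nat.card L = p) {x : EPt W}
    (hx : x ∈ L) : p • x = 0 := by
  have h1 : p • (⟨x, hx⟩ : L) = 0 := hL ▸ (card_nsmul_eq_zero' (G := L) (x := ⟨x, hx⟩))
  have := congrArg (fun t : L => (t : EPt W)) h1
  simpa using this

omit [Fact p.Prime] in
theorem mem_torsion_of_card {L : AddSubgroup (EPt W)} (hL : Nat.card L = p) {x : EPt W}
    (hx : x ∈ L) : x ∈ Submodule.torsionBy ℤ (EPt W) p := by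
  rw [Submodule.mem_torsionBy_iff, Nat.cast_smul_eq_nsmul]
  exact nsmul_eq_zero_of_card hL hx

theorem exists_zsmul_of_card {L : AddSubgroup (EPt W)} (hL : Nat.card L = p) {l : EPt W}
    (hl : l ∈ L) (hl0 : l ≠ 0) {z : EPt W} (hz : z ∈ L) : ∃ n : ℤ, z = n • l := by
  have hl0' : (⟨l, hl⟩ : L) ≠ 0 := fun h => hl0 (congrArg Subtype.val h)
  have hmem := mem_zmultiples_of_prime_card (p := p) hL hl0' (g' := (⟨z, hz⟩ : L))
  obtain ⟨n, hn⟩ := AddSubgroup.mem_zmultiples_iff.mp hmem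
  refine ⟨n, ?_⟩
  have := congrArg (fun t : L => (t : EPt W)) hn
  simpa using this.symm

theorem exists_ne_zero_of_card {L : AddSubgroup (EPt W)} (hL : Nat.card L = p) :
    ∃ l ∈ L, l ≠ 0 := by
  have hp : p.Prime := Fact.out
  have hfin : Finite L := Nat.finite_of_card_ne_zero (by rw [hL]; exact hp.ne_zero)
  have hnt : Nontrivial L := by
    rw [← Finite.one_lt_card_iff_nontrivial, hL]
    exact hp.one_lt
  obtain ⟨x, hx⟩ := exists_ne (0 : L)
  exact ⟨x, x.2, fun h => hx (Subtype.ext h)⟩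

/-- A scalar multiple in `W[p]` of an element of a subgroup lies in the subgroup. -/
theorem zmod_smul_mem {L : AddSubgroup (EPt W)} (c : ZMod p) (l : Ep W p)
    (hl : (l : EPt W) ∈ L) : ((c • l : Ep W p) : EPt W) ∈ L := by
  have hp : p.Prime := Fact.out
  have : NeZero p := ⟨hp.ne_zero⟩
  have hc : c = ((c.val : ℕ) : ZMod p) := (ZMod.natCast_zmod_val c).symm
  rw [hc, Nat.cast_smul_eq_nsmul]
  have e : ((c.val • l : Ep W p) : EPt W) = c.val • (l : EPt W) := by simp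
  rw [e]
  exact L.nsmul_mem hl _

/-- The eigenvalue of `σ` on a `σ`-stable subgroup of order `p` not containing the fixed point
`Q ≠ 0` is `det ρ(σ)`. -/
theorem smul_eq_det_smul (hΔ : W.Δ ≠ 0) {Q : EPt W} (hQ0 : Q ≠ 0) (hpQ : p • Q = 0)
    (σ : GQ) (hσQ : σ • Q = Q) {L : AddSubgroup (EPt W)} (hL : Nat.card L = p) (hQL : Q ∉ L)
    (hst : ∀ x ∈ L, σ • x ∈ L) (l : Ep W p) (hl : (l : EPt W) ∈ L) (hl0 : l ≠ 0) :
    rhoE W p σ l = LinearMap.det (rhoE W p σ) • l := by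
  have hQm : Q ∈ Submodule.torsionBy ℤ (EPt W) p := by
    rw [Submodule.mem_torsionBy_iff, Nat.cast_smul_eq_nsmul]
    exact hpQ
  have hq0 : (⟨Q, hQm⟩ : Ep W p) ≠ 0 := fun h => hQ0 (congrArg Subtype.val h)
  have hq : rhoE W p σ (⟨Q, hQm⟩ : Ep W p) = ⟨Q, hQm⟩ := by
    rw [rhoE_apply]
    exact Subtype.ext hσQ
  have hl0' : (l : EPt W) ≠ 0 := fun h => hl0 (Subtype.ext h)
  obtain ⟨n, hn⟩ := exists_zsmul_of_card hL hl hl0' (hst _ hl)
  have hgl : rhoE W p σ l = (n : ZMod p) • l := by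
    rw [rhoE_apply, Int.cast_smul_eq_zsmul]
    exact Subtype.ext hn
  have hql : ∀ c : ZMod p, (⟨Q, hQm⟩ : Ep W p) ≠ c • l := by
    intro c hc
    apply hQL
    have := zmod_smul_mem (L := L) c l hl
    rw [← hc] at this
    exact this
  have ha := eigenvalue_eq_det (finrank_torsion hΔ) (rhoE W p σ) hq0 hq hl0 hgl hql
  rw [hgl, ha]

end Sub

/-! ### The two bricks -/

/-- **(UNIQ-P)**, one inclusion. -/
theorem compl_le (p : ℕ) [Fact p.Prime] (hp2 : p ≠ 2) (W : WeierstrassCurve ℤ) (hΔ : W.Δ ≠ 0)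
    (Q : EPt W) (hQ : ∀ σ : GQ, σ • Q = Q) (hQ0 : Q ≠ 0) (hpQ : p • Q = 0)
    (A : ValuationSubring Qb) (hA : A.LiesOverPrime p) (L L' : AddSubgroup (EPt W))
    (hL : Nat.card L = p) (hL' : Nat.card L' = p) (hQL : Q ∉ L) (hQL' : Q ∉ L')
    (hst : ∀ σ ∈ A.decompositionSubgroup ℚ, ∀ x ∈ L, σ • x ∈ L)
    (hst' : ∀ σ ∈ A.decompositionSubgroup ℚ, ∀ x ∈ L', σ • x ∈ L') : L' ≤ L := by
  obtain ⟨σ₀, hσ₀, hχ⟩ := LocPMove62.exists_inertia_cycloExp_ne_one p hp2 A hA
  have hσ₀D : σ₀ ∈ A.decompositionSubgroup ℚ := by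
    obtain ⟨τ, -, rfl⟩ := hσ₀
    exact τ.2
  have hd : LinearMap.det (rhoE W p σ₀) ≠ 1 := by
    rw [CycloQuot62.det_eq_cycloExp hΔ p σ₀]
    exact hχ
  have hQm : Q ∈ Submodule.torsionBy ℤ (EPt W) p := by
    rw [Submodule.mem_torsionBy_iff, Nat.cast_smul_eq_nsmul]
    exact hpQ
  have hq0 : (⟨Q, hQm⟩ : Ep W p) ≠ 0 := fun h => hQ0 (congrArg Subtype.val h)
  have hq : rhoE W p σ₀ (⟨Q, hQm⟩ : Ep W p) = ⟨Q, hQm⟩ := by
    rw [rhoE_apply]
    exact Subtype.ext (hQ σ₀)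
  obtain ⟨l, hl, hl0⟩ := exists_ne_zero_of_card hL
  have hlm := mem_torsion_of_card hL hl
  have hl0' : (⟨l, hlm⟩ : Ep W p) ≠ 0 := fun h => hl0 (congrArg Subtype.val h)
  have hgl := smul_eq_det_smul hΔ hQ0 hpQ σ₀ (hQ σ₀) hL hQL (hst σ₀ hσ₀D) ⟨l, hlm⟩ hl hl0'
  intro z hz
  by_cases hz0 : z = 0
  · rw [hz0]
    exact L.zero_mem
  · have hzm := mem_torsion_of_card hL' hz
    have hz0' : (⟨z, hzm⟩ : Ep W p) ≠ 0 := fun h => hz0 (congrArg Subtype.val h)
    have hgz := smul_eq_det_smul hΔ hQ0 hpQ σ₀ (hQ σ₀) hL' hQL' (hst' σ₀ hσ₀D) ⟨z, hzm⟩ hz hz0'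
    obtain ⟨c, hc⟩ := exists_smul_eq_of_eigen (finrank_torsion hΔ) (rhoE W p σ₀) hq0 hq hd hl0'
      hgl hgz
    have := zmod_smul_mem (L := L) c ⟨l, hlm⟩ hl
    rw [hc] at this
    exact this

/-- **(UNIQ-P)** `Ifc48.ComplUnique`. -/
theorem complUnique : Ifc48.ComplUnique := by
  intro p hp hp2 W hΔ Q hQ hord A hA L L' hL hL' hQL hQL' hst hst'
  have : Fact p.Prime := ⟨hp⟩
  have hpQ : p • Q = 0 := by rw [← hord]; exact addOrderOf_nsmul_eq_zero Q
  have hQ0 : Q ≠ 0 := by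
    intro h
    rw [h, addOrderOf_zero] at hord
    exact hp.one_lt.ne hord
  exact le_antisymm
    (compl_le p hp2 W hΔ Q hQ hQ0 hpQ A hA L' L hL' hL hQL' hQL hst' hst)
    (compl_le p hp2 W hΔ Q hQ hQ0 hpQ A hA L L' hL hL' hQL hQL' hst hst')

/-- **(NO-FIX)** `Ifc48.ComplNoFixed`. -/
theorem complNoFixed : Ifc48.ComplNoFixed := by
  intro p hp hp2 W hΔ Q hQ hord K hK hQK hst x hx hfix
  have : Fact p.Prime := ⟨hp⟩
  have hpQ : p • Q = 0 := by rw [← hord]; exact addOrderOf_nsmul_eq_zero Q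
  have hQ0 : Q ≠ 0 := by
    intro h
    rw [h, addOrderOf_zero] at hord
    exact hp.one_lt.ne hord
  obtain ⟨A, hA⟩ := Fermat.Agent.Lib.FrobeniusExists.exists_liesOverPrime hp
  obtain ⟨σ₀, -, hχ⟩ := LocPMove62.exists_inertia_cycloExp_ne_one p hp2 A hA
  have hd : LinearMap.det (rhoE W p σ₀) ≠ 1 := by
    rw [CycloQuot62.det_eq_cycloExp hΔ p σ₀]
    exact hχ
  by_contra hx0
  have hxm := mem_torsion_of_card hK hx
  have hx0' : (⟨x, hxm⟩ : Ep W p) ≠ 0 := fun h => hx0 (congrArg Subtype.val h)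
  have hgx := smul_eq_det_smul hΔ hQ0 hpQ σ₀ (hQ σ₀) hK hQK (hst σ₀) ⟨x, hxm⟩ hx hx0'
  have hgx' : rhoE W p σ₀ (⟨x, hxm⟩ : Ep W p) = ⟨x, hxm⟩ := by
    rw [rhoE_apply]
    exact Subtype.ext (hfix σ₀)
  rw [hgx'] at hgx
  have h1 : (1 - LinearMap.det (rhoE W p σ₀)) • (⟨x, hxm⟩ : Ep W p) = 0 := by
    rw [sub_smul, one_smul, ← hgx, sub_self]
  rcases smul_eq_zero.mp h1 with h | h
  · exact hd (sub_eq_zero.mp h).symm
  · exact hx0' h

/-- The literal of ruling #5321 (A3). -/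
theorem complUnique_of (_hCyc : Fermat.Agent.S12P.CycloQuot) : Ifc48.ComplUnique := complUnique

/-- The literal of ruling #5321 (A3). -/
theorem complNoFixed_of (_hCyc : Fermat.Agent.S12P.CycloQuot) : Ifc48.ComplNoFixed :=
  complNoFixed

end Fermat.Agent.S12P.Compl62
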