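import Mathlib
import Fermat.Prelude.Def_FLTPrelim_GaloisRep
import Fermat.Prelude.Def_FLTPrelim_Ramification
import Fermat.Prelude.Def_EllipticCurve_ZeroComponentAt
import Fermat.Prelude.Def_EllipticCurve_FrobeniusTrace

/-!
# S12 cell, TOP part (5): the END of the descent

If for every `k` there is a Galois-stable subgroup `N_k` of order `p^k` of the `ℚ̄`-points of an
integral curve `W` such that every inertia element (at every prime) acts trivially on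
`W[p^k] / N_k`, then: the kernel of the action on `W[p^k] / N_k` is open and contains all inertia,
hence is everything (`Mink`); a Frobenius lift `σ₀` at a good prime `ℓ₀ ≠ p` then satisfies
`(σ₀ - 1) W[p^k] ⊆ N_k`, so it fixes at least `p^k` points of `W[p^k]`, hence a point of order
`p^j` with `k ≤ 2j`; and `FrobFixed` bounds `p^j ≤ 2ℓ₀ + 1`.  Contradiction for `k` large.

The five bricks `FrobFixed`, `FrobEx`, `CardTor`, `OpenStab`, `Mink` enter as hypotheses in the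
verbatim shape of the bodies of `S12P/Interfaces20.lean`.
-/

set_option autoImplicit false
open WeierstrassCurve WeierstrassCurve.Affine WeierstrassCurve.Affine.Point

namespace Fermat.Agent.S12P.End22

/-- `ℚ̄`. -/
abbrev Qb : Type := AlgebraicClosure ℚ

/-- `Gal(ℚ̄/ℚ)`. -/
abbrev GQ : Type := Qb ≃ₐ[ℚ] Qb

/-- The `ℚ̄`-points of an integral Weierstrass curve. -/
abbrev Pt (W : WeierstrassCurve ℤ) : Type := ((W.map (Int.castRingHom ℚ))⁄Qb).Point

/-- **Counting core.** In an abelian group with `#G[p^n] = p^(2n)`, an additive endomorphism `f`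
with `(f - 1) G[p^k] ⊆ N`, `#N = p^k`, fixes an element of order `p^j` with `k ≤ 2j`. -/
theorem exists_fixed_of_sub_mem {G : Type*} [AddCommGroup G] {p k : ℕ} (hp : p.Prime)
    (hcard : ∀ n : ℕ, Nat.card {x : G // p ^ n • x = 0} = p ^ (2 * n))
    (N : AddSubgroup G) (hN : Nat.card N = p ^ k) (f : G →+ G)
    (hf : ∀ x : G, p ^ k • x = 0 → f x - x ∈ N) :
    ∃ (x : G) (j : ℕ), f x = x ∧ addOrderOf x = p ^ j ∧ k ≤ 2 * j := by
  classical
  have : Fact p.Prime := ⟨hp⟩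
  have hppos : ∀ n : ℕ, 0 < p ^ n := fun n => pow_pos hp.pos n
  have hNfin : Finite N := Nat.finite_of_card_ne_zero (by rw [hN]; exact (hppos k).ne')
  have hTfin : ∀ n : ℕ, Finite {x : G // p ^ n • x = 0} := fun n =>
    Nat.finite_of_card_ne_zero (by rw [hcard n]; exact (hppos _).ne')
  -- the fixed points in `G[p^k]`
  have hFfin : Finite {x : G // p ^ k • x = 0 ∧ f x = x} :=
    Finite.of_injective (fun x => (⟨x.1, x.2.1⟩ : {x : G // p ^ k • x = 0}))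
      (fun a b h => Subtype.ext (by simpa using congrArg Subtype.val h))
  -- a section of `x ↦ f x - x`
  let s : N → G := fun n => if h : ∃ x : G, p ^ k • x = 0 ∧ f x - x = n then h.choose else 0
  have hs : ∀ x : G, p ^ k • x = 0 → ∀ n : N, f x - x = n →
      p ^ k • s n = 0 ∧ f (s n) - s n = n := by
    intro x hx n hn
    have h : ∃ x : G, p ^ k • x = 0 ∧ f x - x = n := ⟨x, hx, hn⟩
    simp only [s, dif_pos h]
    exact h.choose_spec
  have hmemF : ∀ x : {x : G // p ^ k • x = 0},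
      p ^ k • (x.1 - s ⟨f x.1 - x.1, hf x.1 x.2⟩) = 0 ∧
        f (x.1 - s ⟨f x.1 - x.1, hf x.1 x.2⟩) = x.1 - s ⟨f x.1 - x.1, hf x.1 x.2⟩ := by
    intro x
    obtain ⟨h1, h2⟩ := hs x.1 x.2 ⟨f x.1 - x.1, hf x.1 x.2⟩ rfl
    refine ⟨by rw [smul_sub, x.2, h1, sub_zero], ?_⟩
    have h2' : f (s ⟨f x.1 - x.1, hf x.1 x.2⟩) - s ⟨f x.1 - x.1, hf x.1 x.2⟩ = f x.1 - x.1 := h2
    rw [map_sub, sub_eq_sub_iff_sub_eq_sub]
    exact h2'.symm
  let Φ : {x : G // p ^ k • x = 0} → N × {x : G // p ^ k • x = 0 ∧ f x = x} := fun x =>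
    (⟨f x.1 - x.1, hf x.1 x.2⟩, ⟨x.1 - s ⟨f x.1 - x.1, hf x.1 x.2⟩, hmemF x⟩)
  have hΦ : Function.Injective Φ := by
    intro x y hxy
    have h1 : (⟨f x.1 - x.1, hf x.1 x.2⟩ : N) = ⟨f y.1 - y.1, hf y.1 y.2⟩ :=
      congrArg Prod.fst hxy
    have h2 : x.1 - s ⟨f x.1 - x.1, hf x.1 x.2⟩ = y.1 - s ⟨f y.1 - y.1, hf y.1 y.2⟩ :=
      congrArg (fun z => (z.2 : G)) hxy
    rw [h1] at h2
    exact Subtype.ext (sub_left_injective h2)
  have hle : p ^ (2 * k) ≤ p ^ k * Nat.card {x : G // p ^ k • x = 0 ∧ f x = x} := by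
    have := Nat.card_le_card_of_injective Φ hΦ
    rwa [hcard k, Nat.card_prod, hN] at this
  have hFk : p ^ k ≤ Nat.card {x : G // p ^ k • x = 0 ∧ f x = x} := by
    rw [two_mul, pow_add] at hle
    exact Nat.le_of_mul_le_mul_left hle (hppos k)
  -- the exponent of the fixed subgroup
  have hex : ∃ j : ℕ, ∀ x : G, p ^ k • x = 0 → f x = x → p ^ j • x = 0 :=
    ⟨k, fun x hx _ => hx⟩
  obtain ⟨j, hj, hmin⟩ : ∃ j : ℕ, (∀ x : G, p ^ k • x = 0 → f x = x → p ^ j • x = 0) ∧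
      ∀ m < j, ¬ ∀ x : G, p ^ k • x = 0 → f x = x → p ^ m • x = 0 :=
    ⟨Nat.find hex, Nat.find_spec hex, fun m hm => Nat.find_min hex hm⟩
  have hkj : k ≤ 2 * j := by
    have hinj : Function.Injective (fun x : {x : G // p ^ k • x = 0 ∧ f x = x} =>
        (⟨x.1, hj x.1 x.2.1 x.2.2⟩ : {x : G // p ^ j • x = 0})) :=
      fun a b h => Subtype.ext (by simpa using congrArg Subtype.val h)
    have := Nat.card_le_card_of_injective _ hinj
    rw [hcard j] at this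
    exact (Nat.pow_le_pow_iff_right hp.one_lt).mp (hFk.trans this)
  rcases Nat.eq_zero_or_pos j with hj0 | hjpos
  · subst hj0
    exact ⟨0, 0, map_zero f, by simp, hkj⟩
  · obtain ⟨j', rfl⟩ : ∃ j', j = j' + 1 := ⟨j - 1, by omega⟩
    have hmin' := hmin j' (Nat.lt_succ_self j')
    push Not at hmin'
    obtain ⟨x, hx, hfx, hne⟩ := hmin'
    exact ⟨x, j' + 1, hfx, addOrderOf_eq_prime_pow hne (hj x hx hfx), hkj⟩

/-- **END of the S12 descent** (part (5) of the plan): a tower of Galois-stable subgroups `N_k`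
of order `p^k` with all inertia acting trivially on `W[p^k] / N_k` cannot exist. -/
theorem no_tower
    (hFF : ∀ W : WeierstrassCurve ℤ, W.Δ ≠ 0 → ∀ ℓ : ℕ, ℓ.Prime → ¬ (ℓ : ℤ) ∣ W.Δ →
      ∀ A : ValuationSubring Qb, A.LiesOverPrime ℓ → ∀ σ : GQ, A.IsFrobeniusAt σ ℓ →
      ∀ m : ℕ, m.Coprime ℓ → ∀ x : Pt W, m • x = 0 → σ • x = x → addOrderOf x ≤ 2 * ℓ + 1)
    (hFE : ∀ ℓ : ℕ, ℓ.Prime →
      ∃ A : ValuationSubring Qb, A.LiesOverPrime ℓ ∧ ∃ σ : GQ, A.IsFrobeniusAt σ ℓ)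
    (hCard : ∀ W : WeierstrassCurve ℤ, W.Δ ≠ 0 → ∀ p : ℕ, p.Prime → ∀ n : ℕ,
      Nat.card {x : Pt W // p ^ n • x = 0} = p ^ (2 * n))
    (hOpen : ∀ (W : WeierstrassCurve ℤ) (x : Pt W), IsOpen {σ : GQ | σ • x = x})
    (hMink : ∀ H : Subgroup GQ, IsOpen (H : Set GQ) →
      (∀ ℓ : ℕ, ℓ.Prime → ∀ A : ValuationSubring Qb, A.LiesOverPrime ℓ →
        ∀ σ ∈ A.inertiaSubgroupIn ℚ, σ ∈ H) → H = ⊤)
    (W : WeierstrassCurve ℤ) (hΔ : W.Δ ≠ 0) (p : ℕ) (hp : p.Prime)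
    (h : ∀ k : ℕ, ∃ N : AddSubgroup (Pt W), Nat.card N = p ^ k ∧
      (∀ σ : GQ, ∀ x ∈ N, σ • x ∈ N) ∧
      ∀ ℓ : ℕ, ℓ.Prime → ∀ A : ValuationSubring Qb, A.LiesOverPrime ℓ →
        ∀ σ ∈ A.inertiaSubgroupIn ℚ, ∀ x : Pt W, p ^ k • x = 0 → σ • x - x ∈ N) : False := by
  -- a good prime `ℓ₀ ≠ p`
  obtain ⟨ℓ₀, hℓ₀ge, hℓ₀⟩ := Nat.exists_infinite_primes (max p W.Δ.natAbs + 1)
  have hℓ₀p : ℓ₀ ≠ p := by
    have : p < ℓ₀ := lt_of_lt_of_le (Nat.lt_succ_of_le (le_max_left _ _)) hℓ₀ge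
    omega
  have hgood : ¬ (ℓ₀ : ℤ) ∣ W.Δ := by
    intro hdvd
    have h1 : ℓ₀ ∣ W.Δ.natAbs := Int.natCast_dvd.mp hdvd
    have h2 : W.Δ.natAbs < ℓ₀ := lt_of_lt_of_le (Nat.lt_succ_of_le (le_max_right _ _)) hℓ₀ge
    have h3 : 0 < W.Δ.natAbs := Int.natAbs_pos.mpr hΔ
    exact absurd (Nat.le_of_dvd h3 h1) (not_le.mpr h2)
  obtain ⟨A₀, hA₀, σ₀, hσ₀⟩ := hFE ℓ₀ hℓ₀
  -- the level
  obtain ⟨k, hk⟩ : ∃ k : ℕ, k = 2 * (2 * ℓ₀ + 2) := ⟨_, rfl⟩
  obtain ⟨N, hNcard, hNstab, hNin⟩ := h k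
  -- the kernel of the action on `W[p^k] / N`
  let H : Subgroup GQ :=
    { carrier := {σ | ∀ x : Pt W, p ^ k • x = 0 → σ • x - x ∈ N}
      one_mem' := fun x _ => by simp
      mul_mem' := by
        intro σ τ hσ hτ x hx
        have h1 : (σ * τ) • x - x = σ • (τ • x - x) + (σ • x - x) := by
          rw [mul_smul, smul_sub]; abel
        rw [h1]
        exact N.add_mem (hNstab σ _ (hτ x hx)) (hσ x hx)
      inv_mem' := by
        intro σ hσ x hx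
        have h1 : σ⁻¹ • x - x = -(σ⁻¹ • (σ • x - x)) := by
          rw [smul_sub, inv_smul_smul]; abel
        rw [h1]
        exact N.neg_mem (hNstab σ⁻¹ _ (hσ x hx)) }
  have hTfin : Finite {x : Pt W // p ^ k • x = 0} :=
    Nat.finite_of_card_ne_zero (by rw [hCard W hΔ p hp k]; exact (pow_pos hp.pos _).ne')
  have hHopen : IsOpen (H : Set GQ) := by
    let U : Subgroup GQ := ⨅ x : {x : Pt W // p ^ k • x = 0}, MulAction.stabilizer GQ x.1
    have hU : IsOpen (U : Set GQ) := by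
      have : (U : Set GQ) = ⋂ x : {x : Pt W // p ^ k • x = 0}, {σ : GQ | σ • x.1 = x.1} := by
        ext σ
        simp [U, MulAction.mem_stabilizer_iff]
      rw [this]
      exact isOpen_iInter_of_finite fun x => hOpen W x.1
    refine Subgroup.isOpen_mono (H₁ := U) (H₂ := H) ?_ hU
    intro σ hσ x hx
    have hfix : σ • x = x :=
      MulAction.mem_stabilizer_iff.mp ((Subgroup.mem_iInf.mp hσ) ⟨x, hx⟩)
    rw [hfix, sub_self]
    exact N.zero_mem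
  have hHtop : H = ⊤ :=
    hMink H hHopen (fun ℓ hℓ A hA σ hσ x hx => hNin ℓ hℓ A hA σ hσ x hx)
  have hσ₀H : σ₀ ∈ H := hHtop ▸ Subgroup.mem_top σ₀
  obtain ⟨x, j, hfx, hord, hkj⟩ := exists_fixed_of_sub_mem hp (hCard W hΔ p hp) N hNcard
    (DistribSMul.toAddMonoidHom (Pt W) σ₀) (fun x hx => hσ₀H x hx)
  have hfx' : σ₀ • x = x := hfx
  have hcop : (p ^ j).Coprime ℓ₀ :=
    Nat.Coprime.pow_left j ((Nat.coprime_primes hp hℓ₀).mpr (Ne.symm hℓ₀p))
  have hpx : p ^ j • x = 0 := by rw [← hord]; exact addOrderOf_nsmul_eq_zero x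
  have hbound := hFF W hΔ ℓ₀ hℓ₀ hgood A₀ hA₀ σ₀ hσ₀ (p ^ j) hcop x hpx hfx'
  rw [hord] at hbound
  have h2 : 2 ^ j ≤ p ^ j := Nat.pow_le_pow_left hp.two_le j
  have h3 : j < 2 ^ j := Nat.lt_two_pow_self
  have h4 : 2 * ℓ₀ + 2 ≤ j := by omega
  exact absurd hbound (not_le.mpr (by
    calc 2 * ℓ₀ + 1 < j := by omega
      _ < 2 ^ j := h3
      _ ≤ p ^ j := h2))

end Fermat.Agent.S12P.End22
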