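/-
S12 project (helper35): the END of the descent.

`end_of_stage`: the stage data at ONE level `k = 2 j` with `p ^ j > 2 ℓ₀ + 1` (`ℓ₀ ≠ p` a prime of
good reduction of the starting curve `W₀`) are contradictory.  Stage data: an integral curve `W`,
a Galois-equivariant homomorphism `Φ : W₀(ℚ̄) → W(ℚ̄)` with cyclic kernel `⟨g⟩` of order `p ^ k`,
a `p`-torsion point `e` with `W₀[p] = ⟨e⟩ + ⟨g⟩[p]`, such that at every bad prime `ℓ ≠ p` of `W₀`
the curve `W` is multiplicative and `Φ e` is NOT in the zero component (the conclusion of the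
frozen S15 at stage `k`), and such that inertia at `p` moves `W₀[p ^ k]` inside `⟨g⟩`.

Proof: the pointwise stabiliser `H` of `Φ(W₀[p ^ k])` is a normal open subgroup of `Gal(ℚ̄/ℚ)`
containing every inertia group (`Node` at the bad primes, `GoodUnr` at the good ones, the
hypothesis at `p`), hence everything (`MinkN`).  A Frobenius lift at `ℓ₀` therefore moves
`W₀[p ^ k]` inside `⟨g⟩`; by counting (`CardTor`) it fixes a point of order `≥ p ^ j`, against
`FrobFixed`.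

Also `mem_zmultiples_of_E1` (the `p`-adic half of the last hypothesis): a subgroup `E1` containing
`g` whose `p`-torsion lies in `⟨g⟩` has all its `p ^ k`-torsion in `⟨g⟩`.
-/
import Fermat.Agent.S12P.Interfaces20
import Fermat.Agent.S12P.Interfaces20b

set_option autoImplicit false

namespace Fermat.Agent.S12P.End35

open Fermat.Agent.S12P

/-! ### Abstract group theory -/

section Abstract

variable {E : Type*} [AddCommGroup E]

/-- An element killed by `p ^ k` but not by `p ^ (j - 1)` has order at least `p ^ j`. -/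
theorem le_addOrderOf_of_nsmul_ne_zero {p : ℕ} (hp : p.Prime) {k j : ℕ} {x : E}
    (hk : p ^ k • x = 0) (hne : p ^ (j - 1) • x ≠ 0) (hj : 0 < j) : p ^ j ≤ addOrderOf x := by
  obtain ⟨i, -, hi⟩ := (Nat.dvd_prime_pow hp).mp (addOrderOf_dvd_of_nsmul_eq_zero hk)
  rw [hi]
  apply Nat.pow_le_pow_right hp.pos
  by_contra hlt
  apply hne
  have hd : addOrderOf x ∣ p ^ (j - 1) := by
    rw [hi]
    exact pow_dvd_pow p (by omega)
  exact addOrderOf_dvd_iff_nsmul_eq_zero.mp hd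

/-- If `p ^ i • (a • g) = 0` with `g` of order `p ^ k`, `i < k`, then `p ∣ a`. -/
theorem dvd_of_nsmul_zsmul_eq_zero {p : ℕ} (hp : p.Prime) {k i : ℕ} (hik : i < k) {g : E}
    (hg : addOrderOf g = p ^ k) {a : ℤ} (h : p ^ i • (a • g) = 0) : (p : ℤ) ∣ a := by
  have h1 : ((p : ℤ) ^ i * a) • g = 0 := by
    rw [mul_smul, ← Nat.cast_pow, natCast_zsmul]
    exact h
  have h2 : ((addOrderOf g : ℕ) : ℤ) ∣ (p : ℤ) ^ i * a := addOrderOf_dvd_iff_zsmul_eq_zero.mpr h1
  rw [hg, Nat.cast_pow] at h2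
  have hp0 : (p : ℤ) ≠ 0 := Int.natCast_ne_zero.mpr hp.ne_zero
  have h3 : (p : ℤ) ^ i * (p : ℤ) ^ (k - i) ∣ (p : ℤ) ^ i * a := by
    rw [← pow_add]
    have : i + (k - i) = k := by omega
    rw [this]
    exact h2
  have h4 : (p : ℤ) ^ (k - i) ∣ a := (mul_dvd_mul_iff_left (pow_ne_zero i hp0)).mp h3
  exact dvd_trans (dvd_pow_self (p : ℤ) (by omega)) h4

/-- A subgroup `E1` containing `g` (of order `p ^ k`) whose `p`-torsion lies in `⟨g⟩` has all its
`p ^ k`-torsion in `⟨g⟩`. -/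
theorem mem_zmultiples_of_E1 {p : ℕ} (hp : p.Prime) (k : ℕ) (E1 : AddSubgroup E) (g : E)
    (hgE : g ∈ E1) (hg : addOrderOf g = p ^ k)
    (hE1 : ∀ x ∈ E1, p • x = 0 → x ∈ AddSubgroup.zmultiples g) :
    ∀ y ∈ E1, p ^ k • y = 0 → y ∈ AddSubgroup.zmultiples g := by
  have key : ∀ i : ℕ, i ≤ k → ∀ y ∈ E1, p ^ i • y = 0 → y ∈ AddSubgroup.zmultiples g := by
    intro i
    induction i with
    | zero =>
      intro _ y _ hy
      rw [pow_zero, one_smul] at hy
      rw [hy]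
      exact zero_mem _
    | succ i ih =>
      intro hik y hy hpy
      have hpyE : p • y ∈ E1 := E1.nsmul_mem hy p
      have h0 : p ^ i • (p • y) = 0 := by
        rw [← mul_smul, ← pow_succ]
        exact hpy
      have hmem := ih (by omega) (p • y) hpyE h0
      obtain ⟨a, ha⟩ := AddSubgroup.mem_zmultiples_iff.mp hmem
      have ha' : p ^ i • (a • g) = 0 := by rw [ha]; exact h0
      obtain ⟨b, rfl⟩ := dvd_of_nsmul_zsmul_eq_zero hp (by omega : i < k) hg ha'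
      have hy' : y - b • g ∈ E1 := E1.sub_mem hy (E1.zsmul_mem hgE b)
      have hp' : p • (y - b • g) = 0 := by
        rw [smul_sub, ← ha, mul_smul, natCast_zsmul]
        exact sub_self _
      have := hE1 _ hy' hp'
      have hb : b • g ∈ AddSubgroup.zmultiples g :=
        (AddSubgroup.zmultiples g).zsmul_mem (AddSubgroup.mem_zmultiples g) b
      have := (AddSubgroup.zmultiples g).add_mem this hb
      rwa [sub_add_cancel] at this
  exact key k le_rfl

/-- **Socle lemma.** `Φ` with kernel `⟨g⟩` (`g` of order `p ^ k`, `k > 0`), `e` a `p`-torsion point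
with `E[p] ⊆ ⟨e⟩ + ⟨g⟩`.  If a subgroup `E0` of the target contains a nonzero `Φ y` with
`p ^ k • y = 0`, then it contains `Φ e`. -/
theorem map_mem_of_ne_zero {E' : Type*} [AddCommGroup E'] {p : ℕ} (hp : p.Prime) {k : ℕ}
    (hk : 0 < k) (Φ : E →+ E') (g : E) (hg : addOrderOf g = p ^ k)
    (hker : Φ.ker = AddSubgroup.zmultiples g) (e : E) (he : p • e = 0)
    (hspan : ∀ x : E, p • x = 0 → ∃ a : ℤ, x - a • e ∈ AddSubgroup.zmultiples g)
    (E0 : AddSubgroup E') (y : E) (hy : p ^ k • y = 0) (hy0 : Φ y ∈ E0) (hne : Φ y ≠ 0) :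
    Φ e ∈ E0 := by
  classical
  have hΦg : Φ g = 0 := by
    have : g ∈ Φ.ker := by rw [hker]; exact AddSubgroup.mem_zmultiples g
    exact this
  have hex : ∃ s : ℕ, p ^ s • Φ y = 0 := ⟨k, by rw [← map_nsmul, hy, map_zero]⟩
  set s := Nat.find hex with hs
  have hs0 : p ^ s • Φ y = 0 := Nat.find_spec hex
  have hspos : s ≠ 0 := by
    intro h0
    rw [h0, pow_zero, one_smul] at hs0
    exact hne hs0
  have hsk : s ≤ k := Nat.find_min' hex (by rw [← map_nsmul, hy, map_zero])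
  have hmin : p ^ (s - 1) • Φ y ≠ 0 := fun h => Nat.find_min hex (by omega : s - 1 < s) h
  -- `y' := p ^ (s - 1) • y`
  set y' : E := p ^ (s - 1) • y with hy'
  have hΦy' : Φ y' = p ^ (s - 1) • Φ y := map_nsmul Φ _ _
  have hpy' : Φ (p • y') = 0 := by
    rw [map_nsmul, hΦy', ← mul_smul, ← pow_succ']
    have : s - 1 + 1 = s := by omega
    rw [this]
    exact hs0
  have hmem : p • y' ∈ AddSubgroup.zmultiples g := by
    rw [← hker]
    exact hpy'
  obtain ⟨a, ha⟩ := AddSubgroup.mem_zmultiples_iff.mp hmem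
  have hky' : p ^ (k - 1) • (a • g) = 0 := by
    rw [ha, ← mul_smul, ← pow_succ, hy', ← mul_smul]
    have h1 : k - 1 + 1 = k := by omega
    rw [h1, mul_comm, mul_smul, hy, smul_zero]
  obtain ⟨b, rfl⟩ := dvd_of_nsmul_zsmul_eq_zero hp (by omega : k - 1 < k) hg hky'
  have hp'' : p • (y' - b • g) = 0 := by
    rw [smul_sub, ← ha, mul_smul, natCast_zsmul]
    exact sub_self _
  obtain ⟨c, hc⟩ := hspan _ hp''
  have hc' : Φ (y' - b • g - c • e) = 0 := by
    have : y' - b • g - c • e ∈ Φ.ker := by rw [hker]; exact hc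
    exact this
  have hd' : Φ y' = c • Φ e := by
    rw [map_sub, map_sub, map_zsmul, map_zsmul, hΦg, smul_zero, sub_zero, sub_eq_zero] at hc'
    exact hc'
  have hpe : (p : ℤ) • Φ e = 0 := by
    rw [natCast_zsmul, ← map_nsmul, he, map_zero]
  have hcop : IsCoprime c (p : ℤ) := by
    rw [isCoprime_comm]
    refine (Nat.prime_iff_prime_int.mp hp).coprime_iff_not_dvd.mpr ?_
    rintro ⟨c', rfl⟩
    apply hmin
    rw [← hΦy', hd', mul_comm, mul_smul, hpe, smul_zero]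
  obtain ⟨u, v, huv⟩ := hcop
  have hfin : Φ e = u • Φ y' := by
    have h1 : Φ e = (u * c + v * (p : ℤ)) • Φ e := by rw [huv, one_smul]
    rw [add_smul, mul_smul, mul_smul, hpe, smul_zero, add_zero, ← hd'] at h1
    exact h1
  rw [hfin, hΦy']
  exact E0.zsmul_mem (E0.nsmul_mem hy0 _) u

/-- **Counting.** If `f` maps the `p ^ (2 j)`-torsion into `⟨g⟩` (`g` of order `p ^ (2 j)`), and
the `p ^ n`-torsion has `p ^ (2 n)` elements, then `f` kills a torsion point of order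
`≥ p ^ j`. -/
theorem exists_fixed_of_sub_mem {p : ℕ} (hp : p.Prime) (j : ℕ) (hj : 0 < j)
    (hcard : ∀ n : ℕ, Nat.card {x : E // p ^ n • x = 0} = p ^ (2 * n))
    (g : E) (hg : addOrderOf g = p ^ (2 * j)) (f : E →+ E)
    (hf : ∀ x : E, p ^ (2 * j) • x = 0 → f x ∈ AddSubgroup.zmultiples g) :
    ∃ x : E, p ^ (2 * j) • x = 0 ∧ f x = 0 ∧ p ^ j ≤ addOrderOf x := by
  classical
  set T : AddSubgroup E := (nsmulAddMonoidHom (α := E) (p ^ (2 * j))).ker with hT
  have hmemT : ∀ x : E, x ∈ T ↔ p ^ (2 * j) • x = 0 := fun x => by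
    rw [hT, AddMonoidHom.mem_ker, nsmulAddMonoidHom_apply]
  have hcT : Nat.card T = p ^ (2 * (2 * j)) := by
    rw [← hcard (2 * j)]
    exact Nat.card_congr (Equiv.subtypeEquivRight hmemT)
  set φ : T →+ E := f.comp T.subtype with hφ
  have hrange : φ.range ≤ AddSubgroup.zmultiples g := by
    rintro _ ⟨x, rfl⟩
    exact hf x ((hmemT x).mp x.2)
  have hfinZ : Finite (AddSubgroup.zmultiples g) := by
    apply Nat.finite_of_card_ne_zero
    rw [Nat.card_zmultiples, hg]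
    exact pow_ne_zero _ hp.ne_zero
  have hcr : Nat.card φ.range ≤ p ^ (2 * j) := by
    have := AddSubgroup.card_le_of_le hrange
    rwa [Nat.card_zmultiples, hg] at this
  have hmul : Nat.card φ.ker * Nat.card φ.range = Nat.card T := by
    rw [← AddSubgroup.index_ker]
    exact AddSubgroup.card_mul_index φ.ker
  have hker_ge : p ^ (2 * j) ≤ Nat.card φ.ker := by
    have h1 : p ^ (2 * j) * p ^ (2 * j) ≤ Nat.card φ.ker * p ^ (2 * j) := by
      calc p ^ (2 * j) * p ^ (2 * j) = Nat.card T := by rw [hcT, ← pow_add]; congr 1; omega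
        _ = Nat.card φ.ker * Nat.card φ.range := hmul.symm
        _ ≤ Nat.card φ.ker * p ^ (2 * j) := Nat.mul_le_mul_left _ hcr
    exact Nat.le_of_mul_le_mul_right h1 (pow_pos hp.pos _)
  -- some element of the kernel is not killed by `p ^ (j - 1)`
  have hex : ∃ x : T, x ∈ φ.ker ∧ p ^ (j - 1) • (x : E) ≠ 0 := by
    by_contra hno
    push Not at hno
    have hfin' : Finite {x : E // p ^ (j - 1) • x = 0} := by
      apply Nat.finite_of_card_ne_zero
      rw [hcard]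
      exact pow_ne_zero _ hp.ne_zero
    let ι : φ.ker → {x : E // p ^ (j - 1) • x = 0} := fun x => ⟨(x : T), hno x.1 x.2⟩
    have hι : Function.Injective ι := by
      intro x y hxy
      have h1 : ((x : T) : E) = ((y : T) : E) :=
        congrArg (fun q : {x : E // p ^ (j - 1) • x = 0} => (q : E)) hxy
      exact Subtype.ext (Subtype.ext h1)
    have hle := Nat.card_le_card_of_injective ι hι
    rw [hcard] at hle
    have hlt : p ^ (2 * (j - 1)) < p ^ (2 * j) :=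
      Nat.pow_lt_pow_right hp.one_lt (by omega)
    omega
  obtain ⟨x, hxk, hxne⟩ := hex
  refine ⟨x, (hmemT x).mp x.2, hxk, ?_⟩
  exact le_addOrderOf_of_nsmul_ne_zero hp ((hmemT x).mp x.2) hxne hj

end Abstract

/-! ### The end of the descent -/

theorem end_of_stage (hNode : Node) (hFF : FrobFixed) (hFE : FrobEx) (hGU : GoodUnr)
    (hCT : CardTor) (hOpen : OpenStab) (hMink : MinkN)
    (W₀ : WeierstrassCurve ℤ) (hΔ₀ : W₀.Δ ≠ 0) (p : ℕ) (hp : p.Prime)
    (ℓ₀ : ℕ) (hℓ₀ : ℓ₀.Prime) (hℓ₀p : ℓ₀ ≠ p) (hgood₀ : ¬ (ℓ₀ : ℤ) ∣ W₀.Δ)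
    (j : ℕ) (hj : 2 * ℓ₀ + 1 < p ^ j)
    (W : WeierstrassCurve ℤ) (hΔ : W.Δ ≠ 0) (Φ : Pt W₀ →+ Pt W)
    (hΦ : ∀ (σ : GQ) (x : Pt W₀), Φ (σ • x) = σ • Φ x)
    (g : Pt W₀) (hg : addOrderOf g = p ^ (2 * j)) (hker : Φ.ker = AddSubgroup.zmultiples g)
    (e : Pt W₀) (he : p • e = 0)
    (hspan : ∀ x : Pt W₀, p • x = 0 → ∃ a : ℤ, x - a • e ∈ AddSubgroup.zmultiples g)
    (hbad : ∀ ℓ : ℕ, ℓ.Prime → ℓ ≠ p → (ℓ : ℤ) ∣ W₀.Δ →
      ((ℓ : ℤ) ∣ W.Δ ∧ ¬ (ℓ : ℤ) ∣ W.c₄) ∧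
        ∀ A : ValuationSubring Qb, A.LiesOverPrime ℓ → ¬ W.InZeroComponentAt A (Φ e))
    (hpin : ∀ A : ValuationSubring Qb, A.LiesOverPrime p → ∀ τ ∈ A.inertiaSubgroupIn ℚ,
      ∀ x : Pt W₀, p ^ (2 * j) • x = 0 → τ • x - x ∈ AddSubgroup.zmultiples g) :
    False := by
  classical
  have hj0 : 0 < j := by
    rcases Nat.eq_zero_or_pos j with h | h
    · rw [h, pow_zero] at hj
      omega
    · exact h
  -- the torsion and its image
  set T : Set (Pt W₀) := {x | p ^ (2 * j) • x = 0} with hT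
  have hTfin : T.Finite := by
    have : Finite {x : Pt W₀ // p ^ (2 * j) • x = 0} := by
      apply Nat.finite_of_card_ne_zero
      rw [hCT W₀ hΔ₀ p hp (2 * j)]
      exact pow_ne_zero _ hp.ne_zero
    exact Set.finite_coe_iff.mp this
  have hTstab : ∀ (σ : GQ) (x : Pt W₀), x ∈ T → σ • x ∈ T := by
    intro σ x hx
    show p ^ (2 * j) • (σ • x) = 0
    have h1 := (DistribSMul.toAddMonoidHom (Pt W₀) σ).map_nsmul (p ^ (2 * j)) x
    have hx' : p ^ (2 * j) • x = 0 := hx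
    rw [hx'] at h1
    exact h1.symm.trans (smul_zero σ)
  set Z : Set (Pt W) := Φ '' T with hZ
  have hZfin : Z.Finite := hTfin.image Φ
  have hZstab : ∀ (σ : GQ) (z : Pt W), z ∈ Z → σ • z ∈ Z := by
    rintro σ _ ⟨x, hx, rfl⟩
    exact ⟨σ • x, hTstab σ x hx, hΦ σ x⟩
  -- the pointwise stabiliser of `Z`
  let H : Subgroup GQ :=
    { carrier := {σ | ∀ z ∈ Z, σ • z = z}
      one_mem' := fun z _ => one_smul _ z
      mul_mem' := by
        intro σ τ hσ hτ z hz
        rw [mul_smul, hτ z hz, hσ z hz]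
      inv_mem' := by
        intro σ hσ z hz
        have := hσ z hz
        rw [inv_smul_eq_iff]
        exact this.symm }
  have hHmem : ∀ σ : GQ, σ ∈ H ↔ ∀ z ∈ Z, σ • z = z := fun σ => Iff.rfl
  have hnormal : H.Normal := by
    constructor
    intro σ hσ τ z hz
    have h1 : τ⁻¹ • z ∈ Z := hZstab τ⁻¹ z hz
    have h2 := hσ _ h1
    rw [mul_smul, mul_smul, h2, smul_inv_smul]
  have hopen : IsOpen (H : Set GQ) := by
    have : (H : Set GQ) = ⋂ z ∈ Z, {σ : GQ | σ • z = z} := by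
      ext σ
      simp only [Set.mem_iInter]
      exact Iff.rfl
    rw [this]
    exact hZfin.isOpen_biInter fun z _ => hOpen W z
  have hcop : ∀ ℓ : ℕ, ℓ.Prime → ℓ ≠ p → (p ^ (2 * j)).Coprime ℓ := fun ℓ hℓ hℓp =>
    Nat.Coprime.pow_left _ ((Nat.coprime_primes hp hℓ).mpr (Ne.symm hℓp))
  have hk0 : 0 < 2 * j := by omega
  have hinert : ∀ ℓ : ℕ, ℓ.Prime → ∀ A : ValuationSubring Qb, A.LiesOverPrime ℓ →
      ∀ τ ∈ A.inertiaSubgroupIn ℚ, τ ∈ H := by
    rintro ℓ hℓ A hA τ hτ _ ⟨x, hx, rfl⟩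
    have hx' : p ^ (2 * j) • x = 0 := hx
    by_cases hℓp : ℓ = p
    · subst hℓp
      have h1 := hpin A hA τ hτ x hx'
      rw [← hker, AddMonoidHom.mem_ker, map_sub, hΦ, sub_eq_zero] at h1
      exact h1
    · by_cases hd : (ℓ : ℤ) ∣ W₀.Δ
      · obtain ⟨⟨hWΔ, hWc⟩, hQ⟩ := hbad ℓ hℓ hℓp hd
        obtain ⟨E0, hE0, hin, -, -⟩ := hNode W hΔ ℓ hℓ hWΔ hWc A hA
        by_contra hne
        have hy : p ^ (2 * j) • (τ • x - x) = 0 := by
          have h1 : p ^ (2 * j) • (τ • x) = 0 := hTstab τ x hx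
          rw [nsmul_sub, h1, hx', sub_zero]
        have hΦy : Φ (τ • x - x) = τ • Φ x - Φ x := by rw [map_sub, hΦ]
        have hmem : Φ (τ • x - x) ∈ E0 := by
          rw [hΦy]
          exact hin τ hτ (Φ x)
        have hne' : Φ (τ • x - x) ≠ 0 := by
          rw [hΦy]
          exact fun h => hne (sub_eq_zero.mp h)
        have := map_mem_of_ne_zero hp hk0 Φ g hg hker e he hspan E0 (τ • x - x) hy hmem hne'
        exact hQ A hA ((hE0 (Φ e)).mp this)
      · have h1 := hGU W₀ ℓ hℓ hd A hA τ hτ (p ^ (2 * j)) (hcop ℓ hℓ hℓp) x hx'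
        rw [← hΦ, h1]
  have hHtop : H = ⊤ := hMink H hnormal hopen hinert
  -- a Frobenius lift at `ℓ₀`
  obtain ⟨A₀, hA₀, σ₀, hσ₀⟩ := hFE ℓ₀ hℓ₀
  have hσ₀H : σ₀ ∈ H := by rw [hHtop]; exact Subgroup.mem_top σ₀
  set f : Pt W₀ →+ Pt W₀ :=
    DistribSMul.toAddMonoidHom (Pt W₀) σ₀ - AddMonoidHom.id (Pt W₀) with hf
  have hfx : ∀ x : Pt W₀, f x = σ₀ • x - x := fun x => rfl
  have hfmem : ∀ x : Pt W₀, p ^ (2 * j) • x = 0 → f x ∈ AddSubgroup.zmultiples g := by
    intro x hx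
    have h1 := hσ₀H (Φ x) ⟨x, hx, rfl⟩
    rw [hfx, ← hker, AddMonoidHom.mem_ker, map_sub, hΦ, h1, sub_self]
  obtain ⟨x, hxT, hx0, hord⟩ :=
    exists_fixed_of_sub_mem hp j hj0 (hCT W₀ hΔ₀ p hp) g hg f hfmem
  have hfix : σ₀ • x = x := by
    rw [hfx] at hx0
    exact sub_eq_zero.mp hx0
  have hle := hFF W₀ hΔ₀ ℓ₀ hℓ₀ hgood₀ A₀ hA₀ σ₀ hσ₀ (p ^ (2 * j)) (hcop ℓ₀ hℓ₀ hℓ₀p) x hxT hfix
  omega

end Fermat.Agent.S12P.End35
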