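/-
S12 project, helper59: the END of the descent (step (5) of plan #5167), as an abstract statement
about an additive group `E` with an action of a group `G` — no curve, Mathlib only.

`frob_end`: if `#E[p^n] = p^(2n)` for all `n`, `N k ≤ E[p^k]` has at most `p^k` elements, and one
element `σ` of `G` satisfies `σ x - x ∈ N k` on `E[p^k]` for every `k`, then the `p`-power-torsion
points fixed by `σ` cannot have bounded order.  (The fixed points of `σ` in `E[p^k]` are the kernel
of `σ - 1 : E[p^k] → N k`, so there are at least `p^k` of them; if their orders are `≤ B` they all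
lie in `E[p^e]`, `e = log_p B`, which has `p^(2e)` elements: absurd for `k = 2e + 1`.)

`inertia_end`: the same with `σ - 1 : E[p^k] → N k` known only for the elements of a family of
subgroups ("inertia groups") that generate `G` topologically in the sense of the hypothesis `hmink`
(every NORMAL open subgroup containing all of them is `⊤`), point stabilisers being open.
-/
import Mathlib
import Fermat.Prelude.Def_FLTPrelim_Ramification

set_option autoImplicit false

namespace Fermat.Agent.S12P.End59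

section Abs

variable {E : Type*} [AddCommGroup E] {G : Type*} [Group G] [DistribMulAction G E]

/-- the `n`-torsion subgroup. -/
def tors (E : Type*) [AddCommGroup E] (n : ℕ) : AddSubgroup E :=
  (nsmulAddMonoidHom (α := E) n).ker

theorem mem_tors {n : ℕ} {x : E} : x ∈ tors E n ↔ n • x = 0 := by
  simp [tors, AddMonoidHom.mem_ker]

theorem natCard_tors (n : ℕ) : Nat.card (tors E n) = Nat.card {x : E // n • x = 0} :=
  Nat.card_congr (Equiv.subtypeEquivRight fun _ => mem_tors)

/-- **END, counting form.** -/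
theorem frob_end (p : ℕ) (hp : p.Prime) (B : ℕ)
    (hcard : ∀ n : ℕ, Nat.card {x : E // p ^ n • x = 0} = p ^ (2 * n))
    (N : ℕ → AddSubgroup E) (hNtors : ∀ k, ∀ x ∈ N k, p ^ k • x = 0)
    (hN : ∀ k, Nat.card (N k) ≤ p ^ k)
    (σ : G) (hσ : ∀ (k : ℕ) (x : E), p ^ k • x = 0 → σ • x - x ∈ N k)
    (hfix : ∀ (x : E) (n : ℕ), p ^ n • x = 0 → σ • x = x → addOrderOf x ≤ B) : False := by
  have hp1 : 1 < p := hp.one_lt
  have hfinT : ∀ n : ℕ, Finite (tors E (p ^ n)) := fun n =>
    Nat.finite_of_card_ne_zero (by rw [natCard_tors, hcard]; positivity)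
  have hB : 1 ≤ B := by
    have := hfix 0 0 (by simp) (by simp)
    simpa using this
  set e : ℕ := Nat.log p B with he
  have hpe : B < p ^ (e + 1) := Nat.lt_pow_succ_log_self hp1 B
  set k : ℕ := 2 * e + 1 with hk
  have := hfinT k
  -- the hom `σ - 1 : E[p^k] → N k`
  let f : tors E (p ^ k) →+ N k :=
    { toFun := fun x => ⟨σ • (x : E) - x, hσ k x (mem_tors.mp x.2)⟩
      map_zero' := by ext; simp
      map_add' := fun x y => by
        ext
        simp only [AddSubgroup.coe_add, smul_add]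
        abel }
  -- the kernel is contained in `E[p^e]`
  have hker : ∀ x : tors E (p ^ k), x ∈ f.ker → (x : E) ∈ tors E (p ^ e) := by
    intro x hx
    have hx0 : σ • (x : E) - x = 0 := congrArg Subtype.val (AddMonoidHom.mem_ker.mp hx)
    have hxk : p ^ k • (x : E) = 0 := mem_tors.mp x.2
    have hle := hfix x k hxk (sub_eq_zero.mp hx0)
    obtain ⟨j, -, hj⟩ := (Nat.dvd_prime_pow hp).mp (addOrderOf_dvd_of_nsmul_eq_zero hxk)
    have hje : j ≤ e := by
      by_contra hcon
      have h1 : p ^ (e + 1) ≤ p ^ j := Nat.pow_le_pow_right hp.pos (by omega)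
      omega
    rw [mem_tors]
    obtain ⟨d, hd⟩ := Nat.exists_eq_add_of_le hje
    rw [hd, pow_add, mul_comm, mul_smul, ← hj, addOrderOf_nsmul_eq_zero, smul_zero]
  have h1 : Nat.card f.ker ≤ p ^ (2 * e) := by
    rw [← hcard e, ← natCard_tors]
    have := hfinT e
    exact Nat.card_le_card_of_injective
      (fun x : f.ker => (⟨(x : tors E (p ^ k)), hker x x.2⟩ : tors E (p ^ e)))
      (fun a b h => Subtype.ext (Subtype.ext (congrArg (fun z : tors E (p ^ e) => (z : E)) h)))
  have h2 : Nat.card (tors E (p ^ k)) = Nat.card f.ker * Nat.card f.range := by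
    rw [← AddSubgroup.index_ker, AddSubgroup.card_mul_index]
  have hNfin : Finite (N k) := by
    have := hfinT k
    exact Finite.of_injective
      (fun x : N k => (⟨(x : E), mem_tors.mpr (hNtors k x x.2)⟩ : tors E (p ^ k)))
      (fun a b h => Subtype.ext (congrArg (fun z : tors E (p ^ k) => (z : E)) h))
  have h3 : Nat.card f.range ≤ p ^ k :=
    (Nat.card_le_card_of_injective (fun x : f.range => (x : N k))
      Subtype.val_injective).trans (hN k)
  have h4 : Nat.card (tors E (p ^ k)) = p ^ (2 * k) := by rw [natCard_tors, hcard]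
  have h5 : p ^ (2 * k) ≤ p ^ (2 * e) * p ^ k := by
    rw [← h4, h2]
    exact Nat.mul_le_mul h1 h3
  rw [← pow_add] at h5
  have h6 := (Nat.pow_le_pow_iff_right hp1).mp h5
  omega

/-- **END, generation form**: `σ - 1 : E[p^k] → N k` is only assumed on a set `I` of elements
such that every NORMAL open subgroup containing `I` is everything; point stabilisers are open and
the `N k` are stable. -/
theorem inertia_end [TopologicalSpace G] [IsTopologicalGroup G] (p : ℕ) (hp : p.Prime) (B : ℕ)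
    (hcard : ∀ n : ℕ, Nat.card {x : E // p ^ n • x = 0} = p ^ (2 * n))
    (hopen : ∀ x : E, IsOpen {σ : G | σ • x = x})
    (I : Set G)
    (hmink : ∀ H : Subgroup G, H.Normal → IsOpen (H : Set G) → I ⊆ H → H = ⊤)
    (N : ℕ → AddSubgroup E) (hNtors : ∀ k, ∀ x ∈ N k, p ^ k • x = 0)
    (hN : ∀ k, Nat.card (N k) ≤ p ^ k)
    (hNstab : ∀ (k : ℕ) (σ : G), ∀ x ∈ N k, σ • x ∈ N k)
    (hI : ∀ (k : ℕ), ∀ σ ∈ I, ∀ x : E, p ^ k • x = 0 → σ • x - x ∈ N k)
    (σ₀ : G) (hfix : ∀ (x : E) (n : ℕ), p ^ n • x = 0 → σ₀ • x = x → addOrderOf x ≤ B) :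
    False := by
  refine frob_end p hp B hcard N hNtors hN σ₀ (fun k => ?_) hfix
  -- the subgroup of `G` acting trivially on `E[p^k] / N k`
  let H : Subgroup G :=
    { carrier := {σ | ∀ x : E, p ^ k • x = 0 → σ • x - x ∈ N k}
      one_mem' := fun x _ => by simp
      mul_mem' := fun {a b} ha hb x hx => by
        have h1 : a • (b • x - x) ∈ N k := hNstab k a _ (hb x hx)
        have h2 := (N k).add_mem h1 (ha x hx)
        have e : a • (b • x - x) + (a • x - x) = (a * b) • x - x := by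
          rw [smul_sub, mul_smul]; abel
        rwa [e] at h2
      inv_mem' := fun {a} ha x hx => by
        have h1 : a⁻¹ • (a • x - x) ∈ N k := hNstab k a⁻¹ _ (ha x hx)
        have e : a⁻¹ • x - x = -(a⁻¹ • (a • x - x)) := by
          rw [smul_sub, inv_smul_smul]; abel
        rw [e]
        exact (N k).neg_mem h1 }
  have hfinT : Finite (tors E (p ^ k)) :=
    Nat.finite_of_card_ne_zero (by
      rw [natCard_tors, hcard]
      exact pow_ne_zero _ hp.ne_zero)
  have hHopen : IsOpen (H : Set G) := by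
    refine Subgroup.isOpen_of_mem_nhds H (g := 1) ?_
    have hU : IsOpen (⋂ x : tors E (p ^ k), {σ : G | σ • (x : E) = x}) :=
      isOpen_iInter_of_finite fun x => hopen x
    refine Filter.mem_of_superset (hU.mem_nhds ?_) ?_
    · simp
    · intro σ hσ x hx
      have h := Set.mem_iInter.mp hσ ⟨x, mem_tors.mpr hx⟩
      have h' : σ • x = x := h
      rw [h', sub_self]
      exact (N k).zero_mem
  have hHnormal : H.Normal := by
    refine ⟨fun σ hσ τ x hx => ?_⟩
    have hx' : p ^ k • (τ⁻¹ • x) = 0 := by rw [← smul_comm, hx, smul_zero]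
    have h1 : τ • (σ • (τ⁻¹ • x) - τ⁻¹ • x) ∈ N k := hNstab k τ _ (hσ _ hx')
    have e : τ • (σ • (τ⁻¹ • x) - τ⁻¹ • x) = (τ * σ * τ⁻¹) • x - x := by
      rw [smul_sub, smul_inv_smul, mul_smul, mul_smul]
    rwa [e] at h1
  have htop : H = ⊤ := hmink H hHnormal hHopen fun σ hσ x hx => hI k σ hσ x hx
  have hσ₀ : σ₀ ∈ H := htop ▸ Subgroup.mem_top σ₀
  exact hσ₀

end Abs

/-- **END, for `Gal(ℚ̄/ℚ)`**, with the hypotheses in the literal shapes of `S12P/Interfaces20`
(`OpenStab`, `MinkN` — the normal form of `Interfaces20b` —, `CardTor`, and the conclusion of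
`FrobFixed` for one element `σ₀`). -/
theorem end_galQ {E : Type*} [AddCommGroup E]
    [DistribMulAction (AlgebraicClosure ℚ ≃ₐ[ℚ] AlgebraicClosure ℚ) E]
    (p : ℕ) (hp : p.Prime) (B : ℕ)
    (hcard : ∀ n : ℕ, Nat.card {x : E // p ^ n • x = 0} = p ^ (2 * n))
    (hopen : ∀ x : E, IsOpen {σ : AlgebraicClosure ℚ ≃ₐ[ℚ] AlgebraicClosure ℚ | σ • x = x})
    (hmink : ∀ H : Subgroup (AlgebraicClosure ℚ ≃ₐ[ℚ] AlgebraicClosure ℚ), H.Normal →
      IsOpen (H : Set (AlgebraicClosure ℚ ≃ₐ[ℚ] AlgebraicClosure ℚ)) →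
      (∀ ℓ : ℕ, ℓ.Prime → ∀ A : ValuationSubring (AlgebraicClosure ℚ), A.LiesOverPrime ℓ →
        ∀ σ ∈ A.inertiaSubgroupIn ℚ, σ ∈ H) → H = ⊤)
    (N : ℕ → AddSubgroup E) (hNtors : ∀ k, ∀ x ∈ N k, p ^ k • x = 0)
    (hN : ∀ k, Nat.card (N k) ≤ p ^ k)
    (hNstab : ∀ (k : ℕ) (σ : AlgebraicClosure ℚ ≃ₐ[ℚ] AlgebraicClosure ℚ), ∀ x ∈ N k, σ • x ∈ N k)
    (hI : ∀ (k : ℕ) (ℓ : ℕ), ℓ.Prime → ∀ A : ValuationSubring (AlgebraicClosure ℚ),
      A.LiesOverPrime ℓ → ∀ σ ∈ A.inertiaSubgroupIn ℚ, ∀ x : E, p ^ k • x = 0 → σ • x - x ∈ N k)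
    (σ₀ : AlgebraicClosure ℚ ≃ₐ[ℚ] AlgebraicClosure ℚ)
    (hfix : ∀ (x : E) (n : ℕ), p ^ n • x = 0 → σ₀ • x = x → addOrderOf x ≤ B) : False :=
  inertia_end p hp B hcard hopen
    {σ | ∃ ℓ : ℕ, ℓ.Prime ∧ ∃ A : ValuationSubring (AlgebraicClosure ℚ), A.LiesOverPrime ℓ ∧
      σ ∈ A.inertiaSubgroupIn ℚ}
    (fun H hHn hH hIH => hmink H hHn hH fun ℓ hℓ A hA σ hσ => hIH ⟨ℓ, hℓ, A, hA, hσ⟩)
    N hNtors hN hNstab
    (fun k σ hσ x hx => by
      obtain ⟨ℓ, hℓ, A, hA, hσA⟩ := hσ
      exact hI k ℓ hℓ A hA σ hσA x hx)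
    σ₀ hfix

end Fermat.Agent.S12P.End59
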