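/-
S12 project, helper59: the END of the descent (step (5) of plan #5167) against the interface Props
of `S12P/Interfaces20(b)`: if for every `k` there is a Galois-stable subgroup `N_k ≤ W[p^k]` with at
most `p^k` elements such that every inertia group acts trivially on `W[p^k] / N_k`, then `False`.

Pure assembly of `End59.end_galQ` (abstract, Mathlib only) with `FrobFixed`, `FrobEx`, `CardTor`,
`OpenStab`, `MinkN`; the auxiliary good prime `ℓ₀ ≠ p` is produced inside.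
-/
import Fermat.Agent.S12P.Interfaces20b
import Fermat.Agent.S12P.End59

set_option autoImplicit false
open WeierstrassCurve WeierstrassCurve.Affine WeierstrassCurve.Affine.Point

namespace Fermat.Agent.S12P.EndIfc59

open Fermat.Agent.S12P

/-- A prime of good reduction different from `p`. -/
theorem exists_good_prime (W : WeierstrassCurve ℤ) (hΔ : W.Δ ≠ 0) (p : ℕ) :
    ∃ ℓ : ℕ, ℓ.Prime ∧ ℓ ≠ p ∧ ¬ (ℓ : ℤ) ∣ W.Δ := by
  obtain ⟨ℓ, hle, hℓ⟩ := Nat.exists_infinite_primes (W.Δ.natAbs + p + 1)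
  refine ⟨ℓ, hℓ, by omega, fun hdvd => ?_⟩
  have h1 : ℓ ∣ W.Δ.natAbs := Int.natCast_dvd.mp hdvd
  have h2 : ℓ ≤ W.Δ.natAbs := Nat.le_of_dvd (Int.natAbs_pos.mpr hΔ) h1
  omega

/-- **END**, family form. -/
theorem end_false (hFF : FrobFixed) (hFE : FrobEx) (hCT : CardTor) (hOS : OpenStab) (hMk : MinkN)
    (W : WeierstrassCurve ℤ) (hΔ : W.Δ ≠ 0) (p : ℕ) (hp : p.Prime)
    (N : ℕ → AddSubgroup (Pt W)) (hNtors : ∀ k, ∀ x ∈ N k, p ^ k • x = 0)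
    (hN : ∀ k, Nat.card (N k) ≤ p ^ k)
    (hNstab : ∀ (k : ℕ) (σ : GQ), ∀ x ∈ N k, σ • x ∈ N k)
    (hI : ∀ (k : ℕ) (ℓ : ℕ), ℓ.Prime → ∀ A : ValuationSubring Qb, A.LiesOverPrime ℓ →
      ∀ σ ∈ A.inertiaSubgroupIn ℚ, ∀ x : Pt W, p ^ k • x = 0 → σ • x - x ∈ N k) : False := by
  obtain ⟨ℓ₀, hℓ₀, hℓ₀p, hgood⟩ := exists_good_prime W hΔ p
  obtain ⟨A₀, hA₀, σ₀, hσ₀⟩ := hFE ℓ₀ hℓ₀
  have hcop : ∀ n : ℕ, (p ^ n).Coprime ℓ₀ := fun n =>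
    Nat.Coprime.pow_left n ((Nat.coprime_primes hp hℓ₀).mpr (Ne.symm hℓ₀p))
  exact End59.end_galQ (E := Pt W) p hp (2 * ℓ₀ + 1) (hCT W hΔ p hp) (hOS W) hMk N hNtors hN
    hNstab hI σ₀
    (fun x n hx hfix => hFF W hΔ ℓ₀ hℓ₀ hgood A₀ hA₀ σ₀ hσ₀ (p ^ n) (hcop n) x hx hfix)

/-- **END**, existential form (one subgroup for every `k`). -/
theorem end_false' (hFF : FrobFixed) (hFE : FrobEx) (hCT : CardTor) (hOS : OpenStab)
    (hMk : MinkN) (W : WeierstrassCurve ℤ) (hΔ : W.Δ ≠ 0) (p : ℕ) (hp : p.Prime)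
    (h : ∀ k : ℕ, ∃ N : AddSubgroup (Pt W), (∀ x ∈ N, p ^ k • x = 0) ∧ Nat.card N ≤ p ^ k ∧
      (∀ σ : GQ, ∀ x ∈ N, σ • x ∈ N) ∧
      ∀ ℓ : ℕ, ℓ.Prime → ∀ A : ValuationSubring Qb, A.LiesOverPrime ℓ →
        ∀ σ ∈ A.inertiaSubgroupIn ℚ, ∀ x : Pt W, p ^ k • x = 0 → σ • x - x ∈ N) : False := by
  choose N h1 h2 h3 h4 using h
  exact end_false hFF hFE hCT hOS hMk W hΔ p hp N h1 h2 (fun k σ => h3 k σ) (fun k ℓ => h4 k ℓ)

end Fermat.Agent.S12P.EndIfc59
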