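import Fermat.Agent.S12P.Ifc48
import Fermat.Agent.S12P.Adapt44b

/-!
# S12 adapters (A5): `Ifc48.FreyAdapt` and `Ifc48.FreySemistable`

The two Frey-curve slots `hFA`, `hFS` of the landed seam `Seam48.s12`, from the Props `Base` and
`FreySS` of `Interfaces20/20b` — and as unconditional terms through `Adapt44b.base`,
`Adapt44b.freySS`.
-/

set_option autoImplicit false

namespace Fermat.Agent.S12P.FreyAdapt4

open Fermat.Agent.S12P

/-- `Base` (Interfaces20) gives the cofixed subgroup in the `Ifc48` shape. -/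
theorem freyAdapt_of (hB : Base) : Ifc48.FreyAdapt := fun P h => by
  obtain ⟨N, hc, -, hs, hcf⟩ := hB P h
  exact ⟨N, ⟨hc, hs, hcf⟩⟩

/-- `FreySS` (Interfaces20b) gives `Ifc48.FreySemistable`. -/
theorem freySemistable_of (hF : FreySS) : Ifc48.FreySemistable := fun P =>
  ⟨(hF P).1, fun ℓ hℓ _ hd => (hF P).2 ℓ hℓ hd⟩

/-- slot `hFA` of `Seam48.s12`, unconditional. -/
theorem freyAdapt : Ifc48.FreyAdapt := freyAdapt_of Adapt44b.base

/-- slot `hFS` of `Seam48.s12`, unconditional. -/
theorem freySemistable : Ifc48.FreySemistable := freySemistable_of Adapt44b.freySS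

end Fermat.Agent.S12P.FreyAdapt4
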