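/-
S12 (helper34), adapter (A4) of helper20's ruling (R7): the tower of canonical subgroups of the
Frey curve at a place over `p`, from `LocP` (Interfaces20) and `CardTor` (Interfaces20):

  `freyTower (hLocP : LocP) (hCT : CardTor) : Ifc48.FreyTower`.

`G m := E1 ⊓ E[p ^ m]` with `E1` the subgroup of `LocP` at the place `A`.  The only real content
is the cardinality `#G m = p ^ m`, which is pure group theory (section `Abstract`, Mathlib only):
`p • · : G (m + 1) → G m` has kernel `G 1 = N` and is onto, because `σ₀ - 1` (`σ₀` the inertia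
element of `LocP` moving `N`) is injective, hence bijective, on the finite group `G m`, maps the
`p`-power torsion into `E1`, and the `p`-power torsion is `p`-divisible (from the cardinalities).
-/
import Fermat.Agent.S12P.Interfaces20b
import Fermat.Agent.S12P.Ifc48
import Fermat.Agent.S12P.Grp48
import Fermat.Agent.Lib.Frey.Semistable

set_option autoImplicit false

namespace Fermat.Agent.S12P.FreyTower34

section Abstract

variable {M : Type*} [AddCommGroup M]

/-- The `n`-torsion subgroup. -/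
def tor (M : Type*) [AddCommGroup M] (n : ℕ) : AddSubgroup M :=
  (nsmulAddMonoidHom n : M →+ M).ker

theorem mem_tor {n : ℕ} {x : M} : x ∈ tor M n ↔ n • x = 0 := by
  rw [tor, AddMonoidHom.mem_ker, nsmulAddMonoidHom_apply]

/-- First isomorphism theorem, counting form, for the image of a subgroup. -/
theorem card_map_mul_card_ker {M' : Type*} [AddCommGroup M'] (f : M →+ M') (H : AddSubgroup M) :
    Nat.card (H.map f) * Nat.card ↥(f.ker ⊓ H) = Nat.card H := by
  have h1 := AddSubgroup.card_mul_index (f.comp H.subtype).ker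
  have h2 : (f.comp H.subtype).ker.index = Nat.card (f.comp H.subtype).range :=
    AddSubgroup.index_ker _
  have h3 : (f.comp H.subtype).range = H.map f := by
    ext y
    constructor
    · rintro ⟨x, rfl⟩
      exact ⟨x.1, x.2, rfl⟩
    · rintro ⟨x, hx, rfl⟩
      exact ⟨⟨x, hx⟩, rfl⟩
  have hk1 : ∀ x : ↥(f.comp H.subtype).ker, x.1.1 ∈ f.ker ⊓ H := fun x =>
    AddSubgroup.mem_inf.mpr ⟨(AddMonoidHom.mem_ker).mpr ((AddMonoidHom.mem_ker).mp x.2), x.1.2⟩
  have hk2 : ∀ x : ↥(f.ker ⊓ H),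
      (⟨x.1, (AddSubgroup.mem_inf.mp x.2).2⟩ : H) ∈ (f.comp H.subtype).ker := fun x =>
    (AddMonoidHom.mem_ker).mpr ((AddMonoidHom.mem_ker).mp (AddSubgroup.mem_inf.mp x.2).1)
  have h4 : Nat.card (f.comp H.subtype).ker = Nat.card ↥(f.ker ⊓ H) :=
    Nat.card_congr
      { toFun := fun x => ⟨x.1.1, hk1 x⟩
        invFun := fun x => ⟨⟨x.1, (AddSubgroup.mem_inf.mp x.2).2⟩, hk2 x⟩
        left_inv := fun _ => rfl
        right_inv := fun _ => rfl }
  rw [← h1, h2, h3, h4, mul_comm]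

/-- `p ^ (n + 1) • x = p ^ n • (p • x)`. -/
theorem pow_succ_nsmul (p n : ℕ) (x : M) : p ^ (n + 1) • x = p ^ n • p • x := by
  rw [pow_succ', mul_nsmul]

/-- `p ^ (n + 1) • x = p • (p ^ n • x)`. -/
theorem pow_succ_nsmul' (p n : ℕ) (x : M) : p ^ (n + 1) • x = p • p ^ n • x := by
  rw [pow_succ, mul_nsmul]

variable {p : ℕ}

theorem card_tor_pow (hcard : ∀ n, Nat.card {x : M // p ^ n • x = 0} = p ^ (2 * n)) (n : ℕ) :
    Nat.card (tor M (p ^ n)) = p ^ (2 * n) := by
  rw [← hcard n]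
  exact Nat.card_congr (Equiv.subtypeEquivRight fun x => mem_tor)

theorem finite_tor_pow (hp : p.Prime)
    (hcard : ∀ n, Nat.card {x : M // p ^ n • x = 0} = p ^ (2 * n)) (n : ℕ) :
    Finite (tor M (p ^ n)) :=
  Nat.finite_of_card_ne_zero (by rw [card_tor_pow hcard n]; exact pow_ne_zero _ hp.ne_zero)

/-- The `p`-power torsion is `p`-divisible, from the cardinalities. -/
theorem exists_div (hp : p.Prime)
    (hcard : ∀ n, Nat.card {x : M // p ^ n • x = 0} = p ^ (2 * n))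
    (n : ℕ) (x : M) (hx : p ^ n • x = 0) : ∃ y : M, p • y = x := by
  have hfin := finite_tor_pow hp hcard n
  have hker : (nsmulAddMonoidHom p : M →+ M).ker ⊓ tor M (p ^ (n + 1)) = tor M (p ^ 1) := by
    ext y
    rw [AddSubgroup.mem_inf, AddMonoidHom.mem_ker, nsmulAddMonoidHom_apply, mem_tor, mem_tor,
      pow_one]
    refine ⟨fun h => h.1, fun h => ⟨h, ?_⟩⟩
    rw [pow_succ_nsmul, h, nsmul_zero]
  have hle : (tor M (p ^ (n + 1))).map (nsmulAddMonoidHom p : M →+ M) ≤ tor M (p ^ n) := by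
    rintro _ ⟨y, hy, rfl⟩
    rw [SetLike.mem_coe, mem_tor] at hy
    rw [mem_tor, nsmulAddMonoidHom_apply, ← pow_succ_nsmul]
    exact hy
  have hc := card_map_mul_card_ker (nsmulAddMonoidHom p : M →+ M) (tor M (p ^ (n + 1)))
  rw [hker, card_tor_pow hcard 1, card_tor_pow hcard (n + 1)] at hc
  have hc' : Nat.card ((tor M (p ^ (n + 1))).map (nsmulAddMonoidHom p : M →+ M)) = p ^ (2 * n) := by
    have h5 : p ^ (2 * (n + 1)) = p ^ (2 * n) * p ^ (2 * 1) := by rw [← pow_add]; ring_nf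
    rw [h5] at hc
    exact Nat.eq_of_mul_eq_mul_right (pow_pos hp.pos _) hc
  have heq : (tor M (p ^ (n + 1))).map (nsmulAddMonoidHom p : M →+ M) = tor M (p ^ n) :=
    AddSubgroup.eq_of_le_of_card_ge hle (by rw [hc', card_tor_pow hcard n])
  have hxm : x ∈ (tor M (p ^ (n + 1))).map (nsmulAddMonoidHom p : M →+ M) := by
    rw [heq]; exact mem_tor.mpr hx
  obtain ⟨y, -, hy⟩ := hxm
  exact ⟨y, hy⟩

/-- **The tower, abstractly.**  `E1 ⊓ E[p ^ m]` has order `p ^ m` and `E1 ⊓ E[p] = N`. -/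
theorem tower (hp : p.Prime) (hcard : ∀ n, Nat.card {x : M // p ^ n • x = 0} = p ^ (2 * n))
    (E1 N : AddSubgroup M) (hN : Nat.card N = p)
    (s : M →+ M) (hs : ∀ (x : M) (k : ℕ), p ^ k • x = 0 → s x - x ∈ E1)
    (h3 : ∀ x ∈ E1, p • x = 0 → x ∈ N) (h4 : ∃ x ∈ N, s x ≠ x) :
    E1 ⊓ tor M (p ^ 1) = N ∧ ∀ m, Nat.card ↥(E1 ⊓ tor M (p ^ m)) = p ^ m := by
  obtain ⟨x₀, hx₀N, hx₀⟩ := h4
  have hpx₀ : p • x₀ = 0 := Grp48.nsmul_eq_zero_of_card hN hx₀N
  -- `G 1 = N`
  have hG1 : E1 ⊓ tor M (p ^ 1) = N := by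
    apply le_antisymm
    · intro x hx
      rw [AddSubgroup.mem_inf, mem_tor, pow_one] at hx
      exact h3 x hx.1 hx.2
    · have hyE : s x₀ - x₀ ∈ E1 := hs x₀ 1 (by rw [pow_one]; exact hpx₀)
      have hy0 : s x₀ - x₀ ≠ 0 := sub_ne_zero.mpr hx₀
      have hpy : p • (s x₀ - x₀) = 0 := by
        rw [nsmul_sub, ← map_nsmul, hpx₀, map_zero, sub_zero]
      have hyN : s x₀ - x₀ ∈ N := h3 _ hyE hpy
      have hNy := (Grp48.prime_card hp hN hyN hy0).2
      rw [hNy, AddSubgroup.zmultiples_le, AddSubgroup.mem_inf, mem_tor, pow_one]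
      exact ⟨hyE, hpy⟩
  -- `s - 1` is injective on `E1 ⊓ E[p ^ ∞]`
  have hinj : ∀ (m : ℕ) (h : M), h ∈ E1 → p ^ m • h = 0 → s h = h → h = 0 := by
    intro m
    induction m with
    | zero =>
      intro h _ h0 _
      rwa [pow_zero, one_nsmul] at h0
    | succ m ih =>
      intro h hE h0 hfix
      have hph : p • h = 0 := by
        apply ih (p • h) (E1.nsmul_mem hE p)
        · rw [← pow_succ_nsmul]; exact h0
        · rw [map_nsmul, hfix]
      by_contra hne
      have hhN : h ∈ N := h3 h hE hph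
      have hNh := (Grp48.prime_card hp hN hhN hne).2
      rw [hNh] at hx₀N
      obtain ⟨n, rfl⟩ := AddSubgroup.mem_zmultiples_iff.mp hx₀N
      exact hx₀ (by rw [map_zsmul, hfix])
  refine ⟨hG1, ?_⟩
  -- the step
  have hstep : ∀ m, Nat.card ↥(E1 ⊓ tor M (p ^ (m + 1))) = Nat.card ↥(E1 ⊓ tor M (p ^ m)) * p := by
    intro m
    have hfinT := finite_tor_pow hp hcard m
    have hfin : Finite ↥(E1 ⊓ tor M (p ^ m)) :=
      Finite.of_injective (AddSubgroup.inclusion (inf_le_right : E1 ⊓ tor M (p ^ m) ≤ _))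
        (AddSubgroup.inclusion_injective _)
    -- `s - 1` on `G m`
    let d : ↥(E1 ⊓ tor M (p ^ m)) → ↥(E1 ⊓ tor M (p ^ m)) := fun h =>
      ⟨s h.1 - h.1, by
        have h2 := h.2
        rw [AddSubgroup.mem_inf, mem_tor] at h2 ⊢
        refine ⟨hs h.1 m h2.2, ?_⟩
        rw [nsmul_sub, ← map_nsmul, h2.2, map_zero, sub_zero]⟩
    have hdinj : Function.Injective d := by
      intro a b hab
      have hab' : s a.1 - a.1 = s b.1 - b.1 := congrArg Subtype.val hab
      have hmem := (E1 ⊓ tor M (p ^ m)).sub_mem a.2 b.2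
      rw [AddSubgroup.mem_inf, mem_tor] at hmem
      have h0 : a.1 - b.1 = 0 := by
        apply hinj m _ hmem.1 hmem.2
        rw [map_sub]
        have : s a.1 - s b.1 - (a.1 - b.1) = 0 := by
          rw [sub_sub_sub_comm, hab', sub_self]
        exact sub_eq_zero.mp this
      exact Subtype.ext (sub_eq_zero.mp h0)
    have hdsurj : Function.Surjective d := Finite.injective_iff_surjective.mp hdinj
    have hmap : (E1 ⊓ tor M (p ^ (m + 1))).map (nsmulAddMonoidHom p : M →+ M)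
        = E1 ⊓ tor M (p ^ m) := by
      apply le_antisymm
      · rintro _ ⟨y, hy, rfl⟩
        rw [SetLike.mem_coe, AddSubgroup.mem_inf, mem_tor] at hy
        rw [AddSubgroup.mem_inf, mem_tor, nsmulAddMonoidHom_apply, ← pow_succ_nsmul]
        exact ⟨E1.nsmul_mem hy.1 p, hy.2⟩
      · intro h hh
        obtain ⟨h₁, hh₁⟩ := hdsurj ⟨h, hh⟩
        have hh₁' : s h₁.1 - h₁.1 = h := congrArg Subtype.val hh₁
        have h₁mem := h₁.2
        rw [AddSubgroup.mem_inf, mem_tor] at h₁mem hh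
        obtain ⟨z₀, hz₀⟩ := exists_div hp hcard m h₁.1 h₁mem.2
        have hz₀t : p ^ (m + 1) • z₀ = 0 := by
          rw [pow_succ_nsmul, hz₀]; exact h₁mem.2
        have hpz : p • (s z₀ - z₀) = h := by
          rw [nsmul_sub, ← map_nsmul, hz₀]; exact hh₁'
        refine ⟨s z₀ - z₀, ?_, hpz⟩
        rw [SetLike.mem_coe, AddSubgroup.mem_inf, mem_tor]
        refine ⟨hs z₀ (m + 1) hz₀t, ?_⟩
        rw [pow_succ_nsmul, hpz]; exact hh.2
    have hker : (nsmulAddMonoidHom p : M →+ M).ker ⊓ (E1 ⊓ tor M (p ^ (m + 1)))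
        = E1 ⊓ tor M (p ^ 1) := by
      ext y
      simp only [AddSubgroup.mem_inf, AddMonoidHom.mem_ker, nsmulAddMonoidHom_apply, mem_tor,
        pow_one]
      refine ⟨fun h => ⟨h.2.1, h.1⟩, fun h => ⟨h.2, h.1, ?_⟩⟩
      rw [pow_succ_nsmul, h.2, nsmul_zero]
    have hc := card_map_mul_card_ker (nsmulAddMonoidHom p : M →+ M) (E1 ⊓ tor M (p ^ (m + 1)))
    rw [hmap, hker, hG1, hN] at hc
    exact hc.symm
  intro m
  induction m with
  | zero =>
    have hbot : E1 ⊓ tor M (p ^ 0) = ⊥ := by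
      rw [eq_bot_iff]
      intro x hx
      rw [AddSubgroup.mem_inf, mem_tor, pow_zero, one_nsmul] at hx
      exact hx.2
    rw [hbot, AddSubgroup.card_bot, pow_zero]
  | succ m ih => rw [hstep m, ih, pow_succ]

end Abstract

open WeierstrassCurve Fermat.Agent.S58

/-- **(A4)** `Ifc48.FreyTower` from `LocP` and `CardTor`. -/
theorem freyTower (hLocP : LocP) (hCT : CardTor) : Ifc48.FreyTower := by
  intro P N hN A hA
  have hp : P.p.Prime := P.pp
  have hkill : ∀ x ∈ N, P.p • x = 0 := fun x hx => Grp48.nsmul_eq_zero_of_card hN.card hx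
  obtain ⟨E1, hst, hin, h3, σ₀, hσ₀, x₀, hx₀N, hx₀⟩ :=
    hLocP P N hN.card hkill hN.stable hN.cofixed A hA
  have hcard := hCT P.freyCurveInt (Fermat.Agent.Frey.freyCurveInt_Δ_ne_zero P) P.p hp
  have hsm : ∀ (σ : GQ) (n : ℕ) (x : EPt P.freyCurveInt), σ • (n • x) = n • (σ • x) :=
    fun σ n x => map_nsmul (DistribSMul.toAddMonoidHom (EPt P.freyCurveInt) σ) n x
  have hs0 : ∀ σ : GQ, σ • (0 : EPt P.freyCurveInt) = 0 :=
    fun σ => map_zero (DistribSMul.toAddMonoidHom (EPt P.freyCurveInt) σ)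
  obtain ⟨hG1, hGc⟩ := tower hp hcard E1 N hN.card
    (DistribSMul.toAddMonoidHom (EPt P.freyCurveInt) σ₀)
    (fun x k hx => hin σ₀ hσ₀ x k hx) h3 ⟨x₀, hx₀N, hx₀⟩
  refine ⟨fun m => E1 ⊓ tor (EPt P.freyCurveInt) (P.p ^ m), ⟨?_, hGc, ?_, ?_, ?_⟩, hG1⟩
  · -- mono
    intro m x hx
    rw [AddSubgroup.mem_inf, mem_tor] at hx ⊢
    refine ⟨hx.1, ?_⟩
    rw [pow_succ_nsmul', hx.2, nsmul_zero]
  · -- tors
    intro m j x hx hj
    rw [AddSubgroup.mem_inf, mem_tor] at hx ⊢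
    exact ⟨hx.1, hj⟩
  · -- stable
    intro m σ hσ x hx
    rw [AddSubgroup.mem_inf, mem_tor] at hx ⊢
    refine ⟨hst σ hσ x hx.1, ?_⟩
    rw [← hsm, hx.2, hs0]
  · -- inert
    intro m τ hτ y hy
    rw [AddSubgroup.mem_inf, mem_tor]
    refine ⟨hin τ hτ y m hy, ?_⟩
    rw [nsmul_sub, ← hsm, hy, hs0, sub_zero]

end Fermat.Agent.S12P.FreyTower34
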