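/-
S12 cell (helper46): counting lemmas for the stage induction of the descent — Mathlib only.

`M`, `M'` are additive commutative groups whose `p`-power torsion has the size of the torsion of
an elliptic curve (`#M[p ^ n] = p ^ (2 n)`: the shape of the interface Prop `CardTor`), and
`φ : M →+ M'` has a kernel of order `p ^ k`.  Then

* `exists_mul_pow_of_torsion` : `p ^ k` maps `M[p ^ (m + k)]` ONTO `M[p ^ m]`
  (divisibility inside the torsion, from the count alone);
* `exists_preimage_of_torsion_pow` : `φ` maps `M[p ^ (m + k)]` ONTO `M'[p ^ m]`;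
* `card_comap_of_le_range` : `#φ⁻¹(K) = #ker φ · #K` for `K ≤ range φ`;
* `nsmul_card_ker_eq_zero` : the kernel is killed by its order.
-/
import Mathlib

set_option autoImplicit false

namespace Fermat.Agent.S12P.TorsSurj46

variable {M M' : Type*} [AddCommGroup M] [AddCommGroup M']

/-- The `n`-torsion subgroup. -/
def tors (M : Type*) [AddCommGroup M] (n : ℕ) : AddSubgroup M :=
  (nsmulAddMonoidHom (α := M) n).ker

theorem mem_tors {n : ℕ} {x : M} : x ∈ tors M n ↔ n • x = 0 := by
  simp [tors, AddMonoidHom.mem_ker]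

theorem card_tors {p : ℕ} (hM : ∀ n : ℕ, Nat.card {x : M // p ^ n • x = 0} = p ^ (2 * n))
    (n : ℕ) : Nat.card (tors M (p ^ n)) = p ^ (2 * n) := by
  rw [← hM n]
  exact Nat.card_congr (Equiv.subtypeEquivRight fun x => mem_tors)

theorem finite_tors {p : ℕ} (hp : p.Prime)
    (hM : ∀ n : ℕ, Nat.card {x : M // p ^ n • x = 0} = p ^ (2 * n)) (n : ℕ) :
    Finite (tors M (p ^ n)) := by
  apply Nat.finite_of_card_ne_zero
  rw [card_tors hM n]
  exact pow_ne_zero _ hp.ne_zero

/-- `#range · #ker = #source`. -/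
theorem card_range_mul_card_ker {G H : Type*} [AddGroup G] [AddGroup H] (f : G →+ H) :
    Nat.card f.range * Nat.card f.ker = Nat.card G := by
  rw [← AddSubgroup.index_ker f, mul_comm]
  exact AddSubgroup.card_mul_index f.ker

/-- A kernel of order `n` is killed by `n`. -/
theorem nsmul_card_ker_eq_zero (φ : M →+ M') {x : M} (hx : x ∈ φ.ker) :
    Nat.card φ.ker • x = 0 := by
  have h := card_nsmul_eq_zero' (G := φ.ker) (x := ⟨x, hx⟩)
  have h2 := congrArg (Subtype.val) h
  simpa using h2

/-- Multiplication by `p ^ k` maps the `p ^ (m + k)`-torsion ONTO the `p ^ m`-torsion. -/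
theorem exists_mul_pow_of_torsion {p : ℕ} (hp : p.Prime)
    (hM : ∀ n : ℕ, Nat.card {x : M // p ^ n • x = 0} = p ^ (2 * n)) (k m : ℕ) (y : M)
    (hy : p ^ m • y = 0) : ∃ z : M, p ^ (m + k) • z = 0 ∧ p ^ k • z = y := by
  let f : tors M (p ^ (m + k)) →+ M :=
    (nsmulAddMonoidHom (α := M) (p ^ k)).comp (tors M (p ^ (m + k))).subtype
  have hf : ∀ z : tors M (p ^ (m + k)), f z = p ^ k • (z : M) := fun z => rfl
  -- the kernel of `f` is the `p ^ k`-torsion
  have hker : Nat.card f.ker = p ^ (2 * k) := by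
    rw [← hM k]
    refine Nat.card_congr
      { toFun := fun z => ⟨(z.1 : M), by
          have := z.2
          rwa [AddMonoidHom.mem_ker, hf] at this⟩
        invFun := fun x => ⟨⟨x.1, by
          rw [mem_tors, pow_add, mul_nsmul', x.2, nsmul_zero]⟩, by
          rw [AddMonoidHom.mem_ker, hf]; exact x.2⟩
        left_inv := fun z => rfl
        right_inv := fun x => rfl }
  have hcard : Nat.card f.range * p ^ (2 * k) = p ^ (2 * m) * p ^ (2 * k) := by
    have h1 := card_range_mul_card_ker f
    rw [hker, card_tors hM (m + k)] at h1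
    rw [h1]; ring
  have hrange : Nat.card f.range = p ^ (2 * m) :=
    Nat.eq_of_mul_eq_mul_right (pow_pos hp.pos _) hcard
  have hle : f.range ≤ tors M (p ^ m) := by
    rintro _ ⟨z, rfl⟩
    rw [mem_tors, hf, ← mul_nsmul', ← pow_add]
    exact mem_tors.mp z.2
  have : Finite (tors M (p ^ m)) := finite_tors hp hM m
  have heq : f.range = tors M (p ^ m) := by
    apply AddSubgroup.eq_of_le_of_card_ge hle
    rw [hrange, card_tors hM m]
  have hy' : y ∈ f.range := by rw [heq]; exact mem_tors.mpr hy
  obtain ⟨z, rfl⟩ := hy'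
  exact ⟨(z : M), mem_tors.mp z.2, rfl⟩

/-- **Surjectivity on torsion.**  A homomorphism with kernel of order `p ^ k` between groups with
`#[p ^ n] = p ^ (2 n)` maps the `p ^ (m + k)`-torsion onto the `p ^ m`-torsion. -/
theorem exists_preimage_of_torsion_pow {p : ℕ} (hp : p.Prime)
    (hM : ∀ n : ℕ, Nat.card {x : M // p ^ n • x = 0} = p ^ (2 * n))
    (hM' : ∀ n : ℕ, Nat.card {x : M' // p ^ n • x = 0} = p ^ (2 * n))
    (φ : M →+ M') (k : ℕ) (hker : Nat.card φ.ker = p ^ k) (m : ℕ) (y : M')
    (hy : p ^ m • y = 0) : ∃ x : M, p ^ (m + k) • x = 0 ∧ φ x = y := by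
  have hkp : ∀ x ∈ φ.ker, p ^ k • x = 0 := fun x hx => by
    rw [← hker]; exact nsmul_card_ker_eq_zero φ hx
  obtain ⟨z, hz, rfl⟩ := exists_mul_pow_of_torsion hp hM' k m y hy
  let g : tors M (p ^ (m + k)) →+ M' := φ.comp (tors M (p ^ (m + k))).subtype
  have hg : ∀ x : tors M (p ^ (m + k)), g x = φ (x : M) := fun x => rfl
  -- the kernel of `g` is the kernel of `φ`
  have hgker : Nat.card g.ker = p ^ k := by
    refine Eq.trans (Nat.card_congr
      { toFun := fun x => ⟨(x.1 : M), by
          have := x.2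
          rwa [AddMonoidHom.mem_ker, hg] at this⟩
        invFun := fun x => ⟨⟨x.1, by
          rw [mem_tors, pow_add, mul_nsmul', hkp x.1 x.2, nsmul_zero]⟩, by
          rw [AddMonoidHom.mem_ker, hg]; exact x.2⟩
        left_inv := fun x => rfl
        right_inv := fun x => rfl }) hker
  have hgrange : Nat.card g.range * p ^ k = p ^ (2 * m + k) * p ^ k := by
    have h1 := card_range_mul_card_ker g
    rw [hgker, card_tors hM (m + k)] at h1
    rw [h1]; ring
  have hgrange' : Nat.card g.range = p ^ (2 * m + k) :=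
    Nat.eq_of_mul_eq_mul_right (pow_pos hp.pos _) hgrange
  have hle : g.range ≤ tors M' (p ^ (m + k)) := by
    rintro _ ⟨x, rfl⟩
    rw [mem_tors, hg, ← map_nsmul, mem_tors.mp x.2, map_zero]
  -- `g.range` has index `p ^ k` in the `p ^ (m + k)`-torsion of `M'`
  have hRcard : Nat.card (g.range.addSubgroupOf (tors M' (p ^ (m + k)))) = p ^ (2 * m + k) := by
    rw [← hgrange']
    exact Nat.card_congr (AddSubgroup.addSubgroupOfEquivOfLe hle).toEquiv
  have hidx : (g.range.addSubgroupOf (tors M' (p ^ (m + k)))).index = p ^ k := by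
    have h1 := AddSubgroup.card_mul_index (g.range.addSubgroupOf (tors M' (p ^ (m + k))))
    rw [hRcard, card_tors hM' (m + k)] at h1
    have h2 : p ^ (2 * m + k) * (g.range.addSubgroupOf (tors M' (p ^ (m + k)))).index
        = p ^ (2 * m + k) * p ^ k := by rw [h1]; ring
    exact Nat.eq_of_mul_eq_mul_left (pow_pos hp.pos _) h2
  have hmem : p ^ k • (⟨z, mem_tors.mpr hz⟩ : tors M' (p ^ (m + k)))
      ∈ g.range.addSubgroupOf (tors M' (p ^ (m + k))) := by
    have := AddSubgroup.nsmul_index_mem (g.range.addSubgroupOf (tors M' (p ^ (m + k))))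
      (⟨z, mem_tors.mpr hz⟩ : tors M' (p ^ (m + k)))
    rwa [hidx] at this
  have hmem' : p ^ k • z ∈ g.range := by
    have := AddSubgroup.mem_addSubgroupOf.mp hmem
    simpa using this
  obtain ⟨x, hx⟩ := hmem'
  exact ⟨(x : M), mem_tors.mp x.2, hx⟩

/-- The preimage of a subgroup of the range has `#ker · #K` elements. -/
theorem card_comap_of_le_range (φ : M →+ M') (K : AddSubgroup M') (hK : K ≤ φ.range) :
    Nat.card (K.comap φ) = Nat.card φ.ker * Nat.card K := by
  let g : K.comap φ →+ M' := φ.comp (K.comap φ).subtype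
  have hg : ∀ x : K.comap φ, g x = φ (x : M) := fun x => rfl
  have hgker : Nat.card g.ker = Nat.card φ.ker :=
    Nat.card_congr
      { toFun := fun x => ⟨(x.1 : M), by
          have := x.2
          rwa [AddMonoidHom.mem_ker, hg] at this⟩
        invFun := fun x => ⟨⟨x.1, by
          rw [AddSubgroup.mem_comap, AddMonoidHom.mem_ker.mp x.2]; exact K.zero_mem⟩, by
          rw [AddMonoidHom.mem_ker, hg]; exact x.2⟩
        left_inv := fun x => rfl
        right_inv := fun x => rfl }
  have hgrange : g.range = K := by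
    ext y
    constructor
    · rintro ⟨x, rfl⟩
      exact x.2
    · intro hy
      obtain ⟨x, rfl⟩ := hK hy
      exact ⟨⟨x, hy⟩, rfl⟩
  have h1 := card_range_mul_card_ker g
  rw [hgker, hgrange] at h1
  rw [← h1, mul_comm]

end Fermat.Agent.S12P.TorsSurj46
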