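/-
S12 cell (helper46): adapter for helper48's seam — the tower of canonical subgroups of the Frey
curve at a place over `p` (`Ifc48.FreyTower`, as landed) from the interface Props of
`S12P/Interfaces20*.lean`:

  `freyTower (hL : LocP) (hC : CardTor) (hFS : FreySS) : Ifc48.FreyTower`

with `G m := E1 ⊓ E[p ^ m]`, `E1` the subgroup of `LocP`.  Counting:
* `#G m ≤ p ^ m` by induction (`x ↦ p • x : G (m+1) → G m` has kernel `E1 ∩ E[p] ⊆ N`);
* `#G m ≥ p ^ m` by the element `σ₀ z - z`, `p ^ (m-1) • z = x₀`, where `σ₀` is an inertia element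
  moving `x₀ ∈ N` (`exists_mul_pow_of_torsion` from `S12P/TorsSurj46.lean`).
-/
import Mathlib
import Fermat.Agent.S12P.Ifc48
import Fermat.Agent.S12P.Grp48
import Fermat.Agent.S12P.Interfaces20b
import Fermat.Agent.S12P.TorsSurj46

set_option autoImplicit false

namespace Fermat.Agent.S12P.FreyTower46

open WeierstrassCurve Fermat.Agent.S12P.TorsSurj46

/-! ### Abstract counting -/

section Abstract

variable {M : Type*} [AddCommGroup M]

/-- The `m`-th step of the tower cut out by a subgroup `E1`. -/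
def step (E1 : AddSubgroup M) (p m : ℕ) : AddSubgroup M := E1 ⊓ tors M (p ^ m)

theorem mem_step {E1 : AddSubgroup M} {p m : ℕ} {x : M} :
    x ∈ step E1 p m ↔ x ∈ E1 ∧ p ^ m • x = 0 := by
  rw [step, AddSubgroup.mem_inf, mem_tors]

theorem finite_step {p : ℕ} (hp : p.Prime)
    (hM : ∀ n : ℕ, Nat.card {x : M // p ^ n • x = 0} = p ^ (2 * n)) (E1 : AddSubgroup M) (m : ℕ) :
    Finite (step E1 p m) := by
  have : Finite (tors M (p ^ m)) := finite_tors hp hM m
  have hle : step E1 p m ≤ tors M (p ^ m) := inf_le_right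
  exact Finite.of_injective (AddSubgroup.inclusion hle) (AddSubgroup.inclusion_injective hle)

/-- Upper bound: `#(E1 ∩ E[p ^ m]) ≤ p ^ m` if `E1 ∩ E[p]` lies in a subgroup of order `p`. -/
theorem card_step_le {p : ℕ} (hp : p.Prime)
    (hM : ∀ n : ℕ, Nat.card {x : M // p ^ n • x = 0} = p ^ (2 * n)) (E1 N : AddSubgroup M)
    (hN : Nat.card N = p) (h1 : ∀ x ∈ E1, p • x = 0 → x ∈ N) (m : ℕ) :
    Nat.card (step E1 p m) ≤ p ^ m := by
  have hNfin : Finite N := Nat.finite_of_card_ne_zero (by rw [hN]; exact hp.ne_zero)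
  induction m with
  | zero =>
    have hbot : step E1 p 0 = ⊥ := by
      rw [eq_bot_iff]
      intro x hx
      have := (mem_step.mp hx).2
      rw [pow_zero, one_nsmul] at this
      exact (AddSubgroup.mem_bot).mpr this
    rw [hbot, AddSubgroup.card_bot, pow_zero]
  | succ m ih =>
    let f : step E1 p (m + 1) →+ M :=
      (nsmulAddMonoidHom (α := M) p).comp (step E1 p (m + 1)).subtype
    have hf : ∀ z : step E1 p (m + 1), f z = p • (z : M) := fun z => rfl
    have hrange : f.range ≤ step E1 p m := by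
      rintro _ ⟨z, rfl⟩
      rw [hf, mem_step]
      refine ⟨E1.nsmul_mem (mem_step.mp z.2).1 p, ?_⟩
      rw [← mul_nsmul', ← pow_succ]
      exact (mem_step.mp z.2).2
    have : Finite (step E1 p m) := finite_step hp hM E1 m
    have hr : Nat.card f.range ≤ p ^ m := (AddSubgroup.card_le_of_le hrange).trans ih
    have hk : Nat.card f.ker ≤ p := by
      refine le_trans (Nat.card_le_card_of_injective
        (fun z : f.ker => (⟨(z.1 : M), h1 _ (mem_step.mp z.1.2).1 (by
          have := z.2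
          rwa [AddMonoidHom.mem_ker, hf] at this)⟩ : N)) ?_) (le_of_eq hN)
      intro a b hab
      have := congrArg (Subtype.val) hab
      exact Subtype.ext (Subtype.ext this)
    have h := card_range_mul_card_ker f
    rw [← h, pow_succ]
    exact Nat.mul_le_mul hr hk

/-- The steps have order exactly `p ^ m` if moreover `E1` contains elements of every order
`p ^ m`. -/
theorem card_step {p : ℕ} (hp : p.Prime)
    (hM : ∀ n : ℕ, Nat.card {x : M // p ^ n • x = 0} = p ^ (2 * n)) (E1 N : AddSubgroup M)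
    (hN : Nat.card N = p) (h1 : ∀ x ∈ E1, p • x = 0 → x ∈ N)
    (hw : ∀ m : ℕ, ∃ w ∈ E1, addOrderOf w = p ^ m) (m : ℕ) :
    Nat.card (step E1 p m) = p ^ m := by
  refine le_antisymm (card_step_le hp hM E1 N hN h1 m) ?_
  obtain ⟨w, hwE, hword⟩ := hw m
  have hwm : w ∈ step E1 p m := by
    rw [mem_step]
    exact ⟨hwE, by rw [← hword]; exact addOrderOf_nsmul_eq_zero w⟩
  have : Finite (step E1 p m) := finite_step hp hM E1 m
  have hle : AddSubgroup.zmultiples w ≤ step E1 p m := (AddSubgroup.zmultiples_le).mpr hwm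
  have := AddSubgroup.card_le_of_le hle
  rwa [Nat.card_zmultiples, hword] at this

end Abstract

/-! ### The adapter -/

open Fermat.Agent.S12P.Ifc48 in
/-- **(FREY-P)** from `LocP`, the torsion count and `Δ ≠ 0`. -/
theorem freyTower_of_disc (hL : Fermat.Agent.S12P.LocP) (hC : Fermat.Agent.S12P.CardTor)
    (hdisc : ∀ P : FreyPackage, P.freyCurveInt.Δ ≠ 0) : FreyTower := by
  intro P N hN A hA
  have hp : P.p.Prime := P.pp
  have hΔ : P.freyCurveInt.Δ ≠ 0 := hdisc P
  have hM := hC P.freyCurveInt hΔ P.p hp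
  have hNp : ∀ x ∈ N, P.p • x = 0 := fun x hx =>
    Fermat.Agent.S12P.Grp48.nsmul_eq_zero_of_card hN.card hx
  obtain ⟨E1, hstab, hin, h1, σ₀, hσ₀, x₀, hx₀N, hx₀⟩ :=
    hL P N hN.card hNp hN.stable hN.cofixed A hA
  have gal_nsmul : ∀ (σ : Fermat.Agent.S12P.GQ) (n : ℕ) (x : Fermat.Agent.S12P.Pt P.freyCurveInt),
      σ • (n • x) = n • (σ • x) := fun σ n x =>
    map_nsmul (DistribSMul.toAddMonoidHom (Fermat.Agent.S12P.Pt P.freyCurveInt) σ) n x
  have gal_zero : ∀ σ : Fermat.Agent.S12P.GQ, σ • (0 : Fermat.Agent.S12P.Pt P.freyCurveInt) = 0 :=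
    fun σ => map_zero (DistribSMul.toAddMonoidHom (Fermat.Agent.S12P.Pt P.freyCurveInt) σ)
  -- `N ≤ E1`
  have hd : σ₀ • x₀ - x₀ ∈ E1 := hin σ₀ hσ₀ x₀ 1 (by rw [pow_one]; exact hNp x₀ hx₀N)
  have hdN : σ₀ • x₀ - x₀ ∈ N := N.sub_mem (hN.stable σ₀ x₀ hx₀N) hx₀N
  have hd0 : σ₀ • x₀ - x₀ ≠ 0 := sub_ne_zero.mpr hx₀
  have hNE1 : N ≤ E1 := by
    rw [(Fermat.Agent.S12P.Grp48.prime_card hp hN.card hdN hd0).2]
    exact (AddSubgroup.zmultiples_le).mpr hd
  -- elements of order `p ^ m` in `E1`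
  have hw : ∀ m : ℕ, ∃ w ∈ E1, addOrderOf w = P.p ^ m := by
    intro m
    rcases Nat.eq_zero_or_pos m with rfl | hm
    · exact ⟨0, E1.zero_mem, by rw [addOrderOf_zero, pow_zero]⟩
    · obtain ⟨n, rfl⟩ : ∃ n, m = n + 1 := ⟨m - 1, by omega⟩
      obtain ⟨z, hz, hzx⟩ := exists_mul_pow_of_torsion hp hM n 1 x₀
        (by rw [pow_one]; exact hNp x₀ hx₀N)
      have hz' : P.p ^ (n + 1) • z = 0 := by rw [add_comm]; exact hz
      refine ⟨σ₀ • z - z, hin σ₀ hσ₀ z (n + 1) hz', ?_⟩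
      have : Fact P.p.Prime := ⟨hp⟩
      apply addOrderOf_eq_prime_pow
      · rw [nsmul_sub, ← gal_nsmul, hzx]
        exact hd0
      · rw [nsmul_sub, ← gal_nsmul, hz', gal_zero, sub_zero]
  refine ⟨fun m => step E1 P.p m, ⟨fun m x hx => ?_, fun m => ?_, fun m j x hx hxj => ?_,
    fun m σ hσ x hx => ?_, fun m τ hτ y hy => ?_⟩, ?_⟩
  · -- mono
    rw [mem_step] at hx ⊢
    exact ⟨hx.1, by rw [pow_succ, mul_nsmul, hx.2, nsmul_zero]⟩
  · -- card
    exact card_step hp hM E1 N hN.card h1 hw m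
  · -- tors
    exact mem_step.mpr ⟨(mem_step.mp hx).1, hxj⟩
  · -- stable
    rw [mem_step] at hx ⊢
    exact ⟨hstab σ hσ x hx.1, by rw [← gal_nsmul, hx.2, gal_zero]⟩
  · -- inert
    rw [mem_step]
    exact ⟨hin τ hτ y m hy, by rw [nsmul_sub, ← gal_nsmul, hy, gal_zero, sub_zero]⟩
  · -- `G 1 = N`
    apply le_antisymm
    · intro x hx
      rw [mem_step, pow_one] at hx
      exact h1 x hx.1 hx.2
    · intro x hx
      rw [mem_step, pow_one]
      exact ⟨hNE1 hx, hNp x hx⟩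

/-- **(FREY-P)** from `LocP`, `CardTor` and `FreySS`. -/
theorem freyTower (hL : Fermat.Agent.S12P.LocP) (hC : Fermat.Agent.S12P.CardTor)
    (hFS : Fermat.Agent.S12P.FreySS) : Fermat.Agent.S12P.Ifc48.FreyTower :=
  freyTower_of_disc hL hC fun P => (hFS P).1

end Fermat.Agent.S12P.FreyTower46
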