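import Fermat.Agent.S15P.M1.Isog4

/-!
# S12 (B1): the product formula at a half-period for the lattice `Λ' = Λ + ℤ z₀`

`℘_{Λ'}(z) − ℘_{Λ'}(h) = c · ∏_{k<p} (℘_Λ(z + k z₀) − ℘_Λ(h))` for a half-period `h` of `Λ`
and `z₀` of exact odd order `p` in `ℂ/Λ`, with `c · ∏_{k=1}^{p-1} (℘_Λ(k z₀) − ℘_Λ(h)) = 1`.
Mathlib only (through `S15P/M1/{Ell4, Isog4}`).
-/

set_option autoImplicit false

namespace Fermat.Agent.S12P.HalfProd4

open Filter Topology PeriodPair
open Fermat.Agent.S15P.M1.Ell4 Fermat.Agent.S15P.M1.Isog4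

variable {L L' : PeriodPair} {p : ℕ} {z₀ : ℂ}

/-- `∏_{k<p} (℘_Λ(z + k z₀) − e)`. -/
noncomputable def subProd (L : PeriodPair) (p : ℕ) (z₀ e z : ℂ) : ℂ :=
  ∏ k ∈ Finset.range p, (℘[L] (z + k * z₀) - e)

/-- `∏_{1≤k<p} (℘_Λ(z + k z₀) − e)`. -/
noncomputable def subTail (L : PeriodPair) (p : ℕ) (z₀ e z : ℂ) : ℂ :=
  ∏ k ∈ Finset.Ico 1 p, (℘[L] (z + k * z₀) - e)

theorem subProd_eq (L : PeriodPair) {p : ℕ} (hp : 0 < p) (z₀ e z : ℂ) :
    subProd L p z₀ e z = (℘[L] z - e) * subTail L p z₀ e z := by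
  unfold subProd subTail
  rw [Finset.range_eq_Ico, Finset.prod_eq_prod_Ico_succ_bot hp]
  simp

theorem subProd_add_z₀ (S : IsSuper L L' p z₀) (hp : 0 < p) (e z : ℂ) :
    subProd L p z₀ e (z + z₀) = subProd L p z₀ e z := by
  have h1 : subProd L p z₀ e (z + z₀)
      = ∏ k ∈ Finset.Ico 1 (p + 1), (℘[L] (z + k * z₀) - e) := by
    unfold subProd
    have := Finset.prod_Ico_add' (fun k : ℕ => ℘[L] (z + k * z₀) - e) 0 p 1
    rw [zero_add] at this
    rw [Finset.range_eq_Ico, ← this]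
    refine Finset.prod_congr rfl fun k _ => ?_
    push_cast
    ring_nf
  rw [h1, Finset.prod_Ico_succ_top (by omega : 1 ≤ p), subProd_eq L hp, mul_comm]
  congr 1
  rw [wp_add_mem z S.p_mul_mem]

theorem subProd_add_mem (L : PeriodPair) (p : ℕ) (z₀ e : ℂ) {l : ℂ} (hl : l ∈ L.lattice)
    (z : ℂ) : subProd L p z₀ e (z + l) = subProd L p z₀ e z := by
  unfold subProd
  refine Finset.prod_congr rfl fun k _ => ?_
  rw [show z + l + k * z₀ = z + k * z₀ + l by ring, wp_add_mem _ hl]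

theorem subProd_add_nat (S : IsSuper L L' p z₀) (hp : 0 < p) (e : ℂ) (k : ℕ) (z : ℂ) :
    subProd L p z₀ e (z + k * z₀) = subProd L p z₀ e z := by
  induction k with
  | zero => simp
  | succ n ih =>
    rw [show z + ((n + 1 : ℕ) : ℂ) * z₀ = z + n * z₀ + z₀ by push_cast; ring,
      subProd_add_z₀ S hp, ih]

theorem subProd_periodic (S : IsSuper L L' p z₀) (hp : 0 < p) (e : ℂ) {w : ℂ}
    (hw : w ∈ L'.lattice) (z : ℂ) : subProd L p z₀ e (z + w) = subProd L p z₀ e z := by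
  obtain ⟨k, hk⟩ := (S.mem w).mp hw
  rw [show z + w = z + (w - k * z₀) + k * z₀ by ring, subProd_add_nat S hp,
    subProd_add_mem L p z₀ e hk]

theorem meromorphic_subProd (L : PeriodPair) (p : ℕ) (z₀ e : ℂ) :
    Meromorphic (subProd L p z₀ e) :=
  fun x => MeromorphicAt.fun_prod (s := Finset.range p)
    (F := fun (k : ℕ) (w : ℂ) => ℘[L] (w + k * z₀) - e)
    (fun _ _ => ((meromorphic_shift_wp L _).sub (Meromorphic.const _)) x)

theorem order_subProd (L : PeriodPair) (p : ℕ) (z₀ e z : ℂ) :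
    meromorphicOrderAt (subProd L p z₀ e) z
      = ∑ k ∈ Finset.range p, meromorphicOrderAt (fun w => ℘[L] w - e) (z + k * z₀) := by
  have := meromorphicOrderAt_fun_prod (s := Finset.range p)
    (f := fun (k : ℕ) (w : ℂ) => ℘[L] (w + k * z₀) - e) (x := z)
    (fun k _ => ((meromorphic_shift_wp L _).sub (Meromorphic.const _)) z)
  rw [show subProd L p z₀ e = fun a => ∏ k ∈ Finset.range p, (℘[L] (a + k * z₀) - e) from rfl,
    this]
  exact Finset.sum_congr rfl fun k _ => order_shift (fun w => ℘[L] w - e) _ z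

theorem analyticAt_subProd (S : IsSuper L L' p z₀) (e : ℂ) {z : ℂ} (hz : z ∉ L'.lattice) :
    AnalyticAt ℂ (subProd L p z₀ e) z := by
  refine Finset.analyticAt_fun_prod (Finset.range p) fun k _ => ?_
  have h1 : AnalyticAt ℂ (fun w => ℘[L] (w + k * z₀)) z :=
    (analyticAt_wp L (S.add_notMem hz k)).comp_of_eq (f := fun w : ℂ => w + k * z₀)
      (by fun_prop) rfl
  exact h1.sub analyticAt_const

theorem analyticAt_subTail (L : PeriodPair) (p : ℕ) (z₀ e : ℂ) {z : ℂ}
    (hz : ∀ k ∈ Finset.Ico 1 p, z + k * z₀ ∉ L.lattice) :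
    AnalyticAt ℂ (subTail L p z₀ e) z := by
  refine Finset.analyticAt_fun_prod (Finset.Ico 1 p) fun k hk => ?_
  have h1 : AnalyticAt ℂ (fun w => ℘[L] (w + k * z₀)) z :=
    (analyticAt_wp L (hz k hk)).comp_of_eq (f := fun w : ℂ => w + k * z₀) (by fun_prop) rfl
  exact h1.sub analyticAt_const

/-- one term of a sum of orders is a lower bound if the others are `≥ 0`. -/
theorem le_sum_of_nonneg_off {s : Finset ℕ} {f : ℕ → WithTop ℤ} {k₀ : ℕ} (hk₀ : k₀ ∈ s)
    (h : ∀ k ∈ s, k ≠ k₀ → 0 ≤ f k) : f k₀ ≤ ∑ k ∈ s, f k := by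
  rw [← Finset.add_sum_erase s f hk₀]
  exact le_add_of_nonneg_right (Finset.sum_nonneg fun k hk =>
    h k (Finset.mem_of_mem_erase hk) (Finset.ne_of_mem_erase hk))

/-- the auxiliary elliptic function `(℘_{Λ'}(z) − ℘_{Λ'}(h)) · ∏_{k<p} (℘_Λ(z + h + k z₀) − ℘_Λ(h))`. -/
noncomputable def auxF (L L' : PeriodPair) (p : ℕ) (z₀ h z : ℂ) : ℂ :=
  (℘[L'] z - ℘[L'] h) * subProd L p z₀ (℘[L] h) (z + h)

theorem meromorphic_auxF (L L' : PeriodPair) (p : ℕ) (z₀ h : ℂ) :
    Meromorphic (auxF L L' p z₀ h) :=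
  (L'.meromorphic_weierstrassP.sub (Meromorphic.const _)).mul
    (Meromorphic.meromorphic_fun_comp_add_const_iff_meromorphic.mpr (meromorphic_subProd L p z₀ _))

theorem auxF_periodic (S : IsSuper L L' p z₀) (hp : 0 < p) (h : ℂ) {w : ℂ}
    (hw : w ∈ L'.lattice) (z : ℂ) : auxF L L' p z₀ h (z + w) = auxF L L' p z₀ h z := by
  unfold auxF
  rw [wp_add_mem z hw, show z + w + h = z + h + w by ring, subProd_periodic S hp _ hw]

theorem analyticAt_auxF (S : IsSuper L L' p z₀) (h : ℂ) {z : ℂ} (hz : z ∉ L'.lattice)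
    (hzh : z + h ∉ L'.lattice) : AnalyticAt ℂ (auxF L L' p z₀ h) z := by
  have h1 : AnalyticAt ℂ (fun w => subProd L p z₀ (℘[L] h) (w + h)) z :=
    (analyticAt_subProd S (℘[L] h) hzh).comp_of_eq (f := fun w : ℂ => w + h) (by fun_prop) rfl
  have h2 : AnalyticAt ℂ ℘[L'] z := analyticAt_wp L' hz
  unfold auxF
  fun_prop

theorem order_auxF_nonneg (S : IsSuper L L' p z₀) (hodd : Odd p) {h : ℂ} (hh : IsHalf L h)
    (z : ℂ) : 0 ≤ meromorphicOrderAt (auxF L L' p z₀ h) z := by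
  have hh' : IsHalf L' h := S.isHalf hodd hh
  have hA : Meromorphic (fun w => ℘[L'] w - ℘[L'] h) :=
    L'.meromorphic_weierstrassP.sub (Meromorphic.const _)
  have hB : Meromorphic (fun w => subProd L p z₀ (℘[L] h) (w + h)) :=
    Meromorphic.meromorphic_fun_comp_add_const_iff_meromorphic.mpr (meromorphic_subProd L p z₀ _)
  have hmul : meromorphicOrderAt (auxF L L' p z₀ h) z
      = meromorphicOrderAt (fun w => ℘[L'] w - ℘[L'] h) z
        + ∑ k ∈ Finset.range p,
            meromorphicOrderAt (fun w => ℘[L] w - ℘[L] h) (z + h + k * z₀) := by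
    have h1 : meromorphicOrderAt (auxF L L' p z₀ h) z
        = meromorphicOrderAt (fun w => ℘[L'] w - ℘[L'] h) z
          + meromorphicOrderAt (fun w => subProd L p z₀ (℘[L] h) (w + h)) z :=
      meromorphicOrderAt_mul (hA z) (hB z)
    rw [h1, order_shift (subProd L p z₀ (℘[L] h)) h z, order_subProd]
  have h20 : (0 : WithTop ℤ) = ((2 : ℤ) : WithTop ℤ) + ((-2 : ℤ) : WithTop ℤ) := by
    rw [← WithTop.coe_add]; norm_num
  by_cases hz : z ∈ L'.lattice
  · obtain ⟨k₀, hk₀, hmem⟩ := S.exists_add_lt hodd.pos hz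
    have hzh : z + h ∉ L'.lattice := hh'.add_notMem_of_mem hz
    have hk0 : z + h + k₀ * z₀ ∉ L.lattice := S.add_notMem hzh k₀
    have hk0' : (z + h + k₀ * z₀) + h ∈ L.lattice := by
      have := L.lattice.add_mem hmem hh.two
      convert this using 1
      ring
    have h1 := two_le_order_sub L (z₁ := z + h + k₀ * z₀) (e := ℘[L] h) hk0
      (hh.wp_eq_of_add_mem hk0') (hh.dwp_eq_zero_of_add_mem hk0')
    have h2 := order_wp_sub L' (℘[L'] h) hz
    have h3 : meromorphicOrderAt (fun w => ℘[L] w - ℘[L] h) (z + h + k₀ * z₀)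
        ≤ ∑ k ∈ Finset.range p,
            meromorphicOrderAt (fun w => ℘[L] w - ℘[L] h) (z + h + k * z₀) :=
      le_sum_of_nonneg_off (Finset.mem_range.mpr hk₀) fun k _ _ =>
        ((analyticAt_wp L (S.add_notMem hzh k)).sub analyticAt_const).meromorphicOrderAt_nonneg
    rw [hmul, h2, h20, add_comm]
    exact add_le_add le_rfl (le_trans h1 h3)
  · by_cases hzh : z + h ∈ L'.lattice
    · obtain ⟨k₀, hk₀, hmem⟩ := S.exists_add_lt hodd.pos hzh
      have h1 := two_le_order_sub L' (z₁ := z) (e := ℘[L'] h) hz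
        (hh'.wp_eq_of_add_mem hzh) (hh'.dwp_eq_zero_of_add_mem hzh)
      have h2 := order_wp_sub L (℘[L] h) hmem
      have h3 : meromorphicOrderAt (fun w => ℘[L] w - ℘[L] h) (z + h + k₀ * z₀)
          ≤ ∑ k ∈ Finset.range p,
              meromorphicOrderAt (fun w => ℘[L] w - ℘[L] h) (z + h + k * z₀) :=
        le_sum_of_nonneg_off (Finset.mem_range.mpr hk₀) fun k hk hne => by
          have hnot : z + h + k * z₀ ∉ L.lattice := fun hmem' =>
            hne (S.eq_of_two_mem hodd (Finset.mem_range.mp hk) hk₀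
              (by rw [two_mul]; exact L.lattice.add_mem hmem' hmem')
              (by rw [two_mul]; exact L.lattice.add_mem hmem hmem))
          exact ((analyticAt_wp L hnot).sub analyticAt_const).meromorphicOrderAt_nonneg
      rw [h2] at h3
      rw [hmul, h20]
      exact add_le_add h1 h3
    · exact (analyticAt_auxF S h hz hzh).meromorphicOrderAt_nonneg

/-- `z² (℘(z) − e) → 1` at the origin. -/
theorem tendsto_sq_mul_wp_sub (M : PeriodPair) (e : ℂ) :
    Tendsto (fun z => z ^ 2 * (℘[M] z - e)) (𝓝[≠] 0) (𝓝 1) := by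
  have hc : ContinuousAt (fun z => z ^ 2 * (℘[M - (0 : ℂ)] z - e) + 1) 0 := by
    have := (M.analyticAt_weierstrassPExcept 0).continuousAt
    fun_prop
  have h1 : Tendsto (fun z => z ^ 2 * (℘[M - (0 : ℂ)] z - e) + 1) (𝓝[≠] 0) (𝓝 1) := by
    have := hc.tendsto.mono_left (nhdsWithin_le_nhds (s := {(0 : ℂ)}ᶜ))
    simpa using this
  refine h1.congr' ?_
  filter_upwards [self_mem_nhdsWithin] with z hz
  have hz0 : z ≠ 0 := hz
  have := M.weierstrassPExcept_add (0 : M.lattice) z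
  simp only [ZeroMemClass.coe_zero, sub_zero] at this
  rw [← this]
  field_simp
  ring

/-- **(B1).** The product formula at a half-period. -/
theorem wp_sub_half_super (L L' : PeriodPair) (p : ℕ) (z₀ : ℂ) (hodd : Odd p)
    (S : IsSuper L L' p z₀) {h : ℂ} (hh : IsHalf L h) :
    ∃ c : ℂ, c * ∏ k ∈ Finset.Ico 1 p, (℘[L] (k * z₀) - ℘[L] h) = 1 ∧
      ∀ z, z ∉ L'.lattice →
        ℘[L'] z - ℘[L'] h = c * ∏ k ∈ Finset.range p, (℘[L] (z + k * z₀) - ℘[L] h) := by
  have hh' : IsHalf L' h := S.isHalf hodd hh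
  obtain ⟨C, hC⟩ := const_of_periodic L' (auxF L L' p z₀ h) (meromorphic_auxF L L' p z₀ h)
    (fun l hl z => auxF_periodic S hodd.pos h hl z) (order_auxF_nonneg S hodd hh)
  obtain ⟨c₀, hc₀, hc⟩ := halfProd_const hh
  have key : ∀ z, z ∉ L'.lattice →
      ℘[L'] z - ℘[L'] h = C / c₀ ^ p * subProd L p z₀ (℘[L] h) z := by
    intro z hz
    by_cases hzh : z + h ∈ L'.lattice
    · obtain ⟨k₀, hk₀, hmem⟩ := S.exists_add_lt hodd.pos hzh
      have h0 : subProd L p z₀ (℘[L] h) z = 0 := by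
        unfold subProd
        refine Finset.prod_eq_zero (Finset.mem_range.mpr hk₀) ?_
        rw [hh.wp_eq_of_add_mem (by convert hmem using 1; ring), sub_self]
      rw [h0, mul_zero, hh'.wp_eq_of_add_mem hzh, sub_self]
    · have h1 := hC z (analyticAt_auxF S h hz hzh)
      have h2 : subProd L p z₀ (℘[L] h) (z + h) * subProd L p z₀ (℘[L] h) z = c₀ ^ p := by
        unfold subProd
        rw [← Finset.prod_mul_distrib]
        have hk : ∀ k ∈ Finset.range p,
            (℘[L] (z + h + k * z₀) - ℘[L] h) * (℘[L] (z + k * z₀) - ℘[L] h) = c₀ := by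
          intro k _
          have hnot : z + k * z₀ + h ∉ L.lattice := by
            have := S.add_notMem hzh k
            rwa [show z + h + k * z₀ = z + k * z₀ + h by ring] at this
          have := hc (z + k * z₀) (S.add_notMem hz k) hnot
          unfold halfProd at this
          rw [show z + h + k * z₀ = z + k * z₀ + h by ring]
          exact this
        rw [Finset.prod_congr rfl hk, Finset.prod_const, Finset.card_range]
      unfold auxF at h1
      have hcp : c₀ ^ p ≠ 0 := pow_ne_zero _ hc₀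
      rw [div_mul_eq_mul_div, eq_div_iff hcp, ← h2, ← h1]
      ring
  refine ⟨C / c₀ ^ p, ?_, fun z hz => key z hz⟩
  have hev : (fun z => z ^ 2 * (℘[L'] z - ℘[L'] h)) =ᶠ[𝓝[≠] (0 : ℂ)]
      fun z => C / c₀ ^ p * (z ^ 2 * (℘[L] z - ℘[L] h)) * subTail L p z₀ (℘[L] h) z := by
    filter_upwards [eventually_notMem L' 0] with z hzL
    rw [key z hzL, subProd_eq L hodd.pos]
    ring
  have hT : Tendsto (subTail L p z₀ (℘[L] h)) (𝓝[≠] (0 : ℂ))
      (𝓝 (subTail L p z₀ (℘[L] h) 0)) :=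
    ((analyticAt_subTail L p z₀ (℘[L] h) (z := 0)
      (fun k hk => by simpa using S.nat_mul_notMem hk)).continuousAt.tendsto).mono_left
      nhdsWithin_le_nhds
  have hlim : Tendsto
      (fun z => C / c₀ ^ p * (z ^ 2 * (℘[L] z - ℘[L] h)) * subTail L p z₀ (℘[L] h) z)
      (𝓝[≠] (0 : ℂ)) (𝓝 (C / c₀ ^ p * 1 * subTail L p z₀ (℘[L] h) 0)) :=
    ((tendsto_sq_mul_wp_sub L (℘[L] h)).const_mul (C / c₀ ^ p)).mul hT
  have huniq := tendsto_nhds_unique ((tendsto_sq_mul_wp_sub L' (℘[L'] h)).congr' hev) hlim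
  have hT0 : subTail L p z₀ (℘[L] h) 0 = ∏ k ∈ Finset.Ico 1 p, (℘[L] (k * z₀) - ℘[L] h) := by
    unfold subTail
    refine Finset.prod_congr rfl fun k _ => ?_
    rw [zero_add]
  rw [← hT0]
  linear_combination -huniq

end Fermat.Agent.S12P.HalfProd4
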