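import Mathlib
import Fermat.Agent.S13.LocP.Frey

/-!
# S12 — row 636 (`LocP`), piece (A): inertia at a multiplicative `p` and `p`-POWER torsion
(helper62)

Main's `S13.LocP.sub_inE1_of_mult` / `sub_inE1_int_mult` / `frey_leg_model` say: for an inertia
element `σ` above `p` and a `p`-torsion point `Q`, `Q - σ Q` lies in the kernel of reduction.
Here the same statements for `p ^ k`-torsion points.

Proof.  For a point `(x, y)` near the node (`v x < 1`), the class function of `S05` at `p ^ k`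
gives `v x ^ p ^ k = v a₄ ^ m`; so `w = x ^ p ^ k / a₄ ^ m` is a unit, `σ w ≡ w`, and
`u = σ x / x` satisfies `u ^ p ^ k ≡ 1` modulo the maximal ideal.  In residue characteristic `p`
this forces `u ≡ 1`, i.e. `v (x - σ x) < v x`; the same for `y`; then main's
`sub_inE1_of_rel_close` applies.  (No hypothesis `a₄ = t ^ p` is needed.)
-/

set_option autoImplicit false

namespace Fermat.Agent.S12P.LocPPow62

open WeierstrassCurve WeierstrassCurve.Affine
open Fermat.Agent.S05 Fermat.Agent.S13.LocP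

section Val

variable {K : Type*} [Field K] {Γ₀ : Type*} [LinearOrderedCommGroupWithZero Γ₀]
  (v : Valuation K Γ₀)

/-- In residue characteristic `p`, an integral element whose `p ^ n`-th power is `≡ 1` is
`≡ 1`. -/
theorem val_sub_one_lt_of_pow {p : ℕ} (hp : p.Prime) (hpv : v (p : K) < 1) (n : ℕ) {u : K}
    (hu : v u ≤ 1) (h : v (u ^ p ^ n - 1) < 1) : v (u - 1) < 1 := by
  have hu1 : v (u - 1) ≤ 1 := by
    refine le_trans (v.map_sub _ _) (max_le hu ?_)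
    rw [map_one]
  obtain ⟨r, hr⟩ := exists_add_pow_prime_pow_eq hp
    (⟨u - 1, (Valuation.mem_integer_iff v _).mpr hu1⟩ : v.integer) 1 n
  have hr' : (u - 1 + 1) ^ p ^ n =
      (u - 1) ^ p ^ n + 1 ^ p ^ n + (p : K) * (u - 1) * 1 * (r : K) := by
    have := congrArg (fun z : v.integer => (z : K)) hr
    simpa using this
  have hrv : v (r : K) ≤ 1 := (Valuation.mem_integer_iff v _).mp r.2
  have e : (u - 1) ^ p ^ n = (u ^ p ^ n - 1) - (p : K) * (u - 1) * (r : K) := by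
    rw [sub_add_cancel, one_pow, mul_one] at hr'
    rw [hr']
    ring
  by_contra hcon
  have h1 : 1 ≤ v (u - 1) := not_lt.mp hcon
  have h2 : 1 ≤ v ((u - 1) ^ p ^ n) := by
    rw [map_pow]
    exact one_le_pow₀ h1
  have h3 : v ((u - 1) ^ p ^ n) < 1 := by
    rw [e]
    refine lt_of_le_of_lt (v.map_sub _ _) (max_lt h ?_)
    rw [map_mul, map_mul]
    calc v (p : K) * v (u - 1) * v (r : K) ≤ v (p : K) * 1 * 1 := by gcongr
      _ < 1 := by rw [mul_one, mul_one]; exact hpv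
  exact absurd h2 (not_le.mpr h3)

variable {F : Type*} [Field F] [Algebra F K]

/-- An element `z` with `v z ^ p ^ n` a power of the valuation of a `σ`-fixed element is moved
by `σ` by something relatively small, if `σ` acts trivially on the residue field and the residue
characteristic is `p`. -/
theorem galois_close_pow (σ : K ≃ₐ[F] K) (hσ : ∀ x : K, v x ≤ 1 → v (σ x - x) < 1)
    {p : ℕ} (hp : p.Prime) (hpv : v (p : K) < 1) {τ : K} (hτ : τ ≠ 0) (hστ : σ τ = τ) (n : ℕ)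
    (m : ℤ) {z : K} (hz : v z ^ p ^ n = v τ ^ m) : v (z - σ z) < v z := by
  have hvτ : v τ ≠ 0 := (Valuation.ne_zero_iff v).mpr hτ
  have hτm : τ ^ m ≠ 0 := zpow_ne_zero m hτ
  have hvτm : v (τ ^ m) = v τ ^ m := map_zpow₀ v τ m
  have hpn : p ^ n ≠ 0 := pow_ne_zero n hp.ne_zero
  have hz0 : z ≠ 0 := by
    rintro rfl
    rw [map_zero, zero_pow hpn] at hz
    exact zpow_ne_zero m hvτ hz.symm
  have hvz : v z ≠ 0 := (Valuation.ne_zero_iff v).mpr hz0
  have hσz0 : σ z ≠ 0 := (map_ne_zero σ).mpr hz0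
  obtain ⟨w, hw⟩ : ∃ w, w = z ^ p ^ n / τ ^ m := ⟨_, rfl⟩
  have hvw : v w = 1 := by
    rw [hw, map_div₀, map_pow, hvτm, hz, div_self (zpow_ne_zero m hvτ)]
  have hw0 : w ≠ 0 := fun h0 => by
    rw [h0, map_zero] at hvw
    exact zero_ne_one hvw
  have hσw : σ w = (σ z) ^ p ^ n / τ ^ m := by
    rw [hw, map_div₀, map_pow, map_zpow₀, hστ]
  obtain ⟨u, hu⟩ : ∃ u, u = σ z / z := ⟨_, rfl⟩
  have hupow : u ^ p ^ n = σ w / w := by
    have hzn : z ^ p ^ n ≠ 0 := pow_ne_zero _ hz0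
    rw [hσw, hw, hu, div_pow]
    field_simp
  have h1 : v (σ w - w) < 1 := hσ w hvw.le
  have h2 : v (u ^ p ^ n - 1) < 1 := by
    have e : u ^ p ^ n - 1 = (σ w - w) / w := by
      rw [hupow]
      field_simp
    rw [e, map_div₀, hvw, div_one]
    exact h1
  have hupn : v (u ^ p ^ n) = 1 := by
    have e : u ^ p ^ n = 1 + (u ^ p ^ n - 1) := by ring
    rw [e]
    exact v.map_one_add_of_lt h2
  have hu1 : v u ≤ 1 := by
    by_contra hcon
    have h3 := one_lt_pow₀ (not_le.mp hcon) hpn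
    rw [← map_pow, hupn] at h3
    exact lt_irrefl _ h3
  have h3 := val_sub_one_lt_of_pow v hp hpv n hu1 h2
  have e : z - σ z = -((u - 1) * z) := by
    rw [hu]
    field_simp
    ring
  rw [e, Valuation.map_neg, map_mul]
  calc v (u - 1) * v z < 1 * v z := mul_lt_mul_of_pos_right h3 (zero_lt_iff.mpr hvz)
    _ = v z := one_mul _

end Val

section Curve

variable {K : Type*} [Field K] {Γ₀ : Type*} [LinearOrderedCommGroupWithZero Γ₀]
  (v : Valuation K Γ₀) {W : Affine K} [DecidableEq K]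

/-- A `p ^ n`-torsion point (`p` odd) whose `x`-coordinate has `v x < 1`: then `v a₄ < v x` and
`v x ^ p ^ n` is an integer power of `v a₄`. -/
theorem torsion_val_pow (hW : IsLeg W) (ha : v W.a₂ = 1) (h2 : v 2 = 1) (hb : v W.a₄ < 1)
    (hb0 : W.a₄ ≠ 0) {β : K} (hβ : β ^ 2 = W.a₂) {p : ℕ} (hp2 : Odd p) (n : ℕ)
    {x y : K} (h : W.Nonsingular x y) (hP : p ^ n • Point.some x y h = 0) (hx : v x < 1) :
    v W.a₄ < v x ∧ ∃ m : ℤ, v x ^ p ^ n = v W.a₄ ^ m := by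
  have hc : v W.a₄ ≠ 0 := (Valuation.ne_zero_iff v).mpr hb0
  have hinj : ∀ j : ℤ, v W.a₄ ^ j = 1 → j = 0 := fun j hj =>
    (zpow_eq_one_iff_right₀ zero_le hb.ne).mp hj
  obtain ⟨k, hk⟩ := cls_nsmul v hW ha h2 hb hb0 hβ (p ^ n) (Point.some x y h)
  rw [hP] at hk
  have hcls0 : cls v β (0 : W.Point) = 1 := rfl
  have hunf : cls v β (Point.some x y h) =
      if 1 ≤ v x then 1 else if v x ≤ v W.a₄ then v W.a₄
        else if v (y - β * x) < v x then v x else v W.a₄ ^ 2 / v x := rfl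
  rw [hcls0, hunf, if_neg (not_le.mpr hx)] at hk
  by_cases hM : v x ≤ v W.a₄
  · exfalso
    rw [if_pos hM] at hk
    have h1 : v W.a₄ ^ (((p ^ n : ℕ) : ℤ) + 2 * k) = 1 := by
      rw [zpow_add₀ hc, zpow_natCast]
      exact hk.symm
    have h3 := hinj _ h1
    obtain ⟨j, hj⟩ := hp2.pow (n := n)
    have hj' : ((p ^ n : ℕ) : ℤ) = 2 * (j : ℤ) + 1 := by exact_mod_cast hj
    generalize ((p ^ n : ℕ) : ℤ) = N at h3 hj'
    omega
  · rw [if_neg hM] at hk
    refine ⟨not_le.mp hM, ?_⟩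
    by_cases hS : v (y - β * x) < v x
    · rw [if_pos hS] at hk
      refine ⟨-(2 * k), ?_⟩
      rw [zpow_neg]
      exact eq_inv_of_mul_eq_one_left hk.symm
    · rw [if_neg hS] at hk
      have hvx0 : v x ≠ 0 := ne_of_gt (lt_of_le_of_lt zero_le (not_le.mp hM))
      have hxn : v x ^ p ^ n ≠ 0 := pow_ne_zero _ hvx0
      refine ⟨((2 * p ^ n : ℕ) : ℤ) + 2 * k, ?_⟩
      have e : v x ^ p ^ n = (v W.a₄ ^ 2) ^ p ^ n * v W.a₄ ^ (2 * k) := by
        have h' : v x ^ p ^ n * 1 =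
            v x ^ p ^ n * ((v W.a₄ ^ 2 / v x) ^ p ^ n * v W.a₄ ^ (2 * k)) := by rw [← hk]
        rw [mul_one, div_pow, div_eq_mul_inv, ← mul_assoc, mul_comm ((v W.a₄ ^ 2) ^ p ^ n),
          ← mul_assoc, mul_inv_cancel₀ hxn, one_mul] at h'
        exact h'
      rw [e, zpow_add₀ hc, zpow_natCast, pow_mul]

end Curve

section Point

variable {F K : Type*} [Field F] [Field K] [Algebra F K] [DecidableEq K] {Γ₀ : Type*}
  [LinearOrderedCommGroupWithZero Γ₀] (v : Valuation K Γ₀)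

/-- Multiplicative reduction in residue characteristic `p` (odd): `P - σ P` lies in the kernel
of reduction, for every `p ^ k`-torsion point `P`. -/
theorem sub_inE1_of_mult_pow (W₀ : Affine F) (hW : IsLeg W₀) (σ : K ≃ₐ[F] K)
    (hσ : ∀ x : K, v x ≤ 1 → v (σ x - x) < 1)
    (h2 : v 2 = 1) (ha : v (algebraMap F K W₀.a₂) = 1)
    (hb : v (algebraMap F K W₀.a₄) < 1) (hb0 : W₀.a₄ ≠ 0)
    {p : ℕ} (hp : p.Prime) (hp2 : p ≠ 2) (hpv : v (p : K) < 1)
    {β : K} (hβ : β ^ 2 = algebraMap F K W₀.a₂) (k : ℕ)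
    (P : (W₀⁄K).Point) (hP : p ^ k • P = 0) :
    InE1 v (P - Point.map (W' := W₀) σ.toAlgHom P) := by
  have hWK : IsLeg (W₀⁄K) := LocalMult.isLeg_baseChange W₀ hW
  have ha' : v (W₀⁄K).a₂ = 1 := ha
  have hb' : v (W₀⁄K).a₄ < 1 := hb
  have hb0' : (W₀⁄K).a₄ ≠ 0 := by
    show algebraMap F K W₀.a₄ ≠ 0
    exact (map_ne_zero _).mpr hb0
  have hβ' : β ^ 2 = (W₀⁄K).a₂ := hβ
  have hodd : Odd p := hp.odd_of_ne_two hp2
  rcases P with _ | ⟨x, y, h⟩
  · exact trivial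
  · have hE : LegEq (W₀⁄K).a₂ (W₀⁄K).a₄ x y := ((hWK.nonsingular_iff x y).mp h).1
    have h' : (W₀⁄K).Nonsingular (σ x) (σ y) :=
      (W₀.baseChange_nonsingular σ.toAlgHom.injective ..).mpr h
    show InE1 v (Point.some x y h - Point.some (σ x) (σ y) h')
    rcases lt_trichotomy (v x) 1 with hx | hx | hx
    · -- `v x < 1`
      obtain ⟨hbx, m, hm⟩ := torsion_val_pow v hWK ha' h2 hb' hb0' hβ' hodd k h hP hx
      have hστ : σ (algebraMap F K W₀.a₄) = algebraMap F K W₀.a₄ := σ.commutes _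
      have hyx : v y = v x := LocalMult.val_y_eq_val_x v ha' hbx hx hE
      have hx' : v (x - σ x) < v x := galois_close_pow v σ hσ hp hpv hb0' hστ k m hm
      have hy' : v (y - σ y) < v y :=
        galois_close_pow v σ hσ hp hpv hb0' hστ k m (by rw [hyx]; exact hm)
      exact sub_inE1_of_rel_close v hWK ha' h2 hb' h h' hx hbx hx' hy'
    · -- `v x = 1`
      have hy : v y ≤ 1 := LocalMult.val_y_le_one v ha'.le hb'.le hx.le hE
      have hns := LocalMult.nonsing_red v h2 ha' hb' hx hE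
      refine sub_inE1_of_same_red v hWK ha'.le hb'.le h h' hx.le hy ?_ ?_ hns
      · rw [Valuation.map_sub_swap]; exact hσ x hx.le
      · rw [Valuation.map_sub_swap]; exact hσ y hy
    · -- `1 < v x`: both `P` and `σ P` are in the kernel of reduction
      have hin : InE1 v (Point.some x y h) := hx
      have hin' : InE1 v (Point.some (σ x) (σ y) h') := one_lt_map_of_one_lt v σ hσ hx
      rw [sub_eq_add_neg]
      exact inE1_add v hWK ha'.le hb'.le hin (inE1_neg v hin')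

end Point

local notation "Qbar" => AlgebraicClosure ℚ

section IntModel

variable {Wℤ : WeierstrassCurve ℤ}

/-- Multiplicative reduction at `p`, integral Legendre model, `p ^ k`-torsion. -/
theorem sub_inE1_int_mult_pow (hW : IsLeg (Wℤ.map (Int.castRingHom ℚ) : Affine ℚ)) {p : ℕ}
    (hp : p.Prime) (hp2 : p ≠ 2) (h₂ : ¬ (p : ℤ) ∣ Wℤ.a₂) (h₄ : (p : ℤ) ∣ Wℤ.a₄)
    (h₄0 : Wℤ.a₄ ≠ 0)
    (A : ValuationSubring Qbar) (hA : A.LiesOverPrime p) (σ : Qbar ≃ₐ[ℚ] Qbar)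
    (hσ : σ ∈ A.inertiaSubgroupIn ℚ) (k : ℕ)
    (Q : ((Wℤ.map (Int.castRingHom ℚ) : Affine ℚ)⁄Qbar).Point) (hQ : p ^ k • Q = 0) :
    InE1 A.valuation
      (Q - Point.map (W' := (Wℤ.map (Int.castRingHom ℚ) : Affine ℚ)) σ.toAlgHom Q) := by
  have hpA : A.valuation ((p : ℕ) : Qbar) < 1 := by
    have : ((p : ℕ) : Qbar) ∈ A.nonunits := hA
    rwa [ValuationSubring.mem_nonunits_iff] at this
  have hσ' : ∀ x : Qbar, A.valuation x ≤ 1 → A.valuation (σ x - x) < 1 :=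
    fun x hx => inertia_spec A σ hσ x hx
  have h2 := val_two_eq_one hp hp2 A hpA
  have ha : A.valuation (algebraMap ℚ Qbar (Wℤ.map (Int.castRingHom ℚ) : Affine ℚ).a₂) = 1 := by
    rw [algebraMap_map_a₂]
    exact val_intCast_eq_one A hp hpA h₂
  have hb : A.valuation (algebraMap ℚ Qbar (Wℤ.map (Int.castRingHom ℚ) : Affine ℚ).a₄) < 1 := by
    rw [algebraMap_map_a₄]
    exact val_intCast_lt_one A hpA h₄
  have hb0 : (Wℤ.map (Int.castRingHom ℚ) : Affine ℚ).a₄ ≠ 0 := by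
    show Int.castRingHom ℚ Wℤ.a₄ ≠ 0
    rw [eq_intCast]
    exact Int.cast_ne_zero.mpr h₄0
  obtain ⟨β, hβ⟩ := IsAlgClosed.exists_pow_nat_eq
    (algebraMap ℚ Qbar (Wℤ.map (Int.castRingHom ℚ) : Affine ℚ).a₂) (n := 2) (by norm_num)
  exact sub_inE1_of_mult_pow A.valuation _ hW σ hσ' h2 ha hb hb0 hp hp2 hpA hβ k Q hQ

end IntModel

section Frey

/-- **Main's `S13.LocP.frey_leg_model` for `p`-POWER torsion**: a Legendre model of the Frey
curve with integer coefficients (the SAME four clauses as on main), for which `Q - σ Q` lies in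
the kernel of reduction for all inertia elements `σ` above `p` and all `p ^ k`-torsion points
`Q`, every `k`. -/
theorem frey_leg_model_pow (P : FreyPackage) :
    ∃ (Wℤ : WeierstrassCurve ℤ) (r₀ : ℚ),
      IsLeg (Wℤ.map (Int.castRingHom ℚ) : Affine ℚ) ∧
      (Wℤ.map (Int.castRingHom ℚ) : Affine ℚ).a₂ = 4 * P.freyCurve.a₂ + 1 - 3 * r₀ ∧
      (Wℤ.map (Int.castRingHom ℚ) : Affine ℚ).a₄ =
        16 * P.freyCurve.a₄ - 2 * r₀ * (4 * P.freyCurve.a₂ + 1) + 3 * r₀ ^ 2 ∧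
      r₀ ^ 3 - (4 * P.freyCurve.a₂ + 1) * r₀ ^ 2 + 16 * P.freyCurve.a₄ * r₀ = 0 ∧
      ∀ A : ValuationSubring Qbar, A.LiesOverPrime P.p → ∀ σ ∈ A.inertiaSubgroupIn ℚ,
        ∀ (k : ℕ) (Q : ((Wℤ.map (Int.castRingHom ℚ) : Affine ℚ)⁄Qbar).Point), P.p ^ k • Q = 0 →
          InE1 A.valuation
            (Q - Point.map (W' := (Wℤ.map (Int.castRingHom ℚ) : Affine ℚ)) σ.toAlgHom Q) := by
  have hp := P.pp
  have hp2 : P.p ≠ 2 := by have := P.hp5; omega
  have hqi : Prime (P.p : ℤ) := Nat.prime_iff_prime_int.mp hp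
  have hab : (P.p : ℤ) ∣ P.a → (P.p : ℤ) ∣ P.b → False := fun h1 h2 =>
    hqi.not_dvd_one (P.hgcdab ▸ dvd_gcd h1 h2)
  have hac : (P.p : ℤ) ∣ P.a → (P.p : ℤ) ∣ P.c → False := fun h1 h2 =>
    hqi.not_dvd_one (P.hgcdac ▸ dvd_gcd h1 h2)
  have hFLT := P.hFLT
  have hFLTQ : (P.a : ℚ) ^ P.p + (P.b : ℚ) ^ P.p = (P.c : ℚ) ^ P.p := by exact_mod_cast hFLT
  have hE₂ : P.freyCurve.a₂ = ((P.b : ℚ) ^ P.p - 1 - (P.a : ℚ) ^ P.p) / 4 := rfl
  have hE₄ : P.freyCurve.a₄ = -((P.a : ℚ) ^ P.p) * ((P.b : ℚ) ^ P.p) / 16 := rfl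
  by_cases hc : (P.p : ℤ) ∣ P.c
  · -- multiplicative reduction, `p ∣ c`
    have hna : ¬ (P.p : ℤ) ∣ P.a := fun h => hac h hc
    refine ⟨legC P, -((P.a : ℚ) ^ P.p), isLeg_legC P, ?_, ?_, ?_, ?_⟩
    · show Int.castRingHom ℚ (P.a ^ P.p + P.c ^ P.p) = _
      rw [hE₂, eq_intCast]; push_cast; rw [← hFLTQ]; ring
    · show Int.castRingHom ℚ (P.a ^ P.p * P.c ^ P.p) = _
      rw [hE₂, hE₄, eq_intCast]; push_cast; rw [← hFLTQ]; ring
    · rw [hE₂, hE₄]; ring
    · intro A hA σ hσ k Q hQ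
      refine sub_inE1_int_mult_pow (isLeg_legC P) hp hp2 ?_ ?_ ?_ A hA σ hσ k Q hQ
      · show ¬ (P.p : ℤ) ∣ P.a ^ P.p + P.c ^ P.p
        intro h
        have h1 : (P.p : ℤ) ∣ P.c ^ P.p := dvd_pow hc P.hp0
        have h2 : (P.p : ℤ) ∣ P.a ^ P.p := (dvd_add_left h1).mp h
        exact hna (hqi.dvd_of_dvd_pow h2)
      · show (P.p : ℤ) ∣ P.a ^ P.p * P.c ^ P.p
        exact Dvd.dvd.mul_left (dvd_pow hc P.hp0) _
      · show P.a ^ P.p * P.c ^ P.p ≠ 0
        exact mul_ne_zero (pow_ne_zero _ P.ha0) (pow_ne_zero _ P.hc0)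
  · refine ⟨legAB P, 0, isLeg_legAB P, ?_, ?_, ?_, ?_⟩
    · show Int.castRingHom ℚ (P.b ^ P.p - P.a ^ P.p) = _
      rw [hE₂, eq_intCast]; push_cast; ring
    · show Int.castRingHom ℚ (-(P.a ^ P.p * P.b ^ P.p)) = _
      rw [hE₂, hE₄, eq_intCast]; push_cast; ring
    · ring
    · intro A hA σ hσ k Q hQ
      by_cases hab' : (P.p : ℤ) ∣ P.a * P.b
      · -- multiplicative reduction, `p ∣ a b`
        refine sub_inE1_int_mult_pow (isLeg_legAB P) hp hp2 ?_ ?_ ?_ A hA σ hσ k Q hQ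
        · show ¬ (P.p : ℤ) ∣ P.b ^ P.p - P.a ^ P.p
          intro h
          rcases hqi.dvd_or_dvd hab' with h1 | h1
          · have h2 : (P.p : ℤ) ∣ P.a ^ P.p := dvd_pow h1 P.hp0
            have h3 : (P.p : ℤ) ∣ P.b ^ P.p := (dvd_sub_left h2).mp h
            exact hab h1 (hqi.dvd_of_dvd_pow h3)
          · have h2 : (P.p : ℤ) ∣ P.b ^ P.p := dvd_pow h1 P.hp0
            have h3 : (P.p : ℤ) ∣ P.a ^ P.p := (dvd_sub_right h2).mp h
            exact hab (hqi.dvd_of_dvd_pow h3) h1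
        · show (P.p : ℤ) ∣ -(P.a ^ P.p * P.b ^ P.p)
          rw [dvd_neg, ← mul_pow]
          exact dvd_pow hab' P.hp0
        · show -(P.a ^ P.p * P.b ^ P.p) ≠ 0
          exact neg_ne_zero.mpr (mul_ne_zero (pow_ne_zero _ P.ha0) (pow_ne_zero _ P.hb0))
      · -- good reduction
        have hna : ¬ (P.p : ℤ) ∣ P.a := fun h => hab' (Dvd.dvd.mul_right h _)
        have hnb : ¬ (P.p : ℤ) ∣ P.b := fun h => hab' (Dvd.dvd.mul_left h _)
        refine sub_inE1_int_good (isLeg_legAB P) hp hp2 ?_ A hA σ hσ Q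
        show ¬ (P.p : ℤ) ∣ -(P.a ^ P.p * P.b ^ P.p) *
          ((P.b ^ P.p - P.a ^ P.p) ^ 2 - 4 * -(P.a ^ P.p * P.b ^ P.p))
        have e : -(P.a ^ P.p * P.b ^ P.p) *
            ((P.b ^ P.p - P.a ^ P.p) ^ 2 - 4 * -(P.a ^ P.p * P.b ^ P.p)) =
            -(P.a ^ P.p * P.b ^ P.p * (P.c ^ P.p) ^ 2) := by
          rw [← hFLT]; ring
        rw [e, dvd_neg]
        intro h
        rcases hqi.dvd_or_dvd h with h1 | h1
        · rcases hqi.dvd_or_dvd h1 with h2 | h2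
          · exact hna (hqi.dvd_of_dvd_pow h2)
          · exact hnb (hqi.dvd_of_dvd_pow h2)
        · exact hc (hqi.dvd_of_dvd_pow (hqi.dvd_of_dvd_pow h1))

end Frey

end Fermat.Agent.S12P.LocPPow62
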