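import Mathlib
import Fermat.Agent.S12P.LocPPow62
import Fermat.Agent.S12P.LocPMove62
import Fermat.Agent.EC.FreyLocP
import Fermat.Agent.Lib.Frey.Semistable

/-!
# S12 — row 636: `LocP` (assembly, helper62)

For the integral Frey model `E = P.freyCurveInt`, a cofixed subgroup `N ⊆ E[p]` of order `p` and a
place `A ∣ p`: the kernel of reduction `E1` on the integral Legendre model (transported by main's
equivariant transfer) is stable under the decomposition group, contains `σ x - x` for inertia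
`σ` and `p`-power torsion `x` (`LocPPow62.frey_leg_model_pow`), meets `E[p]` inside `N`
(main's Gauss-valuation count `S13.LocP.mem_of_inE1`; the alternative "`N ∩ E1 = 0`" of the
dichotomy is excluded because some inertia element moves `N`, `LocPMove62.exists_inertia_moving`).
-/

set_option autoImplicit false

namespace Fermat.Agent.S12P.LocPAsm62

open WeierstrassCurve WeierstrassCurve.Affine Polynomial
open Fermat.Agent.S05 Fermat.Agent.S13.LocP Fermat.Agent.Lib.ECTors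

local notation "Qbar" => AlgebraicClosure ℚ

open scoped Pointwise in
/-- The decomposition group preserves the kernel of reduction. -/
theorem inE1_map_of_mem_decomposition (W₀ : Affine ℚ) (A : ValuationSubring Qbar)
    (σ : Qbar ≃ₐ[ℚ] Qbar) (hσ : σ ∈ A.decompositionSubgroup ℚ) {Q : (W₀⁄Qbar).Point}
    (hQ : InE1 A.valuation Q) :
    InE1 A.valuation (Point.map (W' := W₀) σ.toAlgHom Q) := by
  rcases Q with _ | ⟨x, y, h⟩
  · exact trivial
  · have hx : 1 < A.valuation x := hQ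
    show 1 < A.valuation (σ x)
    by_contra hcon
    have h1 : σ x ∈ A := (A.valuation_le_one_iff _).mp (not_lt.mp hcon)
    have hσ' : σ⁻¹ • A = A := inv_mem hσ
    have h3 : σ⁻¹ • (σ x) ∈ σ⁻¹ • A := ValuationSubring.smul_mem_pointwise_smul _ _ _ h1
    rw [hσ'] at h3
    have e : σ⁻¹ • (σ x) = x := by
      show σ⁻¹ (σ x) = x
      exact σ.symm_apply_apply x
    rw [e] at h3
    exact absurd ((A.valuation_le_one_iff _).mpr h3) (not_le.mpr hx)

/-- **Legendre level.**  If some inertia element above `p` moves a point of the Galois-stable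
"line" `N₀`, then every `p`-torsion point in the kernel of reduction lies in `N₀`. -/
theorem leg_mem_of_inE1 (Wℤ : WeierstrassCurve ℤ)
    (hW : IsLeg (Wℤ.map (Int.castRingHom ℚ) : Affine ℚ)) {p : ℕ} (hp : p.Prime)
    (hodd : ¬ Even p)
    (hcardV : Nat.card (Submodule.torsionBy ℤ
      ((Wℤ.map (Int.castRingHom ℚ) : Affine ℚ)⁄Qbar).Point (p : ℤ)) = p ^ 2)
    (A : ValuationSubring Qbar) (hA : A.LiesOverPrime p)
    (hsub : ∀ σ ∈ A.inertiaSubgroupIn ℚ,
      ∀ Q : ((Wℤ.map (Int.castRingHom ℚ) : Affine ℚ)⁄Qbar).Point, (p : ℤ) • Q = 0 →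
        InE1 A.valuation (Q - Point.map (W' := (Wℤ.map (Int.castRingHom ℚ) : Affine ℚ))
          σ.toAlgHom Q))
    (N₀ : AddSubgroup ((Wℤ.map (Int.castRingHom ℚ) : Affine ℚ)⁄Qbar).Point)
    (hNp : ∀ R ∈ N₀, (p : ℤ) • R = 0)
    (hcyc : ∀ Q ∈ N₀, Q ≠ 0 → ∀ R ∈ N₀, ∃ k : ℤ, R = k • Q)
    (hstab : ∀ σ : Qbar ≃ₐ[ℚ] Qbar, ∀ R ∈ N₀,
      Point.map (W' := (Wℤ.map (Int.castRingHom ℚ) : Affine ℚ)) σ.toAlgHom R ∈ N₀)
    (hmove : ∃ σ ∈ A.inertiaSubgroupIn ℚ, ∃ Q ∈ N₀,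
      Point.map (W' := (Wℤ.map (Int.castRingHom ℚ) : Affine ℚ)) σ.toAlgHom Q ≠ Q)
    (R : ((Wℤ.map (Int.castRingHom ℚ) : Affine ℚ)⁄Qbar).Point) (hRp : (p : ℤ) • R = 0)
    (hR1 : InE1 A.valuation R) : R ∈ N₀ := by
  classical
  have hWK : IsLeg ((Wℤ.map (Int.castRingHom ℚ) : Affine ℚ)⁄Qbar) :=
    LocalMult.isLeg_baseChange _ hW
  have hp0 : ((p : ℕ) : Qbar) ≠ 0 := Nat.cast_ne_zero.mpr hp.ne_zero
  have hs := fun x => Card.mem_torsionXs
    (torsionCriterion ((Wℤ.map (Int.castRingHom ℚ) : Affine ℚ)⁄Qbar)) hodd hp0 x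
  have hpre := (preΨ_eq_prod_of_card ((Wℤ.map (Int.castRingHom ℚ) : Affine ℚ)⁄Qbar) hodd hp0
    hcardV).2
  -- the finite set of `x`-coordinates of `N₀ ∖ 0`
  have hfin : {x : Qbar | ∃ y h, Point.some
      (W' := (Wℤ.map (Int.castRingHom ℚ) : Affine ℚ)⁄Qbar) x y h ∈ N₀}.Finite := by
    refine (Card.torsionXs ((Wℤ.map (Int.castRingHom ℚ) : Affine ℚ)⁄Qbar) p).finite_toSet.subset ?_
    rintro x ⟨y, h, hQ⟩
    exact (hs x).mpr ⟨y, h, hNp _ hQ⟩
  obtain ⟨XN, hXN⟩ : ∃ XN : Finset Qbar, ∀ x, x ∈ XN ↔ ∃ y h, Point.some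
      (W' := (Wℤ.map (Int.castRingHom ℚ) : Affine ℚ)⁄Qbar) x y h ∈ N₀ :=
    ⟨hfin.toFinset, fun x => hfin.mem_toFinset⟩
  -- the product of these `x`-coordinates is rational
  have hfix : ∀ σ : Qbar ≃ₐ[ℚ] Qbar, σ (∏ x ∈ XN, x) = ∏ x ∈ XN, x := by
    intro σ
    have himg : XN.image σ = XN := by
      apply Finset.eq_of_subset_of_card_le
      · intro x' hx'
        obtain ⟨x, hx, rfl⟩ := Finset.mem_image.mp hx'
        obtain ⟨y, h, hQ⟩ := (hXN x).mp hx
        have := hstab σ _ hQ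
        rw [Point.map_some] at this
        exact (hXN _).mpr ⟨_, _, this⟩
      · rw [Finset.card_image_of_injective _ σ.injective]
    rw [map_prod]
    conv_rhs => rw [← himg]
    rw [Finset.prod_image (fun x _ y _ hxy => σ.injective hxy)]
  obtain ⟨t, ht⟩ := Fermat.Agent.Lib.GalQbar.exists_ratCast_of_fixed _ hfix
  have hpA : A.valuation ((p : ℕ) : Qbar) < 1 := by
    have : ((p : ℕ) : Qbar) ∈ A.nonunits := hA
    rwa [ValuationSubring.mem_nonunits_iff] at this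
  have hden : p ∣ t.den := by
    by_contra hden
    have hprod : A.valuation (∏ x ∈ XN, x) ≤ 1 := by
      rw [← ht]
      exact val_rat_le_one A hp hpA t hden
    obtain ⟨σ, hσ, Q, hQ, hne⟩ := hmove
    have hmem : Q - Point.map (W' := (Wℤ.map (Int.castRingHom ℚ) : Affine ℚ)) σ.toAlgHom Q ∈ N₀ :=
      N₀.sub_mem hQ (hstab σ Q hQ)
    have h0 := eq_zero_of_inE1 A.valuation hWK (val_a₂_le_one A Wℤ) (val_a₄_le_one A Wℤ) N₀ hcyc
      XN hXN hprod hmem (hsub σ hσ Q (hNp Q hQ))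
    exact hne (sub_eq_zero.mp h0).symm
  have hprod : (A.valuation ((p : ℕ) : Qbar))⁻¹ ≤ A.valuation (∏ x ∈ XN, x) := by
    rw [← ht]
    exact inv_val_le_val_rat A hp hpA t hden
  exact mem_of_inE1 A.valuation hWK (val_a₂_le_one A Wℤ) (val_a₄_le_one A Wℤ) hp0 hpA _ hs hpre
    (fun n => val_coeff_preΨ_le_one A Wℤ _ n) N₀ hNp hcyc XN hXN hprod hRp hR1

/-- **(LOCP)** the literal body of `Fermat.Agent.S12P.LocP` (`S12P/Interfaces20.lean`). -/
theorem locP :
    ∀ (P : FreyPackage)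
      (N : AddSubgroup ((P.freyCurveInt.map (Int.castRingHom ℚ))⁄(AlgebraicClosure ℚ)).Point),
      Nat.card N = P.p → (∀ x ∈ N, P.p • x = 0) →
      (∀ σ : AlgebraicClosure ℚ ≃ₐ[ℚ] AlgebraicClosure ℚ, ∀ x ∈ N, σ • x ∈ N) →
      (∀ (σ : AlgebraicClosure ℚ ≃ₐ[ℚ] AlgebraicClosure ℚ)
        (x : ((P.freyCurveInt.map (Int.castRingHom ℚ))⁄(AlgebraicClosure ℚ)).Point),
        P.p • x = 0 → σ • x - x ∈ N) →
      ∀ A : ValuationSubring (AlgebraicClosure ℚ), A.LiesOverPrime P.p →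
      ∃ E1 : AddSubgroup ((P.freyCurveInt.map (Int.castRingHom ℚ))⁄(AlgebraicClosure ℚ)).Point,
        (∀ σ ∈ A.decompositionSubgroup ℚ, ∀ x ∈ E1, σ • x ∈ E1) ∧
        (∀ σ ∈ A.inertiaSubgroupIn ℚ,
          ∀ (x : ((P.freyCurveInt.map (Int.castRingHom ℚ))⁄(AlgebraicClosure ℚ)).Point) (k : ℕ),
          P.p ^ k • x = 0 → σ • x - x ∈ E1) ∧
        (∀ x ∈ E1, P.p • x = 0 → x ∈ N) ∧
        ∃ σ ∈ A.inertiaSubgroupIn ℚ, ∃ x ∈ N, σ • x ≠ x := by
  classical
  intro P N hcard hNp hst hcof A hA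
  have hFact : Fact P.p.Prime := ⟨P.pp⟩
  have hp := P.pp
  have hp2 : P.p ≠ 2 := by have := P.hp5; omega
  have hodd : ¬ Even P.p := Nat.not_even_iff_odd.mpr P.hp_odd
  have hpK : ((P.p : ℕ) : Qbar) ≠ 0 := Nat.cast_ne_zero.mpr P.hp0
  have hΔ := Fermat.Agent.Frey.freyCurveInt_Δ_ne_zero P
  have hmap := Fermat.Agent.Frey.freyCurveInt_map P
  obtain ⟨Wℤ, r₀, hW, h₂, h₄, h₆, hsub⟩ := LocPPow62.frey_leg_model_pow P
  obtain ⟨φ, hφinj, hφσ⟩ := exists_equivariant_transfer (K := Qbar)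
    (P.freyCurveInt.map (Int.castRingHom ℚ) : Affine ℚ)
    (Wℤ.map (Int.castRingHom ℚ) : Affine ℚ) r₀
    (by rw [hmap]; rfl) (by rw [hmap]; rfl) (by rw [hmap]; rfl) hW
    (by rw [hmap]; exact h₂) (by rw [hmap]; exact h₄) (by rw [hmap]; exact h₆) two_ne_zero
  have hWK : IsLeg ((Wℤ.map (Int.castRingHom ℚ) : Affine ℚ)⁄Qbar) :=
    LocalMult.isLeg_baseChange _ hW
  have ha := val_a₂_le_one A Wℤ
  have hb := val_a₄_le_one A Wℤ
  -- the Galois action on points is `Point.map`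
  have hact : ∀ (σ : Qbar ≃ₐ[ℚ] Qbar)
      (x : ((P.freyCurveInt.map (Int.castRingHom ℚ))⁄(AlgebraicClosure ℚ)).Point),
      φ (σ • x) = Point.map (W' := (Wℤ.map (Int.castRingHom ℚ) : Affine ℚ)) σ.toAlgHom (φ x) :=
    fun σ x => hφσ σ x
  -- clause 4
  obtain ⟨σ₀, hσ₀, x₀, hx₀N, hx₀⟩ :=
    LocPMove62.exists_inertia_moving P.freyCurveInt hΔ P.p hp2 N hcard hcof A hA
  refine ⟨(E1.E1sub A.valuation hWK ha hb).comap φ, ?_, ?_, ?_, ⟨σ₀, hσ₀, x₀, hx₀N, hx₀⟩⟩
  · -- clause 1: stable under the decomposition group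
    intro σ hσ x hx
    rw [AddSubgroup.mem_comap, E1.mem_E1sub] at hx ⊢
    rw [hact]
    exact inE1_map_of_mem_decomposition _ A σ hσ hx
  · -- clause 2: inertia and `p`-power torsion
    intro σ hσ x k hx
    rw [AddSubgroup.mem_comap, E1.mem_E1sub, map_sub, hact]
    have h1 := hsub A hA σ hσ k (φ x) (by rw [← map_nsmul, hx, map_zero])
    have h2 := inE1_neg A.valuation h1
    rwa [neg_sub] at h2
  · -- clause 3: `E1 ∩ E[p] ⊆ N`
    intro x hx hpx
    rw [AddSubgroup.mem_comap, E1.mem_E1sub] at hx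
    -- cardinality of the `p`-torsion of the Legendre model
    have hcardE : Nat.card (Fermat.Agent.S58.EpRep.Ep P.freyCurveInt P.p) = P.p ^ 2 := by
      have hfin := Fermat.Agent.S58.EpRep.finite_torsion (W := P.freyCurveInt) (p := P.p) hΔ
      have h := Module.natCard_eq_pow_finrank (K := ZMod P.p)
        (V := Fermat.Agent.S58.EpRep.Ep P.freyCurveInt P.p)
      rw [Fermat.Agent.S58.EpRep.finrank_torsion hΔ, Nat.card_zmod] at h
      exact h
    have hcardV : Nat.card (Submodule.torsionBy ℤ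
        ((Wℤ.map (Int.castRingHom ℚ) : Affine ℚ)⁄Qbar).Point (P.p : ℤ)) = P.p ^ 2 := by
      apply le_antisymm (card_torsionBy_le_of_odd _ hodd hpK)
      rw [← hcardE]
      have hfinV := finite_torsionBy_of_odd ((Wℤ.map (Int.castRingHom ℚ) : Affine ℚ)⁄Qbar) hodd hpK
      let ψ : Fermat.Agent.S58.EpRep.Ep P.freyCurveInt P.p →
          Submodule.torsionBy ℤ ((Wℤ.map (Int.castRingHom ℚ) : Affine ℚ)⁄Qbar).Point (P.p : ℤ) :=
        fun y => ⟨φ y.1, by
          rw [Submodule.mem_torsionBy_iff, ← map_zsmul, (Submodule.mem_torsionBy_iff _ _).mp y.2,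
            map_zero]⟩
      exact Nat.card_le_card_of_injective ψ
        (fun y z hyz => Subtype.ext (hφinj (congrArg Subtype.val hyz)))
    have hmemN₀ : ∀ y, φ y ∈ N.map φ ↔ y ∈ N := by
      intro y
      constructor
      · rintro ⟨z, hz, hzy⟩
        rw [← hφinj hzy]
        exact hz
      · intro hy
        exact ⟨y, hy, rfl⟩
    have hmem : φ x ∈ N.map φ := by
      refine leg_mem_of_inE1 Wℤ hW hp hodd hcardV A hA ?_ (N.map φ) ?_ ?_ ?_ ?_ (φ x) ?_ hx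
      · intro σ hσ Q hQ
        exact hsub A hA σ hσ 1 Q (by rw [pow_one]; rwa [natCast_zsmul] at hQ)
      · rintro R ⟨y, hy, rfl⟩
        rw [natCast_zsmul, ← map_nsmul, hNp y hy, map_zero]
      · rintro Q ⟨y, hy, rfl⟩ hQ0 R ⟨z, hz, rfl⟩
        have hy0 : (⟨y, hy⟩ : N) ≠ 0 := by
          intro h0
          apply hQ0
          have : y = 0 := congrArg Subtype.val h0
          rw [this, map_zero]
        obtain ⟨k, hk⟩ := exists_zsmul_of_natCard_prime hp hcard hy0 ⟨z, hz⟩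
        refine ⟨k, ?_⟩
        have : z = k • y := congrArg Subtype.val hk
        rw [this, map_zsmul]
      · rintro σ R ⟨y, hy, rfl⟩
        rw [← hact]
        exact (hmemN₀ _).mpr (hst σ y hy)
      · refine ⟨σ₀, hσ₀, φ x₀, (hmemN₀ _).mpr hx₀N, ?_⟩
        rw [← hact]
        exact fun h => hx₀ (hφinj h)
      · rw [natCast_zsmul, ← map_nsmul, hpx, map_zero]
    exact (hmemN₀ x).mp hmem

end Fermat.Agent.S12P.LocPAsm62
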