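/-
S12 project, row 634 (`Node`), clause 1 — helper14.

The dictionary between the Prelude's `InZeroComponentAt` and the class function `cls` of the
nodal normal form (`EC/NF`): for an integral Weierstrass model `W`, a valuation subring `A` of
`ℚ̄` and an `A`-integral change of variables `C = (1, r, s, t)` putting the curve in nodal normal
form `y² + g x y = x³ + b x` (`v g = 1`, `v b < 1`, `b ≠ 0`; what `S58.Mult.exists_nf_model`
returns at a multiplicative prime), a point `P` (torsion or not) is in the zero component at `A`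
iff the corresponding point of the normal form has class `1`, i.e. iff `1 ≤ v (x - r)`.
-/
import Fermat.Agent.S58.Mult.Fixed
import Fermat.Agent.S15P.M2.Velu89

set_option autoImplicit false

namespace Fermat.Agent.S12P.NodeDict14

open WeierstrassCurve WeierstrassCurve.Affine Fermat.Agent.EC.NF Fermat.Agent.S05 IsLocalRing
open Fermat.Agent.S58.Red

section Core

variable {K : Type*} [Field K] {Γ₀ : Type*} [LinearOrderedCommGroupWithZero Γ₀]
  (v : Valuation K Γ₀)

/-- On the normal form `y² + g x y = x³ + b x` with `v g = 1`, `v b < 1`, an integral point has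
both partial derivatives in the maximal ideal iff `v x < 1`. -/
theorem nf_partials_small_iff {g b x y : K} (hg : v g = 1) (hb : v b < 1) (hx : v x ≤ 1)
    (hy : v y ≤ 1) (heq : y ^ 2 + g * x * y = x ^ 3 + b * x) :
    (v (2 * y + g * x) < 1 ∧ v (g * y - (3 * x ^ 2 + b)) < 1) ↔ v x < 1 := by
  have hv2 : v (2 : K) ≤ 1 := Fermat.Agent.S58.Mult.val_ofNat_le_one' v 2
  have hv3 : v (3 : K) ≤ 1 := Fermat.Agent.S58.Mult.val_ofNat_le_one' v 3
  have hv4 : v (4 : K) ≤ 1 := Fermat.Agent.S58.Mult.val_ofNat_le_one' v 4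
  constructor
  · rintro ⟨h1, h2⟩
    by_contra hx1
    have hx1' : v x = 1 := le_antisymm hx (not_lt.mp hx1)
    -- `x² (g² + 4x) = P1² - 4 b x`
    have id1 : x ^ 2 * (g ^ 2 + 4 * x) = (2 * y + g * x) ^ 2 - 4 * b * x := by
      linear_combination (-4) * heq
    have id2 : x * (g ^ 2 + 6 * x) =
        g * (2 * y + g * x) - 2 * (g * y - (3 * x ^ 2 + b)) - 2 * b := by ring
    have hbx : v (4 * b * x) < 1 := by
      rw [map_mul, map_mul]
      calc v 4 * v b * v x ≤ 1 * v b * 1 := by gcongr
        _ = v b := by rw [one_mul, mul_one]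
        _ < 1 := hb
    have e1 : v (g ^ 2 + 4 * x) < 1 := by
      have h := congrArg v id1
      rw [map_mul, map_pow, hx1', one_pow, one_mul] at h
      rw [h]
      refine lt_of_le_of_lt (v.map_sub _ _) (max_lt ?_ hbx)
      rw [map_pow]
      exact pow_lt_one' h1 (by norm_num)
    have e2 : v (g ^ 2 + 6 * x) < 1 := by
      have h := congrArg v id2
      rw [map_mul, hx1', one_mul] at h
      rw [h]
      refine lt_of_le_of_lt (v.map_sub _ _) (max_lt (lt_of_le_of_lt (v.map_sub _ _)
        (max_lt ?_ ?_)) ?_)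
      · rw [map_mul, hg, one_mul]; exact h1
      · rw [map_mul]
        calc v 2 * v (g * y - (3 * x ^ 2 + b)) ≤ 1 * v (g * y - (3 * x ^ 2 + b)) := by gcongr
          _ = _ := one_mul _
          _ < 1 := h2
      · rw [map_mul]
        calc v 2 * v b ≤ 1 * v b := by gcongr
          _ = v b := one_mul _
          _ < 1 := hb
    have e3 : v (2 * x) < 1 := by
      have e : 2 * x = (g ^ 2 + 6 * x) - (g ^ 2 + 4 * x) := by ring
      rw [e]
      exact lt_of_le_of_lt (v.map_sub _ _) (max_lt e2 e1)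
    have e4 : v (4 * x) < 1 := by
      have e : 4 * x = 2 * (2 * x) := by ring
      rw [e, map_mul]
      calc v 2 * v (2 * x) ≤ 1 * v (2 * x) := by gcongr
        _ = _ := one_mul _
        _ < 1 := e3
    have e5 : v (g ^ 2 + 4 * x) = 1 := by
      rw [Valuation.map_add_eq_of_lt_left _ (by rw [map_pow, hg, one_pow]; exact e4), map_pow,
        hg, one_pow]
    rw [e5] at e1
    exact lt_irrefl _ e1
  · intro hx1
    have hgx : v (g * x) < 1 := by rw [map_mul, hg, one_mul]; exact hx1
    have hy1 : v y < 1 := by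
      by_contra hy1
      have hy1' : v y = 1 := le_antisymm hy (not_lt.mp hy1)
      have e : y * (y + g * x) = x * (x ^ 2 + b) := by linear_combination heq
      have h := congrArg v e
      have hl : v (y + g * x) = 1 := by
        rw [Valuation.map_add_eq_of_lt_left _ (by rw [hy1']; exact hgx), hy1']
      rw [map_mul, hy1', hl, one_mul, map_mul] at h
      have hr : v (x ^ 2 + b) ≤ 1 := by
        refine le_trans (v.map_add _ _) (max_le ?_ hb.le)
        rw [map_pow]
        exact pow_le_one' hx 2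
      have : v x * v (x ^ 2 + b) < 1 := by
        calc v x * v (x ^ 2 + b) ≤ v x * 1 := by gcongr
          _ = v x := mul_one _
          _ < 1 := hx1
      rw [← h] at this
      exact lt_irrefl _ this
    constructor
    · refine lt_of_le_of_lt (v.map_add _ _) (max_lt ?_ hgx)
      rw [map_mul]
      calc v 2 * v y ≤ 1 * v y := by gcongr
        _ = v y := one_mul _
        _ < 1 := hy1
    · refine lt_of_le_of_lt (v.map_sub _ _) (max_lt ?_ (lt_of_le_of_lt (v.map_add _ _)
        (max_lt ?_ hb)))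
      · rw [map_mul, hg, one_mul]; exact hy1
      · rw [map_mul, map_pow]
        calc v 3 * v x ^ 2 ≤ 1 * v x ^ 2 := by gcongr
          _ = v x ^ 2 := one_mul _
          _ < 1 := pow_lt_one' hx1 (by norm_num)

/-- A point `(x, y)` of a normal form has class `1` iff `1 ≤ v x`. -/
theorem cls_some_eq_one_iff {W : Affine K} (hb : v W.a₄ < 1) (hb0 : W.a₄ ≠ 0) {x y : K}
    (h : W.Nonsingular x y) : cls v (Point.some x y h) = 1 ↔ 1 ≤ v x := by
  constructor
  · intro hc
    rcases (cls_eq_one_iff v hb hb0 _).mp hc with h0 | ⟨x', y', h', hP, hx⟩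
    · exact absurd h0 (Point.some_ne_zero _)
    · rw [Point.some.injEq] at hP
      rw [hP.1]; exact hx
  · intro hx
    exact ClsZS.cls_some_Z v h hx

variable [DecidableEq K]

/-- The inverse of the transfer along `C = (1, r, s, t)`, in coordinates. -/
theorem symm_some (W : WeierstrassCurve K) (C : VariableChange K) (hu : C.u = 1) {X Y : K}
    (hP : W.toAffine.Nonsingular X Y) :
    ∃ hQ : (C • W).toAffine.Nonsingular (X - C.r) (Y - C.s * (X - C.r) - C.t),
      (Transfer.vcEquiv C rfl).symm (Point.some X Y hP) =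
        Point.some (X - C.r) (Y - C.s * (X - C.r) - C.t) hQ := by
  have hu' : (C.u : K) = 1 := by rw [hu]; rfl
  have eX' : Transfer.vcX C (X - C.r) = X := by simp [Transfer.vcX, hu']
  have eY' : Transfer.vcY C (X - C.r) (Y - C.s * (X - C.r) - C.t) = Y := by
    simp only [Transfer.vcY, hu', one_pow, one_mul]
    ring
  have hQ : (C • W).toAffine.Nonsingular (X - C.r) (Y - C.s * (X - C.r) - C.t) := by
    rw [Transfer.nonsingular_iff W C, eX', eY']
    exact hP
  refine ⟨hQ, ?_⟩
  rw [AddEquiv.symm_apply_eq, Transfer.vcEquiv_some, Point.some.injEq]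
  exact ⟨eX'.symm, eY'.symm⟩

end Core

section Dict

local notation "Qb" => AlgebraicClosure ℚ

variable {A : ValuationSubring Qb}

theorem rd_eq_zero_of_val_lt {x : Qb} {c : ResidueField A} (h : Rd A (residue A) x c)
    (hx : A.valuation x < 1) : c = 0 := by
  by_contra hc
  rw [Fermat.Agent.S15P.M2.Velu89.val_eq_one_of_rd h hc] at hx
  exact lt_irrefl _ hx

/-- `InZeroComponentAt` at an affine point, unfolded. -/
theorem inZero_some_iff (W : WeierstrassCurve ℤ) (A : ValuationSubring Qb) {X Y : Qb}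
    (hP : ((W.map (Int.castRingHom ℚ))⁄Qb).Nonsingular X Y) :
    W.InZeroComponentAt A (Point.some X Y hP) ↔
      (X ∉ A ∨ ∃ (hx : X ∈ A) (hy : Y ∈ A),
        (W.map (Int.castRingHom (ResidueField A))).toAffine.Nonsingular
          (residue A ⟨X, hx⟩) (residue A ⟨Y, hy⟩)) := by
  constructor
  · rintro (h0 | ⟨x, y, h, hPe, hc⟩)
    · exact absurd h0 (Point.some_ne_zero _)
    · cases hPe
      exact hc
  · intro hc
    exact Or.inr ⟨X, Y, hP, rfl, hc⟩

variable [DecidableEq Qb]

/-- **Dictionary.**  `InZeroComponentAt` is `cls = 1` on the nodal normal form, for every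
point. -/
theorem inZero_iff_cls (W : WeierstrassCurve ℤ) (A : ValuationSubring Qb)
    (C : VariableChange Qb) (hu : C.u = 1)
    (hr : A.valuation C.r ≤ 1) (hs : A.valuation C.s ≤ 1) (ht : A.valuation C.t ≤ 1)
    (hNF : IsNF (C • ((W.map (Int.castRingHom ℚ))⁄Qb)))
    (hg : A.valuation (C • ((W.map (Int.castRingHom ℚ))⁄Qb)).a₁ = 1)
    (hb : A.valuation (C • ((W.map (Int.castRingHom ℚ))⁄Qb)).a₄ < 1)
    (hb0 : (C • ((W.map (Int.castRingHom ℚ))⁄Qb)).a₄ ≠ 0)
    (P : ((W.map (Int.castRingHom ℚ))⁄Qb).Point) :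
    W.InZeroComponentAt A P ↔ cls A.valuation ((Transfer.vcEquiv C rfl).symm P) = 1 := by
  classical
  have M := Fermat.Agent.S15P.M2.NodalRed69.model_res W A
  rcases P with _ | ⟨X, Y, hP⟩
  · constructor
    · intro _
      change cls A.valuation ((Transfer.vcEquiv C rfl).symm 0) = 1
      rw [map_zero]; rfl
    · intro _; exact Or.inl rfl
  · obtain ⟨hQ, e⟩ := symm_some _ C hu hP
    rw [e, cls_some_eq_one_iff A.valuation hb hb0 hQ]
    have hu' : (C.u : Qb) = 1 := by rw [hu]; rfl
    have eX : Transfer.vcX C (X - C.r) = X := by simp [Transfer.vcX, hu']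
    have eY : Transfer.vcY C (X - C.r) (Y - C.s * (X - C.r) - C.t) = Y := by
      simp only [Transfer.vcY, hu', one_pow, one_mul]; ring
    -- the partial derivatives in the two coordinate systems
    have pY : 2 * (Y - C.s * (X - C.r) - C.t) +
        (C • ((W.map (Int.castRingHom ℚ))⁄Qb)).a₁ * (X - C.r) =
        2 * Y + ((W.map (Int.castRingHom ℚ))⁄Qb).a₁ * X + ((W.map (Int.castRingHom ℚ))⁄Qb).a₃ := by
      have h := Transfer.polyY_eq ((W.map (Int.castRingHom ℚ))⁄Qb) C (X - C.r)
        (Y - C.s * (X - C.r) - C.t)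
      rw [eX, eY, hNF.a₃, hu', inv_one, one_pow, one_mul, add_zero] at h
      exact h
    have pX : (C • ((W.map (Int.castRingHom ℚ))⁄Qb)).a₁ * (Y - C.s * (X - C.r) - C.t) -
        (3 * (X - C.r) ^ 2 + (C • ((W.map (Int.castRingHom ℚ))⁄Qb)).a₄) =
        (((W.map (Int.castRingHom ℚ))⁄Qb).a₁ * Y -
          (3 * X ^ 2 + 2 * ((W.map (Int.castRingHom ℚ))⁄Qb).a₂ * X +
            ((W.map (Int.castRingHom ℚ))⁄Qb).a₄)) +
          C.s * (2 * Y + ((W.map (Int.castRingHom ℚ))⁄Qb).a₁ * X +
            ((W.map (Int.castRingHom ℚ))⁄Qb).a₃) := by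
      have h := Transfer.polyX_eq ((W.map (Int.castRingHom ℚ))⁄Qb) C (X - C.r)
        (Y - C.s * (X - C.r) - C.t)
      rw [eX, eY, hNF.a₂, hu', inv_one, one_pow, one_mul, mul_zero, zero_mul, add_zero] at h
      exact h
    have heq : (Y - C.s * (X - C.r) - C.t) ^ 2 +
        (C • ((W.map (Int.castRingHom ℚ))⁄Qb)).a₁ * (X - C.r) * (Y - C.s * (X - C.r) - C.t) =
        (X - C.r) ^ 3 + (C • ((W.map (Int.castRingHom ℚ))⁄Qb)).a₄ * (X - C.r) := hNF.nfEq hQ
    have hXiff : A.valuation (X - C.r) ≤ 1 ↔ X ∈ A := by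
      rw [A.valuation_le_one_iff]
      constructor
      · intro h
        have := A.add_mem _ _ h ((A.valuation_le_one_iff _).mp hr)
        simpa using this
      · intro h
        exact sub_mem h ((A.valuation_le_one_iff _).mp hr)
    -- smallness of the partials, transported
    have small : ∀ (_ : A.valuation (X - C.r) ≤ 1),
        (A.valuation (2 * Y + ((W.map (Int.castRingHom ℚ))⁄Qb).a₁ * X +
            ((W.map (Int.castRingHom ℚ))⁄Qb).a₃) < 1 ∧
          A.valuation (((W.map (Int.castRingHom ℚ))⁄Qb).a₁ * Y -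
            (3 * X ^ 2 + 2 * ((W.map (Int.castRingHom ℚ))⁄Qb).a₂ * X +
              ((W.map (Int.castRingHom ℚ))⁄Qb).a₄)) < 1) ↔ A.valuation (X - C.r) < 1 := by
      intro hx₁
      have hy₁ : A.valuation (Y - C.s * (X - C.r) - C.t) ≤ 1 :=
        Fermat.Agent.S58.Mult.nf_val_y_le_one A.valuation hNF hg hb hQ hx₁
      rw [← nf_partials_small_iff A.valuation hg hb hx₁ hy₁ heq, pY, pX]
      constructor
      · rintro ⟨h1, h2⟩
        refine ⟨h1, lt_of_le_of_lt (A.valuation.map_add _ _) (max_lt h2 ?_)⟩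
        rw [map_mul]
        calc A.valuation C.s * _ ≤ 1 * _ := mul_le_mul_left hs _
          _ = _ := one_mul _
          _ < 1 := h1
      · rintro ⟨h1, h2⟩
        refine ⟨h1, ?_⟩
        have e' : ((W.map (Int.castRingHom ℚ))⁄Qb).a₁ * Y -
            (3 * X ^ 2 + 2 * ((W.map (Int.castRingHom ℚ))⁄Qb).a₂ * X +
              ((W.map (Int.castRingHom ℚ))⁄Qb).a₄) =
            ((((W.map (Int.castRingHom ℚ))⁄Qb).a₁ * Y -
              (3 * X ^ 2 + 2 * ((W.map (Int.castRingHom ℚ))⁄Qb).a₂ * X +
                ((W.map (Int.castRingHom ℚ))⁄Qb).a₄)) +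
              C.s * (2 * Y + ((W.map (Int.castRingHom ℚ))⁄Qb).a₁ * X +
                ((W.map (Int.castRingHom ℚ))⁄Qb).a₃)) -
              C.s * (2 * Y + ((W.map (Int.castRingHom ℚ))⁄Qb).a₁ * X +
                ((W.map (Int.castRingHom ℚ))⁄Qb).a₃) := by ring
        rw [e']
        refine lt_of_le_of_lt (A.valuation.map_sub _ _) (max_lt h2 ?_)
        rw [map_mul]
        calc A.valuation C.s * _ ≤ 1 * _ := mul_le_mul_left hs _
          _ = _ := one_mul _
          _ < 1 := h1
    -- residues of the partials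
    have rdY : ∀ (hx : X ∈ A) (hy : Y ∈ A), Rd A (residue A)
        (2 * Y + ((W.map (Int.castRingHom ℚ))⁄Qb).a₁ * X + ((W.map (Int.castRingHom ℚ))⁄Qb).a₃)
        (2 * residue A ⟨Y, hy⟩ +
          (W.map (Int.castRingHom (ResidueField A))).toAffine.a₁ * residue A ⟨X, hx⟩ +
          (W.map (Int.castRingHom (ResidueField A))).toAffine.a₃) := fun hx hy =>
      ((rd_two.mul (rd_of_mem hy)).add (M.a₁.mul (rd_of_mem hx))).add M.a₃
    have rdX : ∀ (hx : X ∈ A) (hy : Y ∈ A), Rd A (residue A)
        (((W.map (Int.castRingHom ℚ))⁄Qb).a₁ * Y -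
          (3 * X ^ 2 + 2 * ((W.map (Int.castRingHom ℚ))⁄Qb).a₂ * X +
            ((W.map (Int.castRingHom ℚ))⁄Qb).a₄))
        ((W.map (Int.castRingHom (ResidueField A))).toAffine.a₁ * residue A ⟨Y, hy⟩ -
          (3 * residue A ⟨X, hx⟩ ^ 2 +
            2 * (W.map (Int.castRingHom (ResidueField A))).toAffine.a₂ * residue A ⟨X, hx⟩ +
            (W.map (Int.castRingHom (ResidueField A))).toAffine.a₄)) := fun hx hy =>
      (M.a₁.mul (rd_of_mem hy)).sub
        (((rd_three.mul ((rd_of_mem hx).pow 2)).add ((rd_two.mul M.a₂).mul (rd_of_mem hx))).add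
          M.a₄)
    refine (inZero_some_iff W A hP).trans ?_
    constructor
    · rintro (hx | ⟨hx, hy, hns⟩)
      · by_contra hlt
        exact hx (hXiff.mp (le_of_lt (not_le.mp hlt)))
      · by_contra hlt
        have hlt' : A.valuation (X - C.r) < 1 := not_le.mp hlt
        obtain ⟨s1, s2⟩ := (small hlt'.le).mpr hlt'
        have z1 := rd_eq_zero_of_val_lt (rdY hx hy) s1
        have z2 := rd_eq_zero_of_val_lt (rdX hx hy) s2
        rcases ((WeierstrassCurve.Affine.nonsingular_iff' _ _).mp hns).2 with h' | h'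
        · exact h' z2
        · exact h' z1
    · intro h1
      by_cases hX : X ∈ A
      · have hx₁ : A.valuation (X - C.r) ≤ 1 := hXiff.mpr hX
        have hy₁ : A.valuation (Y - C.s * (X - C.r) - C.t) ≤ 1 :=
          Fermat.Agent.S58.Mult.nf_val_y_le_one A.valuation hNF hg hb hQ hx₁
        have hY : Y ∈ A := by
          have e' : Y = (Y - C.s * (X - C.r) - C.t) + C.s * (X - C.r) + C.t := by ring
          rw [e']
          exact A.add_mem _ _ (A.add_mem _ _ ((A.valuation_le_one_iff _).mp hy₁)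
            (A.mul_mem _ _ ((A.valuation_le_one_iff _).mp hs) ((A.valuation_le_one_iff _).mp hx₁)))
            ((A.valuation_le_one_iff _).mp ht)
        refine Or.inr ⟨hX, hY, ?_⟩
        rw [WeierstrassCurve.Affine.nonsingular_iff']
        refine ⟨M.equation hP.1 (rd_of_mem hX) (rd_of_mem hY), ?_⟩
        by_contra hcon
        have hcon' := not_or.mp hcon
        have c1 := not_not.mp hcon'.1
        have c2 := not_not.mp hcon'.2
        have vX := Fermat.Agent.S15P.M2.Velu89.val_lt_one_of_rd (c1 ▸ rdX hX hY)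
        have vY := Fermat.Agent.S15P.M2.Velu89.val_lt_one_of_rd (c2 ▸ rdY hX hY)
        exact absurd ((small hx₁).mp ⟨vY, vX⟩) (not_lt.mpr h1)
      · exact Or.inl hX

end Dict

end Fermat.Agent.S12P.NodeDict14
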