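/-
S12 project, row 634 (`Node`), clause 2 — helper14.

The class function `cls` of the nodal normal form (`EC/NF`) of a rational curve with
multiplicative reduction is invariant under the inertia group, for ALL points (torsion or not).

The change of variables `C = (1, r, s, t)` to the normal form is not rational: `r` is the
`x`-coordinate of a 2-torsion point reducing to the node, and inertia may move it.  So the
normal-form coordinates of `σ P` are the `σ`-conjugates of those of `P` shifted by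
`R = σ r - r`, `S = σ s - s`, `T = σ t - t - s R`.  The three normal-form equations and their
conjugates give `g R + 2 T = 0` and `R b + R³ - T² - R T g = 0`, hence
`v R = v 4 · v b ≤ v b`, `v T = v 2 · v b ≤ v b`, and such a shift does not change `cls`.
-/
import Fermat.Agent.S58.Mult.Fixed
import Fermat.Agent.EC.FreyLoc2

set_option autoImplicit false

namespace Fermat.Agent.S12P.NodeInertia14

open WeierstrassCurve WeierstrassCurve.Affine Fermat.Agent.EC.NF Fermat.Agent.S05

section Core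

variable {K : Type*} [Field K] {Γ₀ : Type*} [LinearOrderedCommGroupWithZero Γ₀]
  (v : Valuation K Γ₀)

theorem val_two_le_one : v (2 : K) ≤ 1 := by
  have h : v ((1 : K) + 1) ≤ max (v 1) (v 1) := v.map_add _ _
  rw [map_one, max_self, one_add_one_eq_two] at h
  exact h

/-- The shift between two normal forms with congruent centres is small: `v R, v T ≤ v b`. -/
theorem val_shift_le (h2 : (2 : K) ≠ 0) {g b R T : K} (hg : v g = 1) (hR : v R < 1)
    (h3 : g * R + 2 * T = 0) (h6 : R * b + R ^ 3 - T ^ 2 - R * T * g = 0) :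
    v R ≤ v b ∧ v T ≤ v b := by
  by_cases hR0 : R = 0
  · subst hR0
    have hT : T = 0 := by
      have h : 2 * T = 0 := by linear_combination h3
      exact (mul_eq_zero.mp h).resolve_left h2
    subst hT
    simp
  · have h4 : R * (4 * b + 4 * R ^ 2 + g ^ 2 * R) = 0 := by
      linear_combination 4 * h6 + (2 * T + g * R) * h3
    have hq : R * (g ^ 2 + 4 * R) = -(4 * b) := by
      have h5 : 4 * b + 4 * R ^ 2 + g ^ 2 * R = 0 := (mul_eq_zero.mp h4).resolve_left hR0
      linear_combination h5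
    have hv2 : v (2 : K) ≤ 1 := val_two_le_one v
    have hv20 : v (2 : K) ≠ 0 := (v.ne_zero_iff).mpr h2
    have hv4 : v (4 : K) = v 2 * v 2 := by
      rw [← map_mul]; norm_num
    have h4R : v (4 * R) < 1 := by
      rw [map_mul, hv4]
      calc v 2 * v 2 * v R ≤ 1 * 1 * v R := by gcongr
        _ = v R := by rw [one_mul, one_mul]
        _ < 1 := hR
    have hu : v (g ^ 2 + 4 * R) = 1 := by
      rw [Valuation.map_add_eq_of_lt_left _ (by rw [map_pow, hg, one_pow]; exact h4R), map_pow,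
        hg, one_pow]
    have hvR : v R = v 2 * v 2 * v b := by
      have h := congrArg v hq
      rw [map_mul, hu, mul_one, Valuation.map_neg, map_mul, hv4] at h
      exact h
    have hvT : v T = v 2 * v b := by
      have h : 2 * T = -(g * R) := by linear_combination h3
      have h' := congrArg v h
      rw [map_mul, Valuation.map_neg, map_mul, hg, one_mul, hvR, mul_assoc] at h'
      exact mul_left_cancel₀ hv20 h'
    constructor
    · rw [hvR]
      calc v 2 * v 2 * v b ≤ 1 * 1 * v b := by gcongr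
        _ = v b := by rw [one_mul, one_mul]
    · rw [hvT]
      calc v 2 * v b ≤ 1 * v b := by gcongr
        _ = v b := one_mul _

/-- A small shift of the centre of a normal form does not change the class. -/
theorem cls_eq_of_shift {W₁ W₂ : Affine K} (hβ : v W₂.a₄ = v W₁.a₄) (hb : v W₁.a₄ < 1)
    {R S T : K} (hR : v R ≤ v W₁.a₄) (hT : v T ≤ v W₁.a₄) (hS : v S < 1)
    {x₂ y₂ : K} (h₂ : W₂.Nonsingular x₂ y₂)
    (h₁ : W₁.Nonsingular (x₂ + R) (y₂ + S * x₂ + T)) :
    cls v (Point.some _ _ h₁) = cls v (Point.some _ _ h₂) := by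
  simp only [Fermat.Agent.EC.NF.cls]
  rw [hβ]
  by_cases h1 : 1 ≤ v x₂
  · have hlt : v R < v x₂ := lt_of_le_of_lt hR (lt_of_lt_of_le hb h1)
    have e : v (x₂ + R) = v x₂ := Valuation.map_add_eq_of_lt_left _ hlt
    rw [if_pos (e ▸ h1), if_pos h1]
  · have h1' : v x₂ < 1 := not_le.mp h1
    by_cases hx : v x₂ ≤ v W₁.a₄
    · have e : v (x₂ + R) ≤ v W₁.a₄ := le_trans (v.map_add _ _) (max_le hx hR)
      have e1 : ¬ 1 ≤ v (x₂ + R) := not_le.mpr (lt_of_le_of_lt e hb)
      rw [if_neg e1, if_pos e, if_neg h1, if_pos hx]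
    · have hx' : v W₁.a₄ < v x₂ := not_le.mp hx
      have e : v (x₂ + R) = v x₂ := Valuation.map_add_eq_of_lt_left _ (lt_of_le_of_lt hR hx')
      have hSx : v (S * x₂) < v x₂ := by
        rw [map_mul]
        have hx0 : 0 < v x₂ := lt_of_le_of_lt zero_le hx'
        calc v S * v x₂ < 1 * v x₂ := by gcongr
          _ = v x₂ := one_mul _
      have hd : v (S * x₂ + T) < v x₂ :=
        lt_of_le_of_lt (v.map_add _ _) (max_lt hSx (lt_of_le_of_lt hT hx'))
      have hy : v (y₂ + S * x₂ + T) < v x₂ ↔ v y₂ < v x₂ := by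
        constructor
        · intro h
          have e' : y₂ = (y₂ + S * x₂ + T) - (S * x₂ + T) := by ring
          rw [e']
          exact lt_of_le_of_lt (v.map_sub _ _) (max_lt h hd)
        · intro h
          have e' : y₂ + S * x₂ + T = y₂ + (S * x₂ + T) := by ring
          rw [e']
          exact lt_of_le_of_lt (v.map_add _ _) (max_lt h hd)
      rw [e]
      simp only [if_neg h1, if_neg hx, hy]

theorem cls_congr {W : Affine K} {x y x' y' : K} (h : W.Nonsingular x y)
    (h' : W.Nonsingular x' y') (hx : x = x') (hy : y = y') :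
    cls v (Point.some x y h) = cls v (Point.some x' y' h') := by
  subst hx hy; rfl

/-- `cls` on the conjugate curve, for a field endomorphism preserving the valuation. -/
theorem cls_map_of_val_eq {W : Affine K} (f : K →+* K) (hf : ∀ z, v (f z) = v z) {x y : K}
    (h : W.Nonsingular x y) (h' : (W.map f).toAffine.Nonsingular (f x) (f y)) :
    cls v (Point.some _ _ h') = cls v (Point.some _ _ h) := by
  simp only [Fermat.Agent.EC.NF.cls, map_a₄, hf]

end Core

section Galois

local notation "Qb" => AlgebraicClosure ℚ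

variable [DecidableEq Qb]

/-- **Inertia preserves the class**, for every point of a rational curve in `A`-integral nodal
normal form over `ℚ̄` (hypotheses: exactly what `S58.Mult.exists_nf_model` returns). -/
theorem cls_inertia (W₀ : Affine ℚ) (A : ValuationSubring Qb) (C : VariableChange Qb)
    (hu : C.u = 1) (hr : A.valuation C.r ≤ 1) (hs : A.valuation C.s ≤ 1)
    (hNF : IsNF (C • (W₀⁄Qb)))
    (hg : A.valuation (C • (W₀⁄Qb)).a₁ = 1) (hb : A.valuation (C • (W₀⁄Qb)).a₄ < 1)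
    (σ : Qb ≃ₐ[ℚ] Qb) (hσ : σ ∈ A.inertiaSubgroupIn ℚ) (P : (W₀⁄Qb).Point) :
    cls A.valuation ((Transfer.vcEquiv C rfl).symm (Point.map (W' := W₀) σ.toAlgHom P)) =
      cls A.valuation ((Transfer.vcEquiv C rfl).symm P) := by
  rcases P with _ | ⟨X, Y, hP⟩
  · rfl
  · have hu' : (C.u : Qb) = 1 := by rw [hu]; rfl
    have hui : ((C.u⁻¹ : Qbˣ) : Qb) = 1 := by rw [hu]; simp
    -- the inverse of the transfer, in coordinates
    have key : ∀ {X Y : Qb} (hP : (W₀⁄Qb).Nonsingular X Y),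
        ∃ hQ : (C • (W₀⁄Qb)).toAffine.Nonsingular (X - C.r) (Y - C.s * (X - C.r) - C.t),
          (Transfer.vcEquiv C rfl).symm (Point.some X Y hP) =
            Point.some (X - C.r) (Y - C.s * (X - C.r) - C.t) hQ := by
      intro X Y hP
      have eX' : Transfer.vcX C (X - C.r) = X := by simp [Transfer.vcX, hu']
      have eY' : Transfer.vcY C (X - C.r) (Y - C.s * (X - C.r) - C.t) = Y := by
        simp only [Transfer.vcY, hu', one_pow, one_mul]
        ring
      have hQ : (C • (W₀⁄Qb)).toAffine.Nonsingular (X - C.r) (Y - C.s * (X - C.r) - C.t) := by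
        rw [Transfer.nonsingular_iff (W₀⁄Qb) C, eX', eY']
        exact hP
      refine ⟨hQ, ?_⟩
      rw [AddEquiv.symm_apply_eq, Transfer.vcEquiv_some, Point.some.injEq]
      exact ⟨eX'.symm, eY'.symm⟩
    have hσP : (W₀⁄Qb).Nonsingular (σ.toAlgHom X) (σ.toAlgHom Y) :=
      (W₀.baseChange_nonsingular σ.toAlgHom.injective _ _).mpr hP
    obtain ⟨hQ₁, e₁⟩ := key hP
    obtain ⟨hQ₂, e₂⟩ := key hσP
    rw [Point.map_some, e₁, e₂]
    -- the coefficients of the rational curve are fixed by `σ`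
    have f₁ : σ (W₀⁄Qb).a₁ = (W₀⁄Qb).a₁ := σ.commutes _
    have f₂ : σ (W₀⁄Qb).a₂ = (W₀⁄Qb).a₂ := σ.commutes _
    have f₃ : σ (W₀⁄Qb).a₃ = (W₀⁄Qb).a₃ := σ.commutes _
    have f₄ : σ (W₀⁄Qb).a₄ = (W₀⁄Qb).a₄ := σ.commutes _
    have f₆ : σ (W₀⁄Qb).a₆ = (W₀⁄Qb).a₆ := σ.commutes _
    -- the three normal form equations and their conjugates
    have N2 : (W₀⁄Qb).a₂ - C.s * (W₀⁄Qb).a₁ + 3 * C.r - C.s ^ 2 = 0 := by
      have h := hNF.a₂
      rw [variableChange_a₂, hui, one_pow, one_mul] at h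
      exact h
    have N3 : (W₀⁄Qb).a₃ + C.r * (W₀⁄Qb).a₁ + 2 * C.t = 0 := by
      have h := hNF.a₃
      rw [variableChange_a₃, hui, one_pow, one_mul] at h
      exact h
    have N6 : (W₀⁄Qb).a₆ + C.r * (W₀⁄Qb).a₄ + C.r ^ 2 * (W₀⁄Qb).a₂ + C.r ^ 3 - C.t * (W₀⁄Qb).a₃
        - C.t ^ 2 - C.r * C.t * (W₀⁄Qb).a₁ = 0 := by
      have h := hNF.a₆
      rw [variableChange_a₆, hui, one_pow, one_mul] at h
      exact h
    have N3σ : (W₀⁄Qb).a₃ + σ C.r * (W₀⁄Qb).a₁ + 2 * σ C.t = 0 := by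
      have h := congrArg σ N3
      simp only [map_add, map_mul, map_ofNat, map_zero, f₁, f₃] at h
      exact h
    have N6σ : (W₀⁄Qb).a₆ + σ C.r * (W₀⁄Qb).a₄ + σ C.r ^ 2 * (W₀⁄Qb).a₂ + σ C.r ^ 3
        - σ C.t * (W₀⁄Qb).a₃ - σ C.t ^ 2 - σ C.r * σ C.t * (W₀⁄Qb).a₁ = 0 := by
      have h := congrArg σ N6
      simp only [map_add, map_sub, map_mul, map_pow, map_zero, f₁, f₂, f₃, f₄, f₆] at h
      exact h
    have hgdef : (C • (W₀⁄Qb)).a₁ = (W₀⁄Qb).a₁ + 2 * C.s := by
      rw [variableChange_a₁, hui, one_mul]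
    have hbdef : (C • (W₀⁄Qb)).a₄ = (W₀⁄Qb).a₄ - C.s * (W₀⁄Qb).a₃ + 2 * C.r * (W₀⁄Qb).a₂
        - (C.t + C.r * C.s) * (W₀⁄Qb).a₁ + 3 * C.r ^ 2 - 2 * C.s * C.t := by
      rw [variableChange_a₄, hui, one_pow, one_mul]
    -- the shift
    have h3 : (C • (W₀⁄Qb)).a₁ * (σ C.r - C.r) + 2 * (σ C.t - C.t - C.s * (σ C.r - C.r)) = 0 := by
      rw [hgdef]
      linear_combination N3σ - N3
    have h6 : (σ C.r - C.r) * (C • (W₀⁄Qb)).a₄ + (σ C.r - C.r) ^ 3
        - (σ C.t - C.t - C.s * (σ C.r - C.r)) ^ 2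
        - (σ C.r - C.r) * (σ C.t - C.t - C.s * (σ C.r - C.r)) * (C • (W₀⁄Qb)).a₁ = 0 := by
      rw [hgdef, hbdef]
      linear_combination N6σ + (σ C.t - C.t - C.s * (σ C.r - C.r)) * N3
        - (σ C.r - C.r) ^ 2 * N2 - N6
    have hRv : A.valuation (σ C.r - C.r) < 1 := inertia_spec A σ hσ C.r hr
    have hSv : A.valuation (σ C.s - C.s) < 1 := inertia_spec A σ hσ C.s hs
    obtain ⟨hR', hT'⟩ := val_shift_le A.valuation two_ne_zero hg hRv h3 h6
    have hval : ∀ z : Qb, A.valuation ((σ.toAlgHom : Qb →+* Qb) z) = A.valuation z :=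
      fun z => Fermat.Agent.EC.FreyLoc2.inertia_val_eq A σ hσ z
    -- the conjugate point on the conjugate normal form
    have hQσ : ((C • (W₀⁄Qb)).map (σ.toAlgHom : Qb →+* Qb)).toAffine.Nonsingular
        ((σ.toAlgHom : Qb →+* Qb) (X - C.r))
        ((σ.toAlgHom : Qb →+* Qb) (Y - C.s * (X - C.r) - C.t)) :=
      (WeierstrassCurve.Affine.map_nonsingular (W := (C • (W₀⁄Qb)).toAffine)
        (f := (σ.toAlgHom : Qb →+* Qb)) σ.injective _ _).mpr hQ₁
    have hβ : A.valuation ((C • (W₀⁄Qb)).map (σ.toAlgHom : Qb →+* Qb)).toAffine.a₄ =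
        A.valuation (C • (W₀⁄Qb)).toAffine.a₄ := by
      rw [map_a₄]; exact hval _
    have ex : σ.toAlgHom X - C.r =
        (σ.toAlgHom : Qb →+* Qb) (X - C.r) + (σ C.r - C.r) := by
      change σ X - C.r = σ (X - C.r) + (σ C.r - C.r)
      rw [map_sub]; ring
    have ey : σ.toAlgHom Y - C.s * (σ.toAlgHom X - C.r) - C.t =
        (σ.toAlgHom : Qb →+* Qb) (Y - C.s * (X - C.r) - C.t) +
          (σ C.s - C.s) * (σ.toAlgHom : Qb →+* Qb) (X - C.r) +
          (σ C.t - C.t - C.s * (σ C.r - C.r)) := by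
      change σ Y - C.s * (σ X - C.r) - C.t = σ (Y - C.s * (X - C.r) - C.t) +
          (σ C.s - C.s) * σ (X - C.r) + (σ C.t - C.t - C.s * (σ C.r - C.r))
      simp only [map_sub, map_mul]; ring
    have h₁ : (C • (W₀⁄Qb)).toAffine.Nonsingular
        ((σ.toAlgHom : Qb →+* Qb) (X - C.r) + (σ C.r - C.r))
        ((σ.toAlgHom : Qb →+* Qb) (Y - C.s * (X - C.r) - C.t) +
          (σ C.s - C.s) * (σ.toAlgHom : Qb →+* Qb) (X - C.r) +
          (σ C.t - C.t - C.s * (σ C.r - C.r))) := by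
      rw [← ex, ← ey]; exact hQ₂
    rw [cls_congr A.valuation hQ₂ h₁ ex ey,
      cls_eq_of_shift A.valuation hβ hb hR' hT' hSv hQσ h₁]
    exact cls_map_of_val_eq A.valuation _ hval hQ₁ hQσ

/-- `σ P - P` has class `1` for `σ` in the inertia group. -/
theorem cls_inertia_sub (W₀ : Affine ℚ) (A : ValuationSubring Qb) (C : VariableChange Qb)
    (hu : C.u = 1) (hr : A.valuation C.r ≤ 1) (hs : A.valuation C.s ≤ 1)
    (hNF : IsNF (C • (W₀⁄Qb)))
    (hg : A.valuation (C • (W₀⁄Qb)).a₁ = 1) (hb : A.valuation (C • (W₀⁄Qb)).a₄ < 1)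
    (hb0 : (C • (W₀⁄Qb)).a₄ ≠ 0)
    (σ : Qb ≃ₐ[ℚ] Qb) (hσ : σ ∈ A.inertiaSubgroupIn ℚ) (P : (W₀⁄Qb).Point) :
    cls A.valuation ((Transfer.vcEquiv C rfl).symm (Point.map (W' := W₀) σ.toAlgHom P - P)) =
      1 := by
  rw [map_sub]
  exact cls_sub_eq_one A.valuation hNF hg hb hb0 (cls_inertia W₀ A C hu hr hs hNF hg hb σ hσ P)

end Galois

end Fermat.Agent.S12P.NodeInertia14
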