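/-
S12 project, row 634 — helper14 (twin term): the brick `Node` of `S12P/Interfaces20.lean`,
stated literally (no import of the interface file).

At a multiplicative prime `ℓ` of an integral Weierstrass model `W` and a place `A ∣ ℓ` of `ℚ̄`,
the points in the zero component (Prelude `InZeroComponentAt`) form a subgroup `E0` of `E(ℚ̄)`;
`σ P - P ∈ E0` for every inertia element `σ` and EVERY point `P`; inertia fixes the
prime-to-`ℓ` torsion of `E0`; and the `q`-torsion of `E(ℚ̄) / E0` is cyclic (`q ≠ ℓ` prime).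

`E0` is the kernel of the class function `cls` (`EC/NF`) on a nodal normal form
(`S58.Mult.exists_nf_model`): the dictionary is `NodeDict14.inZero_iff_cls`, the inertia clause
is `NodeInertia14.cls_inertia_sub`, the fixed-point clause is `S58.Mult.fixed_of_cls_eq_one`.
-/
import Fermat.Agent.S58.Mult.Main
import Fermat.Agent.S12P.NodeInertia14
import Fermat.Agent.S12P.NodeDict14

set_option autoImplicit false

namespace Fermat.Agent.S12P.Node14

open WeierstrassCurve WeierstrassCurve.Affine Fermat.Agent.EC.NF Fermat.Agent.EC.FrobFixed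
  Fermat.Agent.S05 Fermat.Agent.S58 Fermat.Agent.S58.Mult
open scoped WeierstrassCurve.Affine

section Cyclic

variable {K : Type*} [Field K] [DecidableEq K] {Γ₀ : Type*} [LinearOrderedCommGroupWithZero Γ₀]
  (v : Valuation K Γ₀) {W : Affine K}

/-- The `q`-torsion of the group of classes is cyclic: if `x, y` are killed by the prime `q` and
`x` has a nontrivial class, some `y + a • x` has class `1`. -/
theorem exists_nsmul_add_cls (hW : IsNF W) (hg : v W.a₁ = 1) (hb : v W.a₄ < 1)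
    (hb0 : W.a₄ ≠ 0) {q : ℕ} (hq : q.Prime) {x y : W.Point} (hx : q • x = 0) (hy : q • y = 0)
    (hx1 : EC.NF.cls v x ≠ 1) : ∃ a : ℕ, EC.NF.cls v (y + a • x) = 1 := by
  have : Fact q.Prime := ⟨hq⟩
  have hc : v W.a₄ ≠ 0 := (Valuation.ne_zero_iff v).mpr hb0
  have hq0 : q ≠ 0 := hq.ne_zero
  obtain ⟨k₁, hk₁⟩ := torsion_cls v hW hg hb hb0 hx
  obtain ⟨k₂, hk₂⟩ := torsion_cls v hW hg hb hb0 hy
  have hndvd : ¬ (q : ℤ) ∣ k₁ := by
    rintro ⟨j, hj⟩
    apply hx1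
    have h2 : EC.NF.cls v x ^ q = (v W.a₄ ^ (2 * j)) ^ q := by
      rw [hk₁, hj, ← zpow_natCast (v W.a₄ ^ (2 * j)), ← zpow_mul]
      congr 1; ring
    exact cls_eq_one_of_zpow v hb hb0 _ j ((pow_left_inj₀ zero_le zero_le hq0).mp h2)
  have hk₁' : (k₁ : ZMod q) ≠ 0 := fun h =>
    hndvd ((ZMod.intCast_zmod_eq_zero_iff_dvd _ _).mp h)
  have ha : ((((ZMod.val (-(k₂ : ZMod q) * (k₁ : ZMod q)⁻¹) : ℕ) : ℤ) * k₁ + k₂ : ℤ) :
      ZMod q) = 0 := by
    push_cast
    rw [ZMod.natCast_zmod_val]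
    field_simp
    ring
  obtain ⟨m, hm⟩ := (ZMod.intCast_zmod_eq_zero_iff_dvd _ _).mp ha
  refine ⟨ZMod.val (-(k₂ : ZMod q) * (k₁ : ZMod q)⁻¹), ?_⟩
  generalize ZMod.val (-(k₂ : ZMod q) * (k₁ : ZMod q)⁻¹) = a at hm ⊢
  obtain ⟨j₁, hj₁⟩ := cls_add v hW hg hb hb0 y (a • x)
  obtain ⟨j₂, hj₂⟩ := cls_nsmul v hW hg hb hb0 a x
  have hγ : (EC.NF.cls v y * EC.NF.cls v x ^ a) ^ q = (v W.a₄ ^ (2 * m)) ^ q := by
    rw [mul_pow, ← pow_mul, mul_comm a q, pow_mul, hk₁, hk₂, ← zpow_natCast (v W.a₄ ^ (2 * k₁)),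
      ← zpow_mul, ← zpow_add₀ hc, ← zpow_natCast (v W.a₄ ^ (2 * m)), ← zpow_mul]
    congr 1
    linear_combination 2 * hm
  have hγ' := (pow_left_inj₀ zero_le zero_le hq0).mp hγ
  have h3 : EC.NF.cls v (y + a • x) = v W.a₄ ^ (2 * (m + j₂ + j₁)) := by
    rw [hj₁, hj₂, ← mul_assoc, hγ', ← zpow_add₀ hc, ← zpow_add₀ hc]
    congr 1; ring
  exact cls_eq_one_of_zpow v hb hb0 _ _ h3

end Cyclic

/-- **(NODE)** — the literal of `Fermat.Agent.S12P.Node` (`S12P/Interfaces20.lean`). -/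
theorem node :
    ∀ W : WeierstrassCurve ℤ, W.Δ ≠ 0 → ∀ ℓ : ℕ, ℓ.Prime → (ℓ : ℤ) ∣ W.Δ → ¬ (ℓ : ℤ) ∣ W.c₄ →
    ∀ A : ValuationSubring (AlgebraicClosure ℚ), A.LiesOverPrime ℓ →
    ∃ E0 : AddSubgroup (((W.map (Int.castRingHom ℚ))⁄(AlgebraicClosure ℚ)).Point),
      (∀ P : ((W.map (Int.castRingHom ℚ))⁄(AlgebraicClosure ℚ)).Point,
        P ∈ E0 ↔ W.InZeroComponentAt A P) ∧
      (∀ σ ∈ A.inertiaSubgroupIn ℚ,
        ∀ P : ((W.map (Int.castRingHom ℚ))⁄(AlgebraicClosure ℚ)).Point, σ • P - P ∈ E0) ∧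
      (∀ σ ∈ A.inertiaSubgroupIn ℚ, ∀ P ∈ E0, ∀ n : ℕ, n.Coprime ℓ → n • P = 0 → σ • P = P) ∧
      (∀ q : ℕ, q.Prime → q ≠ ℓ →
        ∀ x y : ((W.map (Int.castRingHom ℚ))⁄(AlgebraicClosure ℚ)).Point,
          q • x = 0 → q • y = 0 → x ∉ E0 → ∃ a : ℤ, y - a • x ∈ E0) := by
  intro W hΔ0 ℓ hℓ hℓΔ hℓc₄ A hA
  have hvq : A.valuation ((ℓ : ℕ) : Qb) < 1 := by
    have : (ℓ : Qb) ∈ A.nonunits := hA
    rwa [ValuationSubring.mem_nonunits_iff] at this
  have hWK : ((EQ W).toAffine⁄Qb) = W.map (Int.castRingHom Qb) := baseChange_eq_map W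
  obtain ⟨i₁, i₂, i₃, i₄, i₆⟩ := val_coeffs_le_one A.valuation W _ hWK
  have hint : IsIntegralModel A.valuation ((EQ W).toAffine⁄Qb) := ⟨i₁, i₂, i₃, i₄, i₆⟩
  have hc₄ : A.valuation ((EQ W).toAffine⁄Qb).c₄ = 1 := by
    rw [hWK, map_c₄, eq_intCast]
    exact val_intCast_eq_one A.valuation hℓ hvq hℓc₄
  have hΔ : A.valuation ((EQ W).toAffine⁄Qb).Δ < 1 := by
    rw [hWK, map_Δ, eq_intCast]
    exact val_intCast_lt_one A.valuation hvq hℓΔ
  have hΔ0' : ((EQ W).toAffine⁄Qb).Δ ≠ 0 := by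
    rw [hWK, map_Δ, eq_intCast]
    exact_mod_cast hΔ0
  have h2 : (2 : Qb) ≠ 0 := two_ne_zero
  obtain ⟨C, hu, hr, hs, ht, hNF, hg, hb, hb0⟩ :=
    exists_nf_model A.valuation ((EQ W).toAffine⁄Qb) h2 hint hc₄ hΔ hΔ0'
  -- the subgroup
  let E0 : AddSubgroup (EPt W) :=
    { carrier := {P | EC.NF.cls A.valuation ((Transfer.vcEquiv C rfl).symm P) = 1}
      zero_mem' := by
        change EC.NF.cls A.valuation ((Transfer.vcEquiv C rfl).symm 0) = 1
        rw [map_zero]; rfl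
      add_mem' := by
        intro P Q hP hQ
        have hP' : EC.NF.cls A.valuation ((Transfer.vcEquiv C rfl).symm P) = 1 := hP
        have hQ' : EC.NF.cls A.valuation ((Transfer.vcEquiv C rfl).symm Q) = 1 := hQ
        change EC.NF.cls A.valuation ((Transfer.vcEquiv C rfl).symm (P + Q)) = 1
        rw [map_add]
        obtain ⟨k, hk⟩ := cls_add A.valuation hNF hg hb hb0 ((Transfer.vcEquiv C rfl).symm P)
          ((Transfer.vcEquiv C rfl).symm Q)
        rw [hP', hQ', one_mul, one_mul] at hk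
        exact cls_eq_one_of_zpow A.valuation hb hb0 _ k hk
      neg_mem' := by
        intro P hP
        have hP' : EC.NF.cls A.valuation ((Transfer.vcEquiv C rfl).symm P) = 1 := hP
        change EC.NF.cls A.valuation ((Transfer.vcEquiv C rfl).symm (-P)) = 1
        rw [map_neg]
        obtain ⟨k, hk⟩ := cls_neg A.valuation hNF hg hb hb0 ((Transfer.vcEquiv C rfl).symm P)
        rw [hP', mul_one] at hk
        exact cls_eq_one_of_zpow A.valuation hb hb0 _ k hk }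
  have hmem : ∀ P : EPt W,
      P ∈ E0 ↔ EC.NF.cls A.valuation ((Transfer.vcEquiv C rfl).symm P) = 1 := fun P => Iff.rfl
  refine ⟨E0, ?_, ?_, ?_, ?_⟩
  · intro P
    rw [hmem]
    exact (NodeDict14.inZero_iff_cls W A C hu hr hs ht hNF hg hb hb0 P).symm
  · intro σ hσ P
    rw [hmem]
    exact NodeInertia14.cls_inertia_sub (EQ W).toAffine A C hu hr hs hNF hg hb hb0 σ hσ P
  · intro σ hσ P hP n hn hnP
    have hnd : ¬ (ℓ : ℤ) ∣ (n : ℤ) := by
      intro h
      exact (Nat.Prime.coprime_iff_not_dvd hℓ).mp hn.symm (Int.natCast_dvd_natCast.mp h)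
    have hm : A.valuation ((n : ℕ) : Qb) = 1 := by
      have := val_intCast_eq_one A.valuation hℓ hvq hnd
      simpa using this
    have h := fixed_of_cls_eq_one A (EQ W).toAffine C hu hr hs ht hNF hg hb hb0 hm σ hσ
      ((Transfer.vcEquiv C rfl).symm P) ((hmem P).mp hP) (by rw [← map_nsmul, hnP, map_zero])
    rw [AddEquiv.apply_symm_apply] at h
    exact h
  · intro q hq _ x y hx hy hx0
    obtain ⟨a, ha⟩ := exists_nsmul_add_cls A.valuation hNF hg hb hb0 hq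
      (x := (Transfer.vcEquiv C rfl).symm x) (y := (Transfer.vcEquiv C rfl).symm y)
      (by rw [← map_nsmul, hx, map_zero]) (by rw [← map_nsmul, hy, map_zero])
      (fun h => hx0 ((hmem x).mpr h))
    refine ⟨-(a : ℤ), ?_⟩
    rw [hmem]
    have e : y - (-(a : ℤ)) • x = y + a • x := by
      rw [neg_smul, sub_neg_eq_add, natCast_zsmul]
    rw [e, map_add, map_nsmul]
    exact ha

end Fermat.Agent.S12P.Node14
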