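/-
S12 project, brick NODE, clause 2 (helper58): **inertia preserves the class function `cls` of the
nodal normal form of a general integral model, on every point.**

Setting: `W₀` a Weierstrass curve over `F`, `K/F` a field extension with a valuation subring `A`,
`C = (1, r, s, t)` an `A`-integral change of variables over `K` putting `W₀⁄K` in the nodal normal
form `y² + g x y = x³ + b x` (`v g = 1`, `v b < 1`, `b ≠ 0`), `σ` in the inertia group of `A`.
The change of variables is in general NOT fixed by `σ` (`r` is the `x`-coordinate of a `2`-torsion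
point reducing to the node, and inertia may exchange the two such points).  Nevertheless

  `cls (C⁻¹ (σ • P)) = cls (C⁻¹ P)`  for every point `P` of `W₀⁄K`   (`cls_inertia`),

hence `σ • P - P` has class `1`, i.e. nonsingular reduction (`cls_inertia_sub`).

Proof.  With `ε = σ r - r`, `δ = σ s - s`, `κ = -s ε + (σ t - t)` the normal-form equations for
`C` and `σ C` give `ε (4 ε² + g² ε + 4 b) = 0` and `2 κ = -ε g`, so `v ε ≤ v b`, `v κ ≤ v b`, and
`v δ < 1`.  The normal-form coordinates of `σ • P` are `(σ x' + ε, σ y' + δ σ x' + κ)` where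
`(x', y')` are those of `P`; as `v ∘ σ = v`, each of the four types of `cls` is preserved.
-/
import Fermat.Agent.S58.Mult.Fixed
import Fermat.Agent.EC.NF.Local2
import Fermat.Agent.Lib.GalQbar

set_option autoImplicit false

namespace Fermat.Agent.S12P.NodeInertia58

open WeierstrassCurve WeierstrassCurve.Affine Fermat.Agent.EC.NF Fermat.Agent.S05

/-! ### Valuation algebra -/

section Core

variable {K : Type*} [Field K] {Γ₀ : Type*} [LinearOrderedCommGroupWithZero Γ₀]
  (v : Valuation K Γ₀)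

/-- The class function of `EC/NF/ClsDef` in coordinates. -/
noncomputable def clsVal (b x y : K) : Γ₀ :=
  if 1 ≤ v x then 1
  else if v x ≤ v b then v b
  else if v y < v x then v x
  else v b ^ 2 / v x

theorem val_four_mul_le (x : K) : v (4 * x) ≤ v x := by
  rw [map_mul]
  calc v (4 : K) * v x ≤ 1 * v x :=
        mul_le_mul_left (Fermat.Agent.S58.Mult.val_ofNat_le_one' v 4) _
    _ = v x := one_mul _

theorem val_two_mul_le (x : K) : v (2 * x) ≤ v x := by
  rw [map_mul]
  calc v (2 : K) * v x ≤ 1 * v x :=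
        mul_le_mul_left (Fermat.Agent.S58.Mult.val_ofNat_le_one' v 2) _
    _ = v x := one_mul _

/-- `v (g² + 4 ε) = 1`. -/
theorem val_unit_aux {g ε : K} (hg : v g = 1) (hε : v ε < 1) : v (g ^ 2 + 4 * ε) = 1 := by
  have h1 : v (4 * ε) < v (g ^ 2) := by
    rw [map_pow, hg, one_pow]
    exact lt_of_le_of_lt (val_four_mul_le v ε) hε
  rw [Valuation.map_add_eq_of_lt_left v h1, map_pow, hg, one_pow]

/-- The shift `ε` of the root is at most `b` in valuation. -/
theorem val_eps_le {g b ε : K} (hg : v g = 1) (hε : v ε < 1)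
    (I1 : ε * (4 * ε ^ 2 + g ^ 2 * ε + 4 * b) = 0) : v ε ≤ v b := by
  rcases mul_eq_zero.mp I1 with h | h
  · rw [h, map_zero]; exact zero_le
  · have e : 4 * b = -(ε * (g ^ 2 + 4 * ε)) := by linear_combination h
    have h4 : v (4 * b) = v ε := by
      rw [e, Valuation.map_neg, map_mul, val_unit_aux v hg hε, mul_one]
    rw [← h4]
    exact val_four_mul_le v b

/-- The shift `κ` of `y` is at most `b` in valuation. -/
theorem val_kappa_le {g b ε κ : K} (h2 : (2 : K) ≠ 0) (hg : v g = 1) (hε : v ε < 1)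
    (I1 : ε * (4 * ε ^ 2 + g ^ 2 * ε + 4 * b) = 0) (I2 : 2 * κ = -(ε * g)) : v κ ≤ v b := by
  rcases mul_eq_zero.mp I1 with h | h
  · have : κ = 0 := by
      have h0 : 2 * κ = 0 := by rw [I2, h]; ring
      exact (mul_eq_zero.mp h0).resolve_left h2
    rw [this, map_zero]; exact zero_le
  · have e : κ * (g ^ 2 + 4 * ε) = 2 * b * g := by
      have h0 : 2 * (κ * (g ^ 2 + 4 * ε) - 2 * b * g) = 0 := by
        linear_combination (g ^ 2 + 4 * ε) * I2 - g * h
      have := (mul_eq_zero.mp h0).resolve_left h2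
      linear_combination this
    have h4 : v κ = v (2 * b) := by
      have := congrArg v e
      rwa [map_mul, val_unit_aux v hg hε, mul_one, map_mul (v) (2 * b) g, hg, mul_one] at this
    rw [h4]
    exact val_two_mul_le v b

/-- **The class is unchanged** by `(x, y) ↦ (ξ + ε, η + δ ξ + κ)` with `v ξ = v x`, `v η = v y`,
`v ε ≤ v b`, `v κ ≤ v b`, `v δ < 1`. -/
theorem clsVal_congr {b ε δ κ x y ξ η : K} (hb0 : b ≠ 0)
    (hε : v ε < 1) (hεb : v ε ≤ v b) (hδ : v δ < 1) (hκ : v κ ≤ v b)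
    (hξ : v ξ = v x) (hη : v η = v y) :
    clsVal v b (ξ + ε) (η + δ * ξ + κ) = clsVal v b x y := by
  have hbpos : 0 < v b := zero_lt_iff.mpr ((Valuation.ne_zero_iff v).mpr hb0)
  unfold clsVal
  by_cases h1 : 1 ≤ v x
  · have hx : v (ξ + ε) = v ξ :=
      Valuation.map_add_eq_of_lt_left v (by rw [hξ]; exact lt_of_lt_of_le hε h1)
    rw [if_pos h1, if_pos (by rw [hx, hξ]; exact h1)]
  · have hx1 : v x < 1 := not_le.mp h1
    have h1' : ¬ 1 ≤ v (ξ + ε) :=
      not_le.mpr (Valuation.map_add_lt v (by rw [hξ]; exact hx1) hε)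
    rw [if_neg h1, if_neg h1']
    by_cases h2 : v x ≤ v b
    · have hx : v (ξ + ε) ≤ v b := Valuation.map_add_le v (by rw [hξ]; exact h2) hεb
      rw [if_pos h2, if_pos hx]
    · have hbx : v b < v x := not_le.mp h2
      have hxe : v (ξ + ε) = v x := by
        rw [Valuation.map_add_eq_of_lt_left v (by rw [hξ]; exact lt_of_le_of_lt hεb hbx), hξ]
      rw [if_neg h2, if_neg (by rw [hxe]; exact h2), hxe]
      have hm : v (δ * ξ + κ) < v x := by
        apply Valuation.map_add_lt v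
        · rw [map_mul, hξ]
          calc v δ * v x < 1 * v x := mul_lt_mul_of_pos_right hδ (lt_trans hbpos hbx)
            _ = v x := one_mul _
        · exact lt_of_le_of_lt hκ hbx
      by_cases h3 : v y < v x
      · have hy : v (η + δ * ξ + κ) < v x := by
          rw [add_assoc]
          exact Valuation.map_add_lt v (by rw [hη]; exact h3) hm
        rw [if_pos h3, if_pos hy]
      · have hy : v (η + δ * ξ + κ) = v y := by
          rw [add_assoc, Valuation.map_add_eq_of_lt_left v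
            (by rw [hη]; exact lt_of_lt_of_le hm (not_lt.mp h3)), hη]
        rw [if_neg h3, if_neg (by rw [hy]; exact h3)]

end Core

/-! ### The Galois statement -/

section Galois

variable {F K : Type*} [Field F] [Field K] [Algebra F K] [DecidableEq K]

/-- The inverse of the transfer along `C = (1, r, s, t)`, in coordinates. -/
theorem symm_some (W₀ : Affine F) (C : VariableChange K) (hu : C.u = 1) {X Y : K}
    (hP : (W₀⁄K).Nonsingular X Y) :
    ∃ hQ : (C • (W₀⁄K)).toAffine.Nonsingular (X - C.r) (Y - C.s * (X - C.r) - C.t),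
      (Transfer.vcEquiv C rfl).symm (Point.some X Y hP) =
        Point.some (X - C.r) (Y - C.s * (X - C.r) - C.t) hQ := by
  have hu' : (C.u : K) = 1 := by rw [hu]; rfl
  have eX' : Transfer.vcX C (X - C.r) = X := by simp [Transfer.vcX, hu']
  have eY' : Transfer.vcY C (X - C.r) (Y - C.s * (X - C.r) - C.t) = Y := by
    simp only [Transfer.vcY, hu', one_pow, one_mul]
    ring
  have hQ : (C • (W₀⁄K)).toAffine.Nonsingular (X - C.r) (Y - C.s * (X - C.r) - C.t) := by
    rw [Transfer.nonsingular_iff (W₀⁄K) C, eX', eY']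
    exact hP
  refine ⟨hQ, ?_⟩
  rw [AddEquiv.symm_apply_eq, Transfer.vcEquiv_some, Point.some.injEq]
  exact ⟨eX'.symm, eY'.symm⟩

omit [Algebra F K] [DecidableEq K] in
/-- The normal-form equations of `C = (1, r, s, t)` in terms of the coefficients of the curve. -/
theorem nf_equations (E : WeierstrassCurve K) (C : VariableChange K) (hu : C.u = 1)
    (hNF : IsNF (C • E)) :
    (E.a₂ - C.s * E.a₁ + 3 * C.r - C.s ^ 2 = 0) ∧ (E.a₃ + C.r * E.a₁ + 2 * C.t = 0) ∧
    (E.a₆ + C.r * E.a₄ + C.r ^ 2 * E.a₂ + C.r ^ 3 - C.t * E.a₃ - C.t ^ 2 - C.r * C.t * E.a₁ = 0) ∧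
    ((C • E).a₁ = E.a₁ + 2 * C.s) ∧
    ((C • E).a₄ = E.a₄ - C.s * E.a₃ + 2 * C.r * E.a₂ - (C.t + C.r * C.s) * E.a₁ + 3 * C.r ^ 2
      - 2 * C.s * C.t) := by
  have h2 := hNF.a₂
  have h3 := hNF.a₃
  have h6 := hNF.a₆
  rw [variableChange_a₂] at h2
  rw [variableChange_a₃] at h3
  rw [variableChange_a₆] at h6
  simp only [hu, inv_one, Units.val_one, one_pow, one_mul] at h2 h3 h6
  refine ⟨h2, h3, h6, ?_, ?_⟩
  · rw [variableChange_a₁]; simp only [hu, inv_one, Units.val_one, one_mul]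
  · rw [variableChange_a₄]; simp only [hu, inv_one, Units.val_one, one_pow, one_mul]

/-- **Inertia preserves the class function.** -/
theorem cls_inertia [Algebra.IsAlgebraic F K] (A : ValuationSubring K) (W₀ : Affine F)
    (C : VariableChange K) (h2 : (2 : K) ≠ 0) (hu : C.u = 1) (hr : A.valuation C.r ≤ 1)
    (hs : A.valuation C.s ≤ 1) (hNF : IsNF (C • (W₀⁄K)))
    (hg : A.valuation (C • (W₀⁄K)).a₁ = 1) (hb0 : (C • (W₀⁄K)).a₄ ≠ 0)
    (σ : K ≃ₐ[F] K) (hσ : σ ∈ A.inertiaSubgroupIn F) (P : (W₀⁄K).Point) :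
    cls A.valuation ((Transfer.vcEquiv C rfl).symm (σ • P)) =
      cls A.valuation ((Transfer.vcEquiv C rfl).symm P) := by
  have hval : ∀ x : K, A.valuation (σ x) = A.valuation x :=
    Local2.val_map_eq A.valuation σ (Inertia.map_lt_one A σ hσ)
      (Inertia.map_lt_one A σ.symm (Inertia.symm_mem A σ hσ))
  rcases P with _ | ⟨X, Y, hP⟩
  · rfl
  · rw [Point.algEquiv_smul_def, Point.map_some]
    obtain ⟨hQ, e⟩ := symm_some W₀ C hu hP
    obtain ⟨hQ', e'⟩ := symm_some W₀ C hu
      ((W₀.baseChange_nonsingular σ.toAlgHom.injective _ _).mpr hP)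
    rw [e, e']
    -- the equations of the normal form, and their conjugates
    obtain ⟨N2, N3, N6, G, B⟩ := nf_equations (W₀⁄K) C hu hNF
    have f1 : σ (W₀⁄K).a₁ = (W₀⁄K).a₁ := σ.commutes W₀.a₁
    have f2 : σ (W₀⁄K).a₂ = (W₀⁄K).a₂ := σ.commutes W₀.a₂
    have f3 : σ (W₀⁄K).a₃ = (W₀⁄K).a₃ := σ.commutes W₀.a₃
    have f4 : σ (W₀⁄K).a₄ = (W₀⁄K).a₄ := σ.commutes W₀.a₄
    have f6 : σ (W₀⁄K).a₆ = (W₀⁄K).a₆ := σ.commutes W₀.a₆
    have N3' : (W₀⁄K).a₃ + σ C.r * (W₀⁄K).a₁ + 2 * σ C.t = 0 := by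
      have := congrArg σ N3
      simpa only [map_add, map_mul, map_ofNat, map_zero, f1, f3] using this
    have N6' : (W₀⁄K).a₆ + σ C.r * (W₀⁄K).a₄ + σ C.r ^ 2 * (W₀⁄K).a₂ + σ C.r ^ 3
        - σ C.t * (W₀⁄K).a₃ - σ C.t ^ 2 - σ C.r * σ C.t * (W₀⁄K).a₁ = 0 := by
      have := congrArg σ N6
      simpa only [map_add, map_sub, map_mul, map_pow, map_zero, f1, f2, f3, f4, f6] using this
    -- the two identities
    have I1 : (σ C.r - C.r) * (4 * (σ C.r - C.r) ^ 2 + (C • (W₀⁄K)).a₁ ^ 2 * (σ C.r - C.r)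
        + 4 * (C • (W₀⁄K)).a₄) = 0 := by
      rw [G, B]
      linear_combination 4 * N6' + ((W₀⁄K).a₃ + σ C.r * (W₀⁄K).a₁ + 2 * σ C.t) * N3' - 4 * N6
        - ((W₀⁄K).a₃ + C.r * (W₀⁄K).a₁ + 2 * C.t) * N3 - 4 * (σ C.r - C.r) ^ 2 * N2
        - (σ C.r - C.r) * (2 * (W₀⁄K).a₁ + 4 * C.s) * N3
    have I2 : 2 * (-(C.s * (σ C.r - C.r)) + (σ C.t - C.t)) =
        -((σ C.r - C.r) * (C • (W₀⁄K)).a₁) := by
      rw [G]
      linear_combination N3' - N3
    have hε : A.valuation (σ C.r - C.r) < 1 := inertia_spec A σ hσ _ hr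
    have hδ : A.valuation (σ C.s - C.s) < 1 := inertia_spec A σ hσ _ hs
    have hεb := val_eps_le A.valuation hg hε I1
    have hκ := val_kappa_le A.valuation h2 hg hε I1 I2
    have e1 : σ.toAlgHom X - C.r = σ (X - C.r) + (σ C.r - C.r) := by
      rw [map_sub]
      change σ X - C.r = σ X - σ C.r + (σ C.r - C.r)
      ring
    have e2 : σ.toAlgHom Y - C.s * (σ.toAlgHom X - C.r) - C.t =
        σ (Y - C.s * (X - C.r) - C.t) + (σ C.s - C.s) * σ (X - C.r)
          + (-(C.s * (σ C.r - C.r)) + (σ C.t - C.t)) := by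
      simp only [map_sub, map_mul]
      change σ Y - C.s * (σ X - C.r) - C.t = _
      ring
    change clsVal A.valuation (C • (W₀⁄K)).a₄ (σ.toAlgHom X - C.r)
        (σ.toAlgHom Y - C.s * (σ.toAlgHom X - C.r) - C.t) =
      clsVal A.valuation (C • (W₀⁄K)).a₄ (X - C.r) (Y - C.s * (X - C.r) - C.t)
    rw [e2, e1]
    exact clsVal_congr A.valuation hb0 hε hεb hδ hκ (hval _) (hval _)

/-- **`σ • P - P` has class `1`** (nonsingular reduction) for `σ` in the inertia group. -/
theorem cls_inertia_sub [Algebra.IsAlgebraic F K] (A : ValuationSubring K) (W₀ : Affine F)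
    (C : VariableChange K) (h2 : (2 : K) ≠ 0) (hu : C.u = 1) (hr : A.valuation C.r ≤ 1)
    (hs : A.valuation C.s ≤ 1) (hNF : IsNF (C • (W₀⁄K)))
    (hg : A.valuation (C • (W₀⁄K)).a₁ = 1) (hb : A.valuation (C • (W₀⁄K)).a₄ < 1)
    (hb0 : (C • (W₀⁄K)).a₄ ≠ 0) (σ : K ≃ₐ[F] K) (hσ : σ ∈ A.inertiaSubgroupIn F)
    (P : (W₀⁄K).Point) :
    cls A.valuation ((Transfer.vcEquiv C rfl).symm (σ • P - P)) = 1 := by
  rw [map_sub]
  exact cls_sub_eq_one A.valuation hNF hg hb hb0
    (cls_inertia A W₀ C h2 hu hr hs hNF hg hb0 σ hσ P)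

end Galois

end Fermat.Agent.S12P.NodeInertia58
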