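/-
S12 project, row 634 (NODE), helper58: `node : Node` — the zero component at a multiplicative
prime is a subgroup `E0` with
  (1) `P ∈ E0 ↔ W.InZeroComponentAt A P`                     (dictionary with the class function),
  (2) `σ • P - P ∈ E0` for inertia `σ` and EVERY point `P`    (`NodeInertia58.cls_inertia_sub`),
  (3) inertia fixes the prime-to-`ℓ` torsion of `E0`          (`S58.Mult.fixed_of_cls_eq_one`),
  (4) the `q`-torsion of the quotient by `E0` is cyclic       (`cls` is a homomorphism modulo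
      `v(b)^(2ℤ)` into a torsion-free group).

`E0 := {P | cls (C⁻¹ P) = 1}` for an `A`-integral change of variables `C` to the nodal normal form
`y² + g x y = x³ + b x` (`S58.Mult.exists_nf_model`).
-/
import Fermat.Agent.S12P.NodeInertia58
import Fermat.Agent.S12P.Interfaces20
import Fermat.Agent.S58.Mult.Main
import Fermat.Agent.S15P.M2.NodalRed69

set_option autoImplicit false

namespace Fermat.Agent.S12P.Node58

open WeierstrassCurve WeierstrassCurve.Affine Fermat.Agent.EC.NF Fermat.Agent.S05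
open scoped WeierstrassCurve.Affine

local notation "Qbar" => AlgebraicClosure ℚ

/-! ### Valuation algebra on the normal form -/

section Val

variable {K : Type*} [Field K] {Γ₀ : Type*} [LinearOrderedCommGroupWithZero Γ₀]
  (v : Valuation K Γ₀)

theorem val_mul_lt {x y : K} (hx : v x < 1) (hy : v y ≤ 1) : v (x * y) < 1 := by
  rw [map_mul]
  calc v x * v y ≤ v x * 1 := mul_le_mul_right hy _
    _ = v x := mul_one _
    _ < 1 := hx

theorem val_mul_lt' {x y : K} (hx : v x ≤ 1) (hy : v y < 1) : v (x * y) < 1 := by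
  rw [mul_comm]
  exact val_mul_lt v hy hx

theorem val_mul_le {x y : K} (hx : v x ≤ 1) (hy : v y ≤ 1) : v (x * y) ≤ 1 := by
  rw [map_mul]
  exact mul_le_one' hx hy

/-- On the integral nodal normal form `y² + g x y = x³ + b x` both partial derivatives are
non-units exactly at the integral points with `v x < 1`. -/
theorem nf_partials_small_iff {g b x y : K} (hg : v g = 1) (hb : v b < 1) (hx : v x ≤ 1)
    (hy : v y ≤ 1) (hE : y ^ 2 + g * x * y = x ^ 3 + b * x) :
    (v (g * y - (3 * x ^ 2 + b)) < 1 ∧ v (2 * y + g * x) < 1) ↔ v x < 1 := by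
  have h2 : v (2 : K) ≤ 1 := Fermat.Agent.S58.Mult.val_ofNat_le_one' v 2
  have h3 : v (3 : K) ≤ 1 := Fermat.Agent.S58.Mult.val_ofNat_le_one' v 3
  constructor
  · rintro ⟨h1, h2'⟩
    have e : x ^ 3 = -((2 * y + g * x) * y) - x * (g * y - (3 * x ^ 2 + b)) + b * x := by
      linear_combination 2 * hE
    have h4 : v (x ^ 3) < 1 := by
      rw [e]
      refine Valuation.map_add_lt v (Valuation.map_sub_lt v ?_ ?_) ?_
      · rw [Valuation.map_neg]; exact val_mul_lt v h2' hy
      · exact val_mul_lt' v hx h1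
      · exact val_mul_lt v hb hx
    rw [map_pow] at h4
    by_contra hcon
    have hx1 : v x = 1 := le_antisymm hx (not_lt.mp hcon)
    rw [hx1, one_pow] at h4
    exact lt_irrefl _ h4
  · intro hx1
    have hgx : v (g * x) < 1 := by rw [map_mul, hg, one_mul]; exact hx1
    have hy1 : v y < 1 := by
      by_contra hcon
      have hy1 : v y = 1 := le_antisymm hy (not_lt.mp hcon)
      have h1 : v (y + g * x) = 1 := by
        rw [Valuation.map_add_eq_of_lt_left v (by rw [hy1]; exact hgx), hy1]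
      have h4 : v (y * (y + g * x)) = 1 := by rw [map_mul, hy1, h1, one_mul]
      have e : y * (y + g * x) = x * (x ^ 2 + b) := by linear_combination hE
      rw [e] at h4
      have h5 : v (x * (x ^ 2 + b)) < 1 := by
        refine val_mul_lt v hx1 (Valuation.map_add_le v ?_ hb.le)
        rw [map_pow]; exact pow_le_one' hx 2
      exact absurd h4 h5.ne
    refine ⟨?_, ?_⟩
    · refine Valuation.map_sub_lt v (by rw [map_mul, hg, one_mul]; exact hy1)
        (Valuation.map_add_lt v ?_ hb)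
      refine val_mul_lt' v h3 ?_
      rw [map_pow]; exact pow_lt_one' hx1 (by norm_num)
    · exact Valuation.map_add_lt v (val_mul_lt' v h2 hy1) hgx

end Val

/-! ### The coordinates of the inverse transfer -/

section Coord

variable {K : Type*} [Field K]

theorem vcX_sub (C : VariableChange K) (hu : C.u = 1) (X : K) :
    Transfer.vcX C (X - C.r) = X := by
  have hu' : (C.u : K) = 1 := by rw [hu]; rfl
  simp [Transfer.vcX, hu']

theorem vcY_sub (C : VariableChange K) (hu : C.u = 1) (X Y : K) :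
    Transfer.vcY C (X - C.r) (Y - C.s * (X - C.r) - C.t) = Y := by
  have hu' : (C.u : K) = 1 := by rw [hu]; rfl
  simp only [Transfer.vcY, hu', one_pow, one_mul]
  ring

end Coord

/-! ### The integral nodal normal form of an integral model at a multiplicative prime -/

/-- An `A`-integral change of variables `C = (1, r, s, t)` over `ℚ̄` putting the curve of the
integral model `W` in nodal normal form. -/
structure NFData (W : WeierstrassCurve ℤ) (A : ValuationSubring Qbar)
    (C : VariableChange Qbar) : Prop where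
  hu : C.u = 1
  hr : A.valuation C.r ≤ 1
  hs : A.valuation C.s ≤ 1
  ht : A.valuation C.t ≤ 1
  hNF : IsNF (C • ((W.map (Int.castRingHom ℚ)).toAffine⁄Qbar))
  hg : A.valuation (C • ((W.map (Int.castRingHom ℚ)).toAffine⁄Qbar)).a₁ = 1
  hb : A.valuation (C • ((W.map (Int.castRingHom ℚ)).toAffine⁄Qbar)).a₄ < 1
  hb0 : (C • ((W.map (Int.castRingHom ℚ)).toAffine⁄Qbar)).a₄ ≠ 0

theorem exists_nfData (W : WeierstrassCurve ℤ) (hΔ0 : W.Δ ≠ 0) {q : ℕ} (hq : q.Prime)
    (hqΔ : (q : ℤ) ∣ W.Δ) (hqc₄ : ¬ (q : ℤ) ∣ W.c₄) (A : ValuationSubring Qbar)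
    (hA : A.LiesOverPrime q) : ∃ C : VariableChange Qbar, NFData W A C := by
  have hvq : A.valuation ((q : ℕ) : Qbar) < 1 := by
    have : (q : Qbar) ∈ A.nonunits := hA
    rwa [ValuationSubring.mem_nonunits_iff] at this
  have hWK : ((W.map (Int.castRingHom ℚ)).toAffine⁄Qbar) = W.map (Int.castRingHom Qbar) :=
    Fermat.Agent.EC.FrobFixed.baseChange_eq_map W
  obtain ⟨i₁, i₂, i₃, i₄, i₆⟩ := Fermat.Agent.EC.FrobFixed.val_coeffs_le_one A.valuation W _ hWK
  have hint : IsIntegralModel A.valuation ((W.map (Int.castRingHom ℚ)).toAffine⁄Qbar) :=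
    ⟨i₁, i₂, i₃, i₄, i₆⟩
  have hc₄ : A.valuation ((W.map (Int.castRingHom ℚ)).toAffine⁄Qbar).c₄ = 1 := by
    rw [hWK, map_c₄, eq_intCast]
    exact Fermat.Agent.EC.FrobFixed.val_intCast_eq_one A.valuation hq hvq hqc₄
  have hΔ : A.valuation ((W.map (Int.castRingHom ℚ)).toAffine⁄Qbar).Δ < 1 := by
    rw [hWK, map_Δ, eq_intCast]
    exact Fermat.Agent.EC.FrobFixed.val_intCast_lt_one A.valuation hvq hqΔ
  have hΔ0' : ((W.map (Int.castRingHom ℚ)).toAffine⁄Qbar).Δ ≠ 0 := by
    rw [hWK, map_Δ, eq_intCast]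
    exact_mod_cast hΔ0
  obtain ⟨C, hu, hr, hs, ht, hNF, hg, hb, hb0⟩ :=
    Fermat.Agent.S58.Mult.exists_nf_model A.valuation ((W.map (Int.castRingHom ℚ)).toAffine⁄Qbar)
      two_ne_zero hint hc₄ hΔ hΔ0'
  exact ⟨C, hu, hr, hs, ht, hNF, hg, hb, hb0⟩

/-! ### The dictionary `InZeroComponentAt ⟺ cls = 1` -/

section Bridge

open IsLocalRing Fermat.Agent.S58.Red

variable {W : WeierstrassCurve ℤ} {A : ValuationSubring Qbar}

theorem rd_eq_zero_iff {x : Qbar} {c : ResidueField A} (h : Rd A (residue A) x c) :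
    c = 0 ↔ A.valuation x < 1 := by
  obtain ⟨a, rfl, rfl⟩ := h
  rw [residue_eq_zero_iff]
  exact A.valuation_lt_one_iff a

/-- An affine point of the curve with integral `x`-coordinate has nonsingular reduction on the
model `W` exactly when its normal-form `x`-coordinate is a unit. -/
theorem nonsingular_red_iff {C : VariableChange Qbar} (D : NFData W A C) {X Y : Qbar}
    (hP : ((W.map (Int.castRingHom ℚ)).toAffine⁄Qbar).Nonsingular X Y) (hx : X ∈ A) (hy : Y ∈ A) :
    (W.map (Int.castRingHom (ResidueField A))).toAffine.Nonsingular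
        (residue A ⟨X, hx⟩) (residue A ⟨Y, hy⟩) ↔ 1 ≤ A.valuation (X - C.r) := by
  classical
  have M := Fermat.Agent.S15P.M2.NodalRed69.model_res W A
  have rx : Rd A (residue A) X (residue A ⟨X, hx⟩) := rd_of_mem hx
  have ry : Rd A (residue A) Y (residue A ⟨Y, hy⟩) := rd_of_mem hy
  have hEk := M.equation hP.1 rx ry
  have rPX := (M.a₁.mul ry).sub (((rd_three.mul (rx.pow 2)).add ((rd_two.mul M.a₂).mul rx)).add M.a₄)
  have rPY := ((rd_two.mul ry).add (M.a₁.mul rx)).add M.a₃
  -- normal-form coordinates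
  have hX : A.valuation X ≤ 1 := (A.valuation_le_one_iff X).mpr hx
  have hY : A.valuation Y ≤ 1 := (A.valuation_le_one_iff Y).mpr hy
  have hx' : A.valuation (X - C.r) ≤ 1 := Valuation.map_sub_le A.valuation hX D.hr
  have hy' : A.valuation (Y - C.s * (X - C.r) - C.t) ≤ 1 :=
    Valuation.map_sub_le A.valuation
      (Valuation.map_sub_le A.valuation hY (val_mul_le A.valuation D.hs hx')) D.ht
  have hu' : (C.u : Qbar) = 1 := by rw [D.hu]; rfl
  have hQ : (C • ((W.map (Int.castRingHom ℚ)).toAffine⁄Qbar)).toAffine.Nonsingular (X - C.r)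
      (Y - C.s * (X - C.r) - C.t) := by
    rw [Transfer.nonsingular_iff ((W.map (Int.castRingHom ℚ)).toAffine⁄Qbar) C,
      vcX_sub C D.hu, vcY_sub C D.hu]
    exact hP
  have hE := D.hNF.nfEq hQ
  have eY := Transfer.polyY_eq ((W.map (Int.castRingHom ℚ)).toAffine⁄Qbar) C (X - C.r)
    (Y - C.s * (X - C.r) - C.t)
  have eX := Transfer.polyX_eq ((W.map (Int.castRingHom ℚ)).toAffine⁄Qbar) C (X - C.r)
    (Y - C.s * (X - C.r) - C.t)
  rw [vcX_sub C D.hu, vcY_sub C D.hu, hu', inv_one, one_pow, one_mul, D.hNF.a₃, add_zero] at eY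
  rw [vcX_sub C D.hu, vcY_sub C D.hu, hu', inv_one, one_pow, one_mul, D.hNF.a₂, mul_zero,
    zero_mul, add_zero] at eX
  have key := nf_partials_small_iff A.valuation D.hg D.hb hx' hy' hE
  rw [eY, eX] at key
  rw [Affine.nonsingular_iff', ← not_lt, ← key]
  constructor
  · rintro ⟨-, h | h⟩ ⟨h1, h2⟩
    · -- `P_X` is a unit, `P_X + s P_Y` and `P_Y` are not
      apply h
      rw [rd_eq_zero_iff rPX]
      have e : ((W.map (Int.castRingHom ℚ)).toAffine⁄Qbar).a₁ * Y -
          (3 * X ^ 2 + 2 * ((W.map (Int.castRingHom ℚ)).toAffine⁄Qbar).a₂ * X +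
            ((W.map (Int.castRingHom ℚ)).toAffine⁄Qbar).a₄) =
          (((W.map (Int.castRingHom ℚ)).toAffine⁄Qbar).a₁ * Y -
            (3 * X ^ 2 + 2 * ((W.map (Int.castRingHom ℚ)).toAffine⁄Qbar).a₂ * X +
              ((W.map (Int.castRingHom ℚ)).toAffine⁄Qbar).a₄) +
            C.s * (2 * Y + ((W.map (Int.castRingHom ℚ)).toAffine⁄Qbar).a₁ * X +
              ((W.map (Int.castRingHom ℚ)).toAffine⁄Qbar).a₃)) -
          C.s * (2 * Y + ((W.map (Int.castRingHom ℚ)).toAffine⁄Qbar).a₁ * X +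
              ((W.map (Int.castRingHom ℚ)).toAffine⁄Qbar).a₃) := by ring
      rw [e]
      exact Valuation.map_sub_lt A.valuation h1 (val_mul_lt' A.valuation D.hs h2)
    · exact h ((rd_eq_zero_iff rPY).mpr h2)
  · intro h
    refine ⟨hEk, ?_⟩
    by_contra hcon
    rw [not_or, not_not, not_not] at hcon
    apply h
    have h2 := (rd_eq_zero_iff rPY).mp hcon.2
    have h1 := (rd_eq_zero_iff rPX).mp hcon.1
    exact ⟨Valuation.map_add_lt A.valuation h1 (val_mul_lt' A.valuation D.hs h2), h2⟩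

/-- **The dictionary.** A point is in the zero component at `A` (Prelude) exactly when its
normal-form class is `1`. -/
theorem inZero_iff_cls {C : VariableChange Qbar} (D : NFData W A C)
    (P : ((W.map (Int.castRingHom ℚ)).toAffine⁄Qbar).Point) :
    W.InZeroComponentAt A P ↔ cls A.valuation ((Transfer.vcEquiv C rfl).symm P) = 1 := by
  rcases P with _ | ⟨X, Y, hP⟩
  · refine ⟨fun _ => ?_, fun _ => Or.inl rfl⟩
    have h0 : (Transfer.vcEquiv C rfl).symm
        (Point.zero : ((W.map (Int.castRingHom ℚ)).toAffine⁄Qbar).Point) = 0 :=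
      map_zero (Transfer.vcEquiv C rfl).symm
    rw [h0]
    rfl
  · obtain ⟨hQ, e⟩ := NodeInertia58.symm_some (W.map (Int.castRingHom ℚ)).toAffine C D.hu hP
    rw [e]
    have hcls : cls A.valuation (Point.some _ _ hQ) = 1 ↔ 1 ≤ A.valuation (X - C.r) := by
      constructor
      · intro h
        rcases (cls_eq_one_iff A.valuation D.hb D.hb0 _).mp h with h0 | ⟨x, y, h', hPt, hx⟩
        · exact absurd h0 (Point.some_ne_zero _)
        · rw [Point.some.injEq] at hPt
          rw [hPt.1]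
          exact hx
      · intro h
        exact ClsZS.cls_some_Z A.valuation hQ h
    rw [hcls]
    have hIn : W.InZeroComponentAt A (Point.some X Y hP) ↔
        (X ∉ A ∨ ∃ (hx : X ∈ A) (hy : Y ∈ A),
          (W.map (Int.castRingHom (ResidueField A))).toAffine.Nonsingular
            (residue A ⟨X, hx⟩) (residue A ⟨Y, hy⟩)) := by
      constructor
      · rintro (h0 | ⟨x, y, h, hPt, hc⟩)
        · exact absurd h0 (Point.some_ne_zero _)
        · injection hPt with h1 h2
          subst h1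
          subst h2
          exact hc
      · intro hc
        exact Or.inr ⟨X, Y, hP, rfl, hc⟩
    refine hIn.trans ?_
    by_cases hx : X ∈ A
    · -- `Y` is integral
      have M := Fermat.Agent.S15P.M2.NodalRed69.model_res W A
      have hy : Y ∈ A := by
        have hE := hP.1
        rw [Affine.equation_iff] at hE
        refine mem_of_quadratic (a := ((W.map (Int.castRingHom ℚ)).toAffine⁄Qbar).a₁ * X +
          ((W.map (Int.castRingHom ℚ)).toAffine⁄Qbar).a₃)
          (c := X ^ 3 + ((W.map (Int.castRingHom ℚ)).toAffine⁄Qbar).a₂ * X ^ 2 +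
            ((W.map (Int.castRingHom ℚ)).toAffine⁄Qbar).a₄ * X +
            ((W.map (Int.castRingHom ℚ)).toAffine⁄Qbar).a₆) ?_ ?_ (by linear_combination hE)
        · exact add_mem (mul_mem M.a₁.mem hx) M.a₃.mem
        · exact add_mem (add_mem (add_mem (pow_mem hx 3) (mul_mem M.a₂.mem (pow_mem hx 2)))
            (mul_mem M.a₄.mem hx)) M.a₆.mem
      constructor
      · rintro (h | ⟨hx', hy', h⟩)
        · exact absurd hx h
        · exact (nonsingular_red_iff D hP hx' hy').mp h
      · intro h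
        exact Or.inr ⟨hx, hy, (nonsingular_red_iff D hP hx hy).mpr h⟩
    · have hX : 1 < A.valuation X := by
        rw [← not_le]
        exact fun h => hx ((A.valuation_le_one_iff X).mp h)
      have hv : A.valuation (X - C.r) = A.valuation X :=
        Valuation.map_sub_eq_of_lt_left A.valuation (lt_of_le_of_lt D.hr hX)
      exact ⟨fun _ => by rw [hv]; exact hX.le, fun _ => Or.inl hx⟩

end Bridge

/-! ### Cyclicity of the `q`-torsion of the component group -/

section Cyclic

variable {K : Type*} [Field K] [DecidableEq K] {Γ₀ : Type*} [LinearOrderedCommGroupWithZero Γ₀]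
  (v : Valuation K Γ₀) {W : Affine K}

/-- If `x`, `y` are killed by a prime `q` and `x` does not have class `1`, some `y + a • x` has
class `1`. -/
theorem exists_add_nsmul_cls_eq_one (hW : IsNF W) (hg : v W.a₁ = 1) (hb : v W.a₄ < 1)
    (hb0 : W.a₄ ≠ 0) {q : ℕ} (hq : q.Prime) {x y : W.Point} (hx : q • x = 0) (hy : q • y = 0)
    (hx1 : cls v x ≠ 1) : ∃ a : ℕ, cls v (y + a • x) = 1 := by
  have hc : v W.a₄ ≠ 0 := (Valuation.ne_zero_iff v).mpr hb0
  obtain ⟨k, hk⟩ := torsion_cls v hW hg hb hb0 hx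
  obtain ⟨j, hj⟩ := torsion_cls v hW hg hb hb0 hy
  have e2 : ∀ i : ℤ, (v W.a₄ ^ (2 * i)) ^ q = v W.a₄ ^ (2 * i * (q : ℤ)) := fun i => by
    rw [← zpow_natCast, ← zpow_mul]
  -- `q ∤ k`
  have hqk : ¬ (q : ℤ) ∣ k := by
    rintro ⟨k', rfl⟩
    apply hx1
    have h1 : cls v x ^ q = (v W.a₄ ^ (2 * k')) ^ q := by
      rw [hk, e2]
      congr 1
      ring
    exact cls_eq_one_of_zpow v hb hb0 x k' ((pow_left_inj₀ zero_le zero_le hq.ne_zero).mp h1)
  obtain ⟨u, w, huw⟩ : IsCoprime (q : ℤ) k :=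
    (Nat.prime_iff_prime_int.mp hq).coprime_iff_not_dvd.mpr hqk
  have hq0 : (q : ℤ) ≠ 0 := by exact_mod_cast hq.ne_zero
  have ha : (((-j * w) % (q : ℤ)).toNat : ℤ) = (-j * w) % (q : ℤ) :=
    Int.toNat_of_nonneg (Int.emod_nonneg _ hq0)
  obtain ⟨M, hM⟩ : (q : ℤ) ∣ j + k * (((-j * w) % (q : ℤ)).toNat : ℤ) := by
    rw [ha, Int.emod_def]
    exact ⟨j * u - k * (-j * w / q), by linear_combination (-j) * huw⟩
  refine ⟨((-j * w) % (q : ℤ)).toNat, ?_⟩
  obtain ⟨i₁, hi₁⟩ := cls_add v hW hg hb hb0 y (((-j * w) % (q : ℤ)).toNat • x)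
  obtain ⟨i₂, hi₂⟩ := cls_nsmul v hW hg hb hb0 ((-j * w) % (q : ℤ)).toNat x
  have e1 : (v W.a₄ ^ (2 * k)) ^ ((-j * w) % (q : ℤ)).toNat =
      v W.a₄ ^ (2 * k * (((-j * w) % (q : ℤ)).toNat : ℤ)) := by
    rw [← zpow_natCast, ← zpow_mul]
  have hz : cls v (y + ((-j * w) % (q : ℤ)).toNat • x) ^ q =
      (v W.a₄ ^ (2 * (M + i₁ + i₂))) ^ q := by
    rw [hi₁, hi₂, mul_pow, mul_pow, mul_pow, pow_right_comm (cls v x), hj, hk, e1, e2 i₂, e2 i₁,
      e2, ← zpow_add₀ hc, ← zpow_add₀ hc, ← zpow_add₀ hc]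
    congr 1
    linear_combination 2 * hM
  exact cls_eq_one_of_zpow v hb hb0 _ _ ((pow_left_inj₀ zero_le zero_le hq.ne_zero).mp hz)

end Cyclic

/-! ### The theorem -/

/-- **(NODE)** `Fermat.Agent.S12P.Node`. -/
theorem node : Fermat.Agent.S12P.Node := by
  intro W hΔ ℓ hℓ hℓΔ hℓc₄ A hA
  classical
  obtain ⟨C, D⟩ := exists_nfData W hΔ hℓ hℓΔ hℓc₄ A hA
  have halg : Algebra.IsAlgebraic ℚ Qbar := Fermat.Agent.Lib.GalQbar.isAlgebraic_rat
  have hvℓ : A.valuation ((ℓ : ℕ) : Qbar) < 1 := by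
    have : (ℓ : Qbar) ∈ A.nonunits := hA
    rwa [ValuationSubring.mem_nonunits_iff] at this
  -- the subgroup
  let E0 : AddSubgroup (Pt W) :=
    { carrier := {P | cls A.valuation ((Transfer.vcEquiv C rfl).symm P) = 1}
      zero_mem' := by
        show cls A.valuation ((Transfer.vcEquiv C rfl).symm 0) = 1
        rw [map_zero]
        rfl
      add_mem' := by
        intro P Q hP hQ
        show cls A.valuation ((Transfer.vcEquiv C rfl).symm (P + Q)) = 1
        rw [map_add]
        obtain ⟨k, hk⟩ := cls_add A.valuation D.hNF D.hg D.hb D.hb0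
          ((Transfer.vcEquiv C rfl).symm P) ((Transfer.vcEquiv C rfl).symm Q)
        have hP' : cls A.valuation ((Transfer.vcEquiv C rfl).symm P) = 1 := hP
        have hQ' : cls A.valuation ((Transfer.vcEquiv C rfl).symm Q) = 1 := hQ
        rw [hP', hQ', one_mul, one_mul] at hk
        exact cls_eq_one_of_zpow A.valuation D.hb D.hb0 _ k hk
      neg_mem' := by
        intro P hP
        show cls A.valuation ((Transfer.vcEquiv C rfl).symm (-P)) = 1
        rw [map_neg]
        obtain ⟨k, hk⟩ := cls_neg A.valuation D.hNF D.hg D.hb D.hb0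
          ((Transfer.vcEquiv C rfl).symm P)
        have hP' : cls A.valuation ((Transfer.vcEquiv C rfl).symm P) = 1 := hP
        rw [hP', mul_one] at hk
        exact cls_eq_one_of_zpow A.valuation D.hb D.hb0 _ k hk }
  have hmem : ∀ P : Pt W, P ∈ E0 ↔ cls A.valuation ((Transfer.vcEquiv C rfl).symm P) = 1 :=
    fun P => Iff.rfl
  refine ⟨E0, ?_, ?_, ?_, ?_⟩
  · -- (1) the dictionary
    intro P
    rw [hmem]
    exact (inZero_iff_cls D P).symm
  · -- (2) inertia moves every point inside `E0`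
    intro σ hσ P
    rw [hmem]
    exact NodeInertia58.cls_inertia_sub A (W.map (Int.castRingHom ℚ)).toAffine C two_ne_zero D.hu
      D.hr D.hs D.hNF D.hg D.hb D.hb0 σ hσ P
  · -- (3) inertia fixes the prime-to-`ℓ` torsion of `E0`
    intro σ hσ P hP n hn hnP
    have hm : A.valuation ((n : ℕ) : Qbar) = 1 := by
      have hnd : ¬ (ℓ : ℤ) ∣ (n : ℤ) := by
        intro h
        have h' : ℓ ∣ n := Int.natCast_dvd_natCast.mp h
        have h1 : ℓ ∣ 1 := by
          have := Nat.dvd_gcd h' (dvd_refl ℓ)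
          rwa [Nat.Coprime.gcd_eq_one hn] at this
        exact hℓ.one_lt.ne' (Nat.dvd_one.mp h1)
      have := Fermat.Agent.EC.FrobFixed.val_intCast_eq_one A.valuation hℓ hvℓ hnd
      simpa using this
    have hnP' : n • (Transfer.vcEquiv C rfl).symm P = 0 := by
      rw [← map_nsmul, hnP, map_zero]
    have := Fermat.Agent.S58.Mult.fixed_of_cls_eq_one A (W.map (Int.castRingHom ℚ)).toAffine C D.hu
      D.hr D.hs D.ht D.hNF D.hg D.hb D.hb0 hm σ hσ ((Transfer.vcEquiv C rfl).symm P)
      ((hmem P).mp hP) hnP'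
    rw [AddEquiv.apply_symm_apply] at this
    exact this
  · -- (4) cyclicity
    intro q hq _ x y hx hy hxE
    have hx' : q • (Transfer.vcEquiv C rfl).symm x = 0 := by rw [← map_nsmul, hx, map_zero]
    have hy' : q • (Transfer.vcEquiv C rfl).symm y = 0 := by rw [← map_nsmul, hy, map_zero]
    obtain ⟨a, ha⟩ := exists_add_nsmul_cls_eq_one A.valuation D.hNF D.hg D.hb D.hb0 hq hx' hy'
      (fun h => hxE ((hmem x).mpr h))
    refine ⟨-(a : ℤ), ?_⟩
    rw [hmem, neg_smul, sub_neg_eq_add, natCast_zsmul, map_add, map_nsmul]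
    exact ha

end Fermat.Agent.S12P.Node58
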