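/-
S12 project, adapter (A5) of ruling #5321 for `Top48` (helper38): the three local Props of
`S12P/Ifc48.lean` at a multiplicative prime, UNCONDITIONALLY, from `Node38.node`
(clauses 1–3 of `Node`):

* `zeroCompMul : Ifc48.ZeroCompMul`   (the zero component is stable under multiples),
* `zeroCompFixed : Ifc48.ZeroCompFixed`   (inertia fixes its prime-to-`ℓ` torsion),
* `inertiaSubZero : Ifc48.InertiaSubZero`   (`τ • P - P` is in the zero component; true for
  every point `P`, the torsion hypothesis of the Prop is not used).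
-/
import Fermat.Agent.S12P.Ifc48
import Fermat.Agent.S12P.Node38

set_option autoImplicit false

namespace Fermat.Agent.S12P.NodeAdapt38

open WeierstrassCurve Fermat.Agent.S58 Fermat.Agent.S12P.Ifc48
open scoped WeierstrassCurve.Affine

/-- **(L1)** -/
theorem zeroCompMul : ZeroCompMul := by
  intro W ℓ hℓ hΔ hℓΔ hℓc₄ A hA P n hP
  obtain ⟨E0, h1, -, -, -⟩ := Node38.node W hΔ ℓ hℓ hℓΔ hℓc₄ A hA
  exact (h1 _).mp (E0.nsmul_mem ((h1 P).mpr hP) n)

/-- **(L2)** -/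
theorem zeroCompFixed : ZeroCompFixed := by
  intro W ℓ hℓ hΔ hℓΔ hℓc₄ A hA τ hτ m hm P hmP hP
  obtain ⟨E0, h1, -, h3, -⟩ := Node38.node W hΔ ℓ hℓ hℓΔ hℓc₄ A hA
  exact h3 τ hτ P ((h1 P).mpr hP) m hm hmP

/-- **(L3)** -/
theorem inertiaSubZero : InertiaSubZero := by
  intro W ℓ hℓ hΔ hℓΔ hℓc₄ A hA τ hτ m _ P _
  obtain ⟨E0, h1, h2, -, -⟩ := Node38.node W hΔ ℓ hℓ hℓΔ hℓc₄ A hA
  exact (h1 _).mp (h2 τ hτ P)

end Fermat.Agent.S12P.NodeAdapt38
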