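/-
S12 cell (helper46): adapter for helper48's seam — `Ifc48.RatOfUnram` (a finite Galois-stable
subgroup fixed pointwise by every inertia group is fixed pointwise by the Galois group) from the
interface Props `MinkN` (a normal open subgroup containing every inertia group is everything) and
`OpenStab` (stabilisers of points are open) of `S12P/Interfaces20*.lean`:

  `ratOfUnram (hM : MinkN) (hO : OpenStab) : Ifc48.RatOfUnram`

The pointwise stabiliser of a finite Galois-stable subgroup is a normal open subgroup.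
-/
import Mathlib
import Fermat.Agent.S12P.Ifc48
import Fermat.Agent.S12P.Interfaces20b

set_option autoImplicit false

namespace Fermat.Agent.S12P.RatOfUnram46

open WeierstrassCurve

/-- The pointwise stabiliser of a set of points. -/
def fixer (W : WeierstrassCurve ℤ) (B : Set (Fermat.Agent.S12P.Pt W)) :
    Subgroup Fermat.Agent.S12P.GQ where
  carrier := {σ | ∀ x ∈ B, σ • x = x}
  mul_mem' := fun {a b} ha hb x hx => by rw [mul_smul, hb x hx, ha x hx]
  one_mem' := fun x _ => one_smul _ x
  inv_mem' := fun {a} ha x hx => by rw [inv_smul_eq_iff, ha x hx]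

theorem mem_fixer {W : WeierstrassCurve ℤ} {B : Set (Fermat.Agent.S12P.Pt W)}
    {σ : Fermat.Agent.S12P.GQ} : σ ∈ fixer W B ↔ ∀ x ∈ B, σ • x = x := Iff.rfl

/-- The pointwise stabiliser of a Galois-stable set is normal. -/
theorem fixer_normal {W : WeierstrassCurve ℤ} {B : Set (Fermat.Agent.S12P.Pt W)}
    (hstab : ∀ σ : Fermat.Agent.S12P.GQ, ∀ x ∈ B, σ • x ∈ B) : (fixer W B).Normal :=
  ⟨fun σ hσ g x hx => by
    have hx' : g⁻¹ • x ∈ B := hstab g⁻¹ x hx
    rw [mul_smul, mul_smul, hσ _ hx', smul_inv_smul]⟩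

/-- The pointwise stabiliser of a finite set is open, given open point stabilisers. -/
theorem fixer_isOpen (hO : Fermat.Agent.S12P.OpenStab) {W : WeierstrassCurve ℤ}
    {B : Set (Fermat.Agent.S12P.Pt W)} (hfin : B.Finite) :
    IsOpen ((fixer W B : Subgroup Fermat.Agent.S12P.GQ) : Set Fermat.Agent.S12P.GQ) := by
  have h : ((fixer W B : Subgroup Fermat.Agent.S12P.GQ) : Set Fermat.Agent.S12P.GQ)
      = ⋂ x ∈ B, {σ : Fermat.Agent.S12P.GQ | σ • x = x} := by
    ext σ
    simp only [SetLike.mem_coe, mem_fixer, Set.mem_iInter, Set.mem_ofPred_eq]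
  rw [h]
  exact hfin.isOpen_biInter (fun x _ => hO W x)

open Fermat.Agent.S12P.Ifc48 in
/-- **(MINK)** in the shape of `Ifc48`, from `MinkN` and `OpenStab`. -/
theorem ratOfUnram (hM : Fermat.Agent.S12P.MinkN) (hO : Fermat.Agent.S12P.OpenStab) :
    RatOfUnram := by
  intro W B hfin hstab hin σ x hx
  have htop := hM (fixer W (B : Set (Fermat.Agent.S12P.Pt W))) (fixer_normal hstab)
    (fixer_isOpen hO hfin) (fun ℓ hℓ A hA τ hτ y hy => hin ℓ hℓ A hA τ hτ y hy)
  have hσ : σ ∈ fixer W (B : Set (Fermat.Agent.S12P.Pt W)) := htop ▸ Subgroup.mem_top σ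
  exact hσ x hx

end Fermat.Agent.S12P.RatOfUnram46
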