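/-
S12 project (helper38): UNCONDITIONAL terms for two bricks of `S12P/Ifc48.lean`,

  `redInj   : Ifc48.RedInj`    (L4)   and   `goodZero : Ifc48.GoodZero`   (L7).

`redInj_core`: a Galois-fixed point `P` of finite order `n` prime to `ℓ` of an integral
Weierstrass curve which lies in the zero component at a place `A` over `ℓ` has `n ≤ 2 ℓ + 1`.
Proof: by `NodalRed69.inZero_iff` the point has a nonsingular reduction `P'`, and
`j • P` reduces to `j • P'` for every `j` (`NodalRed69.redTo_nsmul`); so `j • P' = 0` forces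
`n ∣ j`, and the `n - 1` points `j • P'` (`1 ≤ j ≤ n - 1`) are pairwise distinct affine points.
The multiples `j • P` are Galois-fixed, so their coordinates are rational and reduce into the
image of `ℤ` in the residue field (`RedCount54`), a set `T` with at most `ℓ` elements.  The
reduced Weierstrass equation has at most two solutions `d` for each `c`, hence at most `2 ℓ`
solutions in `T × T`.  (No hypothesis on the discriminant or on `c₄` is used, and no Hasse
bound.)

`goodZero_core`: at a prime of good reduction every point is in the zero component: an affine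
point with integral `x` has integral `y` (monic quadratic) and its reduction is a nonsingular
point since the reduced discriminant is nonzero.
-/
import Mathlib
import Fermat.Prelude.Def_EllipticCurve_ZeroComponentAt
import Fermat.Prelude.Def_FLTPrelim_Ramification
import Fermat.Agent.Lib.GalQbar
import Fermat.Agent.S15P.M2.Defs89
import Fermat.Agent.S15P.M2.NodalRed69
import Fermat.Agent.S12P.RedCount54
import Fermat.Agent.S12P.Ifc48

set_option autoImplicit false

namespace Fermat.Agent.S12P.RedInj38

open WeierstrassCurve WeierstrassCurve.Affine IsLocalRing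
open Fermat.Agent.S58.Red Fermat.Agent.S15P.M2 Fermat.Agent.S15P.M2.NodalRed69
open Fermat.Agent.S12P.RedCount54

local notation "Qb" => AlgebraicClosure ℚ

/-- Two solutions of a Weierstrass equation with the same `x`-coordinate are equal or
opposite. -/
theorem eq_or_eq_negY {k : Type*} [Field k] (Wk : Affine k) {c d d' : k}
    (h : Wk.Equation c d) (h' : Wk.Equation c d') : d' = d ∨ d' = Wk.negY c d := by
  rw [equation_iff] at h h'
  have e : (d' - d) * (d' - Wk.negY c d) = 0 := by
    rw [negY]
    linear_combination h' - h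
  rcases mul_eq_zero.mp e with h1 | h1
  · exact Or.inl (sub_eq_zero.mp h1)
  · exact Or.inr (sub_eq_zero.mp h1)

/-- A Weierstrass equation has at most `2 * #T` solutions with both coordinates in a finite
set `T`. -/
theorem card_sol_le {k : Type*} [Field k] [DecidableEq k] (Wk : Affine k) (T : Finset k)
    [DecidablePred (fun x : k × k => Wk.Equation x.1 x.2)] :
    ((T ×ˢ T).filter (fun x : k × k => Wk.Equation x.1 x.2)).card ≤ 2 * T.card := by
  set S := (T ×ˢ T).filter (fun x : k × k => Wk.Equation x.1 x.2) with hS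
  have h1 : S.card ≤ 2 * (S.image Prod.fst).card := by
    refine Finset.card_le_mul_card_image S 2 ?_
    intro c _
    by_contra hlt
    rw [not_le, Finset.two_lt_card] at hlt
    obtain ⟨x, hx, y, hy, z, hz, hxy, hxz, hyz⟩ := hlt
    rw [Finset.mem_filter] at hx hy hz
    obtain ⟨hxS, hxc⟩ := hx
    obtain ⟨hyS, hyc⟩ := hy
    obtain ⟨hzS, hzc⟩ := hz
    rw [hS, Finset.mem_filter] at hxS hyS hzS
    obtain ⟨x1, x2⟩ := x
    obtain ⟨y1, y2⟩ := y
    obtain ⟨z1, z2⟩ := z
    simp only at hxc hyc hzc
    have ex : Wk.Equation c x2 := hxc ▸ hxS.2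
    have ey : Wk.Equation c y2 := hyc ▸ hyS.2
    have ez : Wk.Equation c z2 := hzc ▸ hzS.2
    have hy2 : y2 = Wk.negY c x2 := by
      rcases eq_or_eq_negY Wk ex ey with h | h
      · exact absurd (by rw [h, hxc, hyc]) hxy
      · exact h
    have hz2 : z2 = Wk.negY c x2 := by
      rcases eq_or_eq_negY Wk ex ez with h | h
      · exact absurd (by rw [h, hxc, hzc]) hxz
      · exact h
    exact hyz (by rw [hy2, hz2, hyc, hzc])
  have h2 : (S.image Prod.fst).card ≤ T.card := by
    refine Finset.card_le_card ?_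
    intro c hc
    rw [Finset.mem_image] at hc
    obtain ⟨x, hx, rfl⟩ := hc
    rw [hS, Finset.mem_filter, Finset.mem_product] at hx
    exact hx.1.1
  omega

/-- **(L4), core.**  A Galois-fixed point of finite order `n` prime to `ℓ` in the zero component
at a place over `ℓ` has `n ≤ 2 ℓ + 1`. -/
theorem redInj_core (W : WeierstrassCurve ℤ) (ℓ : ℕ) (hℓ : ℓ.Prime)
    (A : ValuationSubring Qb) (hA : A.LiesOverPrime ℓ)
    (P : ((W.map (Int.castRingHom ℚ))⁄Qb).Point)
    (hfix : ∀ σ : Qb ≃ₐ[ℚ] Qb, σ • P = P) (hpos : 0 < addOrderOf P)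
    (hcop : (addOrderOf P).Coprime ℓ) (hin : W.InZeroComponentAt A P) :
    addOrderOf P ≤ 2 * ℓ + 1 := by
  classical
  have hchar : CharP (ResidueField A) ℓ :=
    Fermat.Agent.ESJ.Cong.ConjAnalytic.charP_residueField_of_liesOver A hℓ hA
  have hnk : ((addOrderOf P : ℕ) : ResidueField A) ≠ 0 := by
    intro h
    have hdvd : ℓ ∣ addOrderOf P := (CharP.cast_eq_zero_iff (ResidueField A) ℓ _).mp h
    have h1 : ℓ ∣ Nat.gcd (addOrderOf P) ℓ := Nat.dvd_gcd hdvd dvd_rfl
    rw [Nat.Coprime] at hcop
    rw [hcop] at h1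
    exact hℓ.one_lt.ne' (Nat.dvd_one.mp h1)
  have hnP : addOrderOf P • P = 0 := addOrderOf_nsmul_eq_zero P
  have hT : P ∈ torsSub (ResidueField A) ((W.map (Int.castRingHom ℚ))⁄Qb).toAffine :=
    mem_torsSub_of_nsmul hnk hnP
  obtain ⟨P', hP'⟩ := (inZero_iff hT).mp hin
  have hred : ∀ j : ℕ, RedTo A (residue A) (j • P) (j • P') :=
    redTo_nsmul (model_res W A) hP' hT
  have hzero : ∀ j : ℕ, j • P' = 0 → addOrderOf P ∣ j := fun j hj =>
    addOrderOf_dvd_of_nsmul_eq_zero ((hred j).eq_zero_iff.mp hj)
  -- the multiples of `P` are Galois-fixed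
  have hfixj : ∀ (j : ℕ) (σ : Qb ≃ₐ[ℚ] Qb), σ • (j • P) = j • P := by
    intro j σ
    rw [Point.algEquiv_smul_def, map_nsmul, ← Point.algEquiv_smul_def, hfix σ]
  -- the coordinates of `j • P'` lie in the image of `ℤ`, and satisfy the reduced equation
  have hmem : ∀ j : ℕ, j • P' ≠ 0 →
      ptX (j • P') ∈ primeImage A ℓ ∧ ptY (j • P') ∈ primeImage A ℓ ∧
        (W.map (Int.castRingHom (ResidueField A))).toAffine.Equation
          (ptX (j • P')) (ptY (j • P')) := by
    intro j hj
    have hr := hred j
    have hf := hfixj j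
    rcases hjQ : j • P with _ | ⟨x, y, hxy⟩
    · rw [hjQ] at hr
      exact absurd ((RedTo.eq_zero_iff hr).mpr rfl) hj
    · rcases hjQ' : j • P' with _ | ⟨c, d, g⟩
      · exact absurd hjQ' hj
      · rw [hjQ, hjQ'] at hr
        obtain ⟨rx, ry⟩ : Rd A (residue A) x c ∧ Rd A (residue A) y d := hr
        rw [hjQ] at hf
        obtain ⟨⟨qx, hqx⟩, ⟨qy, hqy⟩⟩ := rat_of_fixed hf
        refine ⟨?_, ?_, ?_⟩
        · rw [ptX_some]
          exact rd_rat_mem_primeImage A hℓ hA qx (hqx ▸ rx)
        · rw [ptY_some]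
          exact rd_rat_mem_primeImage A hℓ hA qy (hqy ▸ ry)
        · rw [ptX_some, ptY_some]
          exact g.1
  -- `j • P' ≠ 0` for `1 ≤ j ≤ n - 1`
  have hne : ∀ j : ℕ, j ∈ Finset.Icc 1 (addOrderOf P - 1) → j • P' ≠ 0 := by
    intro j hj h0
    rw [Finset.mem_Icc] at hj
    have := Nat.le_of_dvd (by omega) (hzero j h0)
    omega
  -- the injection
  have hinj : Set.InjOn (fun j : ℕ => (ptX (j • P'), ptY (j • P')))
      (Finset.Icc 1 (addOrderOf P - 1) : Set ℕ) := by
    intro i hi j hj hij
    have hi' := hne i hi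
    have hj' := hne j hj
    have hi2 := Finset.mem_Icc.mp hi
    have hj2 := Finset.mem_Icc.mp hj
    simp only [Prod.mk.injEq] at hij
    have heq : i • P' = j • P' := by
      rcases hiQ : i • P' with _ | ⟨c, d, g⟩
      · exact absurd hiQ hi'
      · rcases hjQ : j • P' with _ | ⟨c', d', g'⟩
        · exact absurd hjQ hj'
        · rw [hiQ, hjQ] at hij
          simp only [ptX_some, ptY_some] at hij
          rw [Point.some.injEq]
          exact hij
    rcases Nat.lt_trichotomy i j with hlt | heq' | hgt
    · exfalso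
      have h0 : (j - i) • P' = 0 := by
        have e : j • P' = (j - i) • P' + i • P' := by
          rw [← add_smul]; congr 1; omega
        rw [e] at heq
        exact (add_eq_right.mp heq.symm)
      have := Nat.le_of_dvd (by omega) (hzero _ h0)
      omega
    · exact heq'
    · exfalso
      have h0 : (i - j) • P' = 0 := by
        have e : i • P' = (i - j) • P' + j • P' := by
          rw [← add_smul]; congr 1; omega
        rw [e] at heq
        exact (add_eq_right.mp heq)
      have := Nat.le_of_dvd (by omega) (hzero _ h0)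
      omega
  have hmaps : ∀ j ∈ Finset.Icc 1 (addOrderOf P - 1),
      (fun j : ℕ => (ptX (j • P'), ptY (j • P'))) j ∈
        (primeImage A ℓ ×ˢ primeImage A ℓ).filter
          (fun x : ResidueField A × ResidueField A =>
            (W.map (Int.castRingHom (ResidueField A))).toAffine.Equation x.1 x.2) := by
    intro j hj
    obtain ⟨h1, h2, h3⟩ := hmem j (hne j hj)
    rw [Finset.mem_filter, Finset.mem_product]
    exact ⟨⟨h1, h2⟩, h3⟩
  have hcard := Finset.card_le_card_of_injOn _ hmaps hinj
  rw [Nat.card_Icc] at hcard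
  have hsol := card_sol_le (W.map (Int.castRingHom (ResidueField A))).toAffine (primeImage A ℓ)
  have hle := card_primeImage_le A ℓ
  omega

/-- **(L7), core.**  At a prime of good reduction every point is in the zero component. -/
theorem goodZero_core (W : WeierstrassCurve ℤ) (ℓ : ℕ) (hℓ : ℓ.Prime) (hgood : ¬ (ℓ : ℤ) ∣ W.Δ)
    (A : ValuationSubring Qb) (hA : A.LiesOverPrime ℓ)
    (P : ((W.map (Int.castRingHom ℚ))⁄Qb).Point) : W.InZeroComponentAt A P := by
  classical
  have hchar : CharP (ResidueField A) ℓ :=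
    Fermat.Agent.ESJ.Cong.ConjAnalytic.charP_residueField_of_liesOver A hℓ hA
  have M := model_res W A
  have hΔ : (W.map (Int.castRingHom (ResidueField A))).toAffine.Δ ≠ 0 := by
    rw [WeierstrassCurve.map_Δ]
    intro h0
    exact hgood ((CharP.intCast_eq_zero_iff (ResidueField A) ℓ W.Δ).mp (by simpa using h0))
  rcases P with _ | ⟨x, y, h⟩
  · exact Or.inl rfl
  · refine Or.inr ⟨x, y, h, rfl, ?_⟩
    by_cases hx : x ∈ A
    · have hy : y ∈ A := by
        have he := h.1
        rw [equation_iff] at he
        refine mem_of_quadratic (A := A)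
          (a := ((W.map (Int.castRingHom ℚ))⁄Qb).toAffine.a₁ * x
            + ((W.map (Int.castRingHom ℚ))⁄Qb).toAffine.a₃)
          (c := x ^ 3 + ((W.map (Int.castRingHom ℚ))⁄Qb).toAffine.a₂ * x ^ 2
            + ((W.map (Int.castRingHom ℚ))⁄Qb).toAffine.a₄ * x
            + ((W.map (Int.castRingHom ℚ))⁄Qb).toAffine.a₆) ?_ ?_ ?_
        · exact add_mem (mul_mem M.a₁.mem hx) M.a₃.mem
        · exact add_mem (add_mem (add_mem (pow_mem hx 3) (mul_mem M.a₂.mem (pow_mem hx 2)))
            (mul_mem M.a₄.mem hx)) M.a₆.mem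
        · linear_combination he
      exact Or.inr ⟨hx, hy, M.nonsingular hΔ h.1 (rd_of_mem hx) (rd_of_mem hy)⟩
    · exact Or.inl hx

/-- **(L4)**: the interface Prop of `S12P/Ifc48.lean`, unconditionally. -/
theorem redInj : Fermat.Agent.S12P.Ifc48.RedInj :=
  fun W ℓ hℓ _ _ A hA P hfix hpos hcop hin => redInj_core W ℓ hℓ A hA P hfix hpos hcop hin

/-- **(L7)**: the interface Prop of `S12P/Ifc48.lean`, unconditionally. -/
theorem goodZero : Fermat.Agent.S12P.Ifc48.GoodZero :=
  fun W ℓ hℓ hgood A hA P => goodZero_core W ℓ hℓ hgood A hA P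

end Fermat.Agent.S12P.RedInj38
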