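/-
S12 cell, row 633 (`StepLite`), the LOCAL core (helper89).

`W` an integral Weierstrass model, `Wq = W ⊗ ℚ`, `T` a point of prime order `p ≠ 2` of `Wq` over
`ℚ̄`, and `t, w ∈ ℚ` the two Vélu sums of the subgroup `⟨T⟩`
(`2t = ∑_{0<k<p} tq (k • T)`, `2w = ∑_{0<k<p} (psi2 (k • T)² + x(k • T) · tq (k • T))`), so that the
quotient curve is `veluCurve Wq t w = [a₁, a₂, a₃, a₄ - 5t, a₆ - b₂t - 7w]`.  For every prime
`ℓ ≠ p` (additive primes and `ℓ = 2` included where nothing about the reduction type is used):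

* `loc_int`  : `ℓ` divides neither the denominator of `t` nor that of `w`;
* `loc_good` : if `ℓ ∤ Δ(W)` then `Δ(veluCurve)` is a unit at every place over `ℓ`;
* `loc_mult` : if `ℓ ∣ Δ(W)`, `ℓ ∤ c₄(W)` then `c₄(veluCurve)` is a unit and `Δ(veluCurve)` lies in
  the maximal ideal at every place over `ℓ`;
* `loc_final`, `loc_clause` : the last clause of `StepLite` for any integral curve `W'` with
  `Δ(W') = d¹² Δ(veluCurve)`, `c₄(W') = d⁴ c₄(veluCurve)`, `d = den t · den w`.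

The only global input is the discriminant identity `Δ(veluCurve) · veluPsi⁴ = Δ(W)^p` (a
hypothesis `hD`, exactly the clause of the algebraic Vélu brick).

Inputs: main's `S15P/M2/{Defs89, NodalRed69, Velu89}`, `S58/Red`, `Lib/Red/RankOne`.
-/
import Mathlib
import Fermat.Prelude.Def_EllipticCurve_ZeroComponentAt
import Fermat.Prelude.Def_FLTPrelim_Ramification
import Fermat.Agent.Lib.Red.RankOne
import Fermat.Agent.Lib.FrobeniusExists
import Fermat.Agent.S15P.M2.Defs89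
import Fermat.Agent.S15P.M2.NodalRed69
import Fermat.Agent.S15P.M2.Velu89

set_option autoImplicit false
set_option linter.unusedSectionVars false
set_option linter.style.haveILetI false

namespace Fermat.Agent.S12P.StepLoc89

open WeierstrassCurve WeierstrassCurve.Affine IsLocalRing
open Fermat.Agent.S58.Red Fermat.Agent.S15P.M2 Fermat.Agent.S15P.M2.NodalRed69
  Fermat.Agent.S15P.M2.Velu89

local notation "Qb" => AlgebraicClosure ℚ

/-- The Vélu quotient curve with parameters `t`, `w`. -/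
def veluCurve {R : Type*} [CommRing R] (W : WeierstrassCurve R) (t w : R) : WeierstrassCurve R :=
  ⟨W.a₁, W.a₂, W.a₃, W.a₄ - 5 * t, W.a₆ - W.b₂ * t - 7 * w⟩

theorem veluCurve_map {R S : Type*} [CommRing R] [CommRing S] (f : R →+* S)
    (W : WeierstrassCurve R) (t w : R) :
    (veluCurve W t w).map f = veluCurve (W.map f) (f t) (f w) := by
  ext <;> simp [veluCurve, WeierstrassCurve.map, WeierstrassCurve.b₂, map_ofNat]

theorem veluCurve_zero {R : Type*} [CommRing R] (W : WeierstrassCurve R) :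
    veluCurve W 0 0 = W := by
  ext <;> simp [veluCurve]

theorem veluCurve_c₄ {R : Type*} [CommRing R] (W : WeierstrassCurve R) (t w : R) :
    (veluCurve W t w).c₄ = W.c₄ + 240 * t := by
  simp only [veluCurve, WeierstrassCurve.c₄, WeierstrassCurve.b₂, WeierstrassCurve.b₄]
  ring

/-! ### Evenness and the half sums -/

section Even

variable {F : Type*} [Field F] [DecidableEq F] {W : Affine F}

theorem ptX_neg (P : W.Point) : ptX (-P) = ptX P := by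
  rcases P with _ | ⟨x, y, h⟩
  · rfl
  · rfl

theorem tq_neg (P : W.Point) : tq (-P) = tq P := by
  unfold tq
  rw [ptX_neg]

theorem psi2_neg_sq (P : W.Point) : psi2 (-P) ^ 2 = psi2 P ^ 2 := by
  rcases P with _ | ⟨x, y, h⟩
  · rfl
  · change (2 * W.negY x y + W.a₁ * x + W.a₃) ^ 2 = (2 * y + W.a₁ * x + W.a₃) ^ 2
    simp only [negY]
    ring

theorem wq_neg (P : W.Point) :
    psi2 (-P) ^ 2 + ptX (-P) * tq (-P) = psi2 P ^ 2 + ptX P * tq P := by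
  rw [psi2_neg_sq, ptX_neg, tq_neg]

end Even

theorem sum_Ico_even {G R : Type*} [AddGroup G] [AddCommMonoid R] (f : G → R)
    (hf : ∀ P, f (-P) = f P) (T : G) (h : ℕ) (hT : (2 * h + 1) • T = 0) :
    ∑ k ∈ Finset.Ico 1 (2 * h + 1), f (k • T) =
      ∑ k ∈ Finset.Ico 1 (h + 1), f (k • T) + ∑ k ∈ Finset.Ico 1 (h + 1), f (k • T) := by
  rw [← Finset.sum_Ico_consecutive (fun k => f (k • T)) (show 1 ≤ h + 1 by omega)
    (show h + 1 ≤ 2 * h + 1 by omega)]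
  congr 1
  have hr := Finset.sum_Ico_reflect (fun k => f (k • T)) 1
    (show h + 1 ≤ 2 * h + 1 + 1 by omega)
  have e1 : 2 * h + 1 + 1 - (h + 1) = h + 1 := by omega
  have e2 : 2 * h + 1 + 1 - 1 = 2 * h + 1 := by omega
  rw [e1, e2] at hr
  refine hr.symm.trans (Finset.sum_congr rfl fun j hj => ?_)
  rw [Finset.mem_Ico] at hj
  have e : (2 * h + 1 - j) • T = -(j • T) := by
    apply eq_neg_of_add_eq_zero_left
    rw [← add_nsmul, Nat.sub_add_cancel (by omega), hT]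
  change f ((2 * h + 1 - j) • T) = f (j • T)
  rw [e, hf]

/-- The sum over `0 < k < p` of an even function of `k • T`, halved, is the sum over
`0 < k ≤ (p-1)/2`. -/
theorem half_sum {F G : Type*} [Field F] [CharZero F] [AddGroup G] (f : G → F)
    (hf : ∀ P, f (-P) = f P) (T : G) {p : ℕ} (hp : p.Prime) (hp2 : p ≠ 2) (hT : p • T = 0) :
    (∑ k ∈ Finset.Ico 1 p, f (k • T)) / 2 = ∑ k ∈ Finset.Ico 1 (p / 2 + 1), f (k • T) := by
  obtain ⟨h, rfl⟩ : ∃ h, p = 2 * h + 1 := by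
    rcases hp.eq_two_or_odd with h2 | hodd
    · exact absurd h2 hp2
    · exact ⟨p / 2, by omega⟩
  have e : (2 * h + 1) / 2 = h := by omega
  rw [e, sum_Ico_even f hf T h hT]
  ring

/-! ### Integrality calculus -/

section Gen

variable {K : Type*} [Field K] [DecidableEq K] {A : ValuationSubring K}
  {k : Type*} [Field k] [DecidableEq k] {π : A →+* k}
  {WK : Affine K} {Wk : Affine k}

theorem Model.b₆ (M : Model A π WK Wk) : Rd A π WK.b₆ Wk.b₆ :=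
  (M.a₃.pow 2).add ((rd_ofNat 4).mul M.a₆)

theorem Model.b₈ (M : Model A π WK Wk) : Rd A π WK.b₈ Wk.b₈ :=
  (((((M.a₁.pow 2).mul M.a₆).add (((rd_ofNat 4).mul M.a₂).mul M.a₆)).sub
    ((M.a₁.mul M.a₃).mul M.a₄)).add (M.a₂.mul (M.a₃.pow 2))).sub (M.a₄.pow 2)

theorem Model.Δ (M : Model A π WK Wk) : Rd A π WK.Δ Wk.Δ :=
  ((((((Model.b₂ M).pow 2).neg.mul (Model.b₈ M)).sub
    ((rd_ofNat 8).mul ((Model.b₄ M).pow 3))).sub
    ((rd_ofNat 27).mul ((Model.b₆ M).pow 2))).add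
    ((((rd_ofNat 9).mul (Model.b₂ M)).mul (Model.b₄ M)).mul (Model.b₆ M)))

/-- The Vélu curve of a model, with integral parameters, is a model of the Vélu curve of the
reduction. -/
theorem model_velu (M : Model A π WK Wk) {t w : K} {t' w' : k} (ht : Rd A π t t')
    (hw : Rd A π w w') : Model A π (veluCurve WK t w) (veluCurve Wk t' w') :=
  ⟨M.a₁, M.a₂, M.a₃, M.a₄.sub ((rd_ofNat 5).mul ht),
    (M.a₆.sub ((Model.b₂ M).mul ht)).sub ((rd_ofNat 7).mul hw)⟩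

theorem ptX_mem {P : WK.Point} (h : IsInt A P) : ptX P ∈ A := by
  rcases P with _ | ⟨x, y, hxy⟩
  · exact zero_mem A
  · exact h.1

theorem ptY_mem {P : WK.Point} (h : IsInt A P) : ptY P ∈ A := by
  rcases P with _ | ⟨x, y, hxy⟩
  · exact zero_mem A
  · exact h.2

theorem tq_mem (M : Model A π WK Wk) {P : WK.Point} (h : IsInt A P) : tq P ∈ A :=
  add_mem (add_mem (mul_mem (rd_ofNat (π := π) 6).mem (pow_mem (ptX_mem h) 2))
    (mul_mem (Model.b₂ M).mem (ptX_mem h))) (Model.b₄ M).mem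

theorem psi2_mem (M : Model A π WK Wk) {P : WK.Point} (h : IsInt A P) : psi2 P ∈ A :=
  add_mem (add_mem (mul_mem (rd_ofNat (π := π) 2).mem (ptY_mem h))
    (mul_mem M.a₁.mem (ptX_mem h))) M.a₃.mem

theorem wq_mem (M : Model A π WK Wk) {P : WK.Point} (h : IsInt A P) :
    psi2 P ^ 2 + ptX P * tq P ∈ A :=
  add_mem (pow_mem (psi2_mem M h) 2) (mul_mem (ptX_mem h) (tq_mem M h))

end Gen

/-- In a linearly ordered commutative group with zero: two elements `≤ 1` with product `1`. -/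
theorem eq_one_of_mul_eq_one {Γ : Type*} [LinearOrderedCommGroupWithZero Γ] {a b : Γ}
    (ha : a ≤ 1) (hb : b ≤ 1) (h : a * b = 1) : a = 1 := by
  by_contra hne
  have hlt : a < 1 := lt_of_le_of_ne ha hne
  have h2 : a * b < 1 := by
    calc a * b = b * a := mul_comm a b
      _ ≤ 1 * a := mul_le_mul_left hb a
      _ = a := one_mul a
      _ < 1 := hlt
  exact absurd h h2.ne

theorem mul_lt_one_of_le_of_lt {Γ : Type*} [LinearOrderedCommGroupWithZero Γ] {a b : Γ}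
    (ha : a ≤ 1) (hb : b < 1) : a * b < 1 := by
  calc a * b ≤ 1 * b := mul_le_mul_left ha b
    _ = b := one_mul b
    _ < 1 := hb

/-! ### Places of `ℚ̄` -/

section Place

variable (A : ValuationSubring Qb) {ℓ : ℕ}

theorem val_intCast_lt_one_of_dvd (hA : A.LiesOverPrime ℓ) {n : ℤ} (h : (ℓ : ℤ) ∣ n) :
    A.valuation (n : Qb) < 1 := by
  obtain ⟨m, rfl⟩ := h
  rw [Int.cast_mul, Int.cast_natCast, map_mul, mul_comm]
  exact mul_lt_one_of_le_of_lt (Fermat.Agent.Lib.Red.RankOne.valuation_intCast_le_one A m)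
    (Fermat.Agent.Lib.Red.RankOne.valuation_prime_lt_one A hA)

theorem val_intCast_lt_one_iff (hℓ : ℓ.Prime) (hA : A.LiesOverPrime ℓ) (n : ℤ) :
    A.valuation (n : Qb) < 1 ↔ (ℓ : ℤ) ∣ n := by
  constructor
  · intro h
    by_contra hn
    rw [Fermat.Agent.Lib.Red.RankOne.valuation_intCast_eq_one A hℓ hA n hn] at h
    exact lt_irrefl _ h
  · exact val_intCast_lt_one_of_dvd A hA

theorem val_intCast_eq_one_iff (hℓ : ℓ.Prime) (hA : A.LiesOverPrime ℓ) (n : ℤ) :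
    A.valuation (n : Qb) = 1 ↔ ¬ (ℓ : ℤ) ∣ n := by
  constructor
  · intro h hn
    have := val_intCast_lt_one_of_dvd A hA hn
    rw [h] at this
    exact lt_irrefl _ this
  · exact Fermat.Agent.Lib.Red.RankOne.valuation_intCast_eq_one A hℓ hA n

/-- A rational number in `A` has denominator prime to `ℓ`. -/
theorem not_dvd_den (hℓ : ℓ.Prime) (hA : A.LiesOverPrime ℓ) (r : ℚ) (hr : (r : Qb) ∈ A) :
    ¬ (ℓ : ℤ) ∣ (r.den : ℤ) := by
  intro hden
  have hnum : ¬ (ℓ : ℤ) ∣ r.num := by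
    intro hnum
    have h1 : ℓ ∣ r.num.natAbs := Int.natCast_dvd.1 hnum
    have h2 : ℓ ∣ r.den := Int.natCast_dvd_natCast.1 hden
    exact hℓ.one_lt.ne' (Nat.eq_one_of_dvd_coprimes r.reduced h1 h2)
  have hvnum := Fermat.Agent.Lib.Red.RankOne.valuation_intCast_eq_one A hℓ hA r.num hnum
  have hvden : A.valuation (((r.den : ℤ) : ℤ) : Qb) < 1 := val_intCast_lt_one_of_dvd A hA hden
  have hmul : (r : Qb) * (((r.den : ℤ) : ℤ) : Qb) = ((r.num : ℤ) : Qb) := by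
    have h := Rat.mul_den_eq_num r
    have h' := congrArg (fun q : ℚ => (q : Qb)) h
    push_cast at h' ⊢
    exact h'
  have h3 := congrArg A.valuation hmul
  rw [map_mul, hvnum] at h3
  have h4 := mul_lt_one_of_le_of_lt ((A.valuation_le_one_iff _).mpr hr) hvden
  rw [h3] at h4
  exact lt_irrefl _ h4

end Place

theorem pow_lt_one_of_lt {Γ : Type*} [LinearOrderedCommGroupWithZero Γ] {a : Γ} (ha : a < 1)
    {n : ℕ} (hn : n ≠ 0) : a ^ n < 1 := by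
  obtain ⟨m, rfl⟩ := Nat.exists_eq_succ_of_ne_zero hn
  rw [pow_succ]
  exact mul_lt_one_of_le_of_lt (pow_le_one' ha.le m) ha

/-! ### The local statements -/

section Main

variable (W : WeierstrassCurve ℤ) {p : ℕ}
  (T : ((W.map (Int.castRingHom ℚ))⁄Qb).Point)
  {ℓ : ℕ} (A : ValuationSubring Qb)

theorem cast_Δ : (((W.map (Int.castRingHom ℚ)).Δ : ℚ) : Qb) = ((W.Δ : ℤ) : Qb) := by
  rw [WeierstrassCurve.map_Δ, eq_intCast, Rat.cast_intCast]

theorem cast_velu_Δ (t w : ℚ) :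
    (((veluCurve (W.map (Int.castRingHom ℚ)) t w).Δ : ℚ) : Qb) =
      (veluCurve ((W.map (Int.castRingHom ℚ))⁄Qb) (t : Qb) (w : Qb)).Δ := by
  have h := WeierstrassCurve.map_Δ (veluCurve (W.map (Int.castRingHom ℚ)) t w) (algebraMap ℚ Qb)
  rw [veluCurve_map, eq_ratCast, eq_ratCast, eq_ratCast] at h
  exact h.symm

/-- The `c₄` of the Vélu curve is `veluC4`. -/
theorem cast_velu_c₄ (t w : ℚ) (ht : (t : Qb) = (∑ k ∈ Finset.Ico 1 p, tq (k • T)) / 2) :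
    (((veluCurve (W.map (Int.castRingHom ℚ)) t w).c₄ : ℚ) : Qb) = veluC4 p T := by
  have h : (((W.map (Int.castRingHom ℚ)).c₄ : ℚ) : Qb) = ((W.map (Int.castRingHom ℚ))⁄Qb).c₄ := by
    have h' := WeierstrassCurve.map_c₄ (W.map (Int.castRingHom ℚ)) (algebraMap ℚ Qb)
    rw [eq_ratCast] at h'
    exact h'.symm
  rw [veluCurve_c₄, Rat.cast_add, Rat.cast_mul, h, ht]
  unfold veluC4
  push_cast
  ring

/-- Every multiple of `T` is integral at `A`. -/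
theorem isInt_nsmul (hp : p.Prime) (hT : addOrderOf T = p) (hℓ : ℓ.Prime) (hℓp : ℓ ≠ p)
    (hA : A.LiesOverPrime ℓ) (j : ℕ) : IsInt A (j • T) := by
  let _ : DecidableEq (ResidueField A) := Classical.decEq _
  have hpQ : p • (j • T) = 0 := by
    rw [smul_comm, ← hT, addOrderOf_nsmul_eq_zero, smul_zero]
  exact isInt_of_mem_torsSub (model_res W A)
    (mem_torsSub_of_order (W := W) hp hℓ hℓp hA hpQ).2

theorem t_eq (hp : p.Prime) (hp2 : p ≠ 2) (hT : addOrderOf T = p) (t : ℚ)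
    (ht : (t : Qb) = (∑ k ∈ Finset.Ico 1 p, tq (k • T)) / 2) :
    (t : Qb) = ∑ k ∈ Finset.Ico 1 (p / 2 + 1), tq (k • T) := by
  rw [ht]
  exact half_sum tq tq_neg T hp hp2 (by rw [← hT]; exact addOrderOf_nsmul_eq_zero T)

theorem w_eq (hp : p.Prime) (hp2 : p ≠ 2) (hT : addOrderOf T = p) (w : ℚ)
    (hw : (w : Qb) =
      (∑ k ∈ Finset.Ico 1 p, (psi2 (k • T) ^ 2 + ptX (k • T) * tq (k • T))) / 2) :
    (w : Qb) = ∑ k ∈ Finset.Ico 1 (p / 2 + 1), (psi2 (k • T) ^ 2 + ptX (k • T) * tq (k • T)) := by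
  rw [hw]
  exact half_sum (fun P => psi2 P ^ 2 + ptX P * tq P) wq_neg T hp hp2
    (by rw [← hT]; exact addOrderOf_nsmul_eq_zero T)

theorem t_mem (hp : p.Prime) (hp2 : p ≠ 2) (hT : addOrderOf T = p) (hℓ : ℓ.Prime)
    (hℓp : ℓ ≠ p) (hA : A.LiesOverPrime ℓ) (t : ℚ)
    (ht : (t : Qb) = (∑ k ∈ Finset.Ico 1 p, tq (k • T)) / 2) : (t : Qb) ∈ A := by
  let _ : DecidableEq (ResidueField A) := Classical.decEq _
  rw [t_eq W T hp hp2 hT t ht]
  exact sum_mem fun k _ => tq_mem (model_res W A) (isInt_nsmul W T A hp hT hℓ hℓp hA k)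

theorem w_mem (hp : p.Prime) (hp2 : p ≠ 2) (hT : addOrderOf T = p) (hℓ : ℓ.Prime)
    (hℓp : ℓ ≠ p) (hA : A.LiesOverPrime ℓ) (w : ℚ)
    (hw : (w : Qb) =
      (∑ k ∈ Finset.Ico 1 p, (psi2 (k • T) ^ 2 + ptX (k • T) * tq (k • T))) / 2) :
    (w : Qb) ∈ A := by
  let _ : DecidableEq (ResidueField A) := Classical.decEq _
  rw [w_eq W T hp hp2 hT w hw]
  exact sum_mem fun k _ => wq_mem (model_res W A) (isInt_nsmul W T A hp hT hℓ hℓp hA k)

/-- **(LOC-int)** the Vélu parameters are `ℓ`-integral, for every prime `ℓ ≠ p`. -/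
theorem loc_int (hp : p.Prime) (hp2 : p ≠ 2) (hT : addOrderOf T = p) (hℓ : ℓ.Prime)
    (hℓp : ℓ ≠ p) (hA : A.LiesOverPrime ℓ) (t w : ℚ)
    (ht : (t : Qb) = (∑ k ∈ Finset.Ico 1 p, tq (k • T)) / 2)
    (hw : (w : Qb) =
      (∑ k ∈ Finset.Ico 1 p, (psi2 (k • T) ^ 2 + ptX (k • T) * tq (k • T))) / 2) :
    ¬ (ℓ : ℤ) ∣ (t.den : ℤ) ∧ ¬ (ℓ : ℤ) ∣ (w.den : ℤ) :=
  ⟨not_dvd_den A hℓ hA t (t_mem W T A hp hp2 hT hℓ hℓp hA t ht),
    not_dvd_den A hℓ hA w (w_mem W T A hp hp2 hT hℓ hℓp hA w hw)⟩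

/-- The discriminant of the Vélu curve reduces to the discriminant of the Vélu curve of the
reduction. -/
theorem velu_Δ_rd (t w : ℚ) {t' w' : ResidueField A} (rt : Rd A (residue A) (t : Qb) t')
    (rw' : Rd A (residue A) (w : Qb) w') :
    Rd A (residue A) (((veluCurve (W.map (Int.castRingHom ℚ)) t w).Δ : ℚ) : Qb)
      (veluCurve (W.map (Int.castRingHom (ResidueField A))) t' w').Δ := by
  let _ : DecidableEq (ResidueField A) := Classical.decEq _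
  rw [cast_velu_Δ]
  exact Model.Δ (model_velu (model_res W A) rt rw')

/-- **(LOC-good)** at a prime `ℓ ≠ p` of good reduction the discriminant of the Vélu curve is a
unit. -/
theorem loc_good (hp : p.Prime) (hp2 : p ≠ 2) (hT : addOrderOf T = p) (hℓ : ℓ.Prime)
    (hℓp : ℓ ≠ p) (hA : A.LiesOverPrime ℓ) (t w : ℚ)
    (ht : (t : Qb) = (∑ k ∈ Finset.Ico 1 p, tq (k • T)) / 2)
    (hw : (w : Qb) =
      (∑ k ∈ Finset.Ico 1 p, (psi2 (k • T) ^ 2 + ptX (k • T) * tq (k • T))) / 2)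
    (hD : (((veluCurve (W.map (Int.castRingHom ℚ)) t w).Δ : ℚ) : Qb) * veluPsi p T ^ 4 =
      (((W.map (Int.castRingHom ℚ)).Δ : ℚ) : Qb) ^ p)
    (hgood : ¬ (ℓ : ℤ) ∣ W.Δ) :
    A.valuation (((veluCurve (W.map (Int.castRingHom ℚ)) t w).Δ : ℚ) : Qb) = 1 := by
  let _ : DecidableEq (ResidueField A) := Classical.decEq _
  have M := model_res W A
  have hVmem : (((veluCurve (W.map (Int.castRingHom ℚ)) t w).Δ : ℚ) : Qb) ∈ A :=
    (velu_Δ_rd W A t w (rd_of_mem (t_mem W T A hp hp2 hT hℓ hℓp hA t ht))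
      (rd_of_mem (w_mem W T A hp hp2 hT hℓ hℓp hA w hw))).mem
  have hψ : veluPsi p T ∈ A :=
    prod_mem fun k _ => psi2_mem M (isInt_nsmul W T A hp hT hℓ hℓp hA k)
  have hΔ1 : A.valuation ((((W.map (Int.castRingHom ℚ)).Δ : ℚ) : Qb)) = 1 := by
    rw [cast_Δ]
    exact Fermat.Agent.Lib.Red.RankOne.valuation_intCast_eq_one A hℓ hA _ hgood
  have h := congrArg A.valuation hD
  rw [map_mul, map_pow, map_pow, hΔ1, one_pow] at h
  exact eq_one_of_mul_eq_one ((A.valuation_le_one_iff _).mpr hVmem)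
    (pow_le_one' ((A.valuation_le_one_iff _).mpr hψ) 4) h

/-- **(LOC-mult)** at a prime `ℓ ≠ p` of multiplicative reduction the Vélu curve has unit `c₄`
and non-unit discriminant (toric or not). -/
theorem loc_mult (hp : p.Prime) (hp2 : p ≠ 2) (hT : addOrderOf T = p) (hℓ : ℓ.Prime)
    (hℓp : ℓ ≠ p) (hA : A.LiesOverPrime ℓ) (t w : ℚ)
    (ht : (t : Qb) = (∑ k ∈ Finset.Ico 1 p, tq (k • T)) / 2)
    (hw : (w : Qb) =
      (∑ k ∈ Finset.Ico 1 p, (psi2 (k • T) ^ 2 + ptX (k • T) * tq (k • T))) / 2)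
    (hD : (((veluCurve (W.map (Int.castRingHom ℚ)) t w).Δ : ℚ) : Qb) * veluPsi p T ^ 4 =
      (((W.map (Int.castRingHom ℚ)).Δ : ℚ) : Qb) ^ p)
    (hℓΔ : (ℓ : ℤ) ∣ W.Δ) (hℓc₄ : ¬ (ℓ : ℤ) ∣ W.c₄) :
    A.valuation (((veluCurve (W.map (Int.castRingHom ℚ)) t w).c₄ : ℚ) : Qb) = 1 ∧
      A.valuation (((veluCurve (W.map (Int.castRingHom ℚ)) t w).Δ : ℚ) : Qb) < 1 := by
  let _ : DecidableEq (ResidueField A) := Classical.decEq _
  have M := model_res W A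
  have hc := cast_velu_c₄ W T t w ht
  by_cases hin : W.InZeroComponentAt A T
  · obtain ⟨h1, h2⟩ := velu_of_inZero W T A hp hp2 hT hℓ hℓp hℓΔ hℓc₄ hA hin
    refine ⟨by rw [hc]; exact h1, ?_⟩
    have h := congrArg A.valuation hD
    rw [map_mul, map_pow, map_pow, h2, one_pow, mul_one] at h
    rw [h]
    have hΔlt : A.valuation ((((W.map (Int.castRingHom ℚ)).Δ : ℚ) : Qb)) < 1 := by
      rw [cast_Δ]
      exact val_intCast_lt_one_of_dvd A hA hℓΔ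
    exact pow_lt_one_of_lt hΔlt hp.ne_zero
  · obtain ⟨h1, -⟩ := velu_of_not_inZero W T A hp hT hℓ hℓp hℓΔ hℓc₄ hA hin
    refine ⟨by rw [hc]; exact h1, ?_⟩
    have key : ∀ j ∈ Finset.Ico 1 (p / 2 + 1), Rd A (residue A) (tq (j • T)) 0 ∧
        Rd A (residue A) (psi2 (j • T) ^ 2 + ptX (j • T) * tq (j • T)) 0 := by
      intro j hj
      rw [Finset.mem_Ico] at hj
      have hpj : ¬ p ∣ j := fun hd => by
        have h5 := Nat.le_of_dvd (by omega) hd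
        have h6 := hp.two_le
        omega
      obtain ⟨x, y, h, c, d, hjQ, rx, ry, he, hs⟩ :=
        sing_of_not_inZero hp hℓ hℓp hA hT hin j hpj
      obtain ⟨e1, e2⟩ := sing_eqs he hs
      rw [hjQ]
      have r1 : Rd A (residue A) (tq (Point.some x y h)) 0 :=
        Rd.of_eq ((((rd_ofNat 6).mul (rx.pow 2)).add ((Model.b₂ M).mul rx)).add (Model.b₄ M)) e2
      have r2 : Rd A (residue A) (psi2 (Point.some x y h)) 0 :=
        Rd.of_eq ((((rd_ofNat 2).mul ry).add (M.a₁.mul rx)).add M.a₃) e1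
      have r3 : Rd A (residue A) (ptX (Point.some x y h)) c := rx
      exact ⟨r1, Rd.of_eq ((r2.pow 2).add (r3.mul r1)) (by ring)⟩
    have rt : Rd A (residue A) (t : Qb) 0 := by
      rw [t_eq W T hp hp2 hT t ht]
      have r : Rd A (residue A) (∑ k ∈ Finset.Ico 1 (p / 2 + 1), tq (k • T))
          (∑ _k ∈ Finset.Ico 1 (p / 2 + 1), (0 : ResidueField A)) :=
        rd_sum _ _ _ fun j hj => (key j hj).1
      exact Rd.of_eq r Finset.sum_const_zero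
    have rw' : Rd A (residue A) (w : Qb) 0 := by
      rw [w_eq W T hp hp2 hT w hw]
      have r : Rd A (residue A)
          (∑ k ∈ Finset.Ico 1 (p / 2 + 1), (psi2 (k • T) ^ 2 + ptX (k • T) * tq (k • T)))
          (∑ _k ∈ Finset.Ico 1 (p / 2 + 1), (0 : ResidueField A)) :=
        rd_sum _ _ _ fun j hj => (key j hj).2
      exact Rd.of_eq r Finset.sum_const_zero
    have r := velu_Δ_rd W A t w rt rw'
    rw [veluCurve_zero] at r
    exact val_lt_one_of_rd (Rd.of_eq r (reduced_disc W A hℓ hℓΔ hℓc₄ hA).1)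

/-- **(LOC-final)**, scaling by any integer `d` prime to `ℓ`. -/
theorem loc_final_of_not_dvd (hp : p.Prime) (hp2 : p ≠ 2) (hT : addOrderOf T = p)
    (hℓ : ℓ.Prime) (hℓp : ℓ ≠ p) (hA : A.LiesOverPrime ℓ) (t w : ℚ)
    (ht : (t : Qb) = (∑ k ∈ Finset.Ico 1 p, tq (k • T)) / 2)
    (hw : (w : Qb) =
      (∑ k ∈ Finset.Ico 1 p, (psi2 (k • T) ^ 2 + ptX (k • T) * tq (k • T))) / 2)
    (hD : (((veluCurve (W.map (Int.castRingHom ℚ)) t w).Δ : ℚ) : Qb) * veluPsi p T ^ 4 =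
      (((W.map (Int.castRingHom ℚ)).Δ : ℚ) : Qb) ^ p)
    (W' : WeierstrassCurve ℤ) (d : ℤ) (hd : ¬ (ℓ : ℤ) ∣ d)
    (hΔ' : ((W'.Δ : ℤ) : ℚ) = (d : ℚ) ^ 12 * (veluCurve (W.map (Int.castRingHom ℚ)) t w).Δ)
    (hc₄' : ((W'.c₄ : ℤ) : ℚ) = (d : ℚ) ^ 4 * (veluCurve (W.map (Int.castRingHom ℚ)) t w).c₄) :
    (¬ (ℓ : ℤ) ∣ W.Δ → ¬ (ℓ : ℤ) ∣ W'.Δ) ∧
      ((ℓ : ℤ) ∣ W.Δ → ¬ (ℓ : ℤ) ∣ W.c₄ → (ℓ : ℤ) ∣ W'.Δ ∧ ¬ (ℓ : ℤ) ∣ W'.c₄) := by
  have hvd : A.valuation ((d : ℤ) : Qb) = 1 :=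
    Fermat.Agent.Lib.Red.RankOne.valuation_intCast_eq_one A hℓ hA d hd
  have eΔ : A.valuation ((W'.Δ : ℤ) : Qb) =
      A.valuation (((veluCurve (W.map (Int.castRingHom ℚ)) t w).Δ : ℚ) : Qb) := by
    have h := congrArg (fun q : ℚ => (q : Qb)) hΔ'
    simp only [Rat.cast_intCast, Rat.cast_mul, Rat.cast_pow] at h
    rw [h, map_mul, map_pow, hvd, one_pow, one_mul]
  have ec : A.valuation ((W'.c₄ : ℤ) : Qb) =
      A.valuation (((veluCurve (W.map (Int.castRingHom ℚ)) t w).c₄ : ℚ) : Qb) := by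
    have h := congrArg (fun q : ℚ => (q : Qb)) hc₄'
    simp only [Rat.cast_intCast, Rat.cast_mul, Rat.cast_pow] at h
    rw [h, map_mul, map_pow, hvd, one_pow, one_mul]
  constructor
  · intro hgood
    rw [← val_intCast_eq_one_iff A hℓ hA, eΔ]
    exact loc_good W T A hp hp2 hT hℓ hℓp hA t w ht hw hD hgood
  · intro hℓΔ hℓc₄
    obtain ⟨h1, h2⟩ := loc_mult W T A hp hp2 hT hℓ hℓp hA t w ht hw hD hℓΔ hℓc₄
    rw [← ec] at h1
    rw [← eΔ] at h2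
    exact ⟨(val_intCast_lt_one_iff A hℓ hA _).mp h2, (val_intCast_eq_one_iff A hℓ hA _).mp h1⟩

/-- **(LOC-final)**, scaling by `d = den t · den w`. -/
theorem loc_final (hp : p.Prime) (hp2 : p ≠ 2) (hT : addOrderOf T = p)
    (hℓ : ℓ.Prime) (hℓp : ℓ ≠ p) (hA : A.LiesOverPrime ℓ) (t w : ℚ)
    (ht : (t : Qb) = (∑ k ∈ Finset.Ico 1 p, tq (k • T)) / 2)
    (hw : (w : Qb) =
      (∑ k ∈ Finset.Ico 1 p, (psi2 (k • T) ^ 2 + ptX (k • T) * tq (k • T))) / 2)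
    (hD : (((veluCurve (W.map (Int.castRingHom ℚ)) t w).Δ : ℚ) : Qb) * veluPsi p T ^ 4 =
      (((W.map (Int.castRingHom ℚ)).Δ : ℚ) : Qb) ^ p)
    (W' : WeierstrassCurve ℤ) (d : ℤ) (hd : d = (t.den : ℤ) * (w.den : ℤ))
    (hΔ' : ((W'.Δ : ℤ) : ℚ) = (d : ℚ) ^ 12 * (veluCurve (W.map (Int.castRingHom ℚ)) t w).Δ)
    (hc₄' : ((W'.c₄ : ℤ) : ℚ) = (d : ℚ) ^ 4 * (veluCurve (W.map (Int.castRingHom ℚ)) t w).c₄) :
    (¬ (ℓ : ℤ) ∣ W.Δ → ¬ (ℓ : ℤ) ∣ W'.Δ) ∧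
      ((ℓ : ℤ) ∣ W.Δ → ¬ (ℓ : ℤ) ∣ W.c₄ → (ℓ : ℤ) ∣ W'.Δ ∧ ¬ (ℓ : ℤ) ∣ W'.c₄) := by
  obtain ⟨h1, h2⟩ := loc_int W T A hp hp2 hT hℓ hℓp hA t w ht hw
  have hdℓ : ¬ (ℓ : ℤ) ∣ d := by
    rw [hd]
    intro h
    rcases (Nat.prime_iff_prime_int.mp hℓ).dvd_mul.mp h with h | h
    · exact h1 h
    · exact h2 h
  exact loc_final_of_not_dvd W T A hp hp2 hT hℓ hℓp hA t w ht hw hD W' d hdℓ hΔ' hc₄'

/-- **The last clause of `StepLite`**, for every prime `ℓ ≠ p` at once. -/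
theorem loc_clause (hp : p.Prime) (hp2 : p ≠ 2) (hT : addOrderOf T = p) (t w : ℚ)
    (ht : (t : Qb) = (∑ k ∈ Finset.Ico 1 p, tq (k • T)) / 2)
    (hw : (w : Qb) =
      (∑ k ∈ Finset.Ico 1 p, (psi2 (k • T) ^ 2 + ptX (k • T) * tq (k • T))) / 2)
    (hD : (((veluCurve (W.map (Int.castRingHom ℚ)) t w).Δ : ℚ) : Qb) * veluPsi p T ^ 4 =
      (((W.map (Int.castRingHom ℚ)).Δ : ℚ) : Qb) ^ p)
    (W' : WeierstrassCurve ℤ) (d : ℤ) (hd : d = (t.den : ℤ) * (w.den : ℤ))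
    (hΔ' : ((W'.Δ : ℤ) : ℚ) = (d : ℚ) ^ 12 * (veluCurve (W.map (Int.castRingHom ℚ)) t w).Δ)
    (hc₄' : ((W'.c₄ : ℤ) : ℚ) = (d : ℚ) ^ 4 * (veluCurve (W.map (Int.castRingHom ℚ)) t w).c₄) :
    ∀ ℓ : ℕ, ℓ.Prime → ℓ ≠ p →
      (¬ (ℓ : ℤ) ∣ W.Δ → ¬ (ℓ : ℤ) ∣ W'.Δ) ∧
        ((ℓ : ℤ) ∣ W.Δ → ¬ (ℓ : ℤ) ∣ W.c₄ → (ℓ : ℤ) ∣ W'.Δ ∧ ¬ (ℓ : ℤ) ∣ W'.c₄) := by
  intro ℓ hℓ hℓp
  obtain ⟨A, hA⟩ := Fermat.Agent.Lib.FrobeniusExists.exists_liesOverPrime hℓ
  exact loc_final W T A hp hp2 hT hℓ hℓp hA t w ht hw hD W' d hd hΔ' hc₄'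

end Main

end Fermat.Agent.S12P.StepLoc89
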