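/-
S12 cell, brick B1 (helper23): the `x`-coordinate of the isogeny `ℂ/Λ → ℂ/Λ'`, `Λ' = Λ + ℤ z₀`,
`z₀` of exact odd order `p` in `ℂ/Λ`, relative to a half-period `h` of `Λ`:

`℘_{Λ'}(z) − ℘_{Λ'}(h) = ∏_{k<p} (℘_Λ(z + k z₀) − ℘_Λ(h)) / ∏_{0<k<p} (℘_Λ(k z₀) − ℘_Λ(h))`.

Clone of `Isog4.isoQuot_const` / `isoConst` (helper4) with `℘ − e` in place of `℘'`.
-/
import Fermat.Agent.S15P.M1.Isog4

set_option autoImplicit false

namespace Fermat.Agent.S12P.WpSuper23

open Filter Topology PeriodPair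
open Fermat.Agent.S15P.M1.Ell4 Fermat.Agent.S15P.M1.Isog4

variable {L L' : PeriodPair} {p : ℕ} {z₀ : ℂ}

/-- `∏_{k<p} (℘_Λ(z + k z₀) − e)`. -/
noncomputable def xProd (L : PeriodPair) (p : ℕ) (z₀ e z : ℂ) : ℂ :=
  ∏ k ∈ Finset.range p, (℘[L] (z + k * z₀) - e)

/-- `∏_{1≤k<p} (℘_Λ(z + k z₀) − e)`. -/
noncomputable def xTail (L : PeriodPair) (p : ℕ) (z₀ e z : ℂ) : ℂ :=
  ∏ k ∈ Finset.Ico 1 p, (℘[L] (z + k * z₀) - e)

theorem xProd_eq (L : PeriodPair) {p : ℕ} (hp : 0 < p) (z₀ e z : ℂ) :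
    xProd L p z₀ e z = (℘[L] z - e) * xTail L p z₀ e z := by
  unfold xProd xTail
  rw [Finset.range_eq_Ico, Finset.prod_eq_prod_Ico_succ_bot hp]
  simp

theorem xProd_add_z₀ (S : IsSuper L L' p z₀) (hp : 0 < p) (e z : ℂ) :
    xProd L p z₀ e (z + z₀) = xProd L p z₀ e z := by
  have h1 : xProd L p z₀ e (z + z₀) = ∏ k ∈ Finset.Ico 1 (p + 1), (℘[L] (z + k * z₀) - e) := by
    unfold xProd
    have := Finset.prod_Ico_add' (fun k : ℕ => ℘[L] (z + k * z₀) - e) 0 p 1
    rw [zero_add] at this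
    rw [Finset.range_eq_Ico, ← this]
    refine Finset.prod_congr rfl fun k _ => ?_
    push_cast
    ring_nf
  rw [h1, Finset.prod_Ico_succ_top (by omega : 1 ≤ p), xProd_eq L hp, mul_comm]
  congr 2
  exact wp_add_mem z S.p_mul_mem

theorem xProd_add_mem (L : PeriodPair) (p : ℕ) (z₀ e : ℂ) {l : ℂ} (hl : l ∈ L.lattice) (z : ℂ) :
    xProd L p z₀ e (z + l) = xProd L p z₀ e z := by
  unfold xProd
  refine Finset.prod_congr rfl fun k _ => ?_
  rw [show z + l + k * z₀ = z + k * z₀ + l by ring, wp_add_mem _ hl]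

theorem xProd_add_nat (S : IsSuper L L' p z₀) (hp : 0 < p) (e : ℂ) (k : ℕ) (z : ℂ) :
    xProd L p z₀ e (z + k * z₀) = xProd L p z₀ e z := by
  induction k with
  | zero => simp
  | succ n ih =>
    rw [show z + ((n + 1 : ℕ) : ℂ) * z₀ = z + n * z₀ + z₀ by push_cast; ring,
      xProd_add_z₀ S hp, ih]

theorem xProd_periodic (S : IsSuper L L' p z₀) (hp : 0 < p) (e : ℂ) {w : ℂ}
    (hw : w ∈ L'.lattice) (z : ℂ) : xProd L p z₀ e (z + w) = xProd L p z₀ e z := by
  obtain ⟨k, hk⟩ := (S.mem w).mp hw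
  rw [show z + w = z + (w - k * z₀) + k * z₀ by ring, xProd_add_nat S hp,
    xProd_add_mem L p z₀ e hk]

theorem meromorphic_shift_wp_sub (L : PeriodPair) (a e : ℂ) :
    Meromorphic (fun z => ℘[L] (z + a) - e) :=
  (meromorphic_shift_wp L a).sub (Meromorphic.const _)

theorem meromorphic_wp_sub (L : PeriodPair) (e : ℂ) : Meromorphic (fun z => ℘[L] z - e) :=
  L.meromorphic_weierstrassP.sub (Meromorphic.const _)

theorem meromorphic_xProd (L : PeriodPair) (p : ℕ) (z₀ e : ℂ) : Meromorphic (xProd L p z₀ e) :=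
  fun x => MeromorphicAt.fun_prod (s := Finset.range p)
    (F := fun (k : ℕ) (w : ℂ) => ℘[L] (w + k * z₀) - e)
    (fun _ _ => meromorphic_shift_wp_sub L _ e x)

theorem order_xProd (L : PeriodPair) (p : ℕ) (z₀ e z : ℂ) :
    meromorphicOrderAt (xProd L p z₀ e) z
      = ∑ k ∈ Finset.range p, meromorphicOrderAt (fun w => ℘[L] w - e) (z + k * z₀) := by
  have := meromorphicOrderAt_fun_prod (s := Finset.range p)
    (f := fun (k : ℕ) (w : ℂ) => ℘[L] (w + k * z₀) - e) (x := z)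
    (fun k _ => meromorphic_shift_wp_sub L _ e z)
  rw [show xProd L p z₀ e = fun a => ∏ k ∈ Finset.range p, (℘[L] (a + k * z₀) - e) from rfl, this]
  exact Finset.sum_congr rfl fun k _ => order_shift (fun w => ℘[L] w - e) _ z

/-- `℘ − ℘(h)` has a zero of order exactly 2 at every point congruent to the half-period `h`. -/
theorem order_wp_sub_half {h : ℂ} (hh : IsHalf L h) {z : ℂ} (hz : z + h ∈ L.lattice) :
    meromorphicOrderAt (fun w => ℘[L] w - ℘[L] h) z = ((2 : ℤ) : WithTop ℤ) := by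
  obtain ⟨c, hc0, hc⟩ := halfProd_const hh
  have hev : halfProd L h =ᶠ[𝓝[≠] z] fun _ => c := by
    have h1 := eventually_notMem L z
    have h2 : ∀ᶠ w in 𝓝[≠] z, w + h ∉ L.lattice := by
      have ht : Tendsto (fun w : ℂ => w + h) (𝓝[≠] z) (𝓝[≠] (z + h)) := by
        refine tendsto_nhdsWithin_of_tendsto_nhds_of_eventually_within _ ?_ ?_
        · exact (continuous_add_const h).continuousAt.tendsto.mono_left nhdsWithin_le_nhds
        · filter_upwards [self_mem_nhdsWithin] with w hw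
          simpa using hw
      exact ht.eventually (eventually_notMem L (z + h))
    filter_upwards [h1, h2] with w hw hwh
    exact hc w hw hwh
  have h0 : meromorphicOrderAt (halfProd L h) z = 0 := by
    rw [meromorphicOrderAt_congr hev, meromorphicOrderAt_const]
    simp [hc0]
  have hA : Meromorphic (fun w => ℘[L] (w + h) - ℘[L] h) := meromorphic_shift_wp_sub L h _
  have hB : Meromorphic (fun w => ℘[L] w - ℘[L] h) := meromorphic_wp_sub L _
  have hmul : meromorphicOrderAt (halfProd L h) z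
      = meromorphicOrderAt (fun w => ℘[L] (w + h) - ℘[L] h) z
        + meromorphicOrderAt (fun w => ℘[L] w - ℘[L] h) z :=
    meromorphicOrderAt_mul (hA z) (hB z)
  have hAs : meromorphicOrderAt (fun w => ℘[L] (w + h) - ℘[L] h) z
      = meromorphicOrderAt (fun w => ℘[L] w - ℘[L] h) (z + h) :=
    order_shift (fun w => ℘[L] w - ℘[L] h) h z
  rw [hAs, order_wp_sub L _ hz, h0] at hmul
  generalize meromorphicOrderAt (fun w => ℘[L] w - ℘[L] h) z = n at hmul ⊢
  induction n using WithTop.recTopCoe with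
  | top => simp at hmul
  | coe n =>
    rw [← WithTop.coe_add] at hmul
    have h2 : (0 : ℤ) = -2 + n := by exact_mod_cast hmul
    exact_mod_cast (by omega : n = 2)

/-- at a point of `Λ'` exactly one factor of `xProd` has a pole. -/
theorem sum_order_of_mem (S : IsSuper L L' p z₀) (hodd : Odd p) {h : ℂ} (hh : IsHalf L h)
    {z : ℂ} {k₀ : ℕ} (hk₀ : k₀ < p) (hmem : z + k₀ * z₀ ∈ L.lattice) :
    ∑ k ∈ Finset.range p, meromorphicOrderAt (fun w => ℘[L] w - ℘[L] h) (z + k * z₀)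
      = ((-2 : ℤ) : WithTop ℤ) := by
  have hh' : IsHalf L' h := S.isHalf hodd hh
  have hzL' : z ∈ L'.lattice := by
    have := L'.lattice.sub_mem (S.le hmem) (S.nat_mul_mem' k₀)
    simpa using this
  rw [Finset.sum_eq_single k₀ (fun k hk hne => ?_) (fun hn => absurd (Finset.mem_range.mpr hk₀) hn),
    order_wp_sub L _ hmem]
  have hkL : z + k * z₀ ∉ L.lattice := fun hk' =>
    hne (S.eq_of_two_mem hodd (Finset.mem_range.mp hk) hk₀
      (by rw [two_mul]; exact L.lattice.add_mem hk' hk')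
      (by rw [two_mul]; exact L.lattice.add_mem hmem hmem))
  have hkh : z + k * z₀ + h ∉ L.lattice := fun hk' => hh'.notMem (by
    have := L'.lattice.sub_mem (S.le hk') (L'.lattice.add_mem hzL' (S.nat_mul_mem' k))
    simpa using this)
  exact order_eq_zero_of_ne ((analyticAt_wp L hkL).sub analyticAt_const)
    (sub_ne_zero.mpr (hh.wp_ne hkL hkh))

/-- at a point congruent to `h` mod `Λ'` exactly one factor of `xProd` vanishes, to order 2. -/
theorem sum_order_of_half (S : IsSuper L L' p z₀) (hodd : Odd p) {h : ℂ} (hh : IsHalf L h)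
    {z : ℂ} (hz : z ∉ L'.lattice) {k₀ : ℕ} (hk₀ : k₀ < p) (hmem : z + k₀ * z₀ + h ∈ L.lattice) :
    ∑ k ∈ Finset.range p, meromorphicOrderAt (fun w => ℘[L] w - ℘[L] h) (z + k * z₀)
      = ((2 : ℤ) : WithTop ℤ) := by
  rw [Finset.sum_eq_single k₀ (fun k hk hne => ?_) (fun hn => absurd (Finset.mem_range.mpr hk₀) hn),
    order_wp_sub_half hh hmem]
  have hkL : z + k * z₀ ∉ L.lattice := S.add_notMem hz k
  have hkh : z + k * z₀ + h ∉ L.lattice := fun hk' =>
    hne (S.eq_of_two_mem hodd (z := z + h) (Finset.mem_range.mp hk) hk₀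
      (by
        have := L.lattice.add_mem hk' hk'
        rwa [show z + k * z₀ + h + (z + k * z₀ + h) = 2 * (z + h + k * z₀) by ring] at this)
      (by
        have := L.lattice.add_mem hmem hmem
        rwa [show z + k₀ * z₀ + h + (z + k₀ * z₀ + h) = 2 * (z + h + k₀ * z₀) by ring] at this))
  exact order_eq_zero_of_ne ((analyticAt_wp L hkL).sub analyticAt_const)
    (sub_ne_zero.mpr (hh.wp_ne hkL hkh))

theorem analyticAt_xProd (S : IsSuper L L' p z₀) (e : ℂ) {z : ℂ} (hz : z ∉ L'.lattice) :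
    AnalyticAt ℂ (xProd L p z₀ e) z := by
  refine Finset.analyticAt_fun_prod (Finset.range p) fun k _ => ?_
  exact ((analyticAt_wp L (S.add_notMem hz k)).comp_of_eq (f := fun w : ℂ => w + k * z₀)
    (by fun_prop) rfl).sub analyticAt_const

/-- a vanishing factor of `xProd` at `z ∉ Λ'` forces `z ≡ h` mod `Λ'`. -/
theorem add_half_mem_of_factor (S : IsSuper L L' p z₀) {h : ℂ} (hh : IsHalf L h) {z : ℂ}
    (hz : z ∉ L'.lattice) {k₀ : ℕ} (h0 : ℘[L] (z + k₀ * z₀) - ℘[L] h = 0) :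
    z + k₀ * z₀ + h ∈ L.lattice := by
  by_contra hcon
  exact hh.wp_ne (S.add_notMem hz k₀) hcon (sub_eq_zero.mp h0)

theorem add_half_mem' (S : IsSuper L L' p z₀) {h z : ℂ} {k₀ : ℕ}
    (hmem : z + k₀ * z₀ + h ∈ L.lattice) : z + h ∈ L'.lattice := by
  have := L'.lattice.sub_mem (S.le hmem) (S.nat_mul_mem' k₀)
  rwa [show z + k₀ * z₀ + h - k₀ * z₀ = z + h by ring] at this

theorem order_xQuot_nonneg (S : IsSuper L L' p z₀) (hodd : Odd p) {h : ℂ} (hh : IsHalf L h)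
    (z : ℂ) :
    0 ≤ meromorphicOrderAt
      (fun w => (℘[L'] w - ℘[L'] h) * (xProd L p z₀ (℘[L] h) w)⁻¹) z := by
  have hh' : IsHalf L' h := S.isHalf hodd hh
  have hmul : meromorphicOrderAt
      (fun w => (℘[L'] w - ℘[L'] h) * (xProd L p z₀ (℘[L] h) w)⁻¹) z
      = meromorphicOrderAt (fun w => ℘[L'] w - ℘[L'] h) z
        + meromorphicOrderAt (xProd L p z₀ (℘[L] h))⁻¹ z :=
    meromorphicOrderAt_mul (meromorphic_wp_sub L' _ z) ((meromorphic_xProd L p z₀ _ z).inv)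
  by_cases hz : z ∈ L'.lattice
  · obtain ⟨k₀, hk₀, hmem⟩ := S.exists_add_lt hodd.pos hz
    rw [hmul, meromorphicOrderAt_inv, order_xProd, sum_order_of_mem S hodd hh hk₀ hmem,
      order_wp_sub L' _ hz, ← WithTop.LinearOrderedAddCommGroup.coe_neg, ← WithTop.coe_add]
    norm_num
  · by_cases hex : ∃ k ∈ Finset.range p, ℘[L] (z + k * z₀) - ℘[L] h = 0
    · obtain ⟨k₀, hk₀, h0⟩ := hex
      have hmem := add_half_mem_of_factor S hh hz h0
      have hzh : z + h ∈ L'.lattice := add_half_mem' S hmem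
      have hg := two_le_order_sub L' (z₁ := z) (e := ℘[L'] h) hz
        (hh'.wp_eq_of_add_mem hzh) (hh'.dwp_eq_zero_of_add_mem hzh)
      rw [hmul, meromorphicOrderAt_inv, order_xProd,
        sum_order_of_half S hodd hh hz (Finset.mem_range.mp hk₀) hmem]
      generalize meromorphicOrderAt (fun w => ℘[L'] w - ℘[L'] h) z = x at hg
      induction x using WithTop.recTopCoe with
      | top => simp
      | coe n =>
        rw [← WithTop.LinearOrderedAddCommGroup.coe_neg, ← WithTop.coe_add]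
        have : (2 : ℤ) ≤ n := by exact_mod_cast hg
        exact_mod_cast (by omega : (0 : ℤ) ≤ n + -2)
    · have hne : xProd L p z₀ (℘[L] h) z ≠ 0 := by
        unfold xProd
        rw [Finset.prod_ne_zero_iff]
        intro k hk h0
        exact hex ⟨k, hk, h0⟩
      have han : AnalyticAt ℂ
          (fun w => (℘[L'] w - ℘[L'] h) * (xProd L p z₀ (℘[L] h) w)⁻¹) z :=
        ((analyticAt_wp L' hz).sub analyticAt_const).mul ((analyticAt_xProd S _ hz).inv hne)
      exact han.meromorphicOrderAt_nonneg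

/-- **Liouville.** `℘_{Λ'} − ℘_{Λ'}(h) = c · ∏_{k<p} (℘_Λ(· + k z₀) − ℘_Λ(h))` off `Λ'`. -/
theorem xQuot_const (S : IsSuper L L' p z₀) (hodd : Odd p) {h : ℂ} (hh : IsHalf L h) :
    ∃ c : ℂ, ∀ z, z ∉ L'.lattice → ℘[L'] z - ℘[L'] h = c * xProd L p z₀ (℘[L] h) z := by
  have hh' : IsHalf L' h := S.isHalf hodd hh
  have hmero : Meromorphic (fun w => (℘[L'] w - ℘[L'] h) * (xProd L p z₀ (℘[L] h) w)⁻¹) :=
    (meromorphic_wp_sub L' _).mul (meromorphic_xProd L p z₀ _).inv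
  obtain ⟨c, hc⟩ := const_of_periodic L' _ hmero
    (fun l hl z => by
      show (℘[L'] (z + l) - ℘[L'] h) * (xProd L p z₀ (℘[L] h) (z + l))⁻¹
        = (℘[L'] z - ℘[L'] h) * (xProd L p z₀ (℘[L] h) z)⁻¹
      rw [wp_add_mem z hl, xProd_periodic S hodd.pos _ hl])
    (order_xQuot_nonneg S hodd hh)
  refine ⟨c, fun z hz => ?_⟩
  by_cases hne : xProd L p z₀ (℘[L] h) z = 0
  · rw [hne, mul_zero]
    unfold xProd at hne
    obtain ⟨k₀, _, h0⟩ := Finset.prod_eq_zero_iff.mp hne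
    have hzh : z + h ∈ L'.lattice := add_half_mem' S (add_half_mem_of_factor S hh hz h0)
    rw [hh'.wp_eq_of_add_mem hzh, sub_self]
  · have han : AnalyticAt ℂ
        (fun w => (℘[L'] w - ℘[L'] h) * (xProd L p z₀ (℘[L] h) w)⁻¹) z :=
      ((analyticAt_wp L' hz).sub analyticAt_const).mul ((analyticAt_xProd S _ hz).inv hne)
    have := hc z han
    rw [← this]
    field_simp

/-- `z² (℘(z) − e) → 1` at the origin. -/
theorem tendsto_sq_mul_wp_sub (M : PeriodPair) (e : ℂ) :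
    Tendsto (fun z => z ^ 2 * (℘[M] z - e)) (𝓝[≠] 0) (𝓝 1) := by
  have hc : ContinuousAt (fun z => z ^ 2 * ℘[M - (0 : ℂ)] z + 1 - z ^ 2 * e) 0 := by
    have := (M.analyticAt_weierstrassPExcept 0).continuousAt
    fun_prop
  have h1 : Tendsto (fun z => z ^ 2 * ℘[M - (0 : ℂ)] z + 1 - z ^ 2 * e) (𝓝[≠] 0) (𝓝 1) := by
    have := hc.tendsto.mono_left (nhdsWithin_le_nhds (s := {(0 : ℂ)}ᶜ))
    simpa using this
  refine h1.congr' ?_
  filter_upwards [self_mem_nhdsWithin] with z hz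
  have hz0 : z ≠ 0 := hz
  have := M.weierstrassPExcept_add (0 : M.lattice) z
  simp only [ZeroMemClass.coe_zero, sub_zero, ne_eq, OfNat.ofNat_ne_zero, not_false_eq_true,
    zero_pow, div_zero] at this
  rw [← this]
  field_simp

theorem analyticAt_xTail (L : PeriodPair) (p : ℕ) (z₀ e : ℂ) {z : ℂ}
    (hz : ∀ k ∈ Finset.Ico 1 p, z + k * z₀ ∉ L.lattice) : AnalyticAt ℂ (xTail L p z₀ e) z := by
  refine Finset.analyticAt_fun_prod (Finset.Ico 1 p) fun k hk => ?_
  exact ((analyticAt_wp L (hz k hk)).comp_of_eq (f := fun w : ℂ => w + k * z₀)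
    (by fun_prop) rfl).sub analyticAt_const

/-- **B1.** The `x`-coordinate of the isogeny with kernel `⟨z₀⟩`, relative to a half-period. -/
theorem wp_super (S : IsSuper L L' p z₀) (hodd : Odd p) {h : ℂ} (hh : IsHalf L h) :
    ∃ c : ℂ, c * ∏ k ∈ Finset.Ico 1 p, (℘[L] (k * z₀) - ℘[L] h) = 1 ∧
      ∀ z, z ∉ L'.lattice →
        ℘[L'] z - ℘[L'] h = c * ∏ k ∈ Finset.range p, (℘[L] (z + k * z₀) - ℘[L] h) := by
  obtain ⟨c, hc⟩ := xQuot_const S hodd hh
  refine ⟨c, ?_, hc⟩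
  have hev : (fun z => z ^ 2 * (℘[L'] z - ℘[L'] h)) =ᶠ[𝓝[≠] (0 : ℂ)]
      fun z => c * (z ^ 2 * (℘[L] z - ℘[L] h)) * xTail L p z₀ (℘[L] h) z := by
    filter_upwards [eventually_notMem L' 0] with z hzL
    rw [hc z hzL, xProd_eq L hodd.pos]
    ring
  have hT : Tendsto (xTail L p z₀ (℘[L] h)) (𝓝[≠] (0 : ℂ)) (𝓝 (xTail L p z₀ (℘[L] h) 0)) :=
    ((analyticAt_xTail L p z₀ _ (z := 0)
      (fun k hk => by simpa using S.nat_mul_notMem hk)).continuousAt.tendsto).mono_left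
      nhdsWithin_le_nhds
  have hlim : Tendsto (fun z => c * (z ^ 2 * (℘[L] z - ℘[L] h)) * xTail L p z₀ (℘[L] h) z)
      (𝓝[≠] (0 : ℂ)) (𝓝 (c * 1 * xTail L p z₀ (℘[L] h) 0)) :=
    ((tendsto_sq_mul_wp_sub L _).const_mul c).mul hT
  have huniq := tendsto_nhds_unique ((tendsto_sq_mul_wp_sub L' _).congr' hev) hlim
  have hT0 : xTail L p z₀ (℘[L] h) 0 = ∏ k ∈ Finset.Ico 1 p, (℘[L] (k * z₀) - ℘[L] h) := by
    unfold xTail
    simp
  rw [← hT0]
  linear_combination -huniq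

end Fermat.Agent.S12P.WpSuper23
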