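/-
S12 cell (helper23), one-step route: the THREE-TERM IDENTITY over `ℂ`.

For `Λ' = Λ + ℤ z₀` (`z₀` of exact odd order `p` in `ℂ/Λ`) and the three half-period values
`e_i = ℘_Λ(h_i)`, with `Π_i = ∏_{0<k<p} (℘_Λ(k z₀) − e_i)`:

`(℘_{Λ'}(h_j) − ℘_{Λ'}(h_i)) · Π_i · Π_j = (e_j − e_i)^p · Π_l`, hence
`(e₂ − e₁)^p Π₃² + (e₃ − e₂)^p Π₁² + (e₁ − e₃)^p Π₂² = 0`.
-/
import Fermat.Agent.S12P.WpSuper23

set_option autoImplicit false

namespace Fermat.Agent.S12P.ThreeC23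

open Filter Topology PeriodPair
open Fermat.Agent.S15P.M1.Ell4 Fermat.Agent.S15P.M1.Isog4 Fermat.Agent.S12P.WpSuper23

variable {L L' : PeriodPair} {p : ℕ} {z₀ : ℂ}

/-- `∏_{0<k<p} (℘_Λ(k z₀) − e)`. -/
noncomputable def piC (L : PeriodPair) (p : ℕ) (z₀ e : ℂ) : ℂ :=
  ∏ k ∈ Finset.Ico 1 p, (℘[L] (k * z₀) - e)

theorem piC_ne_zero (S : IsSuper L L' p z₀) (hodd : Odd p) {h : ℂ} (hh : IsHalf L h) :
    piC L p z₀ (℘[L] h) ≠ 0 := by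
  obtain ⟨c, hc, -⟩ := wp_super S hodd hh
  intro h0
  rw [piC] at h0
  rw [h0, mul_zero] at hc
  exact zero_ne_one hc

/-- the difference of two half-period values of `℘_{Λ'}`. -/
theorem diff_half (S : IsSuper L L' p z₀) (hodd : Odd p) {h₁ h₂ h₃ : ℂ}
    (T : IsTriple L h₁ h₂ h₃) :
    (℘[L'] h₂ - ℘[L'] h₁) * piC L p z₀ (℘[L] h₁) * piC L p z₀ (℘[L] h₂)
      = (℘[L] h₂ - ℘[L] h₁) ^ p * piC L p z₀ (℘[L] h₃) := by
  obtain ⟨c, hc, hcz⟩ := wp_super S hodd T.half₁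
  have hh₂' : IsHalf L' h₂ := S.isHalf hodd T.half₂
  have e1 := hcz h₂ hh₂'.notMem
  rw [Finset.range_eq_Ico, Finset.prod_eq_prod_Ico_succ_bot hodd.pos] at e1
  simp only [Nat.cast_zero, zero_mul, add_zero] at e1
  have hfac : ∀ k ∈ Finset.Ico 1 p,
      (℘[L] (h₂ + k * z₀) - ℘[L] h₁) * (℘[L] (k * z₀) - ℘[L] h₂)
        = (℘[L] h₂ - ℘[L] h₁) * (℘[L] (k * z₀) - ℘[L] h₃) := by
    intro k hk
    have hkL : (k : ℂ) * z₀ ∉ L.lattice := S.nat_mul_notMem hk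
    have hkh : (k : ℂ) * z₀ + h₂ ∉ L.lattice := by
      intro hmem
      apply S.two_nat_mul_notMem hodd hk
      have := L.lattice.sub_mem (L.lattice.add_mem hmem hmem) T.half₂.two
      convert this using 1
      ring
    have := T.swap.halfProd_eq hkL hkh
    rw [add_comm h₂]
    linear_combination this
  have hprod : (∏ k ∈ Finset.Ico 1 p, (℘[L] (h₂ + k * z₀) - ℘[L] h₁)) * piC L p z₀ (℘[L] h₂)
      = (℘[L] h₂ - ℘[L] h₁) ^ (p - 1) * piC L p z₀ (℘[L] h₃) := by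
    unfold piC
    rw [← Finset.prod_mul_distrib, Finset.prod_congr rfl hfac, Finset.prod_mul_distrib,
      Finset.prod_const, Nat.card_Ico]
  have hpow : (℘[L] h₂ - ℘[L] h₁) ^ p = (℘[L] h₂ - ℘[L] h₁) * (℘[L] h₂ - ℘[L] h₁) ^ (p - 1) := by
    rw [← pow_succ', Nat.sub_add_cancel hodd.pos]
  have hc' : c * piC L p z₀ (℘[L] h₁) = 1 := hc
  rw [e1, hpow]
  linear_combination (℘[L] h₂ - ℘[L] h₁) * (℘[L] h₂ - ℘[L] h₁) ^ (p - 1) * piC L p z₀ (℘[L] h₃) * hc'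
    + c * piC L p z₀ (℘[L] h₁) * (℘[L] h₂ - ℘[L] h₁) * hprod

/-- **Three-term identity over `ℂ`.** -/
theorem three_term (S : IsSuper L L' p z₀) (hodd : Odd p) {h₁ h₂ h₃ : ℂ}
    (T : IsTriple L h₁ h₂ h₃) :
    (℘[L] h₂ - ℘[L] h₁) ^ p * piC L p z₀ (℘[L] h₃) ^ 2
      + (℘[L] h₃ - ℘[L] h₂) ^ p * piC L p z₀ (℘[L] h₁) ^ 2
      + (℘[L] h₁ - ℘[L] h₃) ^ p * piC L p z₀ (℘[L] h₂) ^ 2 = 0 := by
  have h12 := diff_half S hodd T
  have h23 := diff_half S hodd T.rot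
  have h31 := diff_half S hodd T.rot.rot
  linear_combination (-piC L p z₀ (℘[L] h₃)) * h12 - piC L p z₀ (℘[L] h₁) * h23
    - piC L p z₀ (℘[L] h₂) * h31

end Fermat.Agent.S12P.ThreeC23
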