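/-
S12 cell (helper23), one-step route: the THREE-TERM IDENTITY over `ℚ̄`.

For a Weierstrass curve `W` over `ℚ` with `Δ ≠ 0` whose 2-division polynomial
`4x³ + b₂x² + 2b₄x + b₆` splits as `4(x − r₁)(x − r₂)(x − r₃)` over `ℚ̄`, and a point `Q` of odd
prime order `p`, with `Π_i = ∏_{0<k<p} (x(k • Q) − r_i)`:

`(r₂ − r₁)^p Π₃² + (r₃ − r₂)^p Π₁² + (r₁ − r₃)^p Π₂² = 0`.

Seam in the style of `Top89.velu_pair_modular`: embedding `ℚ̄ → ℂ`, short Weierstrass form,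
uniformisation, and `ThreeC23.three_term`.
-/
import Fermat.Agent.S12P.ThreeC23
import Fermat.Agent.S15P.M1.UnifSeam75
import Fermat.Agent.S15P.M1.UnifSeam21
import Fermat.Agent.S15P.M1.TauSeam36

set_option autoImplicit false

namespace Fermat.Agent.S12P.ThreeQ23

open WeierstrassCurve WeierstrassCurve.Affine PeriodPair
open Fermat.Agent.S15P.M2 Fermat.Agent.S05.Transfer Fermat.Agent.S15P.M1
open Fermat.Agent.S15P.M1.Ell4 Fermat.Agent.S15P.M1.Isog4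

/-- `∏_{0<k<p} (x(k • Q) − e)`. -/
noncomputable def piE {F : Type*} [Field F] [DecidableEq F] {W : Affine F} (p : ℕ) (e : F)
    (Q : W.Point) : F :=
  ∏ k ∈ Finset.Ico 1 p, (ptX (k • Q) - e)

theorem piE_map (W : WeierstrassCurve ℚ) (φ : AlgebraicClosure ℚ →ₐ[ℚ] ℂ) (p : ℕ)
    (e : AlgebraicClosure ℚ) (Q : (W⁄(AlgebraicClosure ℚ)).Point) :
    φ (piE p e Q) = piE p (φ e) (Point.map φ Q) := by
  unfold piE
  rw [map_prod]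
  apply Finset.prod_congr rfl
  intro k _
  rw [map_sub, ← map_nsmul (Point.map φ) k Q, Top89.ptX_map]

theorem ptX_vc {F : Type*} [Field F] [DecidableEq F] {W₁ W₂ : WeierstrassCurve F}
    (C : VariableChange F) (h : C • W₂ = W₁) (hu : C.u = 1) {P : W₁.toAffine.Point}
    (hP : P ≠ 0) : ptX (vcEquiv C h P) = ptX P + C.r := by
  subst h
  rcases P with _ | ⟨x, y, hxy⟩
  · exact absurd rfl hP
  · rw [vcEquiv_some]
    simp only [ptX_some, vcX, hu, Units.val_one, one_pow, one_mul]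

theorem piE_vc {F : Type*} [Field F] [DecidableEq F] {W₁ W₂ : WeierstrassCurve F}
    (C : VariableChange F) (h : C • W₂ = W₁) (hu : C.u = 1) {p : ℕ} {P : W₁.toAffine.Point}
    (hP : addOrderOf P = p) (e : F) : piE p e (vcEquiv C h P) = piE p (e - C.r) P := by
  unfold piE
  apply Finset.prod_congr rfl
  intro k hk
  rw [← map_nsmul (vcEquiv C h) k P, ptX_vc C h hu (Top89.nsmul_ne_zero_of_order hP hk)]
  ring

/-- three distinct roots of the cubic of a lattice are the values of `℘` at a triple of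
half-periods, in that order. -/
theorem exists_triple {L : PeriodPair} {h₁ h₂ h₃ : ℂ} (T : IsTriple L h₁ h₂ h₃) {e₁ e₂ e₃ : ℂ}
    (h12 : e₁ ≠ e₂) (h13 : e₁ ≠ e₃) (h23 : e₂ ≠ e₃)
    (m₁ : e₁ = ℘[L] h₁ ∨ e₁ = ℘[L] h₂ ∨ e₁ = ℘[L] h₃)
    (m₂ : e₂ = ℘[L] h₁ ∨ e₂ = ℘[L] h₂ ∨ e₂ = ℘[L] h₃)
    (m₃ : e₃ = ℘[L] h₁ ∨ e₃ = ℘[L] h₂ ∨ e₃ = ℘[L] h₃) :
    ∃ k₁ k₂ k₃ : ℂ, IsTriple L k₁ k₂ k₃ ∧ ℘[L] k₁ = e₁ ∧ ℘[L] k₂ = e₂ ∧ ℘[L] k₃ = e₃ := by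
  rcases m₁ with rfl | rfl | rfl <;> rcases m₂ with rfl | rfl | rfl <;>
    rcases m₃ with rfl | rfl | rfl
  all_goals first
    | exact absurd rfl h12
    | exact absurd rfl h13
    | exact absurd rfl h23
    | exact ⟨_, _, _, T, rfl, rfl, rfl⟩
    | exact ⟨_, _, _, T.rot, rfl, rfl, rfl⟩
    | exact ⟨_, _, _, T.rot.rot, rfl, rfl, rfl⟩
    | exact ⟨_, _, _, T.swap, rfl, rfl, rfl⟩
    | exact ⟨_, _, _, T.swap.rot, rfl, rfl, rfl⟩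
    | exact ⟨_, _, _, T.swap.rot.rot, rfl, rfl, rfl⟩

theorem root_mem {L : PeriodPair} {h₁ h₂ h₃ : ℂ} (T : IsTriple L h₁ h₂ h₃) {e : ℂ}
    (he : 4 * e ^ 3 - L.g₂ * e - L.g₃ = 0) :
    e = ℘[L] h₁ ∨ e = ℘[L] h₂ ∨ e = ℘[L] h₃ := by
  rw [T.cubic_factor] at he
  have hprod : (e - ℘[L] h₁) * (e - ℘[L] h₂) * (e - ℘[L] h₃) = 0 := by
    linear_combination (1 / 4 : ℂ) * he
  rcases mul_eq_zero.mp hprod with h12 | h3
  · rcases mul_eq_zero.mp h12 with h1 | h2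
    · exact Or.inl (sub_eq_zero.mp h1)
    · exact Or.inr (Or.inl (sub_eq_zero.mp h2))
  · exact Or.inr (Or.inr (sub_eq_zero.mp h3))

/-- **Three-term identity over `ℚ̄`.** -/
theorem three_term (W : WeierstrassCurve ℚ) (hΔ : W.Δ ≠ 0) {p : ℕ} (hp : p.Prime) (hp2 : p ≠ 2)
    (Q : (W⁄(AlgebraicClosure ℚ)).Point) (hQ : addOrderOf Q = p)
    (r₁ r₂ r₃ : AlgebraicClosure ℚ)
    (hb₂ : ((W.b₂ : ℚ) : AlgebraicClosure ℚ) = -4 * (r₁ + r₂ + r₃))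
    (hb₄ : ((W.b₄ : ℚ) : AlgebraicClosure ℚ) = 2 * (r₁ * r₂ + r₁ * r₃ + r₂ * r₃))
    (hb₆ : ((W.b₆ : ℚ) : AlgebraicClosure ℚ) = -4 * (r₁ * r₂ * r₃)) :
    (r₂ - r₁) ^ p * piE p r₃ Q ^ 2 + (r₃ - r₂) ^ p * piE p r₁ Q ^ 2
      + (r₁ - r₃) ^ p * piE p r₂ Q ^ 2 = 0 := by
  have hodd : Odd p := hp.odd_of_ne_two hp2
  let φ : AlgebraicClosure ℚ →ₐ[ℚ] ℂ := complexEmbedding
  have hinj : Function.Injective (φ : AlgebraicClosure ℚ → ℂ) := φ.toRingHom.injective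
  apply hinj
  rw [map_zero]
  simp only [map_add, map_mul, map_pow, map_sub]
  rw [piE_map W φ, piE_map W φ, piE_map W φ]
  have hQc : addOrderOf (Point.map φ Q) = p := by
    rw [addOrderOf_injective _ (Point.map_injective φ), hQ]
  -- the coefficients over `ℂ`
  have hb₂c : (W.map (algebraMap ℚ ℂ)).b₂ = -4 * (φ r₁ + φ r₂ + φ r₃) := by
    have h := congrArg φ hb₂
    simp only [map_mul, map_add, map_neg, map_ofNat, map_ratCast] at h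
    rw [map_b₂, ← h]
    exact eq_ratCast _ _
  have hb₄c : (W.map (algebraMap ℚ ℂ)).b₄ = 2 * (φ r₁ * φ r₂ + φ r₁ * φ r₃ + φ r₂ * φ r₃) := by
    have h := congrArg φ hb₄
    simp only [map_mul, map_add, map_ofNat, map_ratCast] at h
    rw [map_b₄, ← h]
    exact eq_ratCast _ _
  have hb₆c : (W.map (algebraMap ℚ ℂ)).b₆ = -4 * (φ r₁ * φ r₂ * φ r₃) := by
    have h := congrArg φ hb₆
    simp only [map_mul, map_neg, map_ofNat, map_ratCast] at h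
    rw [map_b₆, ← h]
    exact eq_ratCast _ _
  have hΔ' : (W.map (algebraMap ℚ ℂ)).Δ = ((W.Δ : ℚ) : ℂ) := by
    rw [map_Δ]
    exact eq_ratCast _ _
  have hΔc : (W.map (algebraMap ℚ ℂ)).Δ ≠ 0 := by
    rw [hΔ']
    exact_mod_cast hΔ
  have hrel : (W.map (algebraMap ℚ ℂ)).Δ =
      ((W.map (algebraMap ℚ ℂ)).c₄ / 12) ^ 3 - 27 * ((W.map (algebraMap ℚ ℂ)).c₆ / 216) ^ 2 := by
    have h := (W.map (algebraMap ℚ ℂ)).c_relation
    linear_combination (1 / 1728 : ℂ) * h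
  generalize hWc : W.map (algebraMap ℚ ℂ) = Wc at hb₂c hb₄c hb₆c hΔ' hΔc hrel
  generalize φ r₁ = ρ₁ at *
  generalize φ r₂ = ρ₂ at *
  generalize φ r₃ = ρ₃ at *
  -- the lattice
  obtain ⟨L, hL2, hL3⟩ := UnifSeam21.hC1 (Wc.c₄ / 12) (Wc.c₆ / 216) (by rw [← hrel]; exact hΔc)
  have hΔL : L.g₂ ^ 3 - 27 * L.g₃ ^ 2 ≠ 0 := by
    rw [hL2, hL3, ← hrel]
    exact hΔc
  have hc₄ : Wc.c₄ = Wc.b₂ ^ 2 - 24 * Wc.b₄ := rfl
  have hc₆ : Wc.c₆ = -Wc.b₂ ^ 3 + 36 * Wc.b₂ * Wc.b₄ - 216 * Wc.b₆ := rfl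
  -- short form
  have hsm : Top89.shortVC Wc • Wc = ⟨0, 0, 0, -L.g₂ / 4, -L.g₃ / 4⟩ := by
    rw [Top89.shortVC_smul, hL2, hL3]
  have hu : (Top89.shortVC Wc).u = 1 := rfl
  have hr : (Top89.shortVC Wc).r = -Wc.b₂ / 12 := rfl
  have hQc' : ∃ Q' : (⟨0, 0, 0, -L.g₂ / 4, -L.g₃ / 4⟩ : WeierstrassCurve ℂ).toAffine.Point,
      addOrderOf Q' = p ∧ ∀ e : ℂ, piE p e (Point.map φ Q) = piE p (e + Wc.b₂ / 12) Q' := by
    subst hWc
    obtain ⟨Q', hQ'⟩ :=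
      (vcEquiv (Top89.shortVC (W.map (algebraMap ℚ ℂ))) hsm).surjective (Point.map φ Q)
    have hQ'ord : addOrderOf Q' = p := by
      rw [← hQc, ← hQ']
      exact (addOrderOf_injective
        (vcEquiv (Top89.shortVC (W.map (algebraMap ℚ ℂ))) hsm).toAddMonoidHom
        (vcEquiv (Top89.shortVC (W.map (algebraMap ℚ ℂ))) hsm).injective Q').symm
    refine ⟨Q', hQ'ord, fun e => ?_⟩
    rw [← hQ']
    refine (piE_vc _ hsm hu hQ'ord e).trans ?_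
    rw [hr]
    congr 1
    ring
  obtain ⟨Q', hQ'ord, hpi⟩ := hQc'
  rw [hpi, hpi, hpi]
  -- uniformisation
  obtain ⟨f, hfs, hfk, hfxy⟩ := UnifSeam75.hW4 L hΔL
  obtain ⟨z₀, hz₀⟩ := hfs Q'
  have hz₀n : z₀ ∉ L.lattice := by
    intro hz
    have h0 : Q' = 0 := by
      rw [← hz₀]
      exact (hfk z₀).mpr hz
    rw [h0, addOrderOf_zero] at hQ'ord
    exact hp.one_lt.ne hQ'ord
  have hpz : (p : ℂ) * z₀ ∈ L.lattice := by
    rw [← hfk, ← nsmul_eq_mul, map_nsmul, hz₀, ← hQ'ord]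
    exact addOrderOf_nsmul_eq_zero Q'
  obtain ⟨L', τ, hS, -, -⟩ := TauSeam36.hT1 L p hp z₀ hz₀n hpz
  have S : IsSuper L L' p z₀ := ⟨hS.1, hS.2⟩
  have hpiC : ∀ e : ℂ, piE p e Q' = ThreeC23.piC L p z₀ e := by
    intro e
    unfold piE ThreeC23.piC
    apply Finset.prod_congr rfl
    intro k hk
    have hkn : (k : ℂ) * z₀ ∉ L.lattice := S.nat_mul_notMem hk
    have hkQ : k • Q' = f ((k : ℂ) * z₀) := by
      rw [← nsmul_eq_mul, map_nsmul, hz₀]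
    rw [hkQ, (hfxy _ hkn).1]
  rw [hpiC, hpiC, hpiC]
  -- the three roots
  have T := isTriple_std L
  have root : ∀ ρ : ℂ, (ρ - ρ₁) * (ρ - ρ₂) * (ρ - ρ₃) = 0 →
      4 * (ρ + Wc.b₂ / 12) ^ 3 - L.g₂ * (ρ + Wc.b₂ / 12) - L.g₃ = 0 := by
    intro ρ h0
    rw [hL2, hL3, hc₄, hc₆, hb₂c, hb₄c, hb₆c]
    linear_combination 4 * h0
  have hdisc : L.g₂ ^ 3 - 27 * L.g₃ ^ 2 = 16 * ((ρ₁ - ρ₂) * (ρ₁ - ρ₃) * (ρ₂ - ρ₃)) ^ 2 := by
    rw [hL2, hL3, hc₄, hc₆, hb₂c, hb₄c, hb₆c]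
    ring
  have h12 : ρ₁ + Wc.b₂ / 12 ≠ ρ₂ + Wc.b₂ / 12 := by
    intro h
    apply hΔL
    rw [hdisc, show ρ₁ = ρ₂ from add_right_cancel h]
    ring
  have h13 : ρ₁ + Wc.b₂ / 12 ≠ ρ₃ + Wc.b₂ / 12 := by
    intro h
    apply hΔL
    rw [hdisc, show ρ₁ = ρ₃ from add_right_cancel h]
    ring
  have h23 : ρ₂ + Wc.b₂ / 12 ≠ ρ₃ + Wc.b₂ / 12 := by
    intro h
    apply hΔL
    rw [hdisc, show ρ₂ = ρ₃ from add_right_cancel h]
    ring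
  obtain ⟨k₁, k₂, k₃, T', hk₁, hk₂, hk₃⟩ := exists_triple T h12 h13 h23
    (root_mem T (root ρ₁ (by ring))) (root_mem T (root ρ₂ (by ring)))
    (root_mem T (root ρ₃ (by ring)))
  have key := ThreeC23.three_term S hodd T'
  rw [hk₁, hk₂, hk₃] at key
  linear_combination key

end Fermat.Agent.S12P.ThreeQ23
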