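/-
S12 cell (helper26): `Ifc48.TorsCard`, the size of the torsion of an integral model on its
`ℚ̄`-points, as a citation of main's `Lib.ECBiquad.card_torsionBy_int`.
-/
import Mathlib
import Fermat.Agent.S12P.Ifc48
import Fermat.Agent.Lib.ECBiquad.Main

set_option autoImplicit false

namespace Fermat.Agent.S12P.TorsCard26

open WeierstrassCurve Fermat.Agent.S58 Fermat.Agent.S12P.Ifc48

/-- **(TORS)** `#E[n] = n ^ 2`. -/
theorem torsCard : TorsCard := by
  intro W hΔ n hn
  rw [← Fermat.Agent.Lib.ECBiquad.card_torsionBy_int W hΔ (n := n) hn]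
  refine Nat.card_congr (Equiv.subtypeEquivRight (fun x => ?_))
  rw [Submodule.mem_torsionBy_iff, natCast_zsmul]

end Fermat.Agent.S12P.TorsCard26
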