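/-
S12 cell (helper46): the two counting bricks of helper48's seam (`S12P/Ifc48.lean`, as landed)
from the interface Prop `CardTor` of `S12P/Interfaces20.lean` (`#W[p ^ n] = p ^ (2 n)`):

* `torsDiv : CardTor → Ifc48.TorsDiv` (divisibility inside the torsion);
* `towerTransport : CardTor → Ifc48.TowerTransport` (a tower of canonical subgroups is transported
  by an equivariant homomorphism whose kernel is its first step: `G' m := φ (G (m + 1))`).

Pure group theory on top of `S12P/TorsSurj46.lean` (Mathlib only).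
-/
import Mathlib
import Fermat.Agent.S12P.Ifc48
import Fermat.Agent.S12P.Interfaces20
import Fermat.Agent.S12P.TorsSurj46

set_option autoImplicit false

namespace Fermat.Agent.S12P.TowerCard46

open WeierstrassCurve Fermat.Agent.S58 Fermat.Agent.S12P.Ifc48 Fermat.Agent.S12P.TorsSurj46

/-- **(DIV)** from the torsion count. -/
theorem torsDiv (hC : Fermat.Agent.S12P.CardTor) : TorsDiv := by
  intro W hΔ p hp n x hx
  obtain ⟨z, -, hz⟩ := exists_mul_pow_of_torsion hp (hC W hΔ p hp) 1 n x hx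
  exact ⟨z, by rwa [pow_one] at hz⟩

theorem tower_le {W : WeierstrassCurve ℤ} {p : ℕ} {A : ValuationSubring Qb}
    {G : ℕ → AddSubgroup (EPt W)} (hG : IsTower W p A G) (m : ℕ) : G 1 ≤ G (m + 1) := by
  induction m with
  | zero => exact le_rfl
  | succ m ih => exact ih.trans (hG.mono (m + 1))

/-- The first step of a tower is killed by `p`. -/
theorem tower_one_nsmul {W : WeierstrassCurve ℤ} {p : ℕ} {A : ValuationSubring Qb}
    {G : ℕ → AddSubgroup (EPt W)} (hG : IsTower W p A G) {x : EPt W} (hx : x ∈ G 1) :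
    p • x = 0 := by
  have h := card_nsmul_eq_zero' (G := G 1) (x := ⟨x, hx⟩)
  rw [hG.card 1, pow_one] at h
  exact congrArg Subtype.val h

/-- The image of a subgroup containing the kernel: `#φ(S) · #ker φ = #S`. -/
theorem card_map_mul_card_ker {M M' : Type*} [AddCommGroup M] [AddCommGroup M'] (φ : M →+ M')
    (S : AddSubgroup M) (hS : φ.ker ≤ S) : Nat.card (S.map φ) * Nat.card φ.ker = Nat.card S := by
  let g : S →+ M' := φ.comp S.subtype
  have hg : ∀ x : S, g x = φ (x : M) := fun x => rfl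
  have hgker : Nat.card g.ker = Nat.card φ.ker :=
    Nat.card_congr
      { toFun := fun x => ⟨(x.1 : M), by
          have := x.2
          rwa [AddMonoidHom.mem_ker, hg] at this⟩
        invFun := fun x => ⟨⟨x.1, hS x.2⟩, by
          rw [AddMonoidHom.mem_ker, hg]; exact x.2⟩
        left_inv := fun x => rfl
        right_inv := fun x => rfl }
  have hgrange : g.range = S.map φ := by
    ext y
    constructor
    · rintro ⟨x, rfl⟩
      exact ⟨x.1, x.2, rfl⟩
    · rintro ⟨x, hx, rfl⟩
      exact ⟨⟨x, hx⟩, rfl⟩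
  have h1 := card_range_mul_card_ker g
  rwa [hgker, hgrange] at h1

/-- **(TOWER-ISO)** from the torsion count. -/
theorem towerTransport (hC : Fermat.Agent.S12P.CardTor) : TowerTransport := by
  intro p hp W W' hΔ hΔ' φ hφ A G hG hker
  have hkp : ∀ x ∈ φ.ker, p • x = 0 := fun x hx => tower_one_nsmul hG (hker ▸ hx)
  have hkcard : Nat.card φ.ker = p ^ 1 := by
    rw [hker, hG.card 1]
  refine ⟨fun m => AddSubgroup.map_mono (hG.mono (m + 1)), fun m => ?_, fun m j x hx hxj => ?_,
    fun m σ hσ x hx => ?_, fun m τ hτ y hy => ?_⟩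
  · -- card
    have h1 := card_map_mul_card_ker φ (G (m + 1)) (hker ▸ tower_le hG m)
    rw [hkcard, hG.card (m + 1), pow_one, pow_succ] at h1
    exact Nat.eq_of_mul_eq_mul_right hp.pos h1
  · -- tors
    obtain ⟨x₀, hx₀, rfl⟩ := hx
    refine ⟨x₀, hG.tors (m + 1) (j + 1) x₀ hx₀ ?_, rfl⟩
    have h2 : p ^ j • x₀ ∈ φ.ker := by
      rw [AddMonoidHom.mem_ker, map_nsmul]; exact hxj
    rw [pow_succ, mul_comm, mul_nsmul']
    exact hkp _ h2
  · -- stable
    obtain ⟨x₀, hx₀, rfl⟩ := hx
    exact ⟨σ • x₀, hG.stable (m + 1) σ hσ x₀ hx₀, hφ σ x₀⟩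
  · -- inert
    obtain ⟨y₀, hy₀, rfl⟩ :=
      exists_preimage_of_torsion_pow hp (hC W hΔ p hp) (hC W' hΔ' p hp) φ 1 hkcard m y hy
    refine ⟨τ • y₀ - y₀, hG.inert (m + 1) τ hτ y₀ hy₀, ?_⟩
    rw [map_sub, hφ]

end Fermat.Agent.S12P.TowerCard46
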