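import Mathlib
import Fermat.Agent.S05.Transfer
import Fermat.Agent.S15P.M2.Defs89
import Fermat.Agent.S15P.M1.Top89
import Fermat.Agent.S15P.M1.Tau36
import Fermat.Agent.S15P.M1.Unif21
import Fermat.Agent.S12P.Iso.IsogC21

/-!
# S12, brick (STEP)/(ALG), part (a): the Vélu isogeny over `ℂ` for a general Weierstrass model

For a Weierstrass curve `W` over `ℂ` with `Δ ≠ 0` and a point `T` of exact odd order `n`, the
Vélu curve `W' = ⟨a₁, a₂, a₃, a₄ - 5t, a₆ - b₂ t - 7w⟩` and a surjective group homomorphism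
`φ : W(ℂ) →+ W'(ℂ)` with kernel `⟨T⟩` given by Vélu's translation sums.

Assembly of main's analytic bricks: uniformisation (`Unif21`, `Unif75`), the superlattice
(`Tau36`, `Isog4`, `IsogPt4`), the complex isogeny in short form (`Iso/IsogC21.exists_isog`), and the
short-form variable change (`Top89.shortVC`, `S05.Transfer.vcEquiv`), which is THE SAME for `W`
and `W'`.
-/

set_option autoImplicit false

namespace Fermat.Agent.S12P.VeluCx4

open WeierstrassCurve WeierstrassCurve.Affine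
open scoped PeriodPair
open Fermat.Agent.S15P.M2 Fermat.Agent.S05.Transfer Fermat.Agent.S15P.M1.Top89
open Fermat.Agent.S15P.M1.Isog4 Fermat.Agent.S15P.M1.Wp75 Fermat.Agent.S15P.M1.Ell4
open Fermat.Agent.S12P.Iso.IsogC21

/-! ### Coordinates under a variable change with `u = 1` -/

section VC

variable {F : Type*} [Field F] [DecidableEq F] {W₁ W₂ : WeierstrassCurve F}
  (C : VariableChange F) (h : C • W₂ = W₁)

theorem ptX_vc (hu : C.u = 1) {P : W₁.toAffine.Point} (hP : P ≠ 0) :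
    ptX (vcEquiv C h P) = ptX P + C.r := by
  subst h
  rcases P with _ | ⟨x, y, hxy⟩
  · exact absurd rfl hP
  · rw [vcEquiv_some]
    simp only [ptX_some, vcX, hu, Units.val_one]
    ring

theorem ptY_vc (hu : C.u = 1) {P : W₁.toAffine.Point} (hP : P ≠ 0) :
    ptY (vcEquiv C h P) = ptY P + C.s * ptX P + C.t := by
  subst h
  rcases P with _ | ⟨x, y, hxy⟩
  · exact absurd rfl hP
  · rw [vcEquiv_some]
    simp only [ptX_some, ptY_some, vcY, hu, Units.val_one]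
    ring

end VC

/-! ### The short curve: `y` is odd -/

section Short

theorem ptY_neg_curve (g₂ g₃ : ℂ) (P : (curve g₂ g₃).toAffine.Point) : ptY (-P) = -ptY P := by
  rcases P with _ | ⟨x, y, hxy⟩
  · change ptY (0 : (curve g₂ g₃).toAffine.Point) = -ptY (0 : (curve g₂ g₃).toAffine.Point)
    simp [ptY]
  · rw [Point.neg_some]
    simp [Affine.negY]

/-- `∑_{0<k<n} y(k • T) = 0` on a short curve, for `n • T = 0`. -/
theorem sum_ptY_curve (g₂ g₃ : ℂ) (T : (curve g₂ g₃).toAffine.Point) {n : ℕ} (hT : n • T = 0) :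
    ∑ k ∈ Finset.Ico 1 n, ptY (k • T) = 0 := by
  have hrefl : ∑ k ∈ Finset.Ico 1 n, ptY ((n - k) • T) = ∑ k ∈ Finset.Ico 1 n, ptY (k • T) := by
    have := Finset.sum_Ico_reflect (fun k => ptY (k • T)) 1 (Nat.le_succ n)
    simpa using this
  have hneg : ∑ k ∈ Finset.Ico 1 n, ptY ((n - k) • T) = -∑ k ∈ Finset.Ico 1 n, ptY (k • T) := by
    rw [← Finset.sum_neg_distrib]
    refine Finset.sum_congr rfl fun k hk => ?_
    have hk' := Finset.mem_Ico.mp hk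
    have h1 : (n - k) • T = -(k • T) := by
      rw [eq_neg_iff_add_eq_zero, ← add_nsmul, Nat.sub_add_cancel hk'.2.le, hT]
    rw [h1, ptY_neg_curve]
  have h2 : (2 : ℂ) * ∑ k ∈ Finset.Ico 1 n, ptY (k • T) = 0 := by
    linear_combination hneg - hrefl
  exact (mul_eq_zero.mp h2).resolve_left two_ne_zero

theorem tq_curve (g₂ g₃ : ℂ) (P : (curve g₂ g₃).toAffine.Point) :
    tq P = 6 * ptX P ^ 2 - g₂ / 2 := by
  simp only [tq, WeierstrassCurve.b₂, WeierstrassCurve.b₄, curve_a₁, curve_a₂, curve_a₃, curve_a₄]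
  ring

theorem psi2_curve (g₂ g₃ : ℂ) (P : (curve g₂ g₃).toAffine.Point) :
    psi2 P = 2 * ptY P := by
  simp only [psi2, curve_a₁, curve_a₃]
  ring

end Short

/-! ### The isogeny -/

/-- **Vélu over `ℂ`, general Weierstrass model, odd order `n`** — under the existence of the
superlattice `Λ + ℤ z₀` as a `PeriodPair` (for `n` prime: `Tau36.exists_tau_super`). -/
theorem exists_velu_complex_of_super (W : WeierstrassCurve ℂ) (hΔ : W.Δ ≠ 0) {n : ℕ} (hn : Odd n)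
    (hS : ∀ (L : PeriodPair) (z₀ : ℂ), (∀ k : ℕ, (k : ℂ) * z₀ ∈ L.lattice ↔ n ∣ k) →
      ∃ L' : PeriodPair, ∀ w, w ∈ L'.lattice ↔ ∃ k : ℕ, w - k * z₀ ∈ L.lattice)
    (T : W.toAffine.Point) (hT : addOrderOf T = n) (t w : ℂ)
    (ht : t = (∑ k ∈ Finset.Ico 1 n, tq (k • T)) / 2)
    (hw : w = (∑ k ∈ Finset.Ico 1 n, (psi2 (k • T) ^ 2 + ptX (k • T) * tq (k • T))) / 2)
    (W' : WeierstrassCurve ℂ)
    (hW' : W' = ⟨W.a₁, W.a₂, W.a₃, W.a₄ - 5 * t, W.a₆ - W.b₂ * t - 7 * w⟩) :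
    W'.Δ ≠ 0 ∧ W'.c₄ = veluC4 n T ∧ W'.Δ * veluPsi n T ^ 4 = W.Δ ^ n ∧
    ∃ φ : W.toAffine.Point →+ W'.toAffine.Point, Function.Surjective φ ∧
      (∀ P, φ P = 0 ↔ P ∈ AddSubgroup.zmultiples T) ∧
      ∀ P, P ∉ AddSubgroup.zmultiples T →
        ptX (φ P) = ptX P + ∑ k ∈ Finset.Ico 1 n, (ptX (P + k • T) - ptX (k • T)) ∧
        ptY (φ P) = ptY P + ∑ k ∈ Finset.Ico 1 n, (ptY (P + k • T) - ptY (k • T)) := by
  -- the lattice of `W`
  have hrel : W.Δ = (W.c₄ / 12) ^ 3 - 27 * (W.c₆ / 216) ^ 2 := by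
    have h := W.c_relation
    linear_combination (1 / 1728 : ℂ) * h
  obtain ⟨L, hL2, hL3⟩ := Fermat.Agent.S15P.M1.Unif21.exists_periodPair (W.c₄ / 12) (W.c₆ / 216)
    (by rw [← hrel]; exact hΔ)
  have hΔL : L.g₂ ^ 3 - 27 * L.g₃ ^ 2 ≠ 0 := disc_ne_zero L
  have hΔLeq : L.g₂ ^ 3 - 27 * L.g₃ ^ 2 = W.Δ := by rw [hL2, hL3, ← hrel]
  -- short form of `W`
  have hsm : shortVC W • W = curve L.g₂ L.g₃ := by
    rw [shortVC_smul, hL2, hL3]
    rfl
  have hu : (shortVC W).u = 1 := rfl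
  obtain ⟨Ts, hTs⟩ := (vcEquiv (shortVC W) hsm).surjective T
  have hTsord : addOrderOf Ts = n := by
    rw [← hT, ← hTs]
    exact ((vcEquiv (shortVC W) hsm).addOrderOf_eq Ts).symm
  -- the point `z₀`
  obtain ⟨z₀, hz₀⟩ := toPoint_surjective L hΔL Ts
  have horder : ∀ k : ℕ, (k : ℂ) * z₀ ∈ L.lattice ↔ n ∣ k := by
    intro k
    rw [← toPoint_eq_zero_iff L hΔL, ← nsmul_toPoint hΔL k z₀, hz₀, ← hTsord,
      addOrderOf_dvd_iff_nsmul_eq_zero]
  obtain ⟨L', hmem⟩ := hS L z₀ horder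
  have S : IsSuper L L' n z₀ := ⟨horder, hmem⟩
  have hΔL' : L'.g₂ ^ 3 - 27 * L'.g₃ ^ 2 ≠ 0 := disc_ne_zero L'
  -- multiples of `Ts` in analytic terms
  have hkTs : ∀ k ∈ Finset.Ico 1 n, k • Ts ≠ 0 := fun k hk => nsmul_ne_zero_of_order hTsord hk
  have hkT : ∀ k : ℕ, vcEquiv (shortVC W) hsm (k • Ts) = k • T := by
    intro k
    rw [map_nsmul, hTs]
  have hkz : ∀ k : ℕ, k • Ts = toPoint L hΔL ((k : ℂ) * z₀) := by
    intro k
    rw [← hz₀, nsmul_toPoint]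
  have hX : ∀ k ∈ Finset.Ico 1 n, ptX (k • Ts) = ℘[L] ((k : ℂ) * z₀) := fun k hk => by
    rw [hkz k, ptX_toPoint hΔL (S.nat_mul_notMem hk)]
  have hY : ∀ k ∈ Finset.Ico 1 n, ptY (k • Ts) = ℘'[L] ((k : ℂ) * z₀) / 2 := fun k hk => by
    rw [hkz k, ptY_toPoint hΔL (S.nat_mul_notMem hk)]
  have htq : ∀ k ∈ Finset.Ico 1 n, tq (k • T) = 6 * ℘[L] ((k : ℂ) * z₀) ^ 2 - L.g₂ / 2 :=
    fun k hk => by
      rw [← hkT k, tq_vc (shortVC W) hsm hu (hkTs k hk), tq_curve, hX k hk]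
  have hpsi : ∀ k ∈ Finset.Ico 1 n, psi2 (k • T) = ℘'[L] ((k : ℂ) * z₀) := fun k hk => by
    rw [← hkT k, psi2_vc (shortVC W) hsm hu (hkTs k hk), psi2_curve, hY k hk]
    ring
  have hptX : ∀ k ∈ Finset.Ico 1 n, ptX (k • T) = ℘[L] ((k : ℂ) * z₀) - W.b₂ / 12 :=
    fun k hk => by
      rw [← hkT k, ptX_vc (shortVC W) hsm hu (hkTs k hk), hX k hk]
      simp only [shortVC]
      ring
  -- the invariants of `W'`
  have ht2 : 2 * t = ∑ k ∈ Finset.Ico 1 n, (6 * ℘[L] ((k : ℂ) * z₀) ^ 2 - L.g₂ / 2) := by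
    rw [ht, ← Finset.sum_congr rfl htq]
    ring
  have hw2 : 2 * w = ∑ k ∈ Finset.Ico 1 n,
      (℘'[L] ((k : ℂ) * z₀) ^ 2 + (℘[L] ((k : ℂ) * z₀) - W.b₂ / 12)
        * (6 * ℘[L] ((k : ℂ) * z₀) ^ 2 - L.g₂ / 2)) := by
    have : ∑ k ∈ Finset.Ico 1 n, (psi2 (k • T) ^ 2 + ptX (k • T) * tq (k • T))
        = ∑ k ∈ Finset.Ico 1 n,
          (℘'[L] ((k : ℂ) * z₀) ^ 2 + (℘[L] ((k : ℂ) * z₀) - W.b₂ / 12)
            * (6 * ℘[L] ((k : ℂ) * z₀) ^ 2 - L.g₂ / 2)) :=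
      Finset.sum_congr rfl fun k hk => by rw [hpsi k hk, hptX k hk, htq k hk]
    rw [hw, this]
    ring
  have hc4' : W'.c₄ = W.c₄ + 240 * t := by
    rw [hW']
    simp only [WeierstrassCurve.c₄, WeierstrassCurve.b₂, WeierstrassCurve.b₄]
    ring
  have hc6' : W'.c₆ = W.c₆ + 504 * W.b₂ * t + 6048 * w := by
    rw [hW']
    simp only [WeierstrassCurve.c₆, WeierstrassCurve.b₂, WeierstrassCurve.b₄,
      WeierstrassCurve.b₆]
    ring
  have hg2' : W'.c₄ / 12 = L'.g₂ := by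
    rw [hc4', g₂_super L L' n z₀ hn.pos S, ← ht2, hL2]
    ring
  have hg3' : W'.c₆ / 216 = L'.g₃ := by
    have hsum : (216 : ℂ) * ∑ k ∈ Finset.Ico 1 n,
        (140 * ℘[L] ((k : ℂ) * z₀) ^ 3 - 21 * L.g₂ * ℘[L] ((k : ℂ) * z₀) - 14 * L.g₃)
        = 252 * W.b₂ * (2 * t) + 3024 * (2 * w) := by
      rw [ht2, hw2, Finset.mul_sum, Finset.mul_sum, Finset.mul_sum, ← Finset.sum_add_distrib]
      refine Finset.sum_congr rfl fun k hk => ?_
      have hsq := L.derivWeierstrassP_sq ((k : ℂ) * z₀) (S.nat_mul_notMem hk)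
      linear_combination (-3024 : ℂ) * hsq
    rw [hc6', Fermat.Agent.S12P.IsogPt4.g₃_super L L' n z₀ hn.pos S]
    linear_combination (-1 / 216 : ℂ) * hsum - hL3
  have hΔ'eq : W'.Δ = L'.g₂ ^ 3 - 27 * L'.g₃ ^ 2 := by
    have h := W'.c_relation
    rw [← hg2', ← hg3']
    linear_combination (1 / 1728 : ℂ) * h
  -- short form of `W'`: the same variable change
  have hsm' : shortVC W • W' = curve L'.g₂ L'.g₃ := by
    have h1 : shortVC W = shortVC W' := by rw [hW']; rfl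
    rw [h1, shortVC_smul, hg2', hg3']
    rfl
  -- the isogeny in short form
  obtain ⟨φs, -, hsurj, hker, hxy⟩ := exists_isog S hn.pos hΔL hΔL'
  rw [hz₀] at hker hxy
  refine ⟨by rw [hΔ'eq]; exact hΔL', ?_, ?_, ?_⟩
  · rw [hc4']
    unfold veluC4
    rw [ht]
    ring
  · rw [hΔ'eq, ← hΔLeq]
    have hprod : veluPsi n T = ∏ k ∈ Finset.Ico 1 n, ℘'[L] ((k : ℂ) * z₀) := by
      unfold veluPsi
      exact Finset.prod_congr rfl hpsi
    rw [hprod]
    exact disc_super L L' n z₀ hn S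
  · -- the map
    refine ⟨((vcEquiv (shortVC W) hsm').toAddMonoidHom.comp φs).comp
      (vcEquiv (shortVC W) hsm).symm.toAddMonoidHom, ?_, ?_, ?_⟩
    · exact ((vcEquiv (shortVC W) hsm').surjective.comp hsurj).comp
        (vcEquiv (shortVC W) hsm).symm.surjective
    · intro P
      have hφ : ((vcEquiv (shortVC W) hsm').toAddMonoidHom.comp φs).comp
          (vcEquiv (shortVC W) hsm).symm.toAddMonoidHom P
          = vcEquiv (shortVC W) hsm' (φs ((vcEquiv (shortVC W) hsm).symm P)) := rfl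
      rw [hφ, AddEquiv.map_eq_zero_iff, hker, AddSubgroup.mem_zmultiples_iff,
        AddSubgroup.mem_zmultiples_iff]
      constructor
      · rintro ⟨m, hm⟩
        refine ⟨m, ?_⟩
        rw [← hTs, ← map_zsmul, hm, AddEquiv.apply_symm_apply]
      · rintro ⟨m, hm⟩
        refine ⟨m, ?_⟩
        rw [← hm, ← hTs, ← map_zsmul, AddEquiv.symm_apply_apply]
    · intro P hP
      obtain ⟨Ps, rfl⟩ := (vcEquiv (shortVC W) hsm).surjective P
      have hPs : Ps ∉ AddSubgroup.zmultiples Ts := by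
        intro hmem
        apply hP
        obtain ⟨m, hm⟩ := AddSubgroup.mem_zmultiples_iff.mp hmem
        exact AddSubgroup.mem_zmultiples_iff.mpr ⟨m, by rw [← hm, map_zsmul, hTs]⟩
      have hPs0 : Ps ≠ 0 := fun h0 => hPs (h0 ▸ AddSubgroup.zero_mem _)
      have hφ : ((vcEquiv (shortVC W) hsm').toAddMonoidHom.comp φs).comp
          (vcEquiv (shortVC W) hsm).symm.toAddMonoidHom (vcEquiv (shortVC W) hsm Ps)
          = vcEquiv (shortVC W) hsm' (φs Ps) := by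
        show vcEquiv (shortVC W) hsm' (φs ((vcEquiv (shortVC W) hsm).symm
          (vcEquiv (shortVC W) hsm Ps))) = _
        rw [AddEquiv.symm_apply_apply]
      have hφ0 : φs Ps ≠ 0 := fun h0 => hPs ((hker Ps).mp h0)
      have hadd0 : ∀ k : ℕ, Ps + k • Ts ≠ 0 := by
        intro k h0
        apply hPs
        have : Ps = -(k • Ts) := eq_neg_of_add_eq_zero_left h0
        rw [this]
        exact AddSubgroup.neg_mem _ (AddSubgroup.nsmul_mem_zmultiples Ts k)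
      have haddT : ∀ k : ℕ, vcEquiv (shortVC W) hsm Ps + k • T
          = vcEquiv (shortVC W) hsm (Ps + k • Ts) := by
        intro k
        rw [map_add, hkT]
      obtain ⟨hx, hy⟩ := hxy Ps hPs
      have hzero : ∑ k ∈ Finset.Ico 1 n, ptY (k • Ts) = 0 :=
        sum_ptY_curve L.g₂ L.g₃ Ts (n := n) (by rw [← hTsord]; exact addOrderOf_nsmul_eq_zero Ts)
      have hxterm : ∀ k ∈ Finset.Ico 1 n,
          ptX (vcEquiv (shortVC W) hsm Ps + k • T) - ptX (k • T)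
            = ptX (Ps + k • Ts) - ptX (k • Ts) := by
        intro k hk
        rw [haddT k, ptX_vc (shortVC W) hsm hu (hadd0 k), ← hkT k,
          ptX_vc (shortVC W) hsm hu (hkTs k hk)]
        ring
      have hyterm : ∀ k ∈ Finset.Ico 1 n,
          ptY (vcEquiv (shortVC W) hsm Ps + k • T) - ptY (k • T)
            = ptY (Ps + k • Ts) + (shortVC W).s * (ptX (Ps + k • Ts) - ptX (k • Ts))
              - ptY (k • Ts) := by
        intro k hk
        rw [haddT k, ptY_vc (shortVC W) hsm hu (hadd0 k), ← hkT k,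
          ptY_vc (shortVC W) hsm hu (hkTs k hk)]
        ring
      have hR : ∑ k ∈ Finset.Ico 1 n, (ptY (Ps + k • Ts)
            + (shortVC W).s * (ptX (Ps + k • Ts) - ptX (k • Ts)) - ptY (k • Ts))
          = ∑ k ∈ Finset.Ico 1 n, ptY (Ps + k • Ts)
            + (shortVC W).s * ∑ k ∈ Finset.Ico 1 n, (ptX (Ps + k • Ts) - ptX (k • Ts)) := by
        rw [Finset.sum_sub_distrib, Finset.sum_add_distrib, ← Finset.mul_sum, hzero, sub_zero]
      rw [hφ, ptX_vc (shortVC W) hsm' hu hφ0, ptY_vc (shortVC W) hsm' hu hφ0,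
        ptX_vc (shortVC W) hsm hu hPs0, ptY_vc (shortVC W) hsm hu hPs0,
        Finset.sum_congr rfl hxterm, Finset.sum_congr rfl hyterm, hx, hy, hR]
      exact ⟨by ring, by ring⟩

/-- **Vélu over `ℂ`, general Weierstrass model, odd prime order.** -/
theorem exists_velu_complex (W : WeierstrassCurve ℂ) (hΔ : W.Δ ≠ 0) {p : ℕ} (hp : p.Prime)
    (hp2 : p ≠ 2) (T : W.toAffine.Point) (hT : addOrderOf T = p) (t w : ℂ)
    (ht : t = (∑ k ∈ Finset.Ico 1 p, tq (k • T)) / 2)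
    (hw : w = (∑ k ∈ Finset.Ico 1 p, (psi2 (k • T) ^ 2 + ptX (k • T) * tq (k • T))) / 2)
    (W' : WeierstrassCurve ℂ)
    (hW' : W' = ⟨W.a₁, W.a₂, W.a₃, W.a₄ - 5 * t, W.a₆ - W.b₂ * t - 7 * w⟩) :
    W'.Δ ≠ 0 ∧ W'.c₄ = veluC4 p T ∧ W'.Δ * veluPsi p T ^ 4 = W.Δ ^ p ∧
    ∃ φ : W.toAffine.Point →+ W'.toAffine.Point, Function.Surjective φ ∧
      (∀ P, φ P = 0 ↔ P ∈ AddSubgroup.zmultiples T) ∧
      ∀ P, P ∉ AddSubgroup.zmultiples T →
        ptX (φ P) = ptX P + ∑ k ∈ Finset.Ico 1 p, (ptX (P + k • T) - ptX (k • T)) ∧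
        ptY (φ P) = ptY P + ∑ k ∈ Finset.Ico 1 p, (ptY (P + k • T) - ptY (k • T)) := by
  refine exists_velu_complex_of_super W hΔ (hp.odd_of_ne_two hp2) ?_ T hT t w ht hw W' hW'
  intro L z₀ horder
  have hz₀ : z₀ ∉ L.lattice := by
    have h1 := horder 1
    rw [Nat.cast_one, one_mul] at h1
    exact fun hmem => hp.one_lt.ne' (Nat.dvd_one.mp (h1.mp hmem))
  obtain ⟨L', -, -, hmem, -, -⟩ :=
    Fermat.Agent.S15P.M1.Tau36.exists_tau_super L p hp z₀ hz₀ ((horder p).mpr dvd_rfl)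
  exact ⟨L', hmem⟩

end Fermat.Agent.S12P.VeluCx4
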